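/-
CFT / HP (architect: helper14).  Block C: the finite level Hasse norm theorem for cyclic extensions
of odd prime degree.  Definitions.  NO completions, NO ideles: everything is expressed with an
integer `N` ("the bad primes are the primes dividing `N`").
-/
import Fermat.Agent.CFT.Ray.Interface
import Fermat.Agent.CFT.P0.Interface2
import Fermat.Agent.S14.LoInterface

set_option autoImplicit false

namespace Fermat.Agent.CFT.HP

open NumberField Fermat.Agent.S14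
open scoped Pointwise

section OneField

variable (F : Type) [Field F] [NumberField F]

/-- `x ≡ 1 mod× m` : `x = a / b` with `b` prime to `m` and `a ≡ b mod m`. -/
def congOne (m : ℕ) : Subgroup Fˣ where
  carrier := {x | ∃ a b : 𝓞 F, IsCoprime b (m : 𝓞 F) ∧ (m : 𝓞 F) ∣ a - b ∧
    (x : F) * (b : F) = (a : F)}
  one_mem' := ⟨1, 1, isCoprime_one_left, by simp, by simp⟩
  mul_mem' := by
    rintro x y ⟨a, b, hb, hab, hx⟩ ⟨a', b', hb', hab', hy⟩
    refine ⟨a * a', b * b', hb.mul_left hb', ?_, ?_⟩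
    · have : a * a' - b * b' = (a - b) * a' + b * (a' - b') := by ring
      rw [this]
      exact dvd_add (Dvd.dvd.mul_right hab _) (Dvd.dvd.mul_left hab' _)
    · push_cast
      linear_combination ((y : F) * (b' : F)) * hx + (a : F) * hy
  inv_mem' := by
    rintro x ⟨a, b, hb, ⟨c, hc⟩, hx⟩
    refine ⟨b, a, ?_, ⟨-c, by linear_combination -hc⟩, ?_⟩
    · have : a = b + (m : 𝓞 F) * c := by linear_combination hc
      rw [this]
      exact (IsCoprime.add_mul_left_left_iff).2 hb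
    · rw [← hx]
      simp

/-- The elements of `Fˣ` which are units at all primes dividing `N`. -/
def unitsAt (N : ℕ) : Subgroup Fˣ where
  carrier := {x | ∃ a b : 𝓞 F, IsCoprime a (N : 𝓞 F) ∧ IsCoprime b (N : 𝓞 F) ∧
    (x : F) * (b : F) = (a : F)}
  one_mem' := ⟨1, 1, isCoprime_one_left, isCoprime_one_left, by simp⟩
  mul_mem' := by
    rintro x y ⟨a, b, ha, hb, hx⟩ ⟨a', b', ha', hb', hy⟩
    refine ⟨a * a', b * b', ha.mul_left ha', hb.mul_left hb', ?_⟩
    push_cast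
    linear_combination ((y : F) * (b' : F)) * hx + (a : F) * hy
  inv_mem' := by
    rintro x ⟨a, b, ha, hb, hx⟩
    refine ⟨b, a, hb, ha, ?_⟩
    rw [← hx]
    simp

/-- The `N`-units `𝓞_F[1/N]ˣ` : `x = a / N^j` with `a ∈ 𝓞 F` dividing a power of `N`. -/
def unitsAway (N : ℕ) : Subgroup Fˣ where
  carrier := {x | ∃ (a : 𝓞 F) (i j : ℕ), a ∣ (N : 𝓞 F) ^ i ∧ (x : F) * (N : F) ^ j = (a : F)}
  one_mem' := ⟨1, 0, 0, by simp, by simp⟩
  mul_mem' := by
    rintro x y ⟨a, i, j, ha, hx⟩ ⟨a', i', j', ha', hy⟩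
    refine ⟨a * a', i + i', j + j', ?_, ?_⟩
    · rw [pow_add]; exact mul_dvd_mul ha ha'
    · push_cast
      rw [pow_add]
      linear_combination ((y : F) * (N : F) ^ j') * hx + (a : F) * hy
  inv_mem' := by
    rintro x ⟨a, i, j, ⟨a', ha'⟩, hx⟩
    refine ⟨(N : 𝓞 F) ^ j * a', j + i, i, ?_, ?_⟩
    · rw [pow_add]; exact mul_dvd_mul_left _ ⟨a, by rw [ha']; ring⟩
    · have h1 : ((N : F)) ^ i = (a : F) * (a' : F) := by
        have := congrArg (fun t : 𝓞 F => (t : F)) ha'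
        simpa using this
      push_cast
      rw [h1, ← hx]
      have hx0 : (x : F) ≠ 0 := x.ne_zero
      field_simp

/-- "`Cl(𝓞_F[1/N]) = 0`": every nonzero ideal becomes principal after multiplication by an ideal
dividing a power of `N`. -/
def ClAway (N : ℕ) : Prop :=
  ∀ I : Ideal (𝓞 F), I ≠ ⊥ → ∃ (α : 𝓞 F) (J : Ideal (𝓞 F)) (j : ℕ), α ≠ 0 ∧
    J ∣ Ideal.span {(N : 𝓞 F)} ^ j ∧ Ideal.span {α} = I * J

/-- `N^j 𝓞_(N)` : the elements `y` of `F` with `b y ∈ N^j 𝓞 F` for some integer `b ≠ 0` prime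
to `N`. -/
def intLoc (N j : ℕ) : AddSubgroup F where
  carrier := {y | ∃ (b : ℕ) (c : 𝓞 F), b ≠ 0 ∧ b.Coprime N ∧
    (b : F) * y = (N : F) ^ j * (c : F)}
  zero_mem' := ⟨1, 0, one_ne_zero, by simp, by simp⟩
  add_mem' := by
    rintro y y' ⟨b, c, hb0, hb, hy⟩ ⟨b', c', hb0', hb', hy'⟩
    refine ⟨b * b', (b' : 𝓞 F) * c + (b : 𝓞 F) * c', mul_ne_zero hb0 hb0',
      Nat.Coprime.mul_left hb hb', ?_⟩
    push_cast
    linear_combination (b' : F) * hy + (b : F) * hy'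
  neg_mem' := by
    rintro y ⟨b, c, hb0, hb, hy⟩
    refine ⟨b, -c, hb0, hb, ?_⟩
    push_cast
    linear_combination -hy

end OneField

section TwoFields

variable (K L : Type) [Field K] [NumberField K] [Field L] [NumberField L] [Algebra K L]

/-- The norm `Lˣ →* Kˣ`. -/
noncomputable def normU : Lˣ →* Kˣ := Units.map (Algebra.norm K : L →* K)

/-- The inclusion `Kˣ →* Lˣ`. -/
noncomputable def inclU : Kˣ →* Lˣ := Units.map (algebraMap K L : K →* L)

/-- `N_{L/K}(Lˣ)`. -/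
noncomputable def normSub : Subgroup Kˣ := (normU K L).range

/-- `N_{L/K}(𝓞_L[1/N]ˣ)`. -/
noncomputable def normAway (N : ℕ) : Subgroup Kˣ := (unitsAway L N).map (normU K L)

/-- `L/K` has trivial inertia groups at the primes not dividing `N`. -/
def UnramAway (N : ℕ) : Prop :=
  ∀ P : Ideal (𝓞 L), P.IsPrime → P ≠ ⊥ → (N : 𝓞 L) ∉ P → ∀ h : L ≃ₐ[K] L,
    (∀ x : 𝓞 L, h • x - x ∈ P) → h = 1

/-- The number of primes of `L` dividing `N` which are fixed by `σ`. -/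
noncomputable def nuFix (σ : L ≃ₐ[K] L) (N : ℕ) : ℕ :=
  Nat.card {P : Ideal (𝓞 L) // P.IsPrime ∧ (N : 𝓞 L) ∈ P ∧ σ • P = P}

/-- The lattice `Λ = ∑_τ 𝓞_K τ(θ)`. -/
def lam (θ : 𝓞 L) : Submodule (𝓞 K) (𝓞 L) :=
  Submodule.span (𝓞 K) (Set.range fun τ : L ≃ₐ[K] L => τ • θ)

/-- `N^j Λ_(N)` : the `y ∈ L` with `b y ∈ N^j Λ` for some integer `b ≠ 0` prime to `N`. -/
def lamLoc (θ : 𝓞 L) (N j : ℕ) : AddSubgroup L where
  carrier := {y | ∃ (b : ℕ) (l : 𝓞 L), b ≠ 0 ∧ b.Coprime N ∧ l ∈ lam K L θ ∧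
    (b : L) * y = (N : L) ^ j * (l : L)}
  zero_mem' := ⟨1, 0, one_ne_zero, by simp, Submodule.zero_mem _, by simp⟩
  add_mem' := by
    rintro y y' ⟨b, l, hb0, hb, hl, hy⟩ ⟨b', l', hb0', hb', hl', hy'⟩
    refine ⟨b * b', (b' : 𝓞 K) • l + (b : 𝓞 K) • l', mul_ne_zero hb0 hb0',
      Nat.Coprime.mul_left hb hb',
      Submodule.add_mem _ (Submodule.smul_mem _ _ hl) (Submodule.smul_mem _ _ hl'), ?_⟩
    have e1 : (((b' : 𝓞 K) • l : 𝓞 L) : L) = (b' : L) * (l : L) := by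
      rw [Algebra.smul_def]; simp
    have e2 : (((b : 𝓞 K) • l' : 𝓞 L) : L) = (b : L) * (l' : L) := by
      rw [Algebra.smul_def]; simp
    have e3 : (((b' : 𝓞 K) • l + (b : 𝓞 K) • l' : 𝓞 L) : L) =
        (b' : L) * (l : L) + (b : L) * (l' : L) := by
      rw [← e1, ← e2]; push_cast; rfl
    rw [e3]
    push_cast
    linear_combination (b' : L) * hy + (b : L) * hy'
  neg_mem' := by
    rintro y ⟨b, l, hb0, hb, hl, hy⟩
    refine ⟨b, -l, hb0, hb, Submodule.neg_mem _ hl, ?_⟩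
    push_cast
    linear_combination -hy

/-- `V_j = 1 + N^j Λ_(N)` (a subgroup of `Lˣ` for `j ≥ 1` when `N 𝓞_L ⊆ Λ`: `Stmt_VGroup`). -/
def Vsub (θ : 𝓞 L) (N j : ℕ) : Subgroup Lˣ :=
  Subgroup.closure {x : Lˣ | (x : L) - 1 ∈ lamLoc K L θ N j}

/-- A cyclic extension of odd prime degree of a totally complex number field, with a generator
of its Galois group. -/
structure CycData (p : ℕ) (σ : L ≃ₐ[K] L) : Prop where
  prime : p.Prime
  odd : p ≠ 2
  gal : IsGalois K L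
  deg : Module.finrank K L = p
  gen : ∀ τ : L ≃ₐ[K] L, τ ∈ Subgroup.zpowers σ
  cplx : IsTotallyComplex K

/-- `N > 1` is an integer with `N 𝓞_L ⊆ Λ_θ`. -/
structure LamData (θ : 𝓞 L) (N : ℕ) : Prop where
  pos : 1 < N
  lamN : ∀ x : 𝓞 L, (N : 𝓞 L) * x ∈ lam K L θ

/-- `N` is "sufficiently divisible" for `L/K`. -/
structure GoodN (N : ℕ) : Prop where
  pos : N ≠ 0
  lam : ∃ θ : 𝓞 L, LamData K L θ N
  clK : ClAway K N
  clL : ClAway L N
  unram : UnramAway K L N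

end TwoFields

/-- The permutation action on `X → ℤ`: `f ↦ f ∘ s⁻¹`. -/
def permAct {X : Type} (s : Equiv.Perm X) : (X → ℤ) →+ (X → ℤ) where
  toFun f := f ∘ s.symm
  map_zero' := rfl
  map_add' _ _ := rfl

end Fermat.Agent.CFT.HP
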