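/-
CFT / HP (architect: helper14).  Block C: the finite level Hasse norm theorem for cyclic extensions
of odd prime degree.  Statements only (`def Stmt_* : Prop`).  Every package proves
`theorem xxx (h : Stmt_a) ... : Stmt_b` in its own file `Fermat/Agent/CFT/HP/<Package>.lean`.
-/
import Fermat.Agent.CFT.HP.DefsC

set_option autoImplicit false

namespace Fermat.Agent.CFT.HP

open NumberField Fermat.Agent.S14 Fermat.Agent.CFT.P0 Fermat.Agent.CFT.Ray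
open scoped Pointwise

/-! ## C0 : elementary arithmetic in `𝓞 F` -/

/-- C0a. An element prime to `N` divides an integer prime to `N`. -/
def Stmt_CoprimeInt : Prop :=
  ∀ (F : Type) [Field F] [NumberField F] (N : ℕ) (y : 𝓞 F), IsCoprime y (N : 𝓞 F) →
    ∃ (μ : 𝓞 F) (c : ℕ), c.Coprime N ∧ y * μ = (c : 𝓞 F)

/-- C0b. Every nonzero ideal is (prime to `N`) * (divisor of a power of `N`). -/
def Stmt_SplitIdeal : Prop :=
  ∀ (F : Type) [Field F] [NumberField F] (N : ℕ), N ≠ 0 → ∀ I : Ideal (𝓞 F), I ≠ ⊥ →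
    ∃ (A B : Ideal (𝓞 F)) (j : ℕ), I = A * B ∧ IsCoprime A (Ideal.span {(N : 𝓞 F)}) ∧
      B ∣ Ideal.span {(N : 𝓞 F)} ^ j

/-! ## C2 : the semilocal first inequality -/

/-- C2-S0. Calculus of the lattices `N^j Λ_(N)` and `N^j 𝓞_(N)`. -/
def Stmt_LamBasic : Prop :=
  ∀ (K L : Type) [Field K] [NumberField K] [Field L] [NumberField L] [Algebra K L] [IsGalois K L]
    (θ : 𝓞 L) (N : ℕ), LamData K L θ N →
    LinearIndependent K (fun τ : L ≃ₐ[K] L => ((τ • θ : 𝓞 L) : L)) ∧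
    (∀ j, lamLoc K L θ N (j + 1) ≤ lamLoc K L θ N j) ∧
    (∀ j, intLoc L N (j + 1) ≤ lamLoc K L θ N j) ∧
    (∀ j, lamLoc K L θ N j ≤ intLoc L N j) ∧
    (∀ (i j : ℕ) (y y' : L), y ∈ intLoc L N i → y' ∈ intLoc L N j → y * y' ∈ intLoc L N (i + j)) ∧
    (∀ (j : ℕ) (τ : L ≃ₐ[K] L) (y : L), y ∈ lamLoc K L θ N j → τ y ∈ lamLoc K L θ N j) ∧
    (∀ (j : ℕ) (τ : L ≃ₐ[K] L) (y : L), y ∈ intLoc L N j → τ y ∈ intLoc L N j) ∧
    (∀ (j : ℕ) (k : K), algebraMap K L k ∈ intLoc L N j → k ∈ intLoc K N j) ∧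
    (∃ a : 𝓞 K, (N : K) = (a : K) * Algebra.trace K L (θ : L)) ∧
    (∀ (j : ℕ) (y : L), y ∈ lamLoc K L θ N j ↔ ∃ c : (L ≃ₐ[K] L) → K,
      (∀ τ, c τ ∈ intLoc K N j) ∧ y = ∑ τ : L ≃ₐ[K] L, algebraMap K L (c τ) * ((τ • θ : 𝓞 L) : L))

/-- C2-S1. `V_j = 1 + N^j Λ_(N)` is a group for `j ≥ 1`. -/
def Stmt_VGroup : Prop :=
  ∀ (K L : Type) [Field K] [NumberField K] [Field L] [NumberField L] [Algebra K L] [IsGalois K L]
    (θ : 𝓞 L) (N : ℕ), LamData K L θ N → ∀ j : ℕ, 1 ≤ j → ∀ x : Lˣ,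
    x ∈ Vsub K L θ N j ↔ (x : L) - 1 ∈ lamLoc K L θ N j

/-- C2-S2. The trace trick: `τ x / x ∈ V_{j+2}` for all `τ` implies `x ∈ Kˣ V_j`. -/
def Stmt_TraceTrick : Prop :=
  ∀ (K L : Type) [Field K] [NumberField K] [Field L] [NumberField L] [Algebra K L] [IsGalois K L]
    (θ : 𝓞 L) (N : ℕ), LamData K L θ N → ∀ j : ℕ, 1 ≤ j → ∀ x : Lˣ,
    (∀ τ : L ≃ₐ[K] L, loSX K L τ x / x ∈ Vsub K L θ N (j + 2)) →
    ∃ k : Kˣ, x / inclU K L k ∈ Vsub K L θ N j

/-- C2-S3. `V_j / V_{j+1} ≅ Λ / N Λ` is induced: invariants are norms. -/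
def Stmt_GrInduced : Prop :=
  ∀ (K L : Type) [Field K] [NumberField K] [Field L] [NumberField L] [Algebra K L] [IsGalois K L]
    (θ : 𝓞 L) (N : ℕ), LamData K L θ N → ∀ j : ℕ, 2 ≤ j → ∀ z ∈ Vsub K L θ N j,
    (∀ τ : L ≃ₐ[K] L, loSX K L τ z / z ∈ Vsub K L θ N (j + 1)) →
    ∃ y ∈ Vsub K L θ N j, z / loNX K L y ∈ Vsub K L θ N (j + 1)

/-- C2-S4a. Herbrand quotient of a permutation module for a permutation of prime order. -/
def Stmt_PermHerbrand : Prop :=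
  ∀ (p : ℕ) (X : Type) [Fintype X] (s : Equiv.Perm X), p.Prime → s ^ p = 1 →
    hq1 (permAct s - AddMonoidHom.id _) (∑ i ∈ Finset.range p, permAct (s ^ i)) = 1 ∧
    hq0 (permAct s - AddMonoidHom.id _) (∑ i ∈ Finset.range p, permAct (s ^ i)) =
      p ^ Nat.card {x : X // s x = x}

/-- C2-S4b. The valuations at the primes dividing `N`, packaged abstractly. -/
def Stmt_OrdData : Prop :=
  ∀ (K L : Type) [Field K] [NumberField K] [Field L] [NumberField L] [Algebra K L] [IsGalois K L]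
    (σ : L ≃ₐ[K] L) (N : ℕ), N ≠ 0 →
    ∃ (X : Type) (_ : Fintype X) (s : Equiv.Perm X) (ord : Lˣ → X → ℤ),
      (∀ x y, ord (x * y) = ord x + ord y) ∧
      (∀ x i, ord (loSX K L σ x) (s i) = ord x i) ∧
      (∀ n : ℕ, σ ^ n = 1 → s ^ n = 1) ∧
      (∀ f : X → ℤ, ∃ x, ord x = f) ∧
      (∀ x, ord x = 0 ↔ x ∈ unitsAt L N) ∧
      Nat.card {i : X // s i = i} = nuFix K L σ N ∧
      (∀ x ∈ unitsAway L N, ord x = 0 → ∃ u : (𝓞 L)ˣ, ((u : 𝓞 L) : L) = (x : L)) ∧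
      (∃ h : ℕ, h ≠ 0 ∧ ∀ f : X → ℤ, ∃ x ∈ unitsAway L N, ord x = h • f)

/-- C2-S4b'. `V_j` has finite index in the group of elements which are units at `N`. -/
def Stmt_FiniteQuot : Prop :=
  ∀ (K L : Type) [Field K] [NumberField K] [Field L] [NumberField L] [Algebra K L] [IsGalois K L]
    (θ : 𝓞 L) (N : ℕ), LamData K L θ N → ∀ j : ℕ, 1 ≤ j →
    Vsub K L θ N j ≤ unitsAt L N ∧ (Vsub K L θ N j).relIndex (unitsAt L N) ≠ 0

/-- C2-S4c. `|Ĥ⁰(Lˣ / V_j)|` is finite and divisible by `p ^ ν`. -/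
def Stmt_HerbrandQ : Prop :=
  ∀ (p : ℕ) (K L : Type) [Field K] [NumberField K] [Field L] [NumberField L] [Algebra K L]
    (σ : L ≃ₐ[K] L) (θ : 𝓞 L) (N : ℕ), CycData K L p σ → LamData K L θ N → ∀ j : ℕ, 1 ≤ j →
    ((loNX K L).range ⊔ Vsub K L θ N j).relIndex
        ((Vsub K L θ N j).comap (loSX K L σ / MonoidHom.id Lˣ)) ≠ 0 ∧
    p ^ nuFix K L σ N ∣ ((loNX K L).range ⊔ Vsub K L θ N j).relIndex
        ((Vsub K L θ N j).comap (loSX K L σ / MonoidHom.id Lˣ))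

/-- C2-S5 = (C2). The semilocal first inequality. -/
def Stmt_SLF : Prop :=
  ∀ (p : ℕ) (K L : Type) [Field K] [NumberField K] [Field L] [NumberField L] [Algebra K L]
    (σ : L ≃ₐ[K] L) (θ : 𝓞 L) (N : ℕ), CycData K L p σ → LamData K L θ N →
    (normSub K L ⊔ congOne K (N ^ 3)).index = 0 ∨
      p ^ nuFix K L σ N ≤ (normSub K L ⊔ congOne K (N ^ 3)).index

/-! ## C1 : the second inequality -/

/-- C1a. The second inequality for finite quotients (from `Stmt_URay`). -/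
def Stmt_SecondIneqFin : Prop :=
  ∀ (K L : Type) [Field K] [NumberField K] [Field L] [NumberField L] [Algebra K L]
    (N j : ℕ), N ≠ 0 → ClAway K N → ClAway L N → ∀ W : Subgroup Kˣ,
    unitsAway K N ≤ W → normSub K L ≤ W → congOne K (N ^ j) ≤ W → W.index ≠ 0 →
    W.index ≤ Module.finrank K L

/-- C1b. Pure group theory: a subgroup `W ⊇ G^p` all of whose finite index overgroups have index
`≤ p` has finite index `≤ p`. -/
def Stmt_IndexTrick : Prop :=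
  ∀ (p : ℕ) (G : Type) [CommGroup G] (W : Subgroup G), p.Prime → (∀ g : G, g ^ p ∈ W) →
    (∀ W' : Subgroup G, W ≤ W' → W'.index ≠ 0 → W'.index ≤ p) → W.index ≠ 0 ∧ W.index ≤ p

/-- (C1). The second inequality. -/
def Stmt_SecondIneq : Prop :=
  ∀ (p : ℕ) (K L : Type) [Field K] [NumberField K] [Field L] [NumberField L] [Algebra K L]
    (N j : ℕ), p.Prime → Module.finrank K L = p → N ≠ 0 → ClAway K N → ClAway L N →
    (unitsAway K N ⊔ normSub K L ⊔ congOne K (N ^ j)).index ≠ 0 ∧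
    (unitsAway K N ⊔ normSub K L ⊔ congOne K (N ^ j)).index ≤ p

/-! ## C3, C4 : cohomology of the `N`-units -/

/-- (C3). Herbrand quotient of the `N`-units: `h⁰ p = h¹ p^ν`. -/
def Stmt_AwayHerbrand : Prop :=
  ∀ (p : ℕ) (K L : Type) [Field K] [NumberField K] [Field L] [NumberField L] [Algebra K L]
    (σ : L ≃ₐ[K] L) (N : ℕ), CycData K L p σ → N ≠ 0 →
    ((unitsAway L N).map (loNX K L)).relIndex
      (unitsAway L N ⊓ (loSX K L σ / MonoidHom.id Lˣ).ker) ≠ 0 ∧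
    ((unitsAway L N).map (loSX K L σ / MonoidHom.id Lˣ)).relIndex
      (unitsAway L N ⊓ (loNX K L).ker) ≠ 0 ∧
    ((unitsAway L N).map (loNX K L)).relIndex
      (unitsAway L N ⊓ (loSX K L σ / MonoidHom.id Lˣ).ker) * p =
    ((unitsAway L N).map (loSX K L σ / MonoidHom.id Lˣ)).relIndex
      (unitsAway L N ⊓ (loNX K L).ker) * p ^ nuFix K L σ N

/-- C4a. Invariant ideals prime to `N` are extended from `K`. -/
def Stmt_InvariantAway : Prop :=
  ∀ (K L : Type) [Field K] [NumberField K] [Field L] [NumberField L] [Algebra K L] [IsGalois K L]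
    (N : ℕ), UnramAway K L N → ∀ J : Ideal (𝓞 L), IsCoprime J (Ideal.span {(N : 𝓞 L)}) →
    (∀ τ : L ≃ₐ[K] L, τ • J = J) → ∃ a : Ideal (𝓞 K), J = a.map (algebraMap (𝓞 K) (𝓞 L))

/-- (C4). `H¹(G, 𝓞_L[1/N]ˣ) = 0`. -/
def Stmt_AwayH1 : Prop :=
  ∀ (p : ℕ) (K L : Type) [Field K] [NumberField K] [Field L] [NumberField L] [Algebra K L]
    (σ : L ≃ₐ[K] L) (N : ℕ), CycData K L p σ → N ≠ 0 → ClAway K N → UnramAway K L N →
    unitsAway L N ⊓ (loNX K L).ker ≤ (unitsAway L N).map (loSX K L σ / MonoidHom.id Lˣ)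

/-! ## C5, C6, C7 : the Hasse norm theorem -/

/-- C5a. `[𝓞_K[1/N]ˣ : N 𝓞_L[1/N]ˣ] p = p^ν` (from C3, C4). -/
def Stmt_AwayIndex : Prop :=
  ∀ (p : ℕ) (K L : Type) [Field K] [NumberField K] [Field L] [NumberField L] [Algebra K L]
    (σ : L ≃ₐ[K] L) (N : ℕ), CycData K L p σ → GoodN K L N →
    normAway K L N ≤ unitsAway K N ∧
    (normAway K L N).relIndex (unitsAway K N) * p = p ^ nuFix K L σ N

/-- C5b. The counting argument (pure group theory). -/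
def Stmt_Count : Prop :=
  ∀ (p ν : ℕ) (G : Type) [CommGroup G] (E H B : Subgroup G), p.Prime →
    B ≤ E → B ≤ H → B.relIndex E * p = p ^ ν →
    ((E ⊔ H).index ≠ 0 ∧ (E ⊔ H).index ≤ p) → (H.index = 0 ∨ p ^ ν ≤ H.index) →
    E ⊓ H ≤ B

/-- (C5). The finite level Hasse norm theorem: an `N`-unit of `K` which is a norm modulo `N^3`
is the norm of an `N`-unit of `L`. -/
def Stmt_HNTfin : Prop :=
  ∀ (p : ℕ) (K L : Type) [Field K] [NumberField K] [Field L] [NumberField L] [Algebra K L]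
    (σ : L ≃ₐ[K] L) (N : ℕ), CycData K L p σ → GoodN K L N →
    unitsAway K N ⊓ (normSub K L ⊔ congOne K (N ^ 3)) ≤ normAway K L N

/-- (C6). Sufficiently divisible integers are good. -/
def Stmt_GoodExists : Prop :=
  ∀ (K L : Type) [Field K] [NumberField K] [Field L] [NumberField L] [Algebra K L] [IsGalois K L],
    ∃ N₀ : ℕ, N₀ ≠ 0 ∧ ∀ N : ℕ, N ≠ 0 → N₀ ∣ N → GoodN K L N

/-- (C7) = (HNT). The Hasse norm theorem in approximation form: an element of `Kˣ` which is a norm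
modulo every integer is a norm. -/
def Stmt_HNT : Prop :=
  ∀ (p : ℕ) (K L : Type) [Field K] [NumberField K] [Field L] [NumberField L] [Algebra K L]
    (σ : L ≃ₐ[K] L), CycData K L p σ → ∀ a : Kˣ,
    (∀ M : ℕ, M ≠ 0 → a ∈ normSub K L ⊔ congOne K M) → a ∈ normSub K L

end Fermat.Agent.CFT.HP
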