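/-
CFT / HP (architect: helper14).  Blocks A, B, D: the Hasse principle for `H²(Gal(M/k), Mˣ)`,
explicit multiplicative cocycles.  Definitions.
-/
import Fermat.Agent.CFT.HP.InterfaceC

set_option autoImplicit false

namespace Fermat.Agent.CFT.HP

open NumberField groupCohomology Fermat.Agent.S14 Fermat.Agent.CFT.P0
open scoped Pointwise

section Abstract

variable {G A : Type} [Group G] [CommGroup A] [MulDistribMulAction G A]

/-- The multiplicative coboundary of a 1-cochain: `(g, h) ↦ g • γ h / γ (g h) * γ g`. -/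
def mulD (γ : G → A) (x : G × G) : A := x.1 • γ x.2 / γ (x.1 * x.2) * γ x.1

/-- The standard multiplicative 2-cochain of a finite cyclic group `⟨σ⟩` attached to `a`:
`(σⁱ, σʲ) ↦ a` if `i + j ≥ |G|`, `1` otherwise (`0 ≤ i, j < |G|`); `dlog` is from `P0`. -/
noncomputable def mulCyc (σ : G) (a : A) (x : G × G) : A :=
  if Nat.card G ≤ dlog σ x.1 + dlog σ x.2 then a else 1

end Abstract

section Fields

variable (k M : Type) [Field k] [NumberField k] [Field M] [NumberField M] [Algebra k M]
  [IsGalois k M]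

/-- `f` is locally trivial at the prime `w` of `M` (decomposition group form): there are a finite
Galois extension `M'/k` containing `M`, a prime `w'` of `M'` over `w` and a 1-cochain `x` with
values in `M'ˣ` such that the inflation of `f` to `Gal(M'/k)` equals `d x` on the stabilizer
of `w'`. -/
def LocTrivAt (f : (M ≃ₐ[k] M) × (M ≃ₐ[k] M) → Mˣ) (w : Ideal (𝓞 M)) : Prop :=
  ∃ (M' : Type) (_ : Field M') (_ : NumberField M') (_ : Algebra k M') (_ : Algebra M M')
    (_ : IsScalarTower k M M') (_ : IsGalois k M') (w' : Ideal (𝓞 M'))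
    (x : (M' ≃ₐ[k] M') → M'ˣ), w'.IsPrime ∧ w'.LiesOver w ∧
    ∀ a b : M' ≃ₐ[k] M', a • w' = w' → b • w' = w' →
      Units.map (algebraMap M M' : M →* M') (f (a.restrictNormal M, b.restrictNormal M)) =
        mulD x (a, b)

/-- `f` is locally trivial at all (finite) primes of `M`. -/
def LocTriv (f : (M ≃ₐ[k] M) × (M ≃ₐ[k] M) → Mˣ) : Prop :=
  ∀ w : Ideal (𝓞 M), w.IsPrime → w ≠ ⊥ → LocTrivAt k M f w

end Fields

section Norms

variable (K L : Type) [Field K] [NumberField K] [Field L] [NumberField L] [Algebra K L]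

/-- `a ∈ Kˣ` is, up to the `p`-th power of a fixed natural number, a norm from `𝓞 L` modulo all
powers of the prime `v` of `K`. -/
def NormClose (p : ℕ) (a : Kˣ) (v : Ideal (𝓞 K)) : Prop :=
  ∃ m : ℕ, m ≠ 0 ∧ ∀ n : ℕ, ∃ (y : 𝓞 L) (c : 𝓞 K), c ∈ v ^ n ∧
    (m : K) ^ p * (a : K) = Algebra.norm K (y : L) + (c : K)

end Norms

end Fermat.Agent.CFT.HP
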