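/-
CFT / HP (architect: helper14).  Blocks A, B, D: the Hasse principle for `H²(Gal(M/k), Mˣ)`,
explicit multiplicative cocycles.  Statements only.
-/
import Fermat.Agent.CFT.HP.DefsAB

set_option autoImplicit false

namespace Fermat.Agent.CFT.HP

open NumberField groupCohomology Fermat.Agent.S14 Fermat.Agent.CFT.P0
open scoped Pointwise

/-! ## A : explicit multiplicative versions of the P0 toolkit -/

/-- A1. A 2-cocycle of `p`-power order which is a coboundary on a subgroup of index prime to `p`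
is a coboundary. -/
def Stmt_MulSylow : Prop :=
  ∀ (p : ℕ) (G A : Type) [Group G] [Finite G] [CommGroup A] [MulDistribMulAction G A]
    (P : Subgroup G) (f : G × G → A), p.Prime → ¬ p ∣ P.index → IsMulCocycle₂ f →
    (∃ e : ℕ, IsMulCoboundary₂ (fun x => f x ^ p ^ e)) →
    (∃ γ : G → A, ∀ g ∈ P, ∀ h ∈ P, f (g, h) = mulD γ (g, h)) → IsMulCoboundary₂ f

/-- The situation of inflation: `π : G → Q` surjective, `j : B → A` identifies `B` with the
invariants of `ker π`, and Hilbert 90 holds for `ker π` acting on `A`. -/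
structure InfData {G Q A B : Type} [Group G] [Group Q] [CommGroup A] [CommGroup B]
    [MulDistribMulAction G A] [MulDistribMulAction Q B] (π : G →* Q) (j : B →* A) : Prop where
  surj : Function.Surjective π
  inj : Function.Injective j
  equiv : ∀ (g : G) (b : B), j (π g • b) = g • j b
  inv : ∀ a : A, (∀ n ∈ π.ker, n • a = a) → ∃ b : B, j b = a
  h90 : ∀ c : G → A, (∀ n ∈ π.ker, ∀ n' ∈ π.ker, c (n * n') = n • c n' * c n) →
    ∃ b : A, ∀ n ∈ π.ker, c n = n • b / b

/-- A2(i). A 2-cocycle which is a coboundary on `ker π` is cohomologous to an inflated cocycle. -/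
def Stmt_MulInfExact : Prop :=
  ∀ (G Q A B : Type) [Group G] [Group Q] [CommGroup A] [CommGroup B]
    [MulDistribMulAction G A] [MulDistribMulAction Q B] (π : G →* Q) (j : B →* A),
    InfData π j → ∀ f : G × G → A, IsMulCocycle₂ f →
    (∃ γ : G → A, ∀ n ∈ π.ker, ∀ n' ∈ π.ker, f (n, n') = mulD γ (n, n')) →
    ∃ (fb : Q × Q → B) (γ : G → A), IsMulCocycle₂ fb ∧
      ∀ g h : G, f (g, h) = j (fb (π g, π h)) * mulD γ (g, h)

/-- A2(ii). Inflation is injective on `H²`. -/
def Stmt_MulInfInj : Prop :=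
  ∀ (G Q A B : Type) [Group G] [Group Q] [CommGroup A] [CommGroup B]
    [MulDistribMulAction G A] [MulDistribMulAction Q B] (π : G →* Q) (j : B →* A),
    InfData π j → ∀ fb : Q × Q → B, IsMulCocycle₂ fb →
    IsMulCoboundary₂ (fun x : G × G => j (fb (π x.1, π x.2))) → IsMulCoboundary₂ fb

/-- A4. `H²` of a finite cyclic group, explicitly. -/
def Stmt_MulCyc : Prop :=
  ∀ (G A : Type) [Group G] [Finite G] [CommGroup A] [MulDistribMulAction G A] (σ : G),
    (∀ g : G, g ∈ Subgroup.zpowers σ) →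
    (∀ f : G × G → A, IsMulCocycle₂ f →
      (∀ g : G, g • (∏ i ∈ Finset.range (Nat.card G), f (σ ^ i, σ)) =
        ∏ i ∈ Finset.range (Nat.card G), f (σ ^ i, σ)) ∧
      ∃ γ : G → A, ∀ g h : G, f (g, h) =
        mulCyc σ (∏ i ∈ Finset.range (Nat.card G), f (σ ^ i, σ)) (g, h) * mulD γ (g, h)) ∧
    (∀ a : A, (∀ g : G, g • a = a) → IsMulCocycle₂ (mulCyc σ a) ∧
      (IsMulCoboundary₂ (mulCyc σ a) ↔
        ∃ b : A, a = ∏ i ∈ Finset.range (Nat.card G), σ ^ i • b))

/-- A5. Hilbert 90 for a subgroup of the Galois group. -/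
def Stmt_H90Sub : Prop :=
  ∀ (F E : Type) [Field F] [Field E] [Algebra F E] [FiniteDimensional F E]
    (H : Subgroup (E ≃ₐ[F] E)) (c : (E ≃ₐ[F] E) → Eˣ),
    (∀ n ∈ H, ∀ n' ∈ H, c (n * n') = n • c n' * c n) → ∃ b : Eˣ, ∀ n ∈ H, c n = n • b / b

/-! ## A3 : functoriality of local triviality -/

/-- A3a. Local triviality only depends on the cohomology class. -/
def Stmt_LocTrivCob : Prop :=
  ∀ (k M : Type) [Field k] [NumberField k] [Field M] [NumberField M] [Algebra k M] [IsGalois k M]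
    (f : (M ≃ₐ[k] M) × (M ≃ₐ[k] M) → Mˣ) (γ : (M ≃ₐ[k] M) → Mˣ) (w : Ideal (𝓞 M)),
    LocTrivAt k M f w → LocTrivAt k M (fun x => f x * mulD γ x) w

/-- A3b. Restriction to an intermediate field. -/
def Stmt_LocTrivRes : Prop :=
  ∀ (k k₁ M : Type) [Field k] [NumberField k] [Field k₁] [NumberField k₁] [Field M] [NumberField M]
    [Algebra k k₁] [Algebra k₁ M] [Algebra k M] [IsScalarTower k k₁ M] [IsGalois k M]
    [IsGalois k₁ M] (f : (M ≃ₐ[k] M) × (M ≃ₐ[k] M) → Mˣ) (w : Ideal (𝓞 M)),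
    LocTrivAt k M f w →
    LocTrivAt k₁ M (fun x => f (x.1.restrictScalars k, x.2.restrictScalars k)) w

/-- A3c. If the inflation of `fb` from `L` to `M` is locally trivial at `w`, then `fb` is locally
trivial at the prime of `L` below `w`. -/
def Stmt_LocTrivDefl : Prop :=
  ∀ (k L M : Type) [Field k] [NumberField k] [Field L] [NumberField L] [Field M] [NumberField M]
    [Algebra k L] [Algebra L M] [Algebra k M] [IsScalarTower k L M] [IsGalois k M]
    [IsGalois k L] (fb : (L ≃ₐ[k] L) × (L ≃ₐ[k] L) → Lˣ) (w : Ideal (𝓞 M)) (wL : Ideal (𝓞 L)),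
    w.LiesOver wL →
    LocTrivAt k M (fun x => Units.map (algebraMap L M : L →* M)
      (fb (x.1.restrictNormal L, x.2.restrictNormal L))) w →
    LocTrivAt k L fb wL

/-! ## B : the cyclic layer -/

/-- B0. Stabilizers of primes surject onto stabilizers of the primes below. -/
def Stmt_StabLift : Prop :=
  ∀ (K L M' : Type) [Field K] [NumberField K] [Field L] [NumberField L] [Field M'] [NumberField M']
    [Algebra K L] [Algebra L M'] [Algebra K M'] [IsScalarTower K L M'] [IsGalois K M']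
    [IsGalois K L] (w : Ideal (𝓞 L)) (w' : Ideal (𝓞 M')) (τ : L ≃ₐ[K] L),
    w'.IsPrime → w' ≠ ⊥ → w'.LiesOver w → τ • w = w →
    ∃ τ' : M' ≃ₐ[K] M', τ'.restrictNormal L = τ ∧ τ' • w' = w'

/-- B1. The explicit cocycle computation: if the inflation of the standard cocycle of `a` is a
coboundary on a subgroup `D` which surjects onto the cyclic group `Q`, then `a` is a norm of an
element invariant under `D ∩ ker π`. -/
def Stmt_CycLocal : Prop :=
  ∀ (Γ Q A : Type) [Group Γ] [Group Q] [Finite Q] [CommGroup A] [MulDistribMulAction Γ A]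
    (D : Subgroup Γ) (π : Γ →* Q) (σ : Q) (g' : Γ) (a : A) (x : Γ → A),
    1 < Nat.card Q → (∀ q : Q, q ∈ Subgroup.zpowers σ) → g' ∈ D → π g' = σ →
    (∀ c : Γ → A, (∀ n ∈ D ⊓ π.ker, ∀ n' ∈ D ⊓ π.ker, c (n * n') = n • c n' * c n) →
      ∃ b : A, ∀ n ∈ D ⊓ π.ker, c n = n • b / b) →
    (∀ g ∈ D, ∀ h ∈ D, (if Nat.card Q ≤ dlog σ (π g) + dlog σ (π h) then a else 1) =
      mulD x (g, h)) →
    ∃ b' : A, (∀ n ∈ D ⊓ π.ker, n • b' = b') ∧
      a = ∏ i ∈ Finset.range (Nat.card Q), g' ^ i • b'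

/-- B2. Decomposition fields are dense: an integer of `M'` invariant under the stabilizer of `w'`
in `Gal(M'/F)` is congruent to an integer of `F` modulo any power of `w'`. -/
def Stmt_DecompDense : Prop :=
  ∀ (F M' : Type) [Field F] [NumberField F] [Field M'] [NumberField M'] [Algebra F M']
    [IsGalois F M'] (w' : Ideal (𝓞 M')) (z : 𝓞 M') (n : ℕ), w'.IsPrime → w' ≠ ⊥ →
    (∀ d : M' ≃ₐ[F] M', d • w' = w' → d • z = z) →
    ∃ y : 𝓞 F, z - algebraMap (𝓞 F) (𝓞 M') y ∈ w' ^ n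

/-- B2b. High powers of a prime above `v` contract into high powers of `v`. -/
def Stmt_ContractPow : Prop :=
  ∀ (K M' : Type) [Field K] [NumberField K] [Field M'] [NumberField M'] [Algebra K M']
    (v : Ideal (𝓞 K)) (w' : Ideal (𝓞 M')), v.IsPrime → v ≠ ⊥ → w'.IsPrime → w'.LiesOver v →
    ∀ n : ℕ, ∃ n' : ℕ, ∀ c : 𝓞 K, algebraMap (𝓞 K) (𝓞 M') c ∈ w' ^ n' → c ∈ v ^ n

/-- B3. Non-split primes: local triviality of the standard cocycle of `a` gives approximate
norms. -/
def Stmt_NormCloseNonsplit : Prop :=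
  ∀ (p : ℕ) (K L : Type) [Field K] [NumberField K] [Field L] [NumberField L] [Algebra K L]
    [IsGalois K L] (σ : L ≃ₐ[K] L) (a : Kˣ) (v : Ideal (𝓞 K)) (w : Ideal (𝓞 L)),
    CycData K L p σ → w.IsPrime → w ≠ ⊥ → w.LiesOver v → σ • w = w →
    LocTrivAt K L (mulCyc σ (inclU K L a)) w → NormClose K L p a v

/-- B4. Split primes: every element is an approximate norm. -/
def Stmt_NormCloseSplit : Prop :=
  ∀ (p : ℕ) (K L : Type) [Field K] [NumberField K] [Field L] [NumberField L] [Algebra K L]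
    (σ : L ≃ₐ[K] L) (a : Kˣ) (v : Ideal (𝓞 K)) (w : Ideal (𝓞 L)),
    CycData K L p σ → w.IsPrime → w ≠ ⊥ → w.LiesOver v → σ • w ≠ w → NormClose K L p a v

/-- B5. Chinese remainder theorem: approximate norms at all primes dividing `m` are norms
modulo `m`. -/
def Stmt_NormCRT : Prop :=
  ∀ (p : ℕ) (K L : Type) [Field K] [NumberField K] [Field L] [NumberField L] [Algebra K L]
    [IsGalois K L] (a : Kˣ) (m : ℕ), Module.finrank K L = p → m ≠ 0 →
    (∀ v : Ideal (𝓞 K), v.IsPrime → (m : 𝓞 K) ∈ v → NormClose K L p a v) →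
    a ∈ normSub K L ⊔ congOne K m

/-- B6. The Hasse principle for cyclic extensions of odd prime degree. -/
def Stmt_HPcyc : Prop :=
  ∀ (p : ℕ) (K L : Type) [Field K] [NumberField K] [Field L] [NumberField L] [Algebra K L]
    [IsGalois K L] (σ : L ≃ₐ[K] L), CycData K L p σ →
    ∀ f : (L ≃ₐ[K] L) × (L ≃ₐ[K] L) → Lˣ, IsMulCocycle₂ f → LocTriv K L f → IsMulCoboundary₂ f

/-! ## The Hasse principle -/

/-- (HP). `p` odd, `k` totally complex, `M/k` finite Galois: a 2-cocycle with values in `Mˣ`, of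
`p`-power order in `H²`, locally trivial at all primes of `M`, is a coboundary. -/
def Stmt_HP : Prop :=
  ∀ (p : ℕ) (k M : Type) [Field k] [NumberField k] [Field M] [NumberField M] [Algebra k M]
    [IsGalois k M], p.Prime → p ≠ 2 → IsTotallyComplex k →
    ∀ f : (M ≃ₐ[k] M) × (M ≃ₐ[k] M) → Mˣ, IsMulCocycle₂ f →
    (∃ e : ℕ, IsMulCoboundary₂ (fun x => f x ^ p ^ e)) → LocTriv k M f → IsMulCoboundary₂ f

/-! ## D : unramified primes -/

/-- D1. At a prime `w ∤ p` of `M` with trivial inertia in `M/k`, a large cyclotomic `p`-extension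
`M' = M(μ_{p^r})` has a cyclic decomposition group `⟨φ'⟩` at a prime `w'` over `w`, and the order
of `φ'|_M` divides `ord(φ') / p`. -/
def Stmt_UnramCyc : Prop :=
  ∀ (p : ℕ) (k M : Type) [Field k] [NumberField k] [Field M] [NumberField M] [Algebra k M]
    [IsGalois k M] (w : Ideal (𝓞 M)), p.Prime → w.IsPrime → w ≠ ⊥ → (p : 𝓞 M) ∉ w →
    (∀ h : M ≃ₐ[k] M, (∀ x : 𝓞 M, h • x - x ∈ w) → h = 1) →
    ∃ (M' : Type) (_ : Field M') (_ : NumberField M') (_ : Algebra k M') (_ : Algebra M M')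
      (_ : IsScalarTower k M M') (_ : IsGalois k M') (w' : Ideal (𝓞 M')) (φ' : M' ≃ₐ[k] M'),
      w'.IsPrime ∧ w'.LiesOver w ∧ φ' • w' = w' ∧
      (∀ d : M' ≃ₐ[k] M', d • w' = w' → d ∈ Subgroup.zpowers φ') ∧
      p ∣ orderOf φ' ∧ (φ'.restrictNormal M) ^ (orderOf φ' / p) = 1

/-- D2. A `μ_p`-valued 2-cocycle is locally trivial at the primes `w ∤ p` with trivial inertia. -/
def Stmt_UnramLocTriv : Prop :=
  ∀ (p : ℕ) (k M : Type) [Field k] [NumberField k] [Field M] [NumberField M] [Algebra k M]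
    [IsGalois k M] (w : Ideal (𝓞 M)) (f : (M ≃ₐ[k] M) × (M ≃ₐ[k] M) → Mˣ),
    p.Prime → w.IsPrime → w ≠ ⊥ → (p : 𝓞 M) ∉ w →
    (∀ h : M ≃ₐ[k] M, (∀ x : 𝓞 M, h • x - x ∈ w) → h = 1) →
    IsMulCocycle₂ f → (∀ x, f x ^ p = 1) → LocTrivAt k M f w

end Fermat.Agent.CFT.HP
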