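/-
CFT / HP (architect: helper14).  Block Y: glue from the finite level Hasse principle `Stmt_HP`
(abstract number fields, decomposition groups = stabilizers of primes) to helper56's
`HPG.Stmt_HPfin` (`M ⊆ ℚ̄`, local triviality on the decomposition groups `D_A ≤ G_ℚ` of valuation
subrings `A` of `ℚ̄`).  Statements only.
-/
import Fermat.Agent.CFT.HP.InterfaceAB
import Fermat.Agent.CFT.HPG.Interface

set_option autoImplicit false

namespace Fermat.Agent.CFT.HP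

open NumberField groupCohomology Fermat.Agent.CFT.Top
open scoped Pointwise

/-- Y1 (DS). `E ⊆ ℚ̄` a number field, Galois over `k`; `w'` the prime of `E` cut out by the valuation
subring `A` of `ℚ̄`.  Every element of `Gal(E/k)` fixing `w'` is induced by an element of the
decomposition group `D_A ≤ G_ℚ`. -/
def Stmt_DS : Prop :=
  ∀ (k : Type) [Field k] [NumberField k] (E : GN.IF) [NumberField E] [Algebra k E] [IsGalois k E]
    (A : ValuationSubring GN.Qb) (w' : Ideal (𝓞 E)), w'.IsPrime → w' ≠ ⊥ →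
    (∀ x : 𝓞 E, x ∈ w' ↔ (((x : E) : GN.Qb)) ∈ A.nonunits) →
    ∀ a : E ≃ₐ[k] E, a • w' = w' →
    ∃ σ ∈ HPG.Dec A, ∀ x : E, σ (x : GN.Qb) = ((a x : E) : GN.Qb)

/-- Y2. Local triviality on `D_A` (finite level cochains with values in `ℚ̄ˣ`) implies local
triviality in the sense of `LocTrivAt` at the prime cut out by `A`. -/
def Stmt_LTtoLocTriv : Prop :=
  ∀ (k : Type) [Field k] [NumberField k] (M : GN.IF) [NumberField M] [Algebra k M] [IsGalois k M]
    (f : (M ≃ₐ[k] M) × (M ≃ₐ[k] M) → Mˣ) (A : ValuationSubring GN.Qb) (w : Ideal (𝓞 M)),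
    w.IsPrime → w ≠ ⊥ → (∀ x : 𝓞 M, x ∈ w ↔ (((x : M) : GN.Qb)) ∈ A.nonunits) →
    (∃ γ : GQ → GN.Qbˣ, HPG.FinLev γ ∧ ∀ (σ τ : GQ) (h j : M ≃ₐ[k] M), σ ∈ HPG.Dec A →
      τ ∈ HPG.Dec A → (∀ x : M, σ (x : GN.Qb) = ((h x : M) : GN.Qb)) →
      (∀ x : M, τ (x : GN.Qb) = ((j x : M) : GN.Qb)) →
      (((f (h, j) : Mˣ) : M) : GN.Qb) * (γ (σ * τ) : GN.Qb) = (γ σ : GN.Qb) * σ (γ τ : GN.Qb)) →
    LocTrivAt k M f w

/-- Y3. A number field containing a primitive `p`-th root of unity, `p ≥ 3`, is totally complex. -/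
def Stmt_CplxOfZeta : Prop :=
  ∀ (p : ℕ) (k : Type) [Field k] [NumberField k] (ζ : k), 3 ≤ p → IsPrimitiveRoot ζ p →
    IsTotallyComplex k

attribute [local instance] Units.mulDistribMulActionRight in
/-- Y4. `HPfin` when `Γ` fixes `ζ`. -/
def Stmt_HPfinZeta : Prop :=
  ∀ (p : ℕ) (M : GN.IF) (ζ : M), p.Prime → p ≠ 2 → FiniteDimensional ℚ M → IsPrimitiveRoot ζ p →
    ∀ (Γ : Type) [Group Γ] [Finite Γ] [MulSemiringAction Γ M] [FaithfulSMul Γ M],
    (∀ h : Γ, h • ζ = ζ) →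
    ∀ β : Γ × Γ → Mˣ, IsMulCocycle₂ β → (∃ m : ℕ, IsMulCoboundary₂ fun x => β x ^ p ^ m) →
      HPG.LTall β → IsMulCoboundary₂ β

end Fermat.Agent.CFT.HP
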