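/-
CFT / HP, package Y3 (helper19): `μ_p ⊆ k`, `p ≥ 3` implies `k` totally complex.
-/
import Fermat.Agent.CFT.HP.InterfaceY

set_option autoImplicit false

namespace Fermat.Agent.CFT.HP

open NumberField

theorem cplxOfZeta : Stmt_CplxOfZeta := by
  intro p k _ _ ζ hp hζ
  exact nrRealPlaces_eq_zero_iff.mp
    (InfinitePlace.IsPrimitiveRoot.nrRealPlaces_eq_zero_of_two_lt hp hζ)

end Fermat.Agent.CFT.HP
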