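/-
CFT / HP, block Y, package Y1 (DS): the stabilizer of `w'` in `Gal(E/k)` is induced by the
decomposition group `D_A ≤ G_ℚ`.
-/
import Fermat.Agent.CFT.HP.InterfaceY
import Fermat.Agent.CFT.GN.DictD

set_option autoImplicit false

namespace Fermat.Agent.CFT.HP

open NumberField groupCohomology Fermat.Agent.CFT.Top IsDedekindDomain
open scoped Pointwise

theorem DS_mem_nonunits_iff {K : Type*} [Field K] (A : ValuationSubring K) (x : K) :
    x ∈ A.nonunits ↔ x = 0 ∨ x⁻¹ ∉ A := by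
  rw [ValuationSubring.mem_nonunits_iff, ← ValuationSubring.valuation_le_one_iff]
  by_cases hx : x = 0
  · simp [hx]
  · have h0 : 0 < A.valuation x := zero_lt_iff.2 ((A.valuation.ne_zero_iff).2 hx)
    rw [map_inv₀, inv_le_one₀ h0, not_le]
    simp [hx]

theorem DS_mem_nonunits_comap {K : Type*} [Field K] (A : ValuationSubring K) (f : K →+* K)
    (x : K) : x ∈ (A.comap f).nonunits ↔ f x ∈ A.nonunits := by
  rw [DS_mem_nonunits_iff, DS_mem_nonunits_iff, ValuationSubring.mem_comap, map_inv₀,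
    map_eq_zero]

theorem DS_normal_Qb : Normal ℚ GN.Qb := by
  have : Algebra.IsAlgebraic ℚ (AlgebraicClosure ℚ) := AlgebraicClosure.isAlgebraic ℚ
  have : IsAlgClosure ℚ (AlgebraicClosure ℚ) := ⟨inferInstance, inferInstance⟩
  exact IsAlgClosure.normal ℚ (AlgebraicClosure ℚ)

/-- Y1 (DS). -/
theorem ds : Stmt_DS := by
  intro k _ _ E _ _ _ A w' hw'p hw'0 hw a ha
  have hnorm := DS_normal_Qb
  -- (1) lift `a`
  let a0 : E ≃ₐ[ℚ] E := AlgEquiv.ofRingEquiv (f := (a : E ≃+* E)) (fun r => by simp)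
  let σ0 : GQ := a0.liftNormal GN.Qb
  have hσ0 : ∀ x : E, σ0 (x : GN.Qb) = ((a x : E) : GN.Qb) := fun x =>
    a0.liftNormal_commutes GN.Qb x
  have hσ0s : ∀ x : E, σ0.symm (x : GN.Qb) = ((a.symm x : E) : GN.Qb) := by
    intro x
    rw [AlgEquiv.symm_apply_eq, hσ0, AlgEquiv.apply_symm_apply]
  -- (2) the conjugate valuation subring
  let A1 : ValuationSubring GN.Qb := A.comap (σ0.symm : GN.Qb →+* GN.Qb)
  have hA1 : ∀ x : GN.Qb, x ∈ A1 ↔ σ0.symm x ∈ A := fun x => ValuationSubring.mem_comap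
  let v : HeightOneSpectrum (𝓞 E) := ⟨w', hw'p, hw'0⟩
  have hov : GN.Over A v := hw
  have hov1 : GN.Over A1 v := by
    intro x
    have h1 : x ∈ w' ↔ a⁻¹ • x ∈ w' := by
      conv_lhs => rw [← ha]
      exact Ideal.mem_pointwise_smul_iff_inv_smul_mem
    show x ∈ w' ↔ _
    rw [h1, hw, DS_mem_nonunits_comap]
    have h2 : (σ0.symm : GN.Qb →+* GN.Qb) (((x : E) : GN.Qb)) =
        ((((a⁻¹ • x : 𝓞 E) : E)) : GN.Qb) := hσ0s (x : E)
    rw [h2]
  -- (3) transitivity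
  obtain ⟨g, hg, hgA⟩ := GN.dictD E A1 A v hov1 hov
  have hσ : ∀ z : GN.Qb, (g * σ0) z ∈ A ↔ z ∈ A := by
    intro z
    show g (σ0 z) ∈ A ↔ z ∈ A
    rw [hgA, hA1, AlgEquiv.symm_apply_apply]
  refine ⟨g * σ0, ?_, ?_⟩
  · show (g * σ0) • A = A
    ext x
    rw [ValuationSubring.mem_pointwise_smul_iff_inv_smul_mem, ← hσ]
    have : (g * σ0) ((g * σ0)⁻¹ • x) = x := (g * σ0).apply_symm_apply x
    rw [this]
  · intro x
    show g (σ0 (x : GN.Qb)) = _
    rw [hσ0]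
    exact (IntermediateField.mem_fixingSubgroup_iff E g).1 hg _ (a x).2

end Fermat.Agent.CFT.HP
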