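/-
CFT / HP, package B2b : high powers of a prime `w'` above `v` contract into high powers of `v`.
-/
import Fermat.Agent.CFT.HP.InterfaceAB

set_option autoImplicit false

namespace Fermat.Agent.CFT.HP

open NumberField

theorem contractPow : Stmt_ContractPow := by
  intro K M' _ _ _ _ _ v w' hv hv0 hw' hlo n
  by_contra hcon
  push Not at hcon
  have hvp : Prime v := Ideal.prime_of_isPrime hv0 hv
  have key : ∀ n' : ℕ, v ^ n ≤ (w' ^ n').comap (algebraMap (𝓞 K) (𝓞 M')) := by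
    intro n'
    obtain ⟨c, hc1, hc2⟩ := hcon n'
    have h1 : v ^ n' ≤ (w' ^ n').comap (algebraMap (𝓞 K) (𝓞 M')) := by
      rw [← Ideal.map_le_iff_le_comap, Ideal.map_pow]
      exact Ideal.pow_right_mono (Ideal.map_le_iff_le_comap.2 (le_of_eq hlo.over)) n'
    obtain ⟨i, -, hI⟩ := (dvd_prime_pow hvp n').1 (Ideal.dvd_iff_le.2 h1)
    have hI' : (w' ^ n').comap (algebraMap (𝓞 K) (𝓞 M')) = v ^ i := associated_iff_eq.1 hI
    have hin : i < n := by
      by_contra h
      push Not at h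
      have hc3 : c ∈ (w' ^ n').comap (algebraMap (𝓞 K) (𝓞 M')) := hc1
      rw [hI'] at hc3
      exact hc2 (Ideal.pow_le_pow_right h hc3)
    rw [hI']
    exact Ideal.pow_le_pow_right hin.le
  obtain ⟨x, hx, hx0⟩ := Submodule.exists_mem_ne_zero_of_ne_bot (pow_ne_zero n hv0)
  have h2 : algebraMap (𝓞 K) (𝓞 M') x ∈ ⨅ i : ℕ, w' ^ i := by
    rw [Ideal.mem_iInf]
    exact fun i => key i hx
  rw [Ideal.iInf_pow_eq_bot_of_isDomain w' hw'.ne_top, Ideal.mem_bot] at h2
  exact hx0 ((map_eq_zero_iff _ (FaithfulSMul.algebraMap_injective (𝓞 K) (𝓞 M'))).1 h2)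

end Fermat.Agent.CFT.HP
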