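/-
CFT / HP, package B1 (helper17): the explicit cocycle computation for the cyclic layer.
-/
import Fermat.Agent.CFT.HP.InterfaceAB
import Fermat.Agent.CFT.P0.CycH2

set_option autoImplicit false

namespace Fermat.Agent.CFT.HP

open Fermat.Agent.CFT.P0

theorem cycLocal_dlog_one {Q : Type} [Group Q] [Finite Q] (σ : Q) : dlog σ 1 = 0 := by
  have := CycH2.dlog_pow σ 0
  simpa using this

theorem cycLocal : Stmt_CycLocal := by
  intro Γ Q A _ _ _ _ _ D π σ g' a x hn hσ hg'D hg'σ hH90 hx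
  set n := Nat.card Q with hndef
  have hord : orderOf σ = n := CycH2.orderOf_gen hσ
  have hK0D : ∀ m ∈ D ⊓ π.ker, m ∈ D := fun m hm => hm.1
  have hK0π : ∀ m ∈ D ⊓ π.ker, π m = 1 := fun m hm => hm.2
  have hlt : ∀ q : Q, dlog σ q < n := fun q => CycH2.dlog_lt hσ q
  have hd1 : dlog σ (1 : Q) = 0 := cycLocal_dlog_one σ
  -- step 1
  have hcoc : ∀ m ∈ D ⊓ π.ker, ∀ m' ∈ D ⊓ π.ker, x (m * m') = m • x m' * x m := by
    intro m hm m' hm'
    have h := hx m (hK0D m hm) m' (hK0D m' hm')
    rw [hK0π m hm, hK0π m' hm', hd1, if_neg (by omega)] at h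
    unfold mulD at h
    simp only at h
    rw [eq_comm, div_mul_eq_mul_div, div_eq_one] at h
    exact h.symm
  obtain ⟨b, hb⟩ := hH90 x hcoc
  -- step 2
  set x' : Γ → A := fun g => x g / (g • b / b) with hx'def
  have hx' : ∀ g ∈ D, ∀ h ∈ D, (if n ≤ dlog σ (π g) + dlog σ (π h) then a else 1) =
      g • x' h / x' (g * h) * x' g := by
    intro g hg h hh
    rw [hx g hg h hh]
    unfold mulD
    simp only [hx'def, smul_div', mul_smul]
    have e : ∀ (u v w s t r : A), u / v * w = u / (s / t) / (v / (s / r)) * (w / (t / r)) := by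
      intro u v w s t r
      have e' : ∀ (u v w s t r : Additive A),
          u - v + w = u - (s - t) - (v - (s - r)) + (w - (t - r)) := by
        intro u v w s t r
        abel
      exact e' (Additive.ofMul u) (Additive.ofMul v) (Additive.ofMul w) (Additive.ofMul s)
        (Additive.ofMul t) (Additive.ofMul r)
    exact e _ _ _ _ _ _
  have hx'K0 : ∀ m ∈ D ⊓ π.ker, x' m = 1 := by
    intro m hm
    simp only [hx'def]
    rw [hb m hm, div_self']
  -- step 3
  have hright : ∀ g ∈ D, ∀ m ∈ D ⊓ π.ker, x' (g * m) = x' g := by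
    intro g hg m hm
    have h := hx' g hg m (hK0D m hm)
    have := hlt (π g)
    rw [hK0π m hm, hd1, if_neg (by omega), hx'K0 m hm, smul_one, eq_comm,
      div_mul_eq_mul_div, div_eq_one, one_mul] at h
    exact h.symm
  have hleft : ∀ g ∈ D, ∀ m ∈ D ⊓ π.ker, x' (m * g) = m • x' g := by
    intro g hg m hm
    have h := hx' m (hK0D m hm) g hg
    have := hlt (π g)
    rw [hK0π m hm, hd1, if_neg (by omega), hx'K0 m hm, mul_one, eq_comm, div_eq_one] at h
    exact h.symm
  have hinv : ∀ g ∈ D, ∀ m ∈ D ⊓ π.ker, m • x' g = x' g := by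
    intro g hg m hm
    have hconj : g⁻¹ * m * g ∈ D ⊓ π.ker := by
      refine Subgroup.mem_inf.2 ⟨D.mul_mem (D.mul_mem (D.inv_mem hg) (hK0D m hm)) hg, ?_⟩
      rw [MonoidHom.mem_ker, map_mul, map_mul, hK0π m hm, map_inv]
      simp
    rw [← hleft g hg m hm, ← hright g hg _ hconj]
    congr 1
    group
  -- step 4
  set b' : A := x' g' with hb'
  have hpowD : ∀ i : ℕ, g' ^ i ∈ D := fun i => D.pow_mem hg'D i
  have hdσ : dlog σ σ = 1 := by
    have := CycH2.dlog_pow σ 1
    rw [pow_one, hord, Nat.mod_eq_of_lt hn] at this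
    exact this
  have hstep : ∀ i < n, (if n ≤ i + 1 then a else 1) =
      g' ^ i • b' / x' (g' ^ (i + 1)) * x' (g' ^ i) := by
    intro i hi
    have h := hx' (g' ^ i) (hpowD i) g' hg'D
    rw [map_pow, hg'σ, CycH2.dlog_pow, hord, Nat.mod_eq_of_lt hi, hdσ, ← pow_succ] at h
    exact h
  have hX : ∀ i < n, x' (g' ^ i) = ∏ k ∈ Finset.range i, g' ^ k • b' := by
    intro i
    induction i with
    | zero =>
      intro _
      simpa using hx'K0 1 (one_mem _)
    | succ i ih =>
      intro hi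
      have h := hstep i (by omega)
      rw [if_neg (by omega), eq_comm, div_mul_eq_mul_div, div_eq_one] at h
      rw [← h, ih (by omega), Finset.prod_range_succ, mul_comm]
  have hn0 : g' ^ n ∈ D ⊓ π.ker := by
    refine Subgroup.mem_inf.2 ⟨hpowD n, ?_⟩
    rw [MonoidHom.mem_ker, map_pow, hg'σ, ← hord, pow_orderOf_eq_one]
  refine ⟨b', fun m hm => hinv g' hg'D m hm, ?_⟩
  obtain ⟨k, hk⟩ : ∃ k, n = k + 1 := ⟨n - 1, by omega⟩
  have h := hstep k (by omega)
  rw [if_pos (by omega), ← hk, hx'K0 _ hn0, div_one, hX k (by omega)] at h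
  rw [h, hk, Finset.prod_range_succ, mul_comm]

end Fermat.Agent.CFT.HP
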