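/-
CFT / HP, B2 : decomposition fields are dense.
-/
import Fermat.Agent.CFT.HP.InterfaceAB

set_option autoImplicit false

namespace Fermat.Agent.CFT.HP

open NumberField
open scoped Pointwise

/-- abstract form: a finite group acting on a commutative ring, `P` a maximal ideal, `z` invariant
under the stabilizer of `P`.  Then `z` is congruent to an invariant element modulo `P ^ n`. -/
theorem decompDense_abstract {R G : Type*} [CommRing R] [Group G] [Finite G]
    [MulSemiringAction G R] (P : Ideal R) (hP : P.IsMaximal) (z : R) (n : ℕ)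
    (hz : ∀ d : G, d • P = P → d • z = z) :
    ∃ Y : R, (∀ g : G, g • Y = Y) ∧ z - Y ∈ P ^ n := by
  classical
  cases nonempty_fintype G
  have hmax : ∀ g : G, (g • P).IsMaximal := by
    intro g
    rw [Ideal.pointwise_smul_eq_comap]
    exact Ideal.comap_isMaximal_of_surjective _ (MulSemiringAction.toRingEquiv G R g⁻¹).surjective
  have hpow : ∀ g : G, g • (P ^ n) = (g • P) ^ n := fun g => smul_pow' g P n
  have hone : ∀ (s : Finset G) (f : G → R), (∀ g ∈ s, f g - 1 ∈ P ^ n) →
      (∏ g ∈ s, f g) - 1 ∈ P ^ n := by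
    intro s f hf
    rw [← Ideal.Quotient.eq, map_prod, map_one]
    exact Finset.prod_eq_one fun g hg => by
      rw [← map_one (Ideal.Quotient.mk (P ^ n)), Ideal.Quotient.eq]
      exact hf g hg
  -- (1)
  have h1 : ∀ g : G, g • P ≠ P → ∃ e : R, e - 1 ∈ P ^ n ∧ e ∈ (g • P) ^ n := by
    intro g hg
    have hcop : IsCoprime (P ^ n) ((g • P) ^ n) :=
      (Ideal.isCoprime_iff_sup_eq.mpr (hP.coprime_of_ne (hmax g) hg.symm)).pow
    obtain ⟨a, ha, b, hb, hab⟩ := Ideal.isCoprime_iff_exists.mp hcop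
    refine ⟨b, ?_, hb⟩
    have : b - 1 = -a := by rw [← hab]; ring
    rw [this]
    exact neg_mem ha
  choose! e he1 he2 using h1
  let ε1 : R := ∏ g ∈ Finset.univ.filter (fun g : G => g • P ≠ P), e g
  have hε1a : ε1 - 1 ∈ P ^ n := hone _ _ fun g hg => he1 g (Finset.mem_filter.mp hg).2
  have hε1b : ∀ g : G, g • P ≠ P → ε1 ∈ (g • P) ^ n := by
    intro g hg
    exact Ideal.mem_of_dvd _ (Finset.dvd_prod_of_mem e (Finset.mem_filter.mpr ⟨Finset.mem_univ g, hg⟩))
      (he2 g hg)
  have hstab : ∀ d : G, d • P = P → ∀ x ∈ P ^ n, d • x ∈ P ^ n := by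
    intro d hd x hx
    have h := Ideal.smul_mem_pointwise_smul d x (P ^ n) hx
    rwa [hpow, hd] at h
  -- (2)
  let S : Finset G := Finset.univ.filter (fun d : G => d • P = P)
  have hS : ∀ d : G, d ∈ S ↔ d • P = P := fun d => by simp [S]
  let ε : R := ∏ d ∈ S, d • ε1
  have hεa : ε - 1 ∈ P ^ n := hone _ _ fun d hd => by
    have : d • ε1 - 1 = d • (ε1 - 1) := by rw [smul_sub, smul_one]
    rw [this]
    exact hstab d ((hS d).mp hd) _ hε1a
  have hεb : ∀ g : G, g • P ≠ P → ε ∈ (g • P) ^ n := by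
    intro g hg
    have h1S : (1 : G) ∈ S := (hS 1).mpr (one_smul _ _)
    have := Finset.dvd_prod_of_mem (fun d : G => d • ε1) h1S
    refine Ideal.mem_of_dvd _ this ?_
    simpa using hε1b g hg
  have hεinv : ∀ d : G, d • P = P → d • ε = ε := by
    intro d hd
    show d • ∏ d' ∈ S, d' • ε1 = ∏ d' ∈ S, d' • ε1
    rw [Finset.smul_prod']
    refine Finset.prod_equiv (Equiv.mulLeft d) (fun i => ?_) (fun i _ => ?_)
    · rw [hS, hS, Equiv.coe_mulLeft, mul_smul]
      constructor
      · intro h; rw [h, hd]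
      · intro h
        have := congrArg (d⁻¹ • ·) h
        simp only [inv_smul_smul] at this
        rw [this, ← hd, inv_smul_smul, hd]
    · rw [Equiv.coe_mulLeft, mul_smul]
  -- (3)
  let t : R := z * ε
  have htinv : ∀ d : G, d • P = P → d • t = t := by
    intro d hd
    show d • (z * ε) = z * ε
    rw [smul_mul', hz d hd, hεinv d hd]
  have htz : z - t ∈ P ^ n := by
    have : z - t = -(z * (ε - 1)) := by show z - z * ε = _; ring
    rw [this]
    exact neg_mem (Ideal.mul_mem_left _ _ hεa)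
  have htg : ∀ g : G, g • P ≠ P → g • t ∈ P ^ n := by
    intro g hg
    have hg' : g⁻¹ • P ≠ P := by
      intro h
      apply hg
      rw [← h, smul_inv_smul, h]
    have h2 := hεb g⁻¹ hg'
    rw [← hpow, Ideal.mem_inv_pointwise_smul_iff] at h2
    show g • (z * ε) ∈ P ^ n
    rw [smul_mul']
    exact Ideal.mul_mem_left _ _ h2
  -- (4) the sum over the orbit of `t`
  let A : Finset R := Finset.univ.image (fun g : G => g • t)
  have hA : ∀ x : R, x ∈ A ↔ ∃ g : G, g • t = x := fun x => by simp [A]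
  refine ⟨∑ x ∈ A, x, fun h => ?_, ?_⟩
  · rw [Finset.smul_sum]
    refine Finset.sum_equiv (MulAction.toPerm h) (fun i => ?_) (fun i _ => rfl)
    rw [hA, hA, MulAction.toPerm_apply]
    constructor
    · rintro ⟨g, rfl⟩
      exact ⟨h * g, mul_smul _ _ _⟩
    · rintro ⟨g, hg⟩
      refine ⟨h⁻¹ * g, ?_⟩
      rw [mul_smul, hg, inv_smul_smul]
  · have htA : t ∈ A := (hA t).mpr ⟨1, one_smul _ _⟩
    rw [← Finset.add_sum_erase A (fun x => x) htA]
    have h3 : ∑ x ∈ A.erase t, x ∈ P ^ n := by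
      refine Ideal.sum_mem _ fun x hx => ?_
      obtain ⟨hxt, hxA⟩ := Finset.mem_erase.mp hx
      obtain ⟨g, rfl⟩ := (hA x).mp hxA
      exact htg g fun hg => hxt (htinv g hg)
    have : z - (t + ∑ x ∈ A.erase t, x) = (z - t) - ∑ x ∈ A.erase t, x := by ring
    rw [this]
    exact sub_mem htz h3

/-- B2. -/
theorem decompDense : Stmt_DecompDense := by
  intro F M' _ _ _ _ _ _ w' z n hw hw0 hz
  have hmax : w'.IsMaximal := hw.isMaximal hw0
  obtain ⟨Y, hY, hzY⟩ := decompDense_abstract (G := M' ≃ₐ[F] M') w' hmax z n hz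
  obtain ⟨y, hy⟩ := Algebra.IsInvariant.isInvariant (A := 𝓞 F) (G := M' ≃ₐ[F] M') Y hY
  exact ⟨y, by rw [hy]; exact hzY⟩

end Fermat.Agent.CFT.HP
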