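/-
CFT / HP, package C0: elementary arithmetic in `𝓞 F`.
-/
import Fermat.Agent.CFT.HP.InterfaceC

set_option autoImplicit false

namespace Fermat.Agent.CFT.HP

open NumberField

/-- `N(1 - N v) ≡ 1 mod N`. -/
theorem Arith_norm_one_sub (F : Type) [Field F] [NumberField F] (N : ℕ) (v : 𝓞 F) :
    (N : ℤ) ∣ Algebra.norm ℤ (1 - (N : 𝓞 F) * v) - 1 := by
  classical
  have h1 : ((Algebra.norm ℤ (1 - (N : 𝓞 F) * v) : ℤ) : ZMod N) = ((1 : ℤ) : ZMod N) := by
    rw [Algebra.norm_eq_matrix_det (RingOfIntegers.basis F)]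
    have h2 : Algebra.leftMulMatrix (RingOfIntegers.basis F) (1 - (N : 𝓞 F) * v) =
        1 - (N : ℤ) • Algebra.leftMulMatrix (RingOfIntegers.basis F) v := by
      have : (N : 𝓞 F) * v = (N : ℤ) • v := by simp
      rw [this, map_sub, map_one, map_zsmul]
    rw [h2]
    change Int.castRingHom (ZMod N) _ = Int.castRingHom (ZMod N) 1
    rw [RingHom.map_det]
    have h3 : (Int.castRingHom (ZMod N)).mapMatrix
        (1 - (N : ℤ) • Algebra.leftMulMatrix (RingOfIntegers.basis F) v) = 1 := by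
      rw [map_sub, map_one, sub_eq_self]
      ext i j
      rw [RingHom.mapMatrix_apply, Matrix.map_apply, Matrix.smul_apply, smul_eq_mul, map_mul]
      simp
    rw [h3, Matrix.det_one, map_one]
  have := (ZMod.intCast_eq_intCast_iff_dvd_sub _ _ N).1 h1.symm
  exact this

/-- C0a -/
theorem coprimeInt : Stmt_CoprimeInt := by
  intro F _ _ N y hy
  obtain ⟨u, v, huv⟩ := hy
  have h1 : u * y = 1 - (N : 𝓞 F) * v := by
    rw [← huv]; ring
  have h2 := Arith_norm_one_sub F N v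
  rw [← h1] at h2
  have h3 : ((Ideal.absNorm (Ideal.span {u * y}) : ℕ) : 𝓞 F) ∈ Ideal.span {u * y} :=
    Ideal.absNorm_mem _
  obtain ⟨w, hw⟩ := Ideal.mem_span_singleton.1 h3
  refine ⟨u * w, Ideal.absNorm (Ideal.span {u * y}), ?_, ?_⟩
  · rw [Ideal.absNorm_span_singleton]
    obtain ⟨k, hk⟩ := h2
    have h4 : IsCoprime (Algebra.norm ℤ (u * y)) (N : ℤ) := ⟨1, -k, by rw [one_mul]; linarith⟩
    have h5 := Int.isCoprime_iff_gcd_eq_one.1 h4
    rw [Int.gcd_eq_natAbs, Int.natAbs_natCast] at h5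
    exact h5
  · rw [hw]; ring

theorem Arith_isCoprime_of_prime {F : Type} [Field F] [NumberField F] {P J : Ideal (𝓞 F)}
    (hP : Prime P) (h : ¬ P ∣ J) : IsCoprime P J := by
  rw [Ideal.isCoprime_iff_sup_eq]
  have hmax : P.IsMaximal := (Ideal.isPrime_of_prime hP).isMaximal hP.ne_zero
  by_contra hne
  have h1 : P = P ⊔ J := hmax.eq_of_le hne le_sup_left
  exact h (Ideal.dvd_iff_le.2 (by rw [h1]; exact le_sup_right))

/-- C0b -/
theorem splitIdeal : Stmt_SplitIdeal := by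
  intro F _ _ N _ I
  induction I using UniqueFactorizationMonoid.induction_on_prime with
  | h₁ => intro h; exact absurd rfl h
  | h₂ x hx =>
    intro _
    have hx1 : x = 1 := by
      rw [Ideal.one_eq_top]
      exact Ideal.isUnit_iff.1 hx
    exact ⟨1, 1, 0, by rw [hx1, one_mul], isCoprime_one_left, by rw [pow_zero]⟩
  | h₃ a P ha hP ih =>
    intro _
    obtain ⟨A, B, j, hAB, hA, hB⟩ := ih ha
    by_cases hPN : P ∣ Ideal.span {(N : 𝓞 F)}
    · refine ⟨A, P * B, j + 1, by rw [hAB]; ring, hA, ?_⟩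
      rw [pow_succ']
      exact mul_dvd_mul hPN hB
    · exact ⟨P * A, B, j, by rw [hAB]; ring, (Arith_isCoprime_of_prime hP hPN).mul_left hA, hB⟩

/-- uniqueness of the prime-to-`N` part. -/
theorem split_unique {F : Type} [Field F] [NumberField F] {M A A' B B' : Ideal (𝓞 F)} {j j' : ℕ}
    (h : A * B = A' * B') (hA : IsCoprime A M) (hA' : IsCoprime A' M)
    (hB : B ∣ M ^ j) (hB' : B' ∣ M ^ j') : A = A' ∧ (A ≠ ⊥ → B = B') := by
  have h1 : A ∣ A' := by
    have : IsCoprime A B' := (hA.pow_right (n := j')).of_isCoprime_of_dvd_right hB'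
    exact this.dvd_of_dvd_mul_right (h ▸ Dvd.intro B rfl)
  have h2 : A' ∣ A := by
    have : IsCoprime A' B := (hA'.pow_right (n := j)).of_isCoprime_of_dvd_right hB
    exact this.dvd_of_dvd_mul_right (h.symm ▸ Dvd.intro B' rfl)
  have h3 : A = A' := dvd_antisymm h1 h2
  refine ⟨h3, fun hne => ?_⟩
  rw [← h3] at h
  exact mul_left_cancel₀ hne h

end Fermat.Agent.CFT.HP
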