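/-
CFT / HP, package C4: `H¹(G, 𝓞_L[1/N]ˣ) = 0`.
-/
import Fermat.Agent.CFT.HP.InterfaceC

set_option autoImplicit false
set_option linter.unusedSectionVars false

namespace Fermat.Agent.CFT.HP

open NumberField Fermat.Agent.S14
open scoped Pointwise nonZeroDivisors

theorem awayH1_split_unique {R : Type} [CommRing R] [IsDedekindDomain R]
    (𝔫 A A' B B' : Ideal R) (a b : ℕ) (hA : IsCoprime A 𝔫) (hA' : IsCoprime A' 𝔫)
    (hB : B ∣ 𝔫 ^ a) (hB' : B' ∣ 𝔫 ^ b) (h : A * B = A' * B') : A = A' := by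
  have h1 : IsCoprime A B' := (hA.pow_right (n := b)).of_isCoprime_of_dvd_right hB'
  have h2 : IsCoprime A' B := (hA'.pow_right (n := a)).of_isCoprime_of_dvd_right hB
  have h3 : A ∣ A' := h1.dvd_of_dvd_mul_right (Dvd.intro _ h)
  have h4 : A' ∣ A := h2.dvd_of_dvd_mul_right (Dvd.intro _ h.symm)
  exact le_antisymm (Ideal.dvd_iff_le.mp h4) (Ideal.dvd_iff_le.mp h3)

theorem awayH1_span_dvd {R : Type} [CommRing R] [IsDedekindDomain R] (a b : R) :
    Ideal.span {a} ∣ Ideal.span {b} ↔ a ∣ b := by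
  rw [Ideal.dvd_iff_le, Ideal.span_singleton_le_span_singleton]

section

variable {K L : Type} [Field K] [NumberField K] [Field L] [NumberField L] [Algebra K L]

theorem awayH1_coe_smul (σ : L ≃ₐ[K] L) (y : 𝓞 L) : ((σ • y : 𝓞 L) : L) = σ (y : L) := rfl

theorem awayH1_smul_natCast (σ : L ≃ₐ[K] L) (N : ℕ) : σ • (N : 𝓞 L) = (N : 𝓞 L) := by
  apply RingOfIntegers.ext
  rw [awayH1_coe_smul]
  simp

theorem awayH1_smul_span (σ : L ≃ₐ[K] L) (y : 𝓞 L) :
    σ • Ideal.span {y} = Ideal.span {σ • y} := by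
  rw [Ideal.smul_closure, Set.smul_set_singleton]

theorem awayH1_norm_eq_one [IsGalois K L] (x : Lˣ) (hx : loNX K L x = 1) :
    Algebra.norm K (x : L) = 1 := by
  apply FaithfulSMul.algebraMap_injective K L
  rw [Algebra.norm_eq_prod_automorphisms, map_one]
  have := congrArg Units.val hx
  simpa [loNX, loSX, MonoidHom.finsetProd_apply, Units.coe_prod] using this

end

theorem awayH1 (hI : Stmt_InvariantAway) (hS : Stmt_SplitIdeal) : Stmt_AwayH1 := by
  intro p K L _ _ _ _ _ σ N hC hN0 hCl hU x hx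
  obtain ⟨⟨e, i, j, he, hxe⟩, hxN⟩ := hx
  have hgal : IsGalois K L := hC.gal
  have hcyc : IsCyclic (L ≃ₐ[K] L) := ⟨σ, hC.gen⟩
  have hnorm : Algebra.norm K (x : L) = 1 := awayH1_norm_eq_one x hxN
  obtain ⟨y0, hy0⟩ := groupCohomology.exists_div_of_norm_eq_one hC.gen hnorm
  -- an integral element `y` with `σ y = x y`
  have halg : IsAlgebraic ℤ ((y0⁻¹ : Lˣ) : L) :=
    (IsFractionRing.isAlgebraic_iff ℤ ℚ L).mpr (Algebra.IsAlgebraic.isAlgebraic _)
  obtain ⟨d, hd0, hdint⟩ := halg.exists_integral_multiple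
  set y : 𝓞 L := ⟨d • ((y0⁻¹ : Lˣ) : L), hdint⟩ with hy
  have hyL : (y : L) = (d : L) * ((y0 : L))⁻¹ := by
    simp [hy, zsmul_eq_mul]
  have hdL : (d : L) ≠ 0 := by exact_mod_cast hd0
  have hy0L : (y0 : L) ≠ 0 := y0.ne_zero
  have hσy0 : σ (y0 : L) ≠ 0 := by simp
  have hyL0 : (y : L) ≠ 0 := by rw [hyL]; exact mul_ne_zero hdL (inv_ne_zero hy0L)
  have hy00 : y ≠ 0 := by
    intro h; apply hyL0; rw [h]; rfl
  have hσy : σ (y : L) = (x : L) * (y : L) := by
    rw [hyL, ← hy0, map_mul, map_inv₀, map_intCast]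
    field_simp
  set 𝔫 : Ideal (𝓞 L) := Ideal.span {(N : 𝓞 L)} with h𝔫
  have hσ𝔫 : σ • 𝔫 = 𝔫 := by rw [h𝔫, awayH1_smul_span, awayH1_smul_natCast]
  -- the equation of ideals
  have heq1 : (σ • y) * (N : 𝓞 L) ^ j = e * y := by
    apply RingOfIntegers.ext
    push_cast
    rw [AlgEquiv.smul_def, hσy]
    linear_combination (y : L) * hxe
  obtain ⟨A, B, k, hAB, hA, hB⟩ := hS L N hN0 (Ideal.span {y})
    (by rw [Ne, Ideal.span_singleton_eq_bot]; exact hy00)
  have hσA : IsCoprime (σ • A) 𝔫 := by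
    have := hA.map (MulSemiringAction.toRingHom (L ≃ₐ[K] L) (Ideal (𝓞 L)) σ)
    simp only [MulSemiringAction.toRingHom_apply] at this
    rwa [hσ𝔫] at this
  have hσB : σ • B ∣ 𝔫 ^ k := by
    have := map_dvd (MulSemiringAction.toRingHom (L ≃ₐ[K] L) (Ideal (𝓞 L)) σ) hB
    simp only [MulSemiringAction.toRingHom_apply, smul_pow'] at this
    rw [← h𝔫, hσ𝔫] at this
    exact this
  have heq2 : (σ • A) * ((σ • B) * 𝔫 ^ j) = A * (Ideal.span {e} * B) := by
    have h1 : Ideal.span {(σ • y) * (N : 𝓞 L) ^ j} = Ideal.span {e * y} := by rw [heq1]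
    rw [← Ideal.span_singleton_mul_span_singleton, ← Ideal.span_singleton_mul_span_singleton,
      ← Ideal.span_singleton_pow, ← awayH1_smul_span, hAB, smul_mul'] at h1
    rw [← mul_assoc, h1]
    ring
  have hfix : σ • A = A := by
    refine awayH1_split_unique 𝔫 _ _ _ _ (k + j) (i + k) hσA hA ?_ ?_ heq2
    · rw [pow_add]; exact mul_dvd_mul_right hσB _
    · rw [pow_add]
      refine mul_dvd_mul ?_ hB
      rw [h𝔫, Ideal.span_singleton_pow, awayH1_span_dvd]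
      exact he
  have hfixall : ∀ τ : L ≃ₐ[K] L, τ • A = A := by
    intro τ
    have h1 : σ ∈ MulAction.stabilizer (L ≃ₐ[K] L) A := hfix
    have h2 : Subgroup.zpowers σ ≤ MulAction.stabilizer (L ≃ₐ[K] L) A :=
      (Subgroup.zpowers_le).mpr h1
    exact h2 (hC.gen τ)
  obtain ⟨a, ha⟩ := hI K L N hU A hA hfixall
  have hA0 : A ≠ ⊥ := by
    intro h
    rw [h, Ideal.bot_mul, Ideal.span_singleton_eq_bot] at hAB
    exact hy00 hAB
  have ha0 : a ≠ ⊥ := by
    intro h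
    rw [h, Ideal.map_bot] at ha
    exact hA0 ha
  obtain ⟨α, J, j', hα0, ⟨J', hJ'⟩, hαJ⟩ := hCl a ha0
  set αL : 𝓞 L := algebraMap (𝓞 K) (𝓞 L) α with hαL
  have hαL0 : αL ≠ 0 := by
    rw [hαL, Ne, map_eq_zero_iff _ (FaithfulSMul.algebraMap_injective (𝓞 K) (𝓞 L))]
    exact hα0
  set f := algebraMap (𝓞 K) (𝓞 L) with hf
  have hmapN : (Ideal.span {(N : 𝓞 K)}).map f = 𝔫 := by
    rw [Ideal.map_span, Set.image_singleton, map_natCast]
  have h1 : Ideal.span {αL} = A * J.map f := by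
    rw [ha, ← Ideal.map_mul, ← hαJ, Ideal.map_span, Set.image_singleton]
  have h2 : 𝔫 ^ j' = J.map f * J'.map f := by
    rw [← hmapN, ← Ideal.map_pow, hJ', Ideal.map_mul]
  have h3 : Ideal.span {y * (N : 𝓞 L) ^ j'} = Ideal.span {αL} * (B * J'.map f) := by
    rw [← Ideal.span_singleton_mul_span_singleton, ← Ideal.span_singleton_pow, ← h𝔫, hAB, h2, h1]
    ring
  have h4 : αL ∣ y * (N : 𝓞 L) ^ j' := by
    rw [← awayH1_span_dvd, h3]
    exact Dvd.intro _ rfl
  obtain ⟨e1, he1⟩ := h4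
  have h5 : Ideal.span {e1} = B * J'.map f := by
    rw [he1, ← Ideal.span_singleton_mul_span_singleton] at h3
    refine mul_left_cancel₀ ?_ h3
    rw [Ne, Ideal.zero_eq_bot, Ideal.span_singleton_eq_bot]
    exact hαL0
  have h6 : e1 ∣ (N : 𝓞 L) ^ (k + j') := by
    rw [← awayH1_span_dvd, h5, ← Ideal.span_singleton_pow, ← h𝔫,
      pow_add]
    exact mul_dvd_mul hB (h2 ▸ Dvd.intro_left _ rfl)
  -- the element `w = y / α`
  have hαLL : (αL : L) = algebraMap K L (α : K) := rfl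
  have hαLL0 : (αL : L) ≠ 0 := by
    intro h; apply hαL0; apply RingOfIntegers.ext; rw [h]; rfl
  set w : Lˣ := Units.mk0 ((y : L) / (αL : L)) (div_ne_zero hyL0 hαLL0) with hw
  refine ⟨w, ⟨e1, k + j', j', h6, ?_⟩, ?_⟩
  · have := congrArg (fun t : 𝓞 L => (t : L)) he1
    push_cast at this
    rw [hw, Units.val_mk0, div_mul_eq_mul_div, this]
    field_simp
  · ext
    simp only [MonoidHom.div_apply, MonoidHom.id_apply, Units.val_div_eq_div_val, loSX,
      Units.coe_map, MonoidHom.coe_coe, hw, Units.val_mk0, map_div₀]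
    rw [hσy, hαLL, σ.commutes]
    rw [hαLL] at hαLL0
    field_simp

end Fermat.Agent.CFT.HP
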