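/-
CFT / HP, package C3: Herbrand quotient of the N-units (task 556): h0 * p = h1 * p^nu.
Two short exact sequences 0 -> U -> E -> ord(E) -> 0, 0 -> ord(E) -> (X -> Z) -> finite -> 0.
-/
import Fermat.Agent.CFT.HP.InterfaceC
import Fermat.Agent.CFT.P0.Herbrand
import Fermat.Agent.S14.LoUnits
import Fermat.Agent.S14.Herbrand
import Fermat.Agent.S14.LoAssembly

set_option autoImplicit false
set_option linter.unusedSectionVars false

namespace Fermat.Agent.CFT.HP

open NumberField Fermat.Agent.S14 Fermat.Agent.CFT.P0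

section Abs

variable {M M' : Type} [AddCommGroup M] [AddCommGroup M']

/-- `σ^i` -/
def ahPow (m : M →+ M) (i : ℕ) : M →+ M := (show AddMonoid.End M from m) ^ i

/-- `σ - 1` -/
def ahD (m : M →+ M) : M →+ M := m - AddMonoidHom.id M

/-- `∑_{i<p} σ^i` -/
def ahN (p : ℕ) (m : M →+ M) : M →+ M := ∑ i ∈ Finset.range p, ahPow m i

lemma ahPow_zero (m : M →+ M) : ahPow m 0 = AddMonoidHom.id M := rfl

lemma ahPow_succ (m : M →+ M) (i : ℕ) : ahPow m (i + 1) = m.comp (ahPow m i) :=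
  pow_succ' (show AddMonoid.End M from m) i

lemma ahD_apply (m : M →+ M) (x : M) : ahD m x = m x - x := rfl

lemma ahN_apply (p : ℕ) (m : M →+ M) (x : M) :
    ahN p m x = ∑ i ∈ Finset.range p, ahPow m i x := by
  unfold ahN
  exact AddMonoidHom.finsetSum_apply _ _ _

lemma ahDN (p : ℕ) (m : M →+ M) (h : ahPow m p = AddMonoidHom.id M) :
    (ahD m).comp (ahN p m) = 0 := by
  have h1 : (ahD m).comp (ahN p m) = ahPow m p - AddMonoidHom.id M :=
    mul_geom_sum (show AddMonoid.End M from m) p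
  rw [h1, h, sub_self]

lemma ahND (p : ℕ) (m : M →+ M) (h : ahPow m p = AddMonoidHom.id M) :
    (ahN p m).comp (ahD m) = 0 := by
  have h1 : (ahN p m).comp (ahD m) = ahPow m p - AddMonoidHom.id M :=
    geom_sum_mul (show AddMonoid.End M from m) p
  rw [h1, h, sub_self]

lemma ah_pow_equiv (m : M →+ M) (m' : M' →+ M') (φ : M →+ M')
    (h : ∀ x, φ (m x) = m' (φ x)) (i : ℕ) (x : M) : φ (ahPow m i x) = ahPow m' i (φ x) := by
  induction i with
  | zero => rfl
  | succ i ih =>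
    rw [ahPow_succ, ahPow_succ, AddMonoidHom.comp_apply, AddMonoidHom.comp_apply, h, ih]

lemma ahD_equiv (m : M →+ M) (m' : M' →+ M') (φ : M →+ M')
    (h : ∀ x, φ (m x) = m' (φ x)) (x : M) : φ (ahD m x) = ahD m' (φ x) := by
  rw [ahD_apply, ahD_apply, map_sub, h]

lemma ahN_equiv (p : ℕ) (m : M →+ M) (m' : M' →+ M') (φ : M →+ M')
    (h : ∀ x, φ (m x) = m' (φ x)) (x : M) : φ (ahN p m x) = ahN p m' (φ x) := by
  rw [ahN_apply, ahN_apply, map_sum]
  exact Finset.sum_congr rfl fun i _ => ah_pow_equiv m m' φ h i x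

lemma ah_pow_of_injective (p : ℕ) (m : M →+ M) (m' : M' →+ M') (φ : M →+ M')
    (h : ∀ x, φ (m x) = m' (φ x)) (hφ : Function.Injective φ)
    (hm : ahPow m' p = AddMonoidHom.id M') : ahPow m p = AddMonoidHom.id M := by
  ext x
  apply hφ
  rw [ah_pow_equiv m m' φ h, hm]
  rfl

lemma ah_pow_of_surjective (p : ℕ) (m : M →+ M) (m' : M' →+ M') (φ : M →+ M')
    (h : ∀ x, φ (m x) = m' (φ x)) (hφ : Function.Surjective φ)
    (hm : ahPow m p = AddMonoidHom.id M) : ahPow m' p = AddMonoidHom.id M' := by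
  ext y
  obtain ⟨x, rfl⟩ := hφ y
  rw [← ah_pow_equiv m m' φ h, hm]
  rfl

/-- a stable subgroup of finite index has the same Herbrand quotient -/
theorem ah_finiteIndex (p : ℕ) {C : Type} [AddCommGroup C] (c : C →+ C)
    (m : M →+ M) (hm : ahPow m p = AddMonoidHom.id M) (j : C →+ M) (hj : Function.Injective j)
    (hjc : ∀ x, j (c x) = m (j x)) (hfin : j.range.index ≠ 0)
    (h0 : hq0 (ahD m) (ahN p m) ≠ 0) (h1 : hq1 (ahD m) (ahN p m) ≠ 0) :
    hq0 (ahD c) (ahN p c) ≠ 0 ∧ hq1 (ahD c) (ahN p c) ≠ 0 ∧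
      hq0 (ahD m) (ahN p m) * hq1 (ahD c) (ahN p c) =
        hq1 (ahD m) (ahN p m) * hq0 (ahD c) (ahN p c) := by
  have hc : ahPow c p = AddMonoidHom.id C := ah_pow_of_injective p c m j hjc hj hm
  have hst : j.range ≤ j.range.comap m := by
    rintro _ ⟨x, rfl⟩
    exact ⟨c x, hjc x⟩
  let mQ : (M ⧸ j.range) →+ (M ⧸ j.range) := QuotientAddGroup.map j.range j.range m hst
  have hq : ∀ x, QuotientAddGroup.mk' j.range (m x) = mQ (QuotientAddGroup.mk' j.range x) :=
    fun x => rfl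
  have hmQ : ahPow mQ p = AddMonoidHom.id _ :=
    ah_pow_of_surjective p m mQ (QuotientAddGroup.mk' j.range) hq
      (QuotientAddGroup.mk'_surjective _) hm
  have : j.range.FiniteIndex := ⟨hfin⟩
  have : Finite (M ⧸ j.range) := AddSubgroup.finite_quotient_of_finiteIndex
  obtain ⟨e1, e2⟩ := herbrandFinite (M ⧸ j.range) (ahD mQ) (ahN p mQ) (ahDN p mQ hmQ)
    (ahND p mQ hmQ)
  obtain ⟨⟨a0, a1, -, -, -, -⟩, e3⟩ := herbrandMul C M (M ⧸ j.range) (ahD c) (ahN p c) (ahD m)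
    (ahN p m) (ahD mQ) (ahN p mQ) j (QuotientAddGroup.mk' j.range)
    (ahDN p c hc) (ahND p c hc) (ahDN p m hm) (ahND p m hm) (ahDN p mQ hmQ) (ahND p mQ hmQ)
    hj (QuotientAddGroup.mk'_surjective _) (QuotientAddGroup.ker_mk' _).symm
    (ahD_equiv c m j hjc) (ahN_equiv p c m j hjc)
    (ahD_equiv m mQ _ hq) (ahN_equiv p m mQ _ hq)
    (Or.inr (Or.inr ⟨h0, h1, e2, e1 ▸ e2⟩))
  refine ⟨a0, a1, ?_⟩
  rw [← e1] at e3
  exact Nat.eq_of_mul_eq_mul_right (Nat.pos_of_ne_zero e2) e3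

/-- the abstract computation -/
theorem ah_main (p : ℕ) {A B : Type} [AddCommGroup A] [AddCommGroup B] (a : A →+ A)
    (b : B →+ B) (m : M →+ M) (hb : ahPow b p = AddMonoidHom.id B)
    (hm : ahPow m p = AddMonoidHom.id M)
    (i : A →+ B) (φ : B →+ M) (hi : Function.Injective i) (hex : i.range = φ.ker)
    (hia : ∀ x, i (a x) = b (i x)) (hφb : ∀ x, φ (b x) = m (φ x))
    (hfin : φ.range.index ≠ 0)
    (hA0 : hq0 (ahD a) (ahN p a) ≠ 0) (hA1 : hq1 (ahD a) (ahN p a) ≠ 0)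
    (hM0 : hq0 (ahD m) (ahN p m) ≠ 0) (hM1 : hq1 (ahD m) (ahN p m) ≠ 0) :
    hq0 (ahD b) (ahN p b) ≠ 0 ∧ hq1 (ahD b) (ahN p b) ≠ 0 ∧
      hq0 (ahD b) (ahN p b) * hq1 (ahD a) (ahN p a) * hq1 (ahD m) (ahN p m) =
        hq1 (ahD b) (ahN p b) * hq0 (ahD a) (ahN p a) * hq0 (ahD m) (ahN p m) := by
  have ha : ahPow a p = AddMonoidHom.id A := ah_pow_of_injective p a b i hia hi hb
  let c : φ.range →+ φ.range := (AddMonoidHom.comp m φ.range.subtype).codRestrict φ.range (by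
    rintro ⟨_, x, rfl⟩
    exact ⟨b x, hφb x⟩)
  have hjc : ∀ x, φ.range.subtype (c x) = m (φ.range.subtype x) := fun x => rfl
  have hc : ahPow c p = AddMonoidHom.id _ :=
    ah_pow_of_injective p c m φ.range.subtype hjc φ.range.subtype_injective hm
  obtain ⟨c0, c1, e1⟩ := ah_finiteIndex p c m hm φ.range.subtype φ.range.subtype_injective hjc
    (by rwa [AddSubgroup.range_subtype]) hM0 hM1
  have hqb : ∀ x, φ.rangeRestrict (b x) = c (φ.rangeRestrict x) := fun x => Subtype.ext (hφb x)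
  obtain ⟨⟨-, -, b0, b1, -, -⟩, e2⟩ := herbrandMul A B φ.range (ahD a) (ahN p a) (ahD b)
    (ahN p b) (ahD c) (ahN p c) i φ.rangeRestrict
    (ahDN p a ha) (ahND p a ha) (ahDN p b hb) (ahND p b hb) (ahDN p c hc) (ahND p c hc)
    hi φ.rangeRestrict_surjective (by rw [hex, AddMonoidHom.ker_rangeRestrict])
    (ahD_equiv a b i hia) (ahN_equiv p a b i hia)
    (ahD_equiv b c _ hqb) (ahN_equiv p b c _ hqb)
    (Or.inl ⟨hA0, hA1, c0, c1⟩)
  refine ⟨b0, b1, ?_⟩
  apply Nat.eq_of_mul_eq_mul_right (Nat.pos_of_ne_zero c1)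
  calc _ = (hq0 (ahD b) (ahN p b) * hq1 (ahD a) (ahN p a) * hq1 (ahD c) (ahN p c)) *
        hq1 (ahD m) (ahN p m) := by ring
    _ = hq1 (ahD b) (ahN p b) * hq0 (ahD a) (ahN p a) *
        (hq1 (ahD m) (ahN p m) * hq0 (ahD c) (ahN p c)) := by rw [e2]; ring
    _ = _ := by rw [← e1]; ring

end Abs

section Mul

/-- translation of `hq0` on a subgroup -/
theorem ah_relIndex {G : Type} [CommGroup G] (E : Subgroup G) (f g : G →* G) {B : Type}
    [AddCommGroup B] (DB NB : B →+ B) (j : B →+ Additive G) (hj : Function.Injective j)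
    (hrange : ∀ x : G, (∃ b, j b = Additive.ofMul x) ↔ x ∈ E)
    (hD : ∀ b, j (DB b) = Additive.ofMul (f (j b).toMul))
    (hN : ∀ b, j (NB b) = Additive.ofMul (g (j b).toMul)) :
    hq0 DB NB = (E.map g).relIndex (E ⊓ f.ker) := by
  unfold hq0
  rw [← AddSubgroup.relIndex_map_map_of_injective NB.range DB.ker hj,
    ← Subgroup.relIndex_toAddSubgroup]
  congr 1
  · ext y
    constructor
    · rintro ⟨_, ⟨b, rfl⟩, rfl⟩
      rw [hN]
      exact ⟨(j b).toMul, (hrange _).1 ⟨b, rfl⟩, rfl⟩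
    · rintro ⟨x, hx, hxy⟩
      obtain ⟨b, hb⟩ := (hrange x).2 hx
      refine ⟨NB b, ⟨b, rfl⟩, ?_⟩
      rw [hN, hb]
      exact congrArg Additive.ofMul hxy
  · ext y
    constructor
    · rintro ⟨b, hb, rfl⟩
      refine ⟨(hrange _).1 ⟨b, rfl⟩, ?_⟩
      have h1 := hD b
      rw [AddMonoidHom.mem_ker.1 hb, map_zero] at h1
      exact (congrArg Additive.toMul h1).symm
    · rintro ⟨hy1, hy2⟩
      obtain ⟨b, hb⟩ := (hrange y.toMul).2 hy1
      refine ⟨b, ?_, hb⟩
      rw [SetLike.mem_coe, AddMonoidHom.mem_ker]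
      apply hj
      rw [hD, hb, map_zero]
      exact congrArg Additive.ofMul hy2

lemma ah_permAct_pow {X : Type} (t : Equiv.Perm X) (i : ℕ) :
    ahPow (permAct t) i = permAct (t ^ i) := by
  induction i with
  | zero => rfl
  | succ i ih =>
    rw [ahPow_succ, ih]
    ext f x
    simp only [AddMonoidHom.comp_apply, permAct, AddMonoidHom.coe_mk, ZeroHom.coe_mk,
      Function.comp_apply]
    congr 1

lemma ah_permAct_N {X : Type} (p : ℕ) (t : Equiv.Perm X) :
    ahN p (permAct t) = ∑ i ∈ Finset.range p, permAct (t ^ i) := by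
  unfold ahN
  exact Finset.sum_congr rfl fun i _ => ah_permAct_pow t i

/-- a subgroup of `X → ℤ` containing `h (X → ℤ)` has finite index -/
lemma ah_index_ne_zero {X : Type} [Finite X] (H : AddSubgroup (X → ℤ)) (h : ℕ) (hh : h ≠ 0)
    (hH : ∀ f : X → ℤ, h • f ∈ H) : H.index ≠ 0 := by
  have : NeZero h := ⟨hh⟩
  let r : (X → ℤ) →+ (X → ZMod h) :=
    { toFun := fun f x => (f x : ZMod h)
      map_zero' := by ext x; simp
      map_add' := fun f g => by ext x; simp }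
  have h1 : r.ker ≤ H := by
    intro f hf
    have h2 : ∀ x, (h : ℤ) ∣ f x := by
      intro x
      have := congrFun (AddMonoidHom.mem_ker.1 hf) x
      exact (ZMod.intCast_zmod_eq_zero_iff_dvd _ _).1 this
    choose g hg using h2
    have : f = h • g := by
      ext x
      rw [hg x]
      simp
    rw [this]
    exact hH g
  have h3 : r.ker.index ≠ 0 := by
    rw [AddSubgroup.index_ker]
    exact Nat.card_pos.ne'
  exact ne_zero_of_dvd_ne_zero h3 (AddSubgroup.index_dvd_of_le h1)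

theorem ah_mul (hP : Stmt_PermHerbrand) (p : ℕ) (hp : p.Prime) {G U : Type} [CommGroup G]
    [CommGroup U] (ι : U →* G) (hι : Function.Injective ι) (s n : G →* G) (sU nU : U →* U)
    (hsU : ∀ u, ι (sU u) = s (ι u)) (hnU : ∀ u, ι (nU u) = n (ι u))
    (hsp : ahPow (MonoidHom.toAdditive s) p = AddMonoidHom.id _)
    (hn : ahN p (MonoidHom.toAdditive s) = MonoidHom.toAdditive n)
    (E : Subgroup G) (hEs : ∀ x ∈ E, s x ∈ E) (hιE : ∀ u, ι u ∈ E)
    (X : Type) [Fintype X] (t : Equiv.Perm X) (ord : G → X → ℤ)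
    (hmul : ∀ x y, ord (x * y) = ord x + ord y)
    (hs : ∀ x i, ord (s x) (t i) = ord x i)
    (htp : t ^ p = 1)
    (hker : ∀ x ∈ E, ord x = 0 → ∃ u, ι u = x)
    (hunit : ∀ u, ord (ι u) = 0)
    (h : ℕ) (hh : h ≠ 0) (hsurj : ∀ f : X → ℤ, ∃ x ∈ E, ord x = h • f)
    (hU0 : nU.range.relIndex (sU / MonoidHom.id U).ker ≠ 0)
    (hU1 : (sU / MonoidHom.id U).range.relIndex nU.ker =
      p * nU.range.relIndex (sU / MonoidHom.id U).ker) :
    (E.map n).relIndex (E ⊓ (s / MonoidHom.id G).ker) ≠ 0 ∧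
    (E.map (s / MonoidHom.id G)).relIndex (E ⊓ n.ker) ≠ 0 ∧
    (E.map n).relIndex (E ⊓ (s / MonoidHom.id G).ker) * p =
      (E.map (s / MonoidHom.id G)).relIndex (E ⊓ n.ker) * p ^ Nat.card {x : X // t x = x} := by
  let sG : Additive G →+ Additive G := MonoidHom.toAdditive s
  let sE : E →* E := (s.comp E.subtype).codRestrict E (fun x => hEs x x.2)
  let b : Additive E →+ Additive E := MonoidHom.toAdditive sE
  let a : Additive U →+ Additive U := MonoidHom.toAdditive sU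
  let jE : Additive E →+ Additive G := MonoidHom.toAdditive E.subtype
  let jU : Additive U →+ Additive G := MonoidHom.toAdditive ι
  let i : Additive U →+ Additive E := MonoidHom.toAdditive (ι.codRestrict E hιE)
  let φ : Additive E →+ (X → ℤ) :=
    AddMonoidHom.mk' (fun x => ord (x.toMul : G)) (fun x y => hmul _ _)
  let m : (X → ℤ) →+ (X → ℤ) := permAct t
  have hjE : Function.Injective jE := fun x y hxy => Subtype.ext hxy
  have hjU : Function.Injective jU := fun x y hxy => hι hxy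
  have hi : Function.Injective i := fun x y hxy => hι (congrArg Subtype.val hxy)
  have hjb : ∀ x, jE (b x) = sG (jE x) := fun x => rfl
  have hja : ∀ x, jU (a x) = sG (jU x) := fun x => hsU x.toMul
  have hia : ∀ x, i (a x) = b (i x) := fun x => Subtype.ext (hsU x.toMul)
  have hb : ahPow b p = AddMonoidHom.id _ := ah_pow_of_injective p b sG jE hjb hjE hsp
  have hm : ahPow m p = AddMonoidHom.id _ := by
    rw [ah_permAct_pow, htp]
    rfl
  have hφb : ∀ x, φ (b x) = m (φ x) := by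
    intro x
    funext k
    have := hs (x.toMul : G) (t.symm k)
    rw [Equiv.apply_symm_apply] at this
    exact this
  have hex : i.range = φ.ker := by
    ext x
    constructor
    · rintro ⟨u, rfl⟩
      exact hunit u.toMul
    · intro hx
      obtain ⟨u, hu⟩ := hker (x.toMul : G) x.toMul.2 hx
      exact ⟨Additive.ofMul u, Subtype.ext hu⟩
  have hfin : φ.range.index ≠ 0 := by
    refine ah_index_ne_zero _ h hh fun f => ?_
    obtain ⟨x, hx, hxf⟩ := hsurj f
    exact ⟨Additive.ofMul ⟨x, hx⟩, hxf⟩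
  -- translations
  have hrE : ∀ x : G, (∃ y, jE y = Additive.ofMul x) ↔ x ∈ E := by
    intro x
    constructor
    · rintro ⟨y, hy⟩
      have : (y.toMul : G) = x := hy
      rw [← this]
      exact y.toMul.2
    · intro hx
      exact ⟨Additive.ofMul ⟨x, hx⟩, rfl⟩
  have hDE : ∀ y, jE (ahD b y) = Additive.ofMul ((s / MonoidHom.id G) (jE y).toMul) := by
    intro y
    rw [ahD_equiv b sG jE hjb]
    rfl
  have hNE : ∀ y, jE (ahN p b y) = Additive.ofMul (n (jE y).toMul) := by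
    intro y
    rw [ahN_equiv p b sG jE hjb, hn]
    rfl
  have tB0 : hq0 (ahD b) (ahN p b) = (E.map n).relIndex (E ⊓ (s / MonoidHom.id G).ker) :=
    ah_relIndex E (s / MonoidHom.id G) n (ahD b) (ahN p b) jE hjE hrE hDE hNE
  have tB1 : hq1 (ahD b) (ahN p b) = (E.map (s / MonoidHom.id G)).relIndex (E ⊓ n.ker) :=
    ah_relIndex E n (s / MonoidHom.id G) (ahN p b) (ahD b) jE hjE hrE hNE hDE
  have hrU : ∀ x : U, (∃ y, AddMonoidHom.id (Additive U) y = Additive.ofMul x) ↔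
      x ∈ (⊤ : Subgroup U) := fun x => ⟨fun _ => Subgroup.mem_top x, fun _ => ⟨_, rfl⟩⟩
  have hDU : ∀ y, AddMonoidHom.id (Additive U) (ahD a y) =
      Additive.ofMul ((sU / MonoidHom.id U) (AddMonoidHom.id (Additive U) y).toMul) :=
    fun y => rfl
  have hNU : ∀ y, AddMonoidHom.id (Additive U) (ahN p a y) =
      Additive.ofMul (nU (AddMonoidHom.id (Additive U) y).toMul) := by
    intro y
    apply hjU
    rw [AddMonoidHom.id_apply, ahN_equiv p a sG jU hja, hn]
    exact (hnU y.toMul).symm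
  have tA0 : hq0 (ahD a) (ahN p a) = nU.range.relIndex (sU / MonoidHom.id U).ker := by
    rw [ah_relIndex ⊤ (sU / MonoidHom.id U) nU (ahD a) (ahN p a) (AddMonoidHom.id _)
      Function.injective_id hrU hDU hNU, top_inf_eq, MonoidHom.range_eq_map]
  have tA1 : hq1 (ahD a) (ahN p a) = (sU / MonoidHom.id U).range.relIndex nU.ker := by
    have := ah_relIndex ⊤ nU (sU / MonoidHom.id U) (ahN p a) (ahD a) (AddMonoidHom.id _)
      Function.injective_id hrU hNU hDU
    rw [top_inf_eq, ← MonoidHom.range_eq_map] at this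
    exact this
  obtain ⟨tM1, tM0⟩ := hP p X t hp htp
  rw [← ah_permAct_N] at tM0 tM1
  have tM0' : hq0 (ahD m) (ahN p m) = p ^ Nat.card {x : X // t x = x} := tM0
  have tM1' : hq1 (ahD m) (ahN p m) = 1 := tM1
  have hp0 : p ≠ 0 := hp.ne_zero
  obtain ⟨r0, r1, r2⟩ := ah_main p a b m hb hm i φ hi hex hia hφb hfin
    (by rw [tA0]; exact hU0) (by rw [tA1, hU1]; exact mul_ne_zero hp0 hU0)
    (by rw [tM0']; exact pow_ne_zero _ hp0) (by rw [tM1']; exact one_ne_zero)
  rw [tB0, tB1, tA0, tA1, tM0', tM1', hU1] at r2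
  rw [tB0] at r0
  rw [tB1] at r1
  refine ⟨r0, r1, ?_⟩
  apply Nat.eq_of_mul_eq_mul_right (Nat.pos_of_ne_zero hU0)
  linear_combination r2

end Mul

section Conc

variable (K L : Type) [Field K] [NumberField K] [Field L] [NumberField L] [Algebra K L]

lemma ah_SX_one : loSX K L 1 = MonoidHom.id _ := by
  ext x
  simp [loSX]

lemma ah_SX_pow (σ : L ≃ₐ[K] L) (i : ℕ) :
    ahPow (MonoidHom.toAdditive (loSX K L σ)) i = MonoidHom.toAdditive (loSX K L (σ ^ i)) := by
  induction i with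
  | zero =>
    rw [pow_zero, ah_SX_one]
    rfl
  | succ i ih =>
    rw [ahPow_succ, ih, pow_succ', lo6_SX_mul]
    rfl

lemma ah_NX (σ : L ≃ₐ[K] L) (hσ : ∀ τ, τ ∈ Subgroup.zpowers σ) :
    ahN (orderOf σ) (MonoidHom.toAdditive (loSX K L σ)) = MonoidHom.toAdditive (loNX K L) := by
  classical
  have h1 : (Finset.univ : Finset (L ≃ₐ[K] L)) =
      Finset.image (fun i => σ ^ i) (Finset.range (orderOf σ)) :=
    (IsCyclic.image_range_orderOf hσ).symm
  refine AddMonoidHom.ext fun x => ?_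
  rw [ahN_apply]
  simp only [ah_SX_pow]
  unfold loNX
  rw [h1, Finset.prod_image]
  · change _ = Additive.ofMul ((∏ i ∈ Finset.range (orderOf σ), loSX K L (σ ^ i)) x.toMul)
    rw [MonoidHom.finsetProd_apply, ofMul_prod]
    rfl
  · intro i hi j hj hij
    exact pow_injOn_Iio_orderOf (by simpa using hi) (by simpa using hj) hij

lemma ah_stable (σ : L ≃ₐ[K] L) (N : ℕ) (x : Lˣ) (hx : x ∈ unitsAway L N) :
    loSX K L σ x ∈ unitsAway L N := by
  obtain ⟨a, i, j, ⟨c, hc⟩, hxa⟩ := hx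
  refine ⟨σ • a, i, j, ⟨σ • c, ?_⟩, ?_⟩
  · have h0 : σ • (N : 𝓞 L) = (N : 𝓞 L) :=
      map_natCast (MulSemiringAction.toRingHom (L ≃ₐ[K] L) (𝓞 L) σ) N
    rw [← smul_mul', ← hc, smul_pow', h0]
  · have := congrArg σ hxa
    rw [map_mul, map_pow, map_natCast] at this
    exact this

lemma ah_unit_mem (N : ℕ) (u : (𝓞 L)ˣ) :
    Units.map (algebraMap (𝓞 L) L : 𝓞 L →* L) u ∈ unitsAway L N :=
  ⟨u, 0, 0, by simp, by simp⟩

lemma ah_unit_mem' (N : ℕ) (u : (𝓞 L)ˣ) :
    Units.map (algebraMap (𝓞 L) L : 𝓞 L →* L) u ∈ unitsAt L N :=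
  ⟨u, 1, ⟨((u⁻¹ : (𝓞 L)ˣ) : 𝓞 L), 0, by simp⟩, isCoprime_one_left, by simp⟩

end Conc

theorem awayHerbrand (hP : Stmt_PermHerbrand) (hO : Stmt_OrdData) : Stmt_AwayHerbrand := by
  intro p K L _ _ _ _ _ σ N hC hN
  have := hC.gal
  obtain ⟨X, _, t, ord, o1, o2, o3, o4, o5, o6, o7, h, hh, o8⟩ := hO K L σ N hN
  obtain ⟨hU0, hU1⟩ := loUnits herbrand p K L hC.prime hC.deg hC.cplx σ hC.gen
  have hord : orderOf σ = p := by
    rw [orderOf_eq_card_of_forall_mem_zpowers hC.gen, IsGalois.card_aut_eq_finrank, hC.deg]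
  have hσp : σ ^ p = 1 := by rw [← hord]; exact pow_orderOf_eq_one σ
  rw [← o6]
  refine ah_mul hP p hC.prime (Units.map (algebraMap (𝓞 L) L : 𝓞 L →* L))
    (Units.map_injective (FaithfulSMul.algebraMap_injective (𝓞 L) L)) (loSX K L σ) (loNX K L)
    (loSU K L σ) (loNU K L) (lo6_iota_SU K L σ) (lo6_iota_NU K L) ?_ ?_ (unitsAway L N)
    (ah_stable K L σ N) (ah_unit_mem L N) X t ord o1 o2 (o3 p hσp) ?_ ?_ h hh o8 hU0 hU1
  · rw [ah_SX_pow, hσp, ah_SX_one]
    rfl
  · rw [← hord]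
    exact ah_NX K L σ hC.gen
  · intro x hx hx0
    obtain ⟨u, hu⟩ := o7 x hx hx0
    exact ⟨u, Units.ext hu⟩
  · intro u
    exact (o5 _).2 (ah_unit_mem' L N u)

end Fermat.Agent.CFT.HP
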