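/-
CFT / HP, package C5a: `[𝓞_K[1/N]ˣ : N 𝓞_L[1/N]ˣ] p = p^ν` (from C3, C4).
-/
import Fermat.Agent.CFT.HP.InterfaceC

set_option autoImplicit false
set_option linter.unusedSectionVars false

namespace Fermat.Agent.CFT.HP

open NumberField Fermat.Agent.S14
open scoped Pointwise

section

variable (K L : Type) [Field K] [NumberField K] [Field L] [NumberField L] [Algebra K L]

theorem awayIndex_inclU_injective : Function.Injective (inclU K L) := by
  intro x y h
  apply Units.ext
  have := congrArg (fun u : Lˣ => (u : L)) h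
  exact (algebraMap K L).injective this

theorem awayIndex_coe_inclU (x : Kˣ) : ((inclU K L x : Lˣ) : L) = algebraMap K L (x : K) := rfl

theorem awayIndex_coe_loSX (τ : L ≃ₐ[K] L) (x : Lˣ) : ((loSX K L τ x : Lˣ) : L) = τ (x : L) := rfl

theorem awayIndex_coe_loNX (x : Lˣ) :
    ((loNX K L x : Lˣ) : L) = ∏ τ : L ≃ₐ[K] L, τ (x : L) := by
  unfold loNX
  rw [MonoidHom.finsetProd_apply, Units.coe_prod]
  rfl

theorem awayIndex_inclU_normU [IsGalois K L] (x : Lˣ) : inclU K L (normU K L x) = loNX K L x := by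
  apply Units.ext
  rw [awayIndex_coe_loNX, awayIndex_coe_inclU]
  exact Algebra.norm_eq_prod_automorphisms K (x : L)

theorem awayIndex_map_normAway [IsGalois K L] (N : ℕ) :
    (normAway K L N).map (inclU K L) = (unitsAway L N).map (loNX K L) := by
  unfold normAway
  rw [Subgroup.map_map]
  congr 1
  ext x
  rw [MonoidHom.comp_apply, awayIndex_inclU_normU]

theorem awayIndex_normAway_le (N : ℕ) : normAway K L N ≤ unitsAway K N := by
  rintro _ ⟨x, ⟨a, i, j, ha, hx⟩, rfl⟩
  refine ⟨RingOfIntegers.norm K a, i * Module.finrank K L, j * Module.finrank K L, ?_, ?_⟩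
  · have h1 := map_dvd (RingOfIntegers.norm K) ha
    have h2 : RingOfIntegers.norm K ((N : 𝓞 L) ^ i) = (N : 𝓞 K) ^ (i * Module.finrank K L) := by
      have : (N : 𝓞 L) = algebraMap (𝓞 K) (𝓞 L) (N : 𝓞 K) := by simp
      rw [map_pow, this, RingOfIntegers.norm_algebraMap, ← pow_mul, mul_comm]
    rwa [h2] at h1
  · rw [RingOfIntegers.coe_norm, ← hx, map_mul]
    congr 1
    have : (N : L) = algebraMap K L (N : K) := by simp
    rw [map_pow, this, Algebra.norm_algebraMap, ← pow_mul, mul_comm]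

theorem awayIndex_mem_ker_iff (σ : L ≃ₐ[K] L) (y : Lˣ) :
    y ∈ (loSX K L σ / MonoidHom.id Lˣ).ker ↔ σ (y : L) = y := by
  rw [MonoidHom.mem_ker, MonoidHom.div_apply, MonoidHom.id_apply, div_eq_one, Units.ext_iff,
    awayIndex_coe_loSX]

theorem awayIndex_map_unitsAway [IsGalois K L] (σ : L ≃ₐ[K] L)
    (hgen : ∀ τ : L ≃ₐ[K] L, τ ∈ Subgroup.zpowers σ) (N : ℕ) (hN : N ≠ 0) :
    (unitsAway K N).map (inclU K L) =
      unitsAway L N ⊓ (loSX K L σ / MonoidHom.id Lˣ).ker := by
  apply le_antisymm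
  · rintro _ ⟨x, ⟨a, i, j, ha, hx⟩, rfl⟩
    refine ⟨⟨algebraMap (𝓞 K) (𝓞 L) a, i, j, ?_, ?_⟩, ?_⟩
    · have := map_dvd (algebraMap (𝓞 K) (𝓞 L)) ha
      simpa using this
    · rw [awayIndex_coe_inclU]
      have h1 : ((algebraMap (𝓞 K) (𝓞 L) a : 𝓞 L) : L) = algebraMap K L (a : K) := rfl
      rw [h1, ← hx]
      simp
    · show inclU K L x ∈ (loSX K L σ / MonoidHom.id Lˣ).ker
      rw [awayIndex_mem_ker_iff, awayIndex_coe_inclU]
      exact σ.commutes _
  · rintro y ⟨⟨a, i, j, ⟨a', ha'⟩, hy⟩, hker⟩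
    replace hker : y ∈ (loSX K L σ / MonoidHom.id Lˣ).ker := hker
    rw [awayIndex_mem_ker_iff] at hker
    -- `y` is fixed by the Galois group
    have hfix : ∀ τ : L ≃ₐ[K] L, τ (y : L) = y := by
      intro τ
      have h2 : σ ∈ MulAction.stabilizer (L ≃ₐ[K] L) (y : L) := hker
      have h3 : Subgroup.zpowers σ ≤ MulAction.stabilizer (L ≃ₐ[K] L) (y : L) :=
        (Subgroup.zpowers_le).mpr h2
      exact h3 (hgen τ)
    obtain ⟨k, hk⟩ := (IsGalois.mem_range_algebraMap_iff_fixed (F := K) (y : L)).mpr hfix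
    have hk0 : k ≠ 0 := by
      rintro rfl
      rw [map_zero] at hk
      exact y.ne_zero hk.symm
    have hNK : (N : K) ≠ 0 := by exact_mod_cast hN
    have hNL : (N : L) ≠ 0 := by exact_mod_cast hN
    refine ⟨Units.mk0 k hk0, ?_, Units.ext hk⟩
    -- the numerator
    have hb : algebraMap K L (k * (N : K) ^ j) = (a : L) := by
      rw [map_mul, hk, ← hy]
      simp
    have hbint : IsIntegral ℤ (k * (N : K) ^ j) := by
      rw [← isIntegral_algebraMap_iff (algebraMap K L).injective, hb]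
      exact a.2
    have haa' : (a : L) * (a' : L) = (N : L) ^ i := by
      have := congrArg (fun t : 𝓞 L => (t : L)) ha'
      simpa using this.symm
    have ha0 : (a : L) ≠ 0 := by
      intro h0
      rw [h0, zero_mul] at haa'
      exact pow_ne_zero i hNL haa'.symm
    have hb' : algebraMap K L ((N : K) ^ i / (k * (N : K) ^ j)) = (a' : L) := by
      rw [map_div₀, hb, eq_comm, eq_div_iff ha0, mul_comm, haa']
      simp
    have hb'int : IsIntegral ℤ ((N : K) ^ i / (k * (N : K) ^ j)) := by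
      rw [← isIntegral_algebraMap_iff (algebraMap K L).injective, hb']
      exact a'.2
    refine ⟨⟨_, hbint⟩, i, j, ⟨⟨_, hb'int⟩, ?_⟩, rfl⟩
    apply RingOfIntegers.ext
    have hden : k * (N : K) ^ j ≠ 0 := mul_ne_zero hk0 (pow_ne_zero j hNK)
    show ((((N : 𝓞 K) ^ i : 𝓞 K)) : K) = (k * (N : K) ^ j) * ((N : K) ^ i / (k * (N : K) ^ j))
    rw [mul_div_cancel₀ _ hden]
    simp

end

theorem awayIndex (h3 : Stmt_AwayHerbrand) (h4 : Stmt_AwayH1) : Stmt_AwayIndex := by
  intro p K L _ _ _ _ _ σ N hC hG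
  have := hC.gal
  refine ⟨awayIndex_normAway_le K L N, ?_⟩
  obtain ⟨_, _, hH⟩ := h3 p K L σ N hC hG.pos
  have h1 := Subgroup.relIndex_eq_one.mpr (h4 p K L σ N hC hG.pos hG.clK hG.unram)
  rw [h1, one_mul, ← awayIndex_map_normAway, ← awayIndex_map_unitsAway K L σ hC.gen N hG.pos,
    Subgroup.relIndex_map_map_of_injective _ _ (awayIndex_inclU_injective K L)] at hH
  exact hH

end Fermat.Agent.CFT.HP
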