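import Fermat.Agent.CFT.HP.InterfaceC

/-! # CFT / HP, package C2-S4b': `V_j` has finite index in the units at `N` (helper29) -/

set_option autoImplicit false
set_option linter.unusedSectionVars false

namespace Fermat.Agent.CFT.HP

open NumberField Fermat.Agent.S14 Fermat.Agent.CFT.P0 Fermat.Agent.CFT.Ray
open scoped Pointwise

section OneField

variable (F : Type) [Field F] [NumberField F]

theorem FiniteQuot_natCoprime {b N : ℕ} (h : b.Coprime N) : IsCoprime (b : 𝓞 F) (N : 𝓞 F) := by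
  have h1 : IsCoprime (b : ℤ) (N : ℤ) := Nat.isCoprime_iff_coprime.2 h
  have h2 := h1.map (Int.castRingHom (𝓞 F))
  simpa using h2

theorem FiniteQuot_ne_zero {b N : ℕ} (hN : 1 < N) (h : b.Coprime N) : b ≠ 0 := by
  rintro rfl
  rw [Nat.coprime_zero_left] at h
  omega

/-- units at `N` are `N`-integral -/
theorem FiniteQuot_mem_intLoc (h2 : Stmt_CoprimeInt) {N : ℕ} (hN : 1 < N) {x : Fˣ}
    (hx : x ∈ unitsAt F N) : (x : F) ∈ intLoc F N 0 := by
  obtain ⟨a, b, -, hb, hxb⟩ := hx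
  obtain ⟨μ, c, hc, hbμ⟩ := h2 F N b hb
  refine ⟨c, a * μ, FiniteQuot_ne_zero hN hc, hc, ?_⟩
  have e : (b : F) * (μ : F) = (c : F) := by
    have := congrArg (fun t : 𝓞 F => (t : F)) hbμ
    simpa using this
  push_cast
  rw [pow_zero, one_mul]
  linear_combination (μ : F) * hxb - (x : F) * e

/-- an `N`-integral element is congruent to an algebraic integer modulo `N ^ n` -/
theorem FiniteQuot_approx {N : ℕ} (n : ℕ) {y : F} (hy : y ∈ intLoc F N 0) :
    ∃ w : 𝓞 F, y - (w : F) ∈ intLoc F N n := by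
  obtain ⟨b, c, hb0, hb, hyc⟩ := hy
  rw [pow_zero, one_mul] at hyc
  have h1 : IsCoprime (b : ℤ) ((N ^ n : ℕ) : ℤ) :=
    Nat.isCoprime_iff_coprime.2 (Nat.Coprime.pow_right n hb)
  obtain ⟨u, v, huv⟩ := h1
  have huv' : (u : F) * (b : F) + (v : F) * (N : F) ^ n = 1 := by
    have := congrArg (fun t : ℤ => (t : F)) huv
    push_cast at this
    exact this
  obtain ⟨U, cu⟩ : ∃ U : 𝓞 F, (U : F) = (u : F) := ⟨(u : 𝓞 F), by simp⟩
  obtain ⟨W, cv⟩ : ∃ W : 𝓞 F, (W : F) = (v : F) := ⟨(v : 𝓞 F), by simp⟩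
  refine ⟨U * c, b, W * c, hb0, hb, ?_⟩
  have e : ((U * c : 𝓞 F) : F) = (u : F) * (c : F) := by rw [← cu]; exact map_mul _ _ _
  have e' : ((W * c : 𝓞 F) : F) = (v : F) * (c : F) := by rw [← cv]; exact map_mul _ _ _
  rw [e, e']
  linear_combination hyc - (c : F) * huv'

theorem FiniteQuot_of_dvd {N : ℕ} (n : ℕ) {w w' : 𝓞 F}
    (h : Ideal.Quotient.mk (Ideal.span {(N : 𝓞 F) ^ n}) w
      = Ideal.Quotient.mk (Ideal.span {(N : 𝓞 F) ^ n}) w') :
    (w : F) - (w' : F) ∈ intLoc F N n := by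
  rw [Ideal.Quotient.eq, Ideal.mem_span_singleton] at h
  obtain ⟨c, hc⟩ := h
  refine ⟨1, c, one_ne_zero, by simp, ?_⟩
  have := congrArg (fun t : 𝓞 F => (t : F)) hc
  push_cast at this
  rw [Nat.cast_one, one_mul]
  exact this

end OneField

/-- abstract finiteness criterion -/
theorem FiniteQuot_relIndex {G Q : Type} [Group G] [Finite Q] (H U : Subgroup G) (r : U → Q)
    (hr : ∀ x y : U, r x = r y → (x : G)⁻¹ * (y : G) ∈ H) : H.relIndex U ≠ 0 := by
  classical
  let g : Q → U ⧸ H.subgroupOf U := fun s =>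
    if h : ∃ x, r x = s then (QuotientGroup.mk h.choose) else QuotientGroup.mk 1
  have hg : Function.Surjective g := by
    intro c
    induction c using QuotientGroup.induction_on with
    | H x =>
      refine ⟨r x, ?_⟩
      have h : ∃ y, r y = r x := ⟨x, rfl⟩
      show (if h : ∃ y, r y = r x then (QuotientGroup.mk h.choose : U ⧸ H.subgroupOf U) else QuotientGroup.mk 1) = _
      rw [dif_pos h, QuotientGroup.eq]
      exact hr _ _ h.choose_spec
  have : Finite (U ⧸ H.subgroupOf U) := Finite.of_surjective g hg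
  exact Subgroup.index_ne_zero_of_finite

theorem finiteQuot (h0 : Stmt_LamBasic) (h1 : Stmt_VGroup) (h2 : Stmt_CoprimeInt) :
    Stmt_FiniteQuot := by
  intro K L _ _ _ _ _ _ θ N hLam j hj
  obtain ⟨-, -, hIL, -, hmul, -⟩ := h0 K L θ N hLam
  have hV := h1 K L θ N hLam j hj
  have hN := hLam.pos
  constructor
  · intro x hx
    obtain ⟨b, l, hb0, hb, -, hbl⟩ := (hV x).1 hx
    obtain ⟨i, rfl⟩ : ∃ i, j = i + 1 := ⟨j - 1, by omega⟩
    refine ⟨(b : 𝓞 L) + (N : 𝓞 L) * ((N : 𝓞 L) ^ i * l), b, ?_, FiniteQuot_natCoprime L hb, ?_⟩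
    · exact IsCoprime.add_mul_left_left (FiniteQuot_natCoprime L hb) _
    · push_cast
      linear_combination hbl
  · have hne : Ideal.span {(N : 𝓞 L) ^ (j + 1)} ≠ ⊥ := by
      rw [Ne, Ideal.span_singleton_eq_bot]
      apply pow_ne_zero
      exact_mod_cast (by omega : N ≠ 0)
    have hfin : Finite (𝓞 L ⧸ Ideal.span {(N : 𝓞 L) ^ (j + 1)}) :=
      Ideal.finiteQuotientOfFreeOfNeBot _ hne
    have hw : ∀ x : unitsAt L N, ∃ w : 𝓞 L, ((x : Lˣ) : L) - (w : L) ∈ intLoc L N (j + 1) :=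
      fun x => FiniteQuot_approx L (j + 1) (FiniteQuot_mem_intLoc L h2 hN x.2)
    choose w hw using hw
    apply FiniteQuot_relIndex (Vsub K L θ N j) (unitsAt L N)
      (fun x => Ideal.Quotient.mk (Ideal.span {(N : 𝓞 L) ^ (j + 1)}) (w x))
    intro x y hxy
    have e1 := FiniteQuot_of_dvd L (j + 1) hxy
    have e2 : ((y : Lˣ) : L) - ((x : Lˣ) : L) ∈ intLoc L N (j + 1) := by
      have := (intLoc L N (j + 1)).add_mem ((intLoc L N (j + 1)).sub_mem (hw y) (hw x))
        ((intLoc L N (j + 1)).neg_mem e1)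
      convert this using 1
      ring
    have e3 : (((x : Lˣ)⁻¹ : Lˣ) : L) ∈ intLoc L N 0 :=
      FiniteQuot_mem_intLoc L h2 hN ((unitsAt L N).inv_mem x.2)
    have e4 := hmul (j + 1) 0 _ _ e2 e3
    rw [hV]
    apply hIL j
    rw [add_zero] at e4
    convert e4 using 1
    have hx0 : ((x : Lˣ) : L) ≠ 0 := (x : Lˣ).ne_zero
    push_cast
    field_simp

end Fermat.Agent.CFT.HP

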