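/-
CFT / HP, package HP-C6: sufficiently divisible integers are good (`Stmt_GoodExists`).
-/
import Fermat.Agent.CFT.HP.InterfaceC

set_option autoImplicit false

namespace Fermat.Agent.CFT.HP

open NumberField
open scoped Pointwise

/-! ### integral multiples -/

/-- every element of a number field has a nonzero integer multiple which is an algebraic integer. -/
lemma goodExists_int_mul (F : Type) [Field F] [NumberField F] (k : F) :
    ∃ d : ℤ, d ≠ 0 ∧ ∃ a : 𝓞 F, (a : F) = (d : F) * k := by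
  have halg : IsAlgebraic ℤ k :=
    (IsFractionRing.isAlgebraic_iff ℤ ℚ F).2 (Algebra.IsAlgebraic.isAlgebraic k)
  obtain ⟨d, hd, hint⟩ := halg.exists_integral_multiple
  refine ⟨d, hd, ⟨d • k, hint⟩, ?_⟩
  show d • k = (d : F) * k
  rw [zsmul_eq_mul]

/-! ### the class group condition -/

lemma goodExists_cl (F : Type) [Field F] [NumberField F] :
    ∃ n : ℕ, n ≠ 0 ∧ ∀ N : ℕ, n ∣ N → ClAway F N := by
  classical
  choose rep hrep using (ClassGroup.mk0_surjective (R := 𝓞 F))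
  refine ⟨∏ C : ClassGroup (𝓞 F), Ideal.absNorm (rep C : Ideal (𝓞 F)), ?_, ?_⟩
  · rw [Finset.prod_ne_zero_iff]
    intro C _ h0
    rw [Ideal.absNorm_eq_zero_iff] at h0
    exact (mem_nonZeroDivisors_iff_ne_zero.1 (rep C).2) h0
  · intro N hN I hI
    have hI' : I ∈ nonZeroDivisors (Ideal (𝓞 F)) := mem_nonZeroDivisors_iff_ne_zero.2 hI
    set J := rep (ClassGroup.mk0 ⟨I, hI'⟩)⁻¹ with hJ
    have hJ0 : (J : Ideal (𝓞 F)) ≠ ⊥ := mem_nonZeroDivisors_iff_ne_zero.1 J.2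
    have hIJ : I * (J : Ideal (𝓞 F)) ∈ nonZeroDivisors (Ideal (𝓞 F)) :=
      mem_nonZeroDivisors_iff_ne_zero.2 (mul_ne_zero hI hJ0)
    have hprod : ClassGroup.mk0 ⟨I * (J : Ideal (𝓞 F)), hIJ⟩ = 1 := by
      have e1 : (⟨I * (J : Ideal (𝓞 F)), hIJ⟩ : nonZeroDivisors (Ideal (𝓞 F))) = ⟨I, hI'⟩ * J := rfl
      rw [e1, map_mul, hJ, hrep, mul_inv_cancel]
    have hprin : (I * (J : Ideal (𝓞 F))).IsPrincipal := (ClassGroup.mk0_eq_one_iff hIJ).1 hprod
    obtain ⟨α, hα⟩ := hprin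
    refine ⟨α, J, 1, ?_, ?_, ?_⟩
    · rintro rfl
      have : I * (J : Ideal (𝓞 F)) = ⊥ := by
        rw [hα]
        simp
      rcases mul_eq_zero.1 this with h | h
      · exact hI h
      · exact hJ0 h
    · rw [pow_one, Ideal.dvd_iff_le, Ideal.span_singleton_le_iff_mem]
      have h1 : Ideal.absNorm (J : Ideal (𝓞 F)) ∣ N :=
        (Finset.dvd_prod_of_mem (fun C : ClassGroup (𝓞 F) => Ideal.absNorm (rep C : Ideal (𝓞 F)))
          (Finset.mem_univ _)).trans hN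
      obtain ⟨m, rfl⟩ := h1
      push_cast
      exact Ideal.mul_mem_right _ _ (Ideal.absNorm_mem _)
    · exact hα.symm

/-! ### the inertia condition -/

section TwoFields

variable (K L : Type) [Field K] [NumberField K] [Field L] [NumberField L] [Algebra K L]

lemma goodExists_moved (h : L ≃ₐ[K] L) (hh : h ≠ 1) : ∃ z : 𝓞 L, h • z - z ≠ 0 := by
  by_contra hcon
  push Not at hcon
  apply hh
  ext x
  obtain ⟨d, hd, a, ha⟩ := goodExists_int_mul L x
  have h1 : h (a : L) = (a : L) := by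
    have := congrArg (fun t : 𝓞 L => (t : L)) (sub_eq_zero.1 (hcon a))
    exact this
  rw [ha, map_mul, map_intCast] at h1
  have hd' : (d : L) ≠ 0 := Int.cast_ne_zero.2 hd
  exact mul_left_cancel₀ hd' h1

lemma goodExists_unram : ∃ r : ℕ, r ≠ 0 ∧ ∀ N : ℕ, r ∣ N → UnramAway K L N := by
  classical
  have hex : ∀ h : L ≃ₐ[K] L, ∃ z : 𝓞 L, h ≠ 1 → h • z - z ≠ 0 := fun h => by
    by_cases hh : h = 1
    · exact ⟨0, fun h' => absurd hh h'⟩
    · obtain ⟨z, hz⟩ := goodExists_moved K L h hh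
      exact ⟨z, fun _ => hz⟩
  choose z hz using hex
  refine ⟨∏ h ∈ Finset.univ.filter (fun h : L ≃ₐ[K] L => h ≠ 1),
    Ideal.absNorm (Ideal.span {h • z h - z h}), ?_, ?_⟩
  · rw [Finset.prod_ne_zero_iff]
    intro h hh h0
    rw [Ideal.absNorm_eq_zero_iff, Ideal.span_singleton_eq_bot] at h0
    exact hz h (Finset.mem_filter.1 hh).2 h0
  · intro N hN P _ _ hNP h hP
    by_contra hh
    apply hNP
    have h1 : Ideal.absNorm (Ideal.span {h • z h - z h}) ∣ N :=
      (Finset.dvd_prod_of_mem (fun h : L ≃ₐ[K] L => Ideal.absNorm (Ideal.span {h • z h - z h}))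
        (Finset.mem_filter.2 ⟨Finset.mem_univ h, hh⟩)).trans hN
    obtain ⟨m, rfl⟩ := h1
    push_cast
    refine Ideal.mul_mem_right _ _ ?_
    have h2 : Ideal.span {h • z h - z h} ≤ P :=
      (Ideal.span_singleton_le_iff_mem _).2 (hP (z h))
    exact h2 (Ideal.absNorm_mem _)

/-! ### the normal lattice -/

variable [IsGalois K L]

/-- a normal basis generator in `𝓞 L` such that every element of `L` has a nonzero integer multiple
in the lattice. -/
lemma goodExists_lam_pointwise : ∃ θ : 𝓞 L, ∀ x : L, ∃ c : ℤ, c ≠ 0 ∧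
    ∃ l ∈ lam K L θ, (l : L) = (c : L) * x := by
  obtain ⟨y, hy, θ, hθ⟩ := goodExists_int_mul L (IsGalois.normalBasis K L 1)
  refine ⟨θ, fun x => ?_⟩
  have hx : x ∈ Submodule.span K (Set.range (IsGalois.normalBasis K L)) := by
    rw [Module.Basis.span_eq]; trivial
  induction hx using Submodule.span_induction with
  | mem x hx =>
    obtain ⟨τ, rfl⟩ := hx
    refine ⟨y, hy, τ • θ, Submodule.subset_span ⟨τ, rfl⟩, ?_⟩
    show τ (θ : L) = _
    rw [hθ, map_mul, map_intCast, IsGalois.normalBasis_apply τ]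
  | zero => exact ⟨1, one_ne_zero, 0, Submodule.zero_mem _, by simp⟩
  | add x x' _ _ ih ih' =>
    obtain ⟨c, hc, l, hl, e⟩ := ih
    obtain ⟨c', hc', l', hl', e'⟩ := ih'
    refine ⟨c * c', mul_ne_zero hc hc', (c' : 𝓞 K) • l + (c : 𝓞 K) • l',
      Submodule.add_mem _ (Submodule.smul_mem _ _ hl) (Submodule.smul_mem _ _ hl'), ?_⟩
    have e1 : (((c' : 𝓞 K) • l : 𝓞 L) : L) = (c' : L) * (l : L) := by
      rw [Algebra.smul_def]; simp
    have e2 : (((c : 𝓞 K) • l' : 𝓞 L) : L) = (c : L) * (l' : L) := by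
      rw [Algebra.smul_def]; simp
    have e3 : (((c' : 𝓞 K) • l + (c : 𝓞 K) • l' : 𝓞 L) : L) =
        (c' : L) * (l : L) + (c : L) * (l' : L) := by
      rw [← e1, ← e2]; push_cast; rfl
    rw [e3, e, e']
    push_cast
    ring
  | smul k x _ ih =>
    obtain ⟨c, hc, l, hl, e⟩ := ih
    obtain ⟨d, hd, a, ha⟩ := goodExists_int_mul K k
    refine ⟨d * c, mul_ne_zero hd hc, a • l, Submodule.smul_mem _ _ hl, ?_⟩
    have e1 : ((a • l : 𝓞 L) : L) = algebraMap K L (a : K) * (l : L) := by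
      rw [Algebra.smul_def]; rfl
    rw [e1, e, ha, Algebra.smul_def]
    push_cast
    simp only [map_intCast]
    ring

lemma goodExists_lam : ∃ (θ : 𝓞 L) (c : ℤ), c ≠ 0 ∧ ∀ x : 𝓞 L, (c : 𝓞 L) * x ∈ lam K L θ := by
  classical
  obtain ⟨θ, hθ⟩ := goodExists_lam_pointwise K L
  have hθ' : ∀ x : 𝓞 L, ∃ c : ℤ, c ≠ 0 ∧ (c : 𝓞 L) * x ∈ lam K L θ := fun x => by
    obtain ⟨c, hc, l, hl, e⟩ := hθ (x : L)
    refine ⟨c, hc, ?_⟩
    have : (c : 𝓞 L) * x = l := by
      apply RingOfIntegers.ext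
      rw [e]
      simp
    rw [this]
    exact hl
  choose c hc hcl using hθ'
  obtain ⟨s, hs⟩ := (inferInstance : Module.Finite ℤ (𝓞 L)).fg_top
  refine ⟨θ, ∏ g ∈ s, c g, Finset.prod_ne_zero_iff.2 fun g _ => hc g, fun x => ?_⟩
  have hx : x ∈ Submodule.span ℤ (s : Set (𝓞 L)) := by rw [hs]; trivial
  induction hx using Submodule.span_induction with
  | mem x hx =>
    obtain ⟨m, hm⟩ := Finset.dvd_prod_of_mem c hx
    rw [hm]
    have : ((c x * m : ℤ) : 𝓞 L) * x = (m : 𝓞 K) • ((c x : 𝓞 L) * x) := by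
      rw [Algebra.smul_def]
      push_cast
      simp only [map_intCast]
      ring
    rw [this]
    exact Submodule.smul_mem _ _ (hcl x)
  | zero => rw [mul_zero]; exact Submodule.zero_mem _
  | add x x' _ _ ih ih' => rw [mul_add]; exact Submodule.add_mem _ ih ih'
  | smul k x _ ih =>
    have : ((∏ g ∈ s, c g : ℤ) : 𝓞 L) * (k • x) = (k : 𝓞 K) • (((∏ g ∈ s, c g : ℤ) : 𝓞 L) * x) := by
      rw [zsmul_eq_mul, Algebra.smul_def]
      simp only [map_intCast]
      ring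
    rw [this]
    exact Submodule.smul_mem _ _ ih

end TwoFields

/-- **(C6)** sufficiently divisible integers are good. -/
theorem goodExists : Stmt_GoodExists := by
  intro K L _ _ _ _ _ _
  obtain ⟨θ, c, hc, hlam⟩ := goodExists_lam K L
  obtain ⟨nK, hnK, hK⟩ := goodExists_cl K
  obtain ⟨nL, hnL, hL⟩ := goodExists_cl L
  obtain ⟨r, hr, hun⟩ := goodExists_unram K L
  refine ⟨2 * c.natAbs * nK * nL * r, ?_, fun N hN0 hN => ?_⟩
  · have : c.natAbs ≠ 0 := Int.natAbs_ne_zero.2 hc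
    positivity
  · have d2 : 2 ∣ N := Dvd.dvd.trans ⟨c.natAbs * nK * nL * r, by ring⟩ hN
    have dc : c.natAbs ∣ N := Dvd.dvd.trans ⟨2 * nK * nL * r, by ring⟩ hN
    have dK : nK ∣ N := Dvd.dvd.trans ⟨2 * c.natAbs * nL * r, by ring⟩ hN
    have dL : nL ∣ N := Dvd.dvd.trans ⟨2 * c.natAbs * nK * r, by ring⟩ hN
    have dr : r ∣ N := Dvd.dvd.trans ⟨2 * c.natAbs * nK * nL, by ring⟩ hN
    refine ⟨hN0, ⟨θ, ?_, fun x => ?_⟩, hK N dK, hL N dL, hun N dr⟩
    · have := Nat.le_of_dvd (Nat.pos_of_ne_zero hN0) d2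
      omega
    · have dc' : c ∣ (N : ℤ) := Int.natAbs_dvd_natAbs.1 (by simpa using dc)
      obtain ⟨m, hm⟩ := dc'
      have h1 : (N : 𝓞 L) = (c : 𝓞 L) * (m : 𝓞 L) := by
        have := congrArg (fun t : ℤ => (t : 𝓞 L)) hm
        simpa using this
      rw [h1, mul_assoc]
      exact hlam _

end Fermat.Agent.CFT.HP
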