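/-
CFT / HP, package C2-S3: `V_j / V_{j+1}` is induced: invariants are norms (`Stmt_GrInduced`).
-/
import Fermat.Agent.CFT.HP.InterfaceC

set_option autoImplicit false

namespace Fermat.Agent.CFT.HP

open NumberField Fermat.Agent.S14 Fermat.Agent.CFT.P0 Fermat.Agent.CFT.Ray
open scoped Pointwise

theorem grInduced_mono {L : Type} [AddGroup L] (I : ℕ → AddSubgroup L)
    (hmono : ∀ i, I (i + 1) ≤ I i) (i k : ℕ) : I (i + k) ≤ I i := by
  induction k with
  | zero => exact le_rfl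
  | succ k ih => exact (hmono (i + k)).trans ih

theorem grInduced_mono' {L : Type} [AddGroup L] (I : ℕ → AddSubgroup L)
    (hmono : ∀ i, I (i + 1) ≤ I i) {i k : ℕ} (h : i ≤ k) : I k ≤ I i := by
  obtain ⟨d, rfl⟩ := Nat.exists_eq_add_of_le h
  exact grInduced_mono I hmono i d

/-- `∏ (1 + R a_t) = 1 + R ∑ a_t` modulo `I (2j)`. -/
theorem grInduced_prod {L G : Type} [Field L] (I : ℕ → AddSubgroup L)
    (hmul : ∀ (i j : ℕ) (y y' : L), y ∈ I i → y' ∈ I j → y * y' ∈ I (i + j))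
    (hmono : ∀ i, I (i + 1) ≤ I i) (j : ℕ) (R : L) (hR : R ∈ I j) (a : G → L)
    (ha : ∀ t, a t ∈ I 0) (s : Finset G) :
    (∏ t ∈ s, (1 + R * a t)) - 1 - R * ∑ t ∈ s, a t ∈ I (j + j) := by
  classical
  induction s using Finset.induction_on with
  | empty => simp
  | insert t s ht ih =>
    rw [Finset.prod_insert ht, Finset.sum_insert ht]
    set P := ∏ t ∈ s, (1 + R * a t) with hP
    set σ := ∑ t ∈ s, a t with hσ
    have hσ0 : σ ∈ I 0 := AddSubgroup.sum_mem _ fun t _ => ha t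
    have e : (1 + R * a t) * P - 1 - R * (a t + σ) =
        (R * R) * (a t * σ) + (P - 1 - R * σ) + (P - 1 - R * σ) * (R * a t) := by ring
    rw [e]
    refine add_mem (add_mem ?_ ih) ?_
    · exact hmul (j + j) (0 + 0) _ _ (hmul j j _ _ hR hR) (hmul 0 0 _ _ (ha t) hσ0)
    · exact grInduced_mono I hmono (j + j) (j + 0) (hmul (j + j) (j + 0) _ _ ih (hmul j 0 _ _ hR (ha t)))

/-- `-1 ∉ N 𝓞_(N)` for `N > 1`. -/
theorem grInduced_neg_one_not_mem (L : Type) [Field L] [NumberField L] (N : ℕ) (hN : 1 < N) :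
    (-1 : L) ∉ intLoc L N 1 := by
  rintro ⟨b, c, -, hb, h⟩
  obtain ⟨u, v, huv⟩ := Nat.isCoprime_iff_coprime.2 hb
  have huv' : (u : L) * (b : L) + (v : L) * (N : L) = 1 := by
    have := congrArg (fun t : ℤ => (t : L)) huv
    push_cast at this
    exact this
  have hN0 : (N : L) ≠ 0 := Nat.cast_ne_zero.2 (by omega)
  have hinv : (N : L)⁻¹ = (v : L) - (u : L) * (c : L) := by
    symm
    apply eq_inv_of_mul_eq_one_left
    linear_combination huv' + (u : L) * h
  have hZ : ∀ w : ℤ, IsIntegral ℤ (w : L) := fun w => by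
    have := isIntegral_algebraMap (R := ℤ) (A := L) (x := w)
    simpa using this
  have hint : IsIntegral ℤ ((N : L)⁻¹) := by
    rw [hinv]
    exact (hZ v).sub ((hZ u).mul (RingOfIntegers.isIntegral_coe c))
  have hint' : IsIntegral ℤ (algebraMap ℚ L ((N : ℚ)⁻¹)) := by
    simpa using hint
  rw [isIntegral_algebraMap_iff (algebraMap ℚ L).injective,
    IsIntegrallyClosed.isIntegral_iff] at hint'
  obtain ⟨m, hm⟩ := hint'
  have hNQ : (N : ℚ) ≠ 0 := Nat.cast_ne_zero.2 (by omega)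
  have h1 : (m : ℚ) * (N : ℚ) = 1 := by
    have : (algebraMap ℤ ℚ m) = (m : ℚ) := rfl
    rw [← this, hm, inv_mul_cancel₀ hNQ]
  have h2 : m * (N : ℤ) = 1 := by exact_mod_cast h1
  have h3 : (N : ℤ) ∣ 1 := ⟨m, by rw [mul_comm]; exact h2.symm⟩
  have h4 : N ∣ 1 := by exact_mod_cast h3
  have := Nat.dvd_one.1 h4
  omega

/-- base change of `intLoc`. -/
theorem grInduced_map_intLoc (K L : Type) [Field K] [NumberField K] [Field L] [NumberField L]
    [Algebra K L] (N j : ℕ) {r : K} (hr : r ∈ intLoc K N j) :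
    algebraMap K L r ∈ intLoc L N j := by
  obtain ⟨b, c, hb0, hb, h⟩ := hr
  refine ⟨b, algebraMap (𝓞 K) (𝓞 L) c, hb0, hb, ?_⟩
  have h1 := congrArg (algebraMap K L) h
  have h2 : algebraMap K L (c : K) = ((algebraMap (𝓞 K) (𝓞 L) c : 𝓞 L) : L) :=
    (IsScalarTower.algebraMap_apply (𝓞 K) K L c).symm.trans
      (IsScalarTower.algebraMap_apply (𝓞 K) (𝓞 L) L c)
  rw [← h2]
  simpa using h1

theorem grInduced_coe_mem (L : Type) [Field L] [NumberField L] (N : ℕ) (x : 𝓞 L) :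
    (x : L) ∈ intLoc L N 0 :=
  ⟨1, x, one_ne_zero, by simp, by simp⟩

/-- **C2-S3.** `V_j / V_{j+1}` is induced: invariants are norms. -/
theorem grInduced (h0 : Stmt_LamBasic) (h1 : Stmt_VGroup) : Stmt_GrInduced := by
  intro K L _ _ _ _ _ _ θ N hLam j hj z hz hinv
  classical
  obtain ⟨hli, -, hint_lam, hlam_int, hmul, hτlam, -, -, -, hcoef⟩ := h0 K L θ N hLam
  have hV := h1 K L θ N hLam
  have hmono : ∀ i, intLoc L N (i + 1) ≤ intLoc L N i := fun i =>
    (hint_lam i).trans (hlam_int i)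
  set e : (L ≃ₐ[K] L) → L := fun τ => ((τ • θ : 𝓞 L) : L) with he
  have he0 : ∀ τ, e τ ∈ intLoc L N 0 := fun τ => grInduced_coe_mem L N _
  have heτ : ∀ τ ρ : L ≃ₐ[K] L, τ (e ρ) = e (τ * ρ) := fun τ ρ => by
    simp only [he]
    rw [mul_smul]
    rfl
  have habs : ∀ i, j + 2 ≤ i → intLoc L N i ≤ lamLoc K L θ N (j + 1) := fun i hi =>
    (grInduced_mono' _ hmono hi).trans (hint_lam (j + 1))
  -- Step A
  have hz1 : (z : L) - 1 ∈ lamLoc K L θ N j := (hV j (by omega) z).1 hz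
  obtain ⟨c, hc, hzc⟩ := (hcoef j _).1 hz1
  -- Step B
  have hB : ∀ τ : L ≃ₐ[K] L, τ (z : L) - z ∈ lamLoc K L θ N (j + 1) := by
    intro τ
    have hw : ((loSX K L τ z / z : Lˣ) : L) - 1 ∈ lamLoc K L θ N (j + 1) :=
      (hV (j + 1) (by omega) _).1 (hinv τ)
    have hwz : τ (z : L) - z = (((loSX K L τ z / z : Lˣ) : L) - 1) +
        ((z : L) - 1) * (((loSX K L τ z / z : Lˣ) : L) - 1) := by
      have h2 : ((loSX K L τ z / z : Lˣ) : L) = τ (z : L) / z := by
        rw [Units.val_div_eq_div_val]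
        rfl
      rw [h2]
      have hz0 : (z : L) ≠ 0 := z.ne_zero
      field_simp
      ring
    rw [hwz]
    exact add_mem hw (habs (j + (j + 1)) (by omega)
      (hmul j (j + 1) _ _ (hlam_int j hz1) (hlam_int (j + 1) hw)))
  -- Step C
  have hC : ∀ ρ : L ≃ₐ[K] L, c ρ - c 1 ∈ intLoc K N (j + 1) := by
    intro ρ
    obtain ⟨d, hd, hdz⟩ := (hcoef (j + 1) _).1 (hB ρ⁻¹)
    have h2 : ρ⁻¹ (z : L) - z = ∑ τ, algebraMap K L (c (ρ * τ) - c τ) * e τ := by
      have h3 : ρ⁻¹ (z : L) - z = ρ⁻¹ ((z : L) - 1) - ((z : L) - 1) := by simp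
      rw [h3, hzc, map_sum]
      simp only [map_mul, AlgEquiv.commutes, map_sub, sub_mul, Finset.sum_sub_distrib]
      congr 1
      refine (Fintype.sum_equiv (Equiv.mulLeft ρ) _ _ (fun τ => ?_)).symm
      change _ = algebraMap K L (c (ρ * τ)) * ρ⁻¹ (e (ρ * τ))
      rw [heτ, inv_mul_cancel_left]
    have h3 : ∑ τ, (c (ρ * τ) - c τ - d τ) • e τ = 0 := by
      have h4 : ∀ τ, (c (ρ * τ) - c τ - d τ) • e τ =
          algebraMap K L (c (ρ * τ) - c τ) * e τ - algebraMap K L (d τ) * e τ := fun τ => by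
        rw [Algebra.smul_def, map_sub (algebraMap K L) (c (ρ * τ) - c τ), sub_mul]
      rw [Finset.sum_congr rfl fun τ _ => h4 τ, Finset.sum_sub_distrib, ← h2, hdz, sub_self]
    have h4 := Fintype.linearIndependent_iff.1 hli _ h3 1
    rw [mul_one] at h4
    rw [sub_eq_zero.1 h4]
    exact hd 1
  -- Step D
  set r : K := c 1 with hr
  set R : L := algebraMap K L r with hR
  have hRmem : R ∈ intLoc L N j := grInduced_map_intLoc K L N j (hc 1)
  have hy1 : R * e 1 ∈ lamLoc K L θ N j := by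
    refine (hcoef j _).2 ⟨Pi.single 1 r, ?_, ?_⟩
    · intro τ
      by_cases h : τ = 1
      · subst h
        simpa using hc 1
      · rw [Pi.single_eq_of_ne h]
        exact zero_mem _
    · rw [Finset.sum_eq_single 1]
      · simp [hR, he]
      · intro τ _ h
        rw [Pi.single_eq_of_ne h]
        simp
      · simp
  have hy0 : 1 + R * e 1 ≠ 0 := by
    intro h
    have h2 : (-1 : L) = R * e 1 := by linear_combination -h
    apply grInduced_neg_one_not_mem L N hLam.pos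
    rw [h2]
    exact grInduced_mono' _ hmono (by omega : 1 ≤ j) (hlam_int j hy1)
  set y : Lˣ := Units.mk0 _ hy0 with hy
  have hyval : (y : L) = 1 + R * e 1 := rfl
  have hyV : y ∈ Vsub K L θ N j := (hV j (by omega) y).2 (by
    rw [hyval, add_sub_cancel_left]
    exact hy1)
  -- Step E
  have hNy : ((loNX K L y : Lˣ) : L) = ∏ τ : L ≃ₐ[K] L, (1 + R * e τ) := by
    have h2 : ((loNX K L y : Lˣ) : L) = ∏ τ : L ≃ₐ[K] L, τ (y : L) := by simp [loNX, loSX]
    rw [h2]
    refine Finset.prod_congr rfl fun τ _ => ?_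
    rw [hyval, map_add, map_one, map_mul, heτ, mul_one, hR, AlgEquiv.commutes]
  have hE := grInduced_prod (intLoc L N) hmul hmono j R hRmem e he0 Finset.univ
  -- Step F
  have hF : (z : L) - (loNX K L y : Lˣ) ∈ lamLoc K L θ N (j + 1) := by
    have h2 : (z : L) - (loNX K L y : Lˣ) = (∑ τ, algebraMap K L (c τ - r) * e τ) -
        ((∏ τ, (1 + R * e τ)) - 1 - R * ∑ τ, e τ) := by
      rw [hNy]
      have h3 : (z : L) = 1 + ∑ τ, algebraMap K L (c τ) * e τ := by
        rw [← hzc]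
        ring
      rw [h3]
      simp only [map_sub, sub_mul, Finset.sum_sub_distrib, Finset.mul_sum]
      ring
    rw [h2]
    exact sub_mem ((hcoef (j + 1) _).2 ⟨fun τ => c τ - r, hC, rfl⟩) (habs (j + j) (by omega) hE)
  -- Step G
  have hNV : loNX K L y ∈ Vsub K L θ N j := by
    unfold loNX
    rw [MonoidHom.finsetProd_apply]
    refine Subgroup.prod_mem _ fun τ _ => ?_
    refine (hV j (by omega) _).2 ?_
    have h2 : ((loSX K L τ y : Lˣ) : L) - 1 = τ ((y : L) - 1) := by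
      rw [map_sub, map_one]
      rfl
    rw [h2]
    exact hτlam j τ _ ((hV j (by omega) y).1 hyV)
  have hv := (hV j (by omega) _).1 (inv_mem hNV)
  refine ⟨y, hyV, (hV (j + 1) (by omega) _).2 ?_⟩
  have h3 : ((z / loNX K L y : Lˣ) : L) - 1 = ((z : L) - (loNX K L y : Lˣ)) +
      ((z : L) - (loNX K L y : Lˣ)) * ((((loNX K L y)⁻¹ : Lˣ) : L) - 1) := by
    rw [Units.val_div_eq_div_val, Units.val_inv_eq_inv_val]
    have hn0 : ((loNX K L y : Lˣ) : L) ≠ 0 := Units.ne_zero _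
    field_simp
    ring
  rw [h3]
  exact add_mem hF (habs (j + 1 + j) (by omega)
    (hmul (j + 1) j _ _ (hlam_int (j + 1) hF) (hlam_int j hv)))

end Fermat.Agent.CFT.HP
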