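/-
CFT / HP-C7 (helper65): the Hasse norm theorem, approximation form, from the finite level version.
-/
import Fermat.Agent.CFT.HP.InterfaceC

set_option autoImplicit false

namespace Fermat.Agent.CFT.HP

open NumberField

/-- a nonzero algebraic integer divides a nonzero natural number -/
theorem HNT_exists_nat_dvd {K : Type} [Field K] [NumberField K] (a : 𝓞 K) (ha : a ≠ 0) :
    ∃ n : ℕ, n ≠ 0 ∧ a ∣ (n : 𝓞 K) := by
  refine ⟨Ideal.absNorm (Ideal.span {a}), ?_, ?_⟩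
  · rw [Ne, Ideal.absNorm_eq_zero_iff, Ideal.span_singleton_eq_bot]
    exact ha
  · exact Ideal.mem_span_singleton.mp (Ideal.absNorm_mem _)

theorem hnt (h5 : Stmt_HNTfin) (h6 : Stmt_GoodExists) : Stmt_HNT := by
  intro p K L _ _ _ _ _ σ hC a ha
  have := hC.gal
  obtain ⟨N₀, hN₀, hgood⟩ := h6 K L
  obtain ⟨a1, a2, ha2, hdiv⟩ := IsFractionRing.div_surjective (A := 𝓞 K) (a : K)
  have ha2' : a2 ≠ 0 := nonZeroDivisors.ne_zero ha2
  have ha1' : a1 ≠ 0 := by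
    rintro rfl
    rw [map_zero, zero_div] at hdiv
    exact a.ne_zero hdiv.symm
  obtain ⟨n1, hn1, hd1⟩ := HNT_exists_nat_dvd a1 ha1'
  obtain ⟨n2, hn2, hd2⟩ := HNT_exists_nat_dvd a2 ha2'
  set N : ℕ := N₀ * n1 * n2 with hN
  have hN0 : N ≠ 0 := mul_ne_zero (mul_ne_zero hN₀ hn1) hn2
  have hdN1 : a1 ∣ (N : 𝓞 K) := by
    rw [hN]; push_cast
    exact Dvd.dvd.mul_right (Dvd.dvd.mul_left hd1 _) _
  obtain ⟨a2', h2⟩ : a2 ∣ (N : 𝓞 K) := by
    rw [hN]; push_cast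
    exact Dvd.dvd.mul_left hd2 _
  have hmem : a ∈ unitsAway K N := by
    refine ⟨a1 * a2', 2, 1, ?_, ?_⟩
    · rw [pow_two]
      exact mul_dvd_mul hdN1 ⟨a2, by rw [h2]; ring⟩
    · have h3 : (N : K) = (a2 : K) * (a2' : K) := by
        have := congrArg (fun t : 𝓞 K => (t : K)) h2
        simpa using this
      have h4 : (a2 : K) ≠ 0 := by
        intro h
        exact ha2' (RingOfIntegers.coe_eq_zero_iff.mp h)
      have h5' : (a : K) = (a1 : K) / (a2 : K) := hdiv.symm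
      rw [pow_one, h3, h5']
      push_cast
      field_simp
  have hfin := h5 p K L σ N hC (hgood N hN0 (Dvd.dvd.mul_right (Dvd.intro _ rfl) _))
    ⟨hmem, ha (N ^ 3) (pow_ne_zero _ hN0)⟩
  obtain ⟨y, _, rfl⟩ := hfin
  exact ⟨y, rfl⟩

end Fermat.Agent.CFT.HP
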