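/-
CFT / HP, package C5 (helper19): the counting argument and the finite level Hasse norm theorem.
-/
import Fermat.Agent.CFT.HP.InterfaceC

set_option autoImplicit false

namespace Fermat.Agent.CFT.HP

open NumberField Fermat.Agent.S14 Fermat.Agent.CFT.P0 Fermat.Agent.CFT.Ray
open scoped Pointwise

/-- C5b. The counting argument. -/
theorem count : Stmt_Count := by
  intro p ν G _ E H B hp hBE hBH hidx hEH hH
  obtain ⟨hEH0, hEHp⟩ := hEH
  have hpν : p ^ ν ≠ 0 := pow_ne_zero _ hp.ne_zero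
  have hBE0 : B.relIndex E ≠ 0 := by
    intro h
    rw [h, zero_mul] at hidx
    exact hpν hidx.symm
  have hBI : B ≤ E ⊓ H := le_inf hBE hBH
  have hmul : B.relIndex (E ⊓ H) * (E ⊓ H).relIndex E = B.relIndex E :=
    Subgroup.relIndex_mul_relIndex B (E ⊓ H) E hBI inf_le_left
  have ha0 : B.relIndex (E ⊓ H) ≠ 0 := by
    intro h
    rw [h, zero_mul] at hmul
    exact hBE0 hmul.symm
  have hb0 : (E ⊓ H).relIndex E ≠ 0 := by
    intro h
    rw [h, mul_zero] at hmul
    exact hBE0 hmul.symm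
  have hHidx : H.index = (E ⊓ H).relIndex E * (E ⊔ H).index := by
    rw [← Subgroup.relIndex_mul_index (le_sup_right : H ≤ E ⊔ H), Subgroup.relIndex_sup_right,
      Subgroup.inf_relIndex_left]
  have hH0 : H.index ≠ 0 := by
    rw [hHidx]
    exact mul_ne_zero hb0 hEH0
  have hle : p ^ ν ≤ H.index := hH.resolve_left hH0
  have hle2 : p ^ ν ≤ (E ⊓ H).relIndex E * p :=
    hle.trans (by rw [hHidx]; exact Nat.mul_le_mul_left _ hEHp)
  have hle3 : B.relIndex (E ⊓ H) * p ^ ν ≤ 1 * p ^ ν := by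
    calc B.relIndex (E ⊓ H) * p ^ ν ≤ B.relIndex (E ⊓ H) * ((E ⊓ H).relIndex E * p) :=
          Nat.mul_le_mul_left _ hle2
      _ = B.relIndex E * p := by rw [← mul_assoc, hmul]
      _ = 1 * p ^ ν := by rw [hidx, one_mul]
  have hle4 : B.relIndex (E ⊓ H) ≤ 1 := Nat.le_of_mul_le_mul_right hle3 (Nat.pos_of_ne_zero hpν)
  have h1 : B.relIndex (E ⊓ H) = 1 := le_antisymm hle4 (Nat.one_le_iff_ne_zero.2 ha0)
  exact Subgroup.relIndex_eq_one.1 h1

/-- (C5). The finite level Hasse norm theorem. -/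
theorem hntFin (hI : Stmt_AwayIndex) (h2 : Stmt_SecondIneq) (h1 : Stmt_SLF) : Stmt_HNTfin := by
  intro p K L _ _ _ _ _ σ N hC hG
  obtain ⟨θ, hθ⟩ := hG.lam
  obtain ⟨hle, hidx⟩ := hI p K L σ N hC hG
  have hBH : normAway K L N ≤ normSub K L ⊔ congOne K (N ^ 3) := by
    refine le_trans ?_ le_sup_left
    rintro _ ⟨x, -, rfl⟩
    exact ⟨x, rfl⟩
  have hsec := h2 p K L N 3 hC.prime hC.deg hG.pos hG.clK hG.clL
  rw [sup_assoc] at hsec
  exact count p (nuFix K L σ N) Kˣ (unitsAway K N) (normSub K L ⊔ congOne K (N ^ 3))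
    (normAway K L N) hC.prime hle hBH hidx hsec (h1 p K L σ θ N hC hθ)

end Fermat.Agent.CFT.HP
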