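/-
CFT / HP, package C2-S4c: `|Ĥ⁰(Lˣ / V_j)|` is finite and divisible by `p ^ ν`.
-/
import Fermat.Agent.CFT.HP.InterfaceC
import Fermat.Agent.CFT.P0.Herbrand

set_option autoImplicit false
set_option linter.unusedSectionVars false

namespace Fermat.Agent.CFT.HP

open NumberField Fermat.Agent.S14 Fermat.Agent.CFT.P0
open scoped Pointwise

section Abstract

variable {Y : Type} [AddCommGroup Y]

/-- powers of an endomorphism -/
def herbrandQ_pw (S : Y →+ Y) : ℕ → (Y →+ Y)
  | 0 => AddMonoidHom.id Y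
  | (i + 1) => S.comp (herbrandQ_pw S i)

lemma herbrandQ_pw_succ (S : Y →+ Y) (i : ℕ) (y : Y) :
    herbrandQ_pw S (i + 1) y = S (herbrandQ_pw S i y) := rfl

lemma herbrandQ_pw_zero (S : Y →+ Y) (y : Y) : herbrandQ_pw S 0 y = y := rfl

lemma herbrandQ_pw_comm (S : Y →+ Y) (i : ℕ) (y : Y) :
    herbrandQ_pw S i (S y) = S (herbrandQ_pw S i y) := by
  induction i with
  | zero => rfl
  | succ i ih => rw [herbrandQ_pw_succ, ih, herbrandQ_pw_succ]

/-- `σ - 1` -/
def herbrandQ_D (S : Y →+ Y) : Y →+ Y := S - AddMonoidHom.id Y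

/-- `1 + σ + ... + σ^(p-1)` -/
def herbrandQ_N (p : ℕ) (S : Y →+ Y) : Y →+ Y := ∑ i ∈ Finset.range p, herbrandQ_pw S i

lemma herbrandQ_D_apply (S : Y →+ Y) (y : Y) : herbrandQ_D S y = S y - y := rfl

lemma herbrandQ_N_apply (p : ℕ) (S : Y →+ Y) (y : Y) :
    herbrandQ_N p S y = ∑ i ∈ Finset.range p, herbrandQ_pw S i y := by
  unfold herbrandQ_N
  rw [AddMonoidHom.finsetSum_apply]

lemma herbrandQ_DN (p : ℕ) (S : Y →+ Y) (h : ∀ y, herbrandQ_pw S p y = y) :
    (herbrandQ_D S).comp (herbrandQ_N p S) = 0 := by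
  ext y
  rw [AddMonoidHom.comp_apply, herbrandQ_D_apply, herbrandQ_N_apply, map_sum,
    ← Finset.sum_sub_distrib]
  have := Finset.sum_range_sub (fun i => herbrandQ_pw S i y) p
  simp only [herbrandQ_pw_succ] at this
  rw [this, h, herbrandQ_pw_zero, sub_self]
  rfl

lemma herbrandQ_ND (p : ℕ) (S : Y →+ Y) (h : ∀ y, herbrandQ_pw S p y = y) :
    (herbrandQ_N p S).comp (herbrandQ_D S) = 0 := by
  ext y
  rw [AddMonoidHom.comp_apply, herbrandQ_D_apply, herbrandQ_N_apply]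
  simp only [map_sub, herbrandQ_pw_comm]
  have := Finset.sum_range_sub (fun i => herbrandQ_pw S i y) p
  simp only [herbrandQ_pw_succ] at this
  rw [this, h, herbrandQ_pw_zero, sub_self]
  rfl

/-- semiconjugacy passes to powers -/
lemma herbrandQ_semiconj_pw {Z : Type} [AddCommGroup Z] (S : Y →+ Y) (T : Z →+ Z)
    (f : Y →+ Z) (h : ∀ y, f (S y) = T (f y)) (i : ℕ) (y : Y) :
    f (herbrandQ_pw S i y) = herbrandQ_pw T i (f y) := by
  induction i with
  | zero => rfl
  | succ i ih => rw [herbrandQ_pw_succ, herbrandQ_pw_succ, h, ih]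

lemma herbrandQ_semiconj_D {Z : Type} [AddCommGroup Z] (S : Y →+ Y) (T : Z →+ Z)
    (f : Y →+ Z) (h : ∀ y, f (S y) = T (f y)) (y : Y) :
    f (herbrandQ_D S y) = herbrandQ_D T (f y) := by
  rw [herbrandQ_D_apply, herbrandQ_D_apply, map_sub, h]

lemma herbrandQ_semiconj_N {Z : Type} [AddCommGroup Z] (p : ℕ) (S : Y →+ Y)
    (T : Z →+ Z) (f : Y →+ Z) (h : ∀ y, f (S y) = T (f y)) (y : Y) :
    f (herbrandQ_N p S y) = herbrandQ_N p T (f y) := by
  rw [herbrandQ_N_apply, herbrandQ_N_apply, map_sum]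
  exact Finset.sum_congr rfl fun i _ => herbrandQ_semiconj_pw S T f h i y

/-- `hq0` of a quotient, pulled back. -/
lemma herbrandQ_hq0_quot {B : Type} [AddCommGroup B] (π : Y →+ B) (hπ : Function.Surjective π)
    (D N : Y →+ Y) (DB NB : B →+ B) (hD : ∀ y, π (D y) = DB (π y)) (hN : ∀ y, π (N y) = NB (π y)) :
    hq0 DB NB = (N.range ⊔ π.ker).relIndex (π.ker.comap D) := by
  have h1 : NB.range.comap π = N.range ⊔ π.ker := by
    have : NB.range = N.range.map π := by
      ext x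
      simp only [AddSubgroup.mem_map, AddMonoidHom.mem_range]
      constructor
      · rintro ⟨c, rfl⟩
        obtain ⟨b, rfl⟩ := hπ c
        exact ⟨N b, ⟨b, rfl⟩, hN b⟩
      · rintro ⟨_, ⟨b, rfl⟩, rfl⟩
        exact ⟨π b, (hN b).symm⟩
    rw [this, AddSubgroup.comap_map_eq]
  have h2 : DB.ker.comap π = π.ker.comap D := by
    ext x
    simp only [AddSubgroup.mem_comap, AddMonoidHom.mem_ker, hD]
  unfold hq0
  rw [← h1, ← h2, AddSubgroup.relIndex_comap, AddSubgroup.map_comap_eq_self_of_surjective hπ]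

lemma herbrandQ_permAct_pw {X : Type} (s : Equiv.Perm X) (i : ℕ) :
    permAct (s ^ i) = herbrandQ_pw (permAct s) i := by
  induction i with
  | zero =>
    ext f x
    rfl
  | succ i ih =>
    ext f x
    rw [herbrandQ_pw_succ, ← ih, pow_succ']
    simp [permAct, Equiv.Perm.mul_def]

/-- The abstract statement. -/
theorem herbrandQ_abstract (p ν : ℕ) (S : Y →+ Y) (V E : AddSubgroup Y) (X : Type) [Fintype X]
    (s : Equiv.Perm X) (ord : Y →+ (X → ℤ))
    (hSp : ∀ y, herbrandQ_pw S p y = y) (hsp : s ^ p = 1) (hSV : ∀ v ∈ V, S v ∈ V)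
    (hVE : V ≤ E) (hfin : V.relIndex E ≠ 0) (hsurj : Function.Surjective ord)
    (hker : ∀ y, ord y = 0 ↔ y ∈ E) (heq : ∀ y, ord (S y) = permAct s (ord y))
    (hC1 : hq1 (permAct s - AddMonoidHom.id _) (∑ i ∈ Finset.range p, permAct (s ^ i)) = 1)
    (hC0 : hq0 (permAct s - AddMonoidHom.id _) (∑ i ∈ Finset.range p, permAct (s ^ i)) = p ^ ν)
    (hp : p ≠ 0) :
    ((herbrandQ_N p S).range ⊔ V).relIndex (V.comap (herbrandQ_D S)) ≠ 0 ∧
    p ^ ν ∣ ((herbrandQ_N p S).range ⊔ V).relIndex (V.comap (herbrandQ_D S)) := by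
  -- the quotient
  let π : Y →+ Y ⧸ V := QuotientAddGroup.mk' V
  have hπ : Function.Surjective π := QuotientAddGroup.mk'_surjective V
  have hπker : π.ker = V := QuotientAddGroup.ker_mk' V
  let SB : (Y ⧸ V) →+ (Y ⧸ V) := QuotientAddGroup.map V V S hSV
  have hπS : ∀ y, π (S y) = SB (π y) := fun y => rfl
  let q : (Y ⧸ V) →+ (X → ℤ) := QuotientAddGroup.lift V ord fun v hv => (hker v).2 (hVE hv)
  have hqπ : ∀ y, q (π y) = ord y := fun y => rfl
  have hq : Function.Surjective q := fun f => by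
    obtain ⟨y, rfl⟩ := hsurj f
    exact ⟨π y, rfl⟩
  have hqS : ∀ b, q (SB b) = permAct s (q b) := fun b => by
    obtain ⟨y, rfl⟩ := hπ b
    rw [← hπS, hqπ, hqπ, heq]
  have hSBp : ∀ b, herbrandQ_pw SB p b = b := fun b => by
    obtain ⟨y, rfl⟩ := hπ b
    rw [← herbrandQ_semiconj_pw S SB π hπS, hSp]
  have hTp : ∀ f, herbrandQ_pw (permAct s) p f = f := fun f => by
    rw [← herbrandQ_permAct_pw, hsp]
    rfl
  have hNC : (∑ i ∈ Finset.range p, permAct (s ^ i)) = herbrandQ_N p (permAct s) := by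
    unfold herbrandQ_N
    exact Finset.sum_congr rfl fun i _ => herbrandQ_permAct_pw s i
  rw [hNC] at hC0 hC1
  change hq1 (herbrandQ_D (permAct s)) _ = 1 at hC1
  change hq0 (herbrandQ_D (permAct s)) _ = p ^ ν at hC0
  -- the sub
  have hstab : ∀ b ∈ q.ker, SB b ∈ q.ker := fun b hb => by
    rw [AddMonoidHom.mem_ker] at hb ⊢
    rw [hqS, hb, map_zero]
  let SA : q.ker →+ q.ker := (SB.comp q.ker.subtype).codRestrict q.ker fun b => hstab b.1 b.2
  have hiS : ∀ a, q.ker.subtype (SA a) = SB (q.ker.subtype a) := fun a => rfl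
  have hSAp : ∀ a, herbrandQ_pw SA p a = a := fun a => by
    apply q.ker.subtype_injective
    rw [herbrandQ_semiconj_pw SA SB q.ker.subtype hiS, hSBp]
  have hfinA : Finite q.ker := by
    apply Nat.finite_of_card_ne_zero
    have h1 : q.ker.comap π = E := by
      ext y
      rw [AddSubgroup.mem_comap, AddMonoidHom.mem_ker, hqπ, hker]
    have h2 : (⊥ : AddSubgroup (Y ⧸ V)).comap π = V := hπker
    rw [← AddSubgroup.relIndex_bot_left, ← AddSubgroup.map_comap_eq_self_of_surjective hπ q.ker,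
      ← AddSubgroup.relIndex_comap, h1, h2]
    exact hfin
  obtain ⟨hA01, hA0⟩ := herbrandFinite q.ker (herbrandQ_D SA) (herbrandQ_N p SA)
    (herbrandQ_DN p SA hSAp) (herbrandQ_ND p SA hSAp)
  have hmul := herbrandMul q.ker (Y ⧸ V) (X → ℤ)
    (herbrandQ_D SA) (herbrandQ_N p SA) (herbrandQ_D SB) (herbrandQ_N p SB)
    (herbrandQ_D (permAct s)) (herbrandQ_N p (permAct s)) q.ker.subtype q
    (herbrandQ_DN p SA hSAp) (herbrandQ_ND p SA hSAp) (herbrandQ_DN p SB hSBp)
    (herbrandQ_ND p SB hSBp) (herbrandQ_DN p _ hTp) (herbrandQ_ND p _ hTp)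
    q.ker.subtype_injective hq (AddSubgroup.range_subtype _)
    (herbrandQ_semiconj_D SA SB _ hiS) (herbrandQ_semiconj_N p SA SB _ hiS)
    (herbrandQ_semiconj_D SB _ q hqS) (herbrandQ_semiconj_N p SB _ q hqS)
    (Or.inl ⟨hA0, hA01 ▸ hA0, by rw [hC0]; exact pow_ne_zero _ hp, by rw [hC1]; exact one_ne_zero⟩)
  obtain ⟨⟨-, -, hB0, -, -, -⟩, hprod⟩ := hmul
  rw [hC0, hC1, mul_one, ← hA01] at hprod
  have hB : hq0 (herbrandQ_D SB) (herbrandQ_N p SB)
      = hq1 (herbrandQ_D SB) (herbrandQ_N p SB) * p ^ ν := by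
    have h1 : hq0 (herbrandQ_D SA) (herbrandQ_N p SA) * hq0 (herbrandQ_D SB) (herbrandQ_N p SB)
        = hq0 (herbrandQ_D SA) (herbrandQ_N p SA) *
          (hq1 (herbrandQ_D SB) (herbrandQ_N p SB) * p ^ ν) := by
      rw [mul_comm, hprod]; ring
    exact Nat.eq_of_mul_eq_mul_left (Nat.pos_of_ne_zero hA0) h1
  have hfinal := herbrandQ_hq0_quot π hπ (herbrandQ_D S) (herbrandQ_N p S) (herbrandQ_D SB)
    (herbrandQ_N p SB) (herbrandQ_semiconj_D S SB π hπS) (herbrandQ_semiconj_N p S SB π hπS)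
  rw [hπker] at hfinal
  rw [← hfinal]
  exact ⟨hB0, hB ▸ Dvd.intro_left _ rfl⟩

end Abstract

section Concrete

variable (K L : Type) [Field K] [NumberField K] [Field L] [NumberField L] [Algebra K L]

lemma herbrandQ_loSX_apply (σ : L ≃ₐ[K] L) (x : Lˣ) : ((loSX K L σ x : Lˣ) : L) = σ x := rfl

lemma herbrandQ_pw_loSX (σ : L ≃ₐ[K] L) (i : ℕ) (y : Additive Lˣ) :
    herbrandQ_pw (MonoidHom.toAdditive (loSX K L σ)) i y
      = Additive.ofMul (loSX K L (σ ^ i) y.toMul) := by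
  induction i with
  | zero =>
    rw [herbrandQ_pw_zero, pow_zero]
    apply Additive.toMul.injective
    apply Units.ext
    rfl
  | succ i ih =>
    rw [herbrandQ_pw_succ, ih, pow_succ']
    apply Additive.toMul.injective
    apply Units.ext
    rfl

lemma herbrandQ_loNX_eq (p : ℕ) (σ : L ≃ₐ[K] L) (hgen : ∀ τ : L ≃ₐ[K] L, τ ∈ Subgroup.zpowers σ)
    (hord : orderOf σ = p) (x : Lˣ) :
    loNX K L x = ∏ i ∈ Finset.range p, loSX K L (σ ^ i) x := by
  classical
  have h1 : (Finset.univ : Finset (L ≃ₐ[K] L)) =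
      Finset.image (fun i => σ ^ i) (Finset.range (orderOf σ)) :=
    (IsCyclic.image_range_orderOf hgen).symm
  unfold loNX
  rw [MonoidHom.finsetProd_apply, h1, Finset.prod_image, hord]
  intro i hi j hj hij
  exact pow_injOn_Iio_orderOf (by simpa using hi) (by simpa using hj) hij

lemma herbrandQ_N_loSX (p : ℕ) (σ : L ≃ₐ[K] L) (hgen : ∀ τ : L ≃ₐ[K] L, τ ∈ Subgroup.zpowers σ)
    (hord : orderOf σ = p) (y : Additive Lˣ) :
    herbrandQ_N p (MonoidHom.toAdditive (loSX K L σ)) y = Additive.ofMul (loNX K L y.toMul) := by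
  rw [herbrandQ_N_apply, herbrandQ_loNX_eq K L p σ hgen hord, ofMul_prod]
  exact Finset.sum_congr rfl fun i _ => herbrandQ_pw_loSX K L σ i y

end Concrete

theorem herbrandQ (hP : Stmt_PermHerbrand) (hO : Stmt_OrdData) (hF : Stmt_FiniteQuot)
    (hV : Stmt_VGroup) (hL : Stmt_LamBasic) : Stmt_HerbrandQ := by
  intro p K L _ _ _ _ _ σ θ N hcyc hlam j hj
  have := hcyc.gal
  have hN0 : N ≠ 0 := by have := hlam.pos; omega
  have hcard : Nat.card (L ≃ₐ[K] L) = p := by
    rw [IsGalois.card_aut_eq_finrank, hcyc.deg]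
  have hord : orderOf σ = p := by
    rw [orderOf_eq_card_of_forall_mem_zpowers hcyc.gen, hcard]
  have hσp : σ ^ p = 1 := by rw [← hord]; exact pow_orderOf_eq_one σ
  obtain ⟨X, _, s, ord, hmul, hequiv, hpow, hsurj, hker, hfix, -, -⟩ := hO K L σ N hN0
  obtain ⟨hVE, hfin⟩ := hF K L θ N hlam j hj
  obtain ⟨-, -, -, -, -, hstab, -⟩ := hL K L θ N hlam
  have hsp : s ^ p = 1 := hpow p hσp
  obtain ⟨hC1, hC0⟩ := hP p X s hcyc.prime hsp
  rw [hfix] at hC0
  let ord' : Additive Lˣ →+ (X → ℤ) := AddMonoidHom.mk' (fun y => ord y.toMul) fun a b => hmul _ _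
  have habs := herbrandQ_abstract p (nuFix K L σ N) (MonoidHom.toAdditive (loSX K L σ))
    (Subgroup.toAddSubgroup (Vsub K L θ N j)) (Subgroup.toAddSubgroup (unitsAt L N)) X s ord'
    (fun y => by
      rw [herbrandQ_pw_loSX, hσp]
      apply Additive.toMul.injective
      apply Units.ext
      rfl)
    hsp
    (fun v hv => by
      have hv' : v.toMul ∈ Vsub K L θ N j := hv
      show loSX K L σ v.toMul ∈ Vsub K L θ N j
      rw [hV K L θ N hlam j hj] at hv' ⊢
      have := hstab j σ _ hv'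
      rwa [map_sub, map_one] at this)
    (fun y hy => hVE hy)
    (by rw [Subgroup.relIndex_toAddSubgroup]; exact hfin)
    (fun f => by
      obtain ⟨x, hx⟩ := hsurj f
      exact ⟨Additive.ofMul x, hx⟩)
    (fun y => hker y.toMul)
    (fun y => by
      funext i
      have := hequiv y.toMul (s.symm i)
      rw [Equiv.apply_symm_apply] at this
      exact this)
    hC1 hC0 hcyc.prime.ne_zero
  have e1 : Subgroup.toAddSubgroup ((loNX K L).range ⊔ Vsub K L θ N j)
      = (herbrandQ_N p (MonoidHom.toAdditive (loSX K L σ))).range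
        ⊔ Subgroup.toAddSubgroup (Vsub K L θ N j) := by
    rw [map_sup]
    congr 1
    ext y
    constructor
    · rintro ⟨x, hx⟩
      refine ⟨Additive.ofMul x, ?_⟩
      rw [herbrandQ_N_loSX K L p σ hcyc.gen hord]
      exact congrArg Additive.ofMul hx
    · rintro ⟨x, hx⟩
      rw [herbrandQ_N_loSX K L p σ hcyc.gen hord] at hx
      exact ⟨x.toMul, congrArg Additive.toMul hx⟩
  have e2 : Subgroup.toAddSubgroup ((Vsub K L θ N j).comap (loSX K L σ / MonoidHom.id Lˣ))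
      = (Subgroup.toAddSubgroup (Vsub K L θ N j)).comap
        (herbrandQ_D (MonoidHom.toAdditive (loSX K L σ))) := by
    ext y
    exact Iff.rfl
  rw [← e1, ← e2, Subgroup.relIndex_toAddSubgroup] at habs
  exact habs

end Fermat.Agent.CFT.HP
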