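/-
CFT / HP, package C4a: Galois invariant ideals prime to `N` are extended
(adaptation of S14/LoInvariant.lean).
-/
import Fermat.Agent.CFT.HP.InterfaceC
import Fermat.Agent.S14.LoInvariant

set_option autoImplicit false

namespace Fermat.Agent.CFT.HP

open NumberField
open scoped Pointwise nonZeroDivisors

theorem invariantAway_ramificationIdx (K L : Type) [Field K] [NumberField K] [Field L]
    [NumberField L] [Algebra K L] [IsGalois K L] (P : Ideal (𝓞 L)) [hP : P.IsMaximal]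
    (h : ∀ g : L ≃ₐ[K] L, (∀ x : 𝓞 L, g • x - x ∈ P) → g = 1) :
    P.ramificationIdx (𝓞 K) = 1 := by
  have h1 : Nat.card (P.inertia (L ≃ₐ[K] L)) = 1 := by
    rw [Nat.card_eq_one_iff_unique]
    refine ⟨⟨fun a b => ?_⟩, ⟨1⟩⟩
    have ha : a.1 = 1 := h a.1 a.2
    have hb : b.1 = 1 := h b.1 b.2
    exact Subtype.ext (ha.trans hb.symm)
  have h2 := Ideal.card_inertia_eq_ramificationIdxIn (G := L ≃ₐ[K] L) (P.under (𝓞 K)) P
  rw [Ideal.ramificationIdxIn_eq_ramificationIdx (P.under (𝓞 K)) P (L ≃ₐ[K] L)] at h2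
  rw [← h2, h1]

theorem invariantAway : Stmt_InvariantAway := by
  intro K L _ _ _ _ _ _ N h J
  induction J using WellFoundedGT.induction with
  | ind J ih =>
  intro hcop hJ
  by_cases hbot : J = ⊥
  · exact ⟨⊥, by rw [hbot, Ideal.map_bot]⟩
  by_cases htop : J = ⊤
  · exact ⟨⊤, by rw [htop, Ideal.map_top]⟩
  obtain ⟨P, hPmax, hJP⟩ := Ideal.exists_le_maximal J htop
  -- primes containing `J` do not contain `N`
  have hN : ∀ Q : Ideal (𝓞 L), Q.IsPrime → J ≤ Q → (N : 𝓞 L) ∉ Q := by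
    intro Q hQ hJQ hNQ
    have h1 : J ⊔ Ideal.span {(N : 𝓞 L)} = ⊤ := Ideal.isCoprime_iff_sup_eq.mp hcop
    have h2 : J ⊔ Ideal.span {(N : 𝓞 L)} ≤ Q :=
      sup_le hJQ ((Ideal.span_singleton_le_iff_mem _).mpr hNQ)
    rw [h1] at h2
    exact hQ.ne_top (top_le_iff.mp h2)
  set 𝔭 : Ideal (𝓞 K) := P.under (𝓞 K) with h𝔭
  have h𝔭max : 𝔭.IsMaximal := inferInstance
  have hP0 : P ≠ ⊥ := fun h0 => hbot (le_bot_iff.mp (h0 ▸ hJP))
  have h𝔭0 : 𝔭 ≠ ⊥ := Ideal.under_ne_bot _ hP0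
  have hle : ∀ Q ∈ 𝔭.primesOver (𝓞 L), J ≤ Q := by
    intro Q hQ'
    have : Q.IsPrime := hQ'.1
    have : Q.LiesOver 𝔭 := hQ'.2
    obtain ⟨σ, rfl⟩ := Ideal.exists_smul_eq_of_isGaloisGroup 𝔭 P Q (L ≃ₐ[K] L)
    rw [← hJ σ]
    exact Ideal.pointwise_smul_le_pointwise_smul_iff.mpr hJP
  have hmap : 𝔭.map (algebraMap (𝓞 K) (𝓞 L)) = ∏ Q ∈ 𝔭.primesOver (𝓞 L), Q := by
    rw [Ideal.map_algebraMap_eq_finsetProd_pow h𝔭0]
    refine Finset.prod_congr rfl fun Q hQ => ?_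
    have hQ' : Q ∈ 𝔭.primesOver (𝓞 L) := by simpa using hQ
    have : Q.IsPrime := hQ'.1
    have : Q.LiesOver 𝔭 := hQ'.2
    have hQmax : Q.IsMaximal := Ideal.IsMaximal.of_liesOver_isMaximal Q 𝔭
    have hQ0 : Q ≠ ⊥ := Ideal.ne_bot_of_liesOver_of_ne_bot h𝔭0 Q
    rw [invariantAway_ramificationIdx K L Q (h Q hQ'.1 hQ0 (hN Q hQ'.1 (hle Q hQ'))), pow_one]
  have hdvd : 𝔭.map (algebraMap (𝓞 K) (𝓞 L)) ∣ J := by
    rw [hmap]
    refine Finset.prod_primes_dvd J (fun Q hQ => ?_) (fun Q hQ => ?_)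
    · have hQ' : Q ∈ 𝔭.primesOver (𝓞 L) := by simpa using hQ
      have : Q.IsPrime := hQ'.1
      have : Q.LiesOver 𝔭 := hQ'.2
      refine Ideal.prime_of_isPrime ?_ hQ'.1
      exact Ideal.ne_bot_of_liesOver_of_ne_bot h𝔭0 Q
    · have hQ' : Q ∈ 𝔭.primesOver (𝓞 L) := by simpa using hQ
      rw [Ideal.dvd_iff_le]
      exact hle Q hQ'
  obtain ⟨J1, hJ1⟩ := hdvd
  have hm0 : 𝔭.map (algebraMap (𝓞 K) (𝓞 L)) ≠ 0 := fun h0 => hbot (by rw [hJ1, h0, zero_mul]; rfl)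
  have hJ10 : J1 ≠ 0 := fun h0 => hbot (by rw [hJ1, h0, mul_zero]; rfl)
  have hJ1inv : ∀ σ : L ≃ₐ[K] L, σ • J1 = J1 := by
    intro σ
    have h1 := hJ σ
    rw [hJ1, smul_mul', Fermat.Agent.S14.lo3_smul_map] at h1
    exact mul_left_cancel₀ hm0 h1
  have hleJ1 : J ≤ J1 := hJ1 ▸ Ideal.mul_le_right
  have hlt : J < J1 := by
    refine lt_of_le_of_ne hleJ1 fun heq => ?_
    have h1 : 𝔭.map (algebraMap (𝓞 K) (𝓞 L)) * J1 = 1 * J1 := by rw [one_mul, ← hJ1, heq]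
    have h2 := mul_right_cancel₀ hJ10 h1
    have h3 : 𝔭.map (algebraMap (𝓞 K) (𝓞 L)) ≤ P := Ideal.map_comap_le
    rw [h2, Ideal.one_eq_top] at h3
    exact hPmax.ne_top (top_le_iff.mp h3)
  have hcop1 : IsCoprime J1 (Ideal.span {(N : 𝓞 L)}) := by
    rw [Ideal.isCoprime_iff_sup_eq, eq_top_iff, ← Ideal.isCoprime_iff_sup_eq.mp hcop]
    exact sup_le_sup_right hleJ1 _
  obtain ⟨a1, ha1⟩ := ih J1 hlt hcop1 hJ1inv
  exact ⟨𝔭 * a1, by rw [Ideal.map_mul, ← ha1, ← hJ1]⟩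

end Fermat.Agent.CFT.HP
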