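/-
CFT / HP, package C2-S0: calculus of the lattices `N^j Λ_(N)` and `N^j 𝓞_(N)`.
-/
import Fermat.Agent.CFT.HP.InterfaceC

set_option autoImplicit false
set_option linter.unusedSectionVars false

namespace Fermat.Agent.CFT.HP

open NumberField Fermat.Agent.S14
open scoped Pointwise

section

variable {K L : Type} [Field K] [NumberField K] [Field L] [NumberField L] [Algebra K L]

theorem LamBasic_coe_smul (a : 𝓞 K) (x : 𝓞 L) :
    ((a • x : 𝓞 L) : L) = algebraMap K L (a : K) * (x : L) := by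
  rw [Algebra.smul_def]; rfl

theorem LamBasic_coe_gal (τ : L ≃ₐ[K] L) (x : 𝓞 L) : ((τ • x : 𝓞 L) : L) = τ (x : L) := rfl

theorem LamBasic_natCast_smul (n : ℕ) (x : 𝓞 L) : (n : 𝓞 K) • x = (n : 𝓞 L) * x := by
  rw [Algebra.smul_def]; simp

theorem LamBasic_N_ne {θ : 𝓞 L} {N : ℕ} (hD : LamData K L θ N) : N ≠ 0 := by
  have := hD.pos; omega

/-- elements of `Λ` as explicit combinations -/
theorem LamBasic_mem_lam_iff (θ : 𝓞 L) (l : 𝓞 L) :
    l ∈ lam K L θ ↔ ∃ a : (L ≃ₐ[K] L) → 𝓞 K, l = ∑ τ : L ≃ₐ[K] L, a τ • (τ • θ) := by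
  unfold lam
  rw [Submodule.mem_span_range_iff_exists_fun]
  constructor
  · rintro ⟨a, ha⟩; exact ⟨a, ha.symm⟩
  · rintro ⟨a, ha⟩; exact ⟨a, ha.symm⟩

theorem LamBasic_coe_sum (θ : 𝓞 L) (a : (L ≃ₐ[K] L) → 𝓞 K) :
    ((∑ τ : L ≃ₐ[K] L, a τ • (τ • θ) : 𝓞 L) : L) =
      ∑ τ : L ≃ₐ[K] L, algebraMap K L (a τ : K) * ((τ • θ : 𝓞 L) : L) := by
  change algebraMap (𝓞 L) L (∑ τ : L ≃ₐ[K] L, a τ • (τ • θ)) = _
  rw [map_sum]
  refine Finset.sum_congr rfl fun τ _ => ?_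
  exact LamBasic_coe_smul _ _

theorem LamBasic_smul_comm (τ : L ≃ₐ[K] L) (a : 𝓞 K) (x : 𝓞 L) : τ • (a • x) = a • (τ • x) := by
  apply RingOfIntegers.ext
  rw [LamBasic_coe_gal, LamBasic_coe_smul, LamBasic_coe_smul, LamBasic_coe_gal, map_mul,
    AlgEquiv.commutes]

theorem LamBasic_gal_mem_lam (θ : 𝓞 L) (τ : L ≃ₐ[K] L) {l : 𝓞 L} (hl : l ∈ lam K L θ) :
    τ • l ∈ lam K L θ := by
  unfold lam at hl ⊢
  induction hl using Submodule.span_induction with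
  | mem x hx =>
    obtain ⟨ρ, rfl⟩ := hx
    exact Submodule.subset_span ⟨τ * ρ, by simp [mul_smul]⟩
  | zero => simp
  | add x y _ _ hx hy => rw [smul_add]; exact add_mem hx hy
  | smul a x _ hx => rw [LamBasic_smul_comm]; exact Submodule.smul_mem _ _ hx

/-- (2) -/
theorem LamBasic_lamLoc_succ_le (θ : 𝓞 L) (N j : ℕ) :
    lamLoc K L θ N (j + 1) ≤ lamLoc K L θ N j := by
  rintro y ⟨b, l, hb0, hb, hl, hy⟩
  refine ⟨b, (N : 𝓞 K) • l, hb0, hb, Submodule.smul_mem _ _ hl, ?_⟩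
  rw [hy, LamBasic_natCast_smul]
  push_cast
  ring

/-- (3) -/
theorem LamBasic_intLoc_succ_le {θ : 𝓞 L} {N : ℕ} (hD : LamData K L θ N) (j : ℕ) :
    intLoc L N (j + 1) ≤ lamLoc K L θ N j := by
  rintro y ⟨b, c, hb0, hb, hy⟩
  refine ⟨b, (N : 𝓞 L) * c, hb0, hb, hD.lamN c, ?_⟩
  rw [hy]
  push_cast
  ring

/-- (4) -/
theorem LamBasic_lamLoc_le_intLoc (θ : 𝓞 L) (N j : ℕ) :
    lamLoc K L θ N j ≤ intLoc L N j := by
  rintro y ⟨b, l, hb0, hb, -, hy⟩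
  exact ⟨b, l, hb0, hb, hy⟩

omit [Field K] [NumberField K] [Algebra K L] in
/-- (5) -/
theorem LamBasic_intLoc_mul (N i j : ℕ) {y y' : L} (hy : y ∈ intLoc L N i)
    (hy' : y' ∈ intLoc L N j) : y * y' ∈ intLoc L N (i + j) := by
  obtain ⟨b, c, hb0, hb, hy⟩ := hy
  obtain ⟨b', c', hb0', hb', hy'⟩ := hy'
  refine ⟨b * b', c * c', mul_ne_zero hb0 hb0', Nat.Coprime.mul_left hb hb', ?_⟩
  push_cast
  rw [pow_add]
  linear_combination ((b' : L) * y') * hy + ((N : L) ^ i * (c : L)) * hy'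

/-- (6) -/
theorem LamBasic_gal_mem_lamLoc (θ : 𝓞 L) (N j : ℕ) (τ : L ≃ₐ[K] L) {y : L}
    (hy : y ∈ lamLoc K L θ N j) : τ y ∈ lamLoc K L θ N j := by
  obtain ⟨b, l, hb0, hb, hl, hy⟩ := hy
  refine ⟨b, τ • l, hb0, hb, LamBasic_gal_mem_lam θ τ hl, ?_⟩
  have := congrArg τ hy
  simpa [LamBasic_coe_gal] using this

/-- (7) -/
theorem LamBasic_gal_mem_intLoc (N j : ℕ) (τ : L ≃ₐ[K] L) {y : L}
    (hy : y ∈ intLoc L N j) : τ y ∈ intLoc L N j := by
  obtain ⟨b, c, hb0, hb, hy⟩ := hy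
  refine ⟨b, τ • c, hb0, hb, ?_⟩
  have := congrArg τ hy
  simpa [LamBasic_coe_gal] using this

/-- (8) -/
theorem LamBasic_intLoc_descent {N : ℕ} (hN : N ≠ 0) (j : ℕ) {k : K}
    (hk : algebraMap K L k ∈ intLoc L N j) : k ∈ intLoc K N j := by
  obtain ⟨b, c, hb0, hb, hy⟩ := hk
  have hNK : (N : K) ≠ 0 := Nat.cast_ne_zero.2 hN
  have hNL : (N : L) ≠ 0 := Nat.cast_ne_zero.2 hN
  have hc : algebraMap K L ((b : K) * k / (N : K) ^ j) = (c : L) := by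
    rw [map_div₀, map_mul, map_pow, map_natCast, map_natCast, hy]
    field_simp
  have hint : IsIntegral ℤ ((b : K) * k / (N : K) ^ j) := by
    rw [← isIntegral_algebraMap_iff (algebraMap K L).injective, hc]
    exact c.2
  refine ⟨b, ⟨_, hint⟩, hb0, hb, ?_⟩
  change (b : K) * k = (N : K) ^ j * ((b : K) * k / (N : K) ^ j)
  field_simp

theorem LamBasic_coe_mem_span (θ : 𝓞 L) {l : 𝓞 L} (hl : l ∈ lam K L θ) :
    (l : L) ∈ Submodule.span K (Set.range fun τ : L ≃ₐ[K] L => ((τ • θ : 𝓞 L) : L)) := by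
  obtain ⟨a, rfl⟩ := (LamBasic_mem_lam_iff θ l).1 hl
  rw [LamBasic_coe_sum]
  refine Submodule.sum_mem _ fun τ _ => ?_
  rw [← Algebra.smul_def]
  exact Submodule.smul_mem _ _ (Submodule.subset_span ⟨τ, rfl⟩)

/-- every element of a number field is an integer divided by a nonzero rational integer -/
theorem LamBasic_exists_int_mul (y : L) : ∃ (m : ℤ) (x : 𝓞 L), m ≠ 0 ∧ (m : L) * y = (x : L) := by
  have halg : IsAlgebraic ℤ y :=
    (IsFractionRing.isAlgebraic_iff ℤ ℚ L).2 (Algebra.IsAlgebraic.isAlgebraic y)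
  obtain ⟨m, hm, hint⟩ := halg.exists_integral_multiple
  refine ⟨m, ⟨_, hint⟩, hm, ?_⟩
  change (m : L) * y = m • y
  rw [zsmul_eq_mul]

variable [IsGalois K L]

/-- (1) -/
theorem LamBasic_linearIndependent {θ : 𝓞 L} {N : ℕ} (hD : LamData K L θ N) :
    LinearIndependent K (fun τ : L ≃ₐ[K] L => ((τ • θ : 𝓞 L) : L)) := by
  apply linearIndependent_of_top_le_span_of_card_eq_finrank
  · intro y _
    obtain ⟨m, x, hm, hx⟩ := LamBasic_exists_int_mul y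
    have h1 := LamBasic_coe_mem_span θ (hD.lamN x)
    have hN : (N : L) ≠ 0 := Nat.cast_ne_zero.2 (LamBasic_N_ne hD)
    have hmL : (m : L) ≠ 0 := Int.cast_ne_zero.2 hm
    have h2 : y = ((N : K) * (m : K))⁻¹ • (((N : 𝓞 L) * x : 𝓞 L) : L) := by
      have e : (((N : 𝓞 L) * x : 𝓞 L) : L) = (N : L) * ((m : L) * y) := by
        rw [hx]
        change algebraMap (𝓞 L) L ((N : 𝓞 L) * x) = _
        rw [map_mul, map_natCast]
      rw [Algebra.smul_def, map_inv₀, map_mul, map_natCast, map_intCast, e]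
      field_simp
    rw [h2]
    exact Submodule.smul_mem _ _ h1
  · rw [← Nat.card_eq_fintype_card]
    exact IsGalois.card_aut_eq_finrank K L

/-- (9) -/
theorem LamBasic_trace {θ : 𝓞 L} {N : ℕ} (hD : LamData K L θ N) :
    ∃ a : 𝓞 K, (N : K) = (a : K) * Algebra.trace K L (θ : L) := by
  have hind := LamBasic_linearIndependent hD
  obtain ⟨a, ha⟩ := (LamBasic_mem_lam_iff θ _).1 (hD.lamN 1)
  have ha' : (N : L) = ∑ τ : L ≃ₐ[K] L, algebraMap K L (a τ : K) * ((τ • θ : 𝓞 L) : L) := by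
    rw [← LamBasic_coe_sum, ← ha]
    simp
  have hconst : ∀ ρ : L ≃ₐ[K] L, (a ρ : K) = (a 1 : K) := by
    intro ρ
    have h1 : (N : L) = ∑ τ : L ≃ₐ[K] L, algebraMap K L (a (ρ * τ) : K) * ((τ • θ : 𝓞 L) : L) := by
      have h2 := congrArg (ρ⁻¹ : L ≃ₐ[K] L) ha'
      rw [map_natCast, map_sum] at h2
      rw [h2, ← Equiv.sum_comp (Equiv.mulLeft ρ)]
      refine Finset.sum_congr rfl fun τ _ => ?_
      rw [map_mul, AlgEquiv.commutes, Equiv.coe_mulLeft, ← LamBasic_coe_gal, smul_smul,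
        inv_mul_cancel_left]
    have h3 : ∑ τ : L ≃ₐ[K] L, ((a (ρ * τ) : K) - (a τ : K)) • ((τ • θ : 𝓞 L) : L) = 0 := by
      have h5 : ∀ τ : L ≃ₐ[K] L, ((a (ρ * τ) : K) - (a τ : K)) • ((τ • θ : 𝓞 L) : L) =
          algebraMap K L (a (ρ * τ) : K) * ((τ • θ : 𝓞 L) : L) -
            algebraMap K L (a τ : K) * ((τ • θ : 𝓞 L) : L) := fun τ => by
        rw [Algebra.smul_def, map_sub, sub_mul]
      rw [Finset.sum_congr rfl (fun τ _ => h5 τ), Finset.sum_sub_distrib, ← h1, ← ha', sub_self]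
    have h4 := (Fintype.linearIndependent_iff.1 hind) _ h3 1
    rw [mul_one] at h4
    exact sub_eq_zero.1 h4
  refine ⟨a 1, ?_⟩
  apply (algebraMap K L).injective
  rw [map_natCast, map_mul, trace_eq_sum_automorphisms, ha', Finset.mul_sum]
  refine Finset.sum_congr rfl fun τ _ => ?_
  rw [hconst τ]
  rfl

/-- (10) -/
theorem LamBasic_mem_lamLoc_iff (θ : 𝓞 L) (N j : ℕ) (y : L) :
    y ∈ lamLoc K L θ N j ↔ ∃ c : (L ≃ₐ[K] L) → K,
      (∀ τ, c τ ∈ intLoc K N j) ∧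
        y = ∑ τ : L ≃ₐ[K] L, algebraMap K L (c τ) * ((τ • θ : 𝓞 L) : L) := by
  classical
  constructor
  · rintro ⟨b, l, hb0, hb, hl, hy⟩
    obtain ⟨a, rfl⟩ := (LamBasic_mem_lam_iff θ l).1 hl
    have hbK : (b : K) ≠ 0 := Nat.cast_ne_zero.2 hb0
    have hbL : (b : L) ≠ 0 := Nat.cast_ne_zero.2 hb0
    refine ⟨fun τ => (N : K) ^ j * (a τ : K) / (b : K), fun τ => ⟨b, a τ, hb0, hb, ?_⟩, ?_⟩
    · field_simp
    · rw [LamBasic_coe_sum] at hy
      apply mul_left_cancel₀ hbL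
      rw [hy, Finset.mul_sum, Finset.mul_sum]
      refine Finset.sum_congr rfl fun τ _ => ?_
      rw [map_div₀, map_mul, map_pow, map_natCast, map_natCast]
      field_simp
  · rintro ⟨c, hc, rfl⟩
    choose b a hb0 hb hba using hc
    refine ⟨∏ τ, b τ, ∑ τ : L ≃ₐ[K] L, (((∏ ρ ∈ Finset.univ.erase τ, b ρ : ℕ) : 𝓞 K) * a τ) • (τ • θ),
      Finset.prod_ne_zero_iff.2 fun τ _ => hb0 τ, Nat.Coprime.prod_left fun τ _ => hb τ,
      (LamBasic_mem_lam_iff θ _).2 ⟨_, rfl⟩, ?_⟩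
    rw [LamBasic_coe_sum, Finset.mul_sum, Finset.mul_sum]
    refine Finset.sum_congr rfl fun τ _ => ?_
    rw [← Finset.mul_prod_erase Finset.univ b (Finset.mem_univ τ)]
    have h1 := congrArg (algebraMap K L) (hba τ)
    rw [map_mul, map_mul, map_pow, map_natCast, map_natCast] at h1
    generalize (∏ ρ ∈ Finset.univ.erase τ, b ρ) = B
    have e1 : (((B : 𝓞 K) * a τ : 𝓞 K) : K) = (B : K) * (a τ : K) := by
      change algebraMap (𝓞 K) K ((B : 𝓞 K) * a τ) = _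
      rw [map_mul, map_natCast]
    rw [e1, map_mul, map_natCast, Nat.cast_mul]
    linear_combination ((B : L) * ((τ • θ : 𝓞 L) : L)) * h1

end

/-- C2-S0 -/
theorem lamBasic : Stmt_LamBasic := by
  intro K L _ _ _ _ _ _ θ N hD
  exact ⟨LamBasic_linearIndependent hD, LamBasic_lamLoc_succ_le θ N, LamBasic_intLoc_succ_le hD,
    LamBasic_lamLoc_le_intLoc θ N, fun i j y y' hy hy' => LamBasic_intLoc_mul N i j hy hy',
    fun j τ y hy => LamBasic_gal_mem_lamLoc θ N j τ hy,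
    fun j τ y hy => LamBasic_gal_mem_intLoc N j τ hy,
    fun j k hk => LamBasic_intLoc_descent (LamBasic_N_ne hD) j hk,
    LamBasic_trace hD, LamBasic_mem_lamLoc_iff θ N⟩

end Fermat.Agent.CFT.HP
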