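/-
CFT / HP, package C2-S4b (helper81): the valuations at the primes dividing `N`, packaged abstractly.
-/
import Fermat.Agent.CFT.HP.InterfaceC

set_option autoImplicit false
set_option linter.unusedSectionVars false

noncomputable section

namespace Fermat.Agent.CFT.HP

open NumberField IsDedekindDomain Fermat.Agent.S14
open scoped Pointwise nonZeroDivisors

namespace OrdData

section OneField

variable (L : Type) [Field L] [NumberField L] (N : ℕ)

/-- the primes of `L` dividing `N`. -/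
abbrev PX : Type := {P : Ideal (𝓞 L) // P.IsPrime ∧ (N : 𝓞 L) ∈ P}

variable {L N}

/-- a prime dividing `N ≠ 0` as a height one prime. -/
def toHOS (hN : N ≠ 0) (P : PX L N) : HeightOneSpectrum (𝓞 L) :=
  ⟨P.1, P.2.1, by
    intro h
    have h1 := P.2.2
    rw [h, Ideal.mem_bot] at h1
    exact hN (by exact_mod_cast h1)⟩

@[simp] lemma toHOS_asIdeal (hN : N ≠ 0) (P : PX L N) : (toHOS hN P).asIdeal = P.1 := rfl

lemma toHOS_injective (hN : N ≠ 0) : Function.Injective (toHOS (L := L) hN) := by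
  intro P Q h
  exact Subtype.ext (congrArg HeightOneSpectrum.asIdeal h)

lemma exists_toHOS (hN : N ≠ 0) (v : HeightOneSpectrum (𝓞 L)) (h : (N : 𝓞 L) ∈ v.asIdeal) :
    ∃ P : PX L N, toHOS hN P = v :=
  ⟨⟨v.asIdeal, v.isPrime, h⟩, rfl⟩

lemma finite_PX (hN : N ≠ 0) : Finite (PX L N) := by
  have hN' : (Ideal.span {(N : 𝓞 L)}) ≠ 0 := by
    rw [Ideal.zero_eq_bot, Ne, Ideal.span_singleton_eq_bot]
    exact_mod_cast hN
  have h := Ideal.finite_factors hN'
  have := h.to_subtype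
  refine Finite.of_injective
    (fun P : PX L N => (⟨toHOS hN P, by
      show (toHOS hN P).asIdeal ∣ _
      rw [Ideal.dvd_span_singleton]
      exact P.2.2⟩ :
      {v : HeightOneSpectrum (𝓞 L) | v.asIdeal ∣ Ideal.span {(N : 𝓞 L)}})) ?_
  intro P Q hPQ
  exact toHOS_injective hN (congrArg Subtype.val hPQ)

/-- the valuations (multiplicative convention: `ord π = -1` for a uniformiser). -/
def ord (hN : N ≠ 0) (x : Lˣ) (P : PX L N) : ℤ :=
  Multiplicative.toAdd ((toHOS hN P).valuationOfNeZero x)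

lemma ord_mul (hN : N ≠ 0) (x y : Lˣ) : ord hN (x * y) = ord hN x + ord hN y := by
  funext P
  simp [ord]

lemma ord_one (hN : N ≠ 0) : ord (L := L) hN 1 = 0 := by
  funext P
  simp [ord]

lemma ord_inv (hN : N ≠ 0) (x : Lˣ) : ord hN x⁻¹ = - ord hN x := by
  funext P
  simp [ord]

lemma ord_zpow (hN : N ≠ 0) (x : Lˣ) (n : ℤ) : ord hN (x ^ n) = n • ord hN x := by
  funext P
  simp [ord]

lemma ord_prod (hN : N ≠ 0) {ι : Type} (s : Finset ι) (x : ι → Lˣ) :
    ord hN (∏ i ∈ s, x i) = ∑ i ∈ s, ord hN (x i) := by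
  classical
  induction s using Finset.induction_on with
  | empty => simp [ord_one]
  | insert a s ha ih => rw [Finset.prod_insert ha, Finset.sum_insert ha, ord_mul, ih]

lemma valOfNeZero_eq_iff (v : HeightOneSpectrum (𝓞 L)) (x : Lˣ) (n : ℤ) :
    Multiplicative.toAdd (v.valuationOfNeZero x) = n ↔ v.valuation L (x : L) = WithZero.exp n := by
  rw [← v.valuationOfNeZero_eq x]
  constructor
  · intro h
    rw [← h]
    rfl
  · intro h
    have : v.valuationOfNeZero x = Multiplicative.ofAdd n := WithZero.coe_inj.1 h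
    rw [this]
    rfl

lemma ord_apply_eq_iff (hN : N ≠ 0) (x : Lˣ) (P : PX L N) (n : ℤ) :
    ord hN x P = n ↔ (toHOS hN P).valuation L (x : L) = WithZero.exp n :=
  valOfNeZero_eq_iff _ _ _

lemma ord_apply_eq_zero_iff (hN : N ≠ 0) (x : Lˣ) (P : PX L N) :
    ord hN x P = 0 ↔ (toHOS hN P).valuation L (x : L) = 1 := by
  rw [ord_apply_eq_iff, WithZero.exp_zero]


lemma exists_of_single (hN : N ≠ 0) [Fintype (PX L N)] [DecidableEq (PX L N)] (S : Subgroup Lˣ)
    (c : ℤ) (h : ∀ P : PX L N, ∃ x ∈ S, ord hN x = c • Pi.single P (1 : ℤ)) (f : PX L N → ℤ) :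
    ∃ x ∈ S, ord hN x = c • f := by
  choose x hxS hx using h
  refine ⟨∏ P, x P ^ f P, Subgroup.prod_mem _ fun P _ => Subgroup.zpow_mem _ (hxS P) _, ?_⟩
  rw [ord_prod]
  funext Q
  simp only [ord_zpow, hx, Finset.sum_apply, Pi.smul_apply, smul_eq_mul]
  rw [Finset.sum_eq_single Q]
  · simp [mul_comm]
  · intro P _ hP
    simp [Pi.single_eq_of_ne hP.symm]
  · intro h
    exact absurd (Finset.mem_univ Q) h

lemma notMem_of_isCoprime {a : 𝓞 L} (ha : IsCoprime a (N : 𝓞 L)) (P : PX L N) : a ∉ P.1 := by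
  intro haP
  obtain ⟨u, w, huw⟩ := ha
  have : (1 : 𝓞 L) ∈ P.1 := by
    rw [← huw]
    exact P.1.add_mem (P.1.mul_mem_left _ haP) (P.1.mul_mem_left _ P.2.2)
  exact P.2.1.ne_top ((Ideal.eq_top_iff_one _).2 this)

lemma isCoprime_of_notMem {a : 𝓞 L} (ha : ∀ P : PX L N, a ∉ P.1) : IsCoprime a (N : 𝓞 L) := by
  rw [← Ideal.isCoprime_span_singleton_iff, Ideal.isCoprime_iff_sup_eq]
  by_contra hne
  obtain ⟨M, hM, hle⟩ := Ideal.exists_le_maximal _ hne
  have h1 : a ∈ M := hle (Ideal.mem_sup_left (Ideal.mem_span_singleton_self a))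
  have h2 : (N : 𝓞 L) ∈ M := hle (Ideal.mem_sup_right (Ideal.mem_span_singleton_self _))
  exact ha ⟨M, hM.isPrime, h2⟩ h1

lemma val_coe_eq_one_iff (v : HeightOneSpectrum (𝓞 L)) (a : 𝓞 L) :
    v.valuation L (a : L) = 1 ↔ a ∉ v.asIdeal :=
  HeightOneSpectrum.valuation_eq_one_iff_notMem (K := L) (v := v) (r := a)

lemma eq_of_le (P Q : PX L N) (hN : N ≠ 0) (h : P.1 ≤ Q.1) : P = Q :=
  Subtype.ext (((toHOS hN P).isMaximal).eq_of_le Q.2.1.ne_top h)

/-- an element with valuation `1` at `P` and `0` at the other primes dividing `N`. -/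
lemma exists_delta (hN : N ≠ 0) [Fintype (PX L N)] [DecidableEq (PX L N)] (P : PX L N) :
    ∃ x ∈ (⊤ : Subgroup Lˣ), ord hN x = (-1 : ℤ) • Pi.single P (1 : ℤ) := by
  obtain ⟨π, hπ⟩ := (toHOS hN P).intValuation_exists_uniformizer
  obtain ⟨a, ha⟩ := IsDedekindDomain.exists_forall_sub_mem_ideal (s := Finset.univ)
    (fun Q : PX L N => Q.1) (fun Q => if Q = P then 2 else 1)
    (fun Q _ => (toHOS hN Q).prime) (fun Q _ Q' _ hne h => hne (Subtype.ext h))
    (fun Q => if Q.1 = P then π else 1)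
  have hP : (toHOS hN P).intValuation a = WithZero.exp (-1 : ℤ) := by
    have h1 := ha P (Finset.mem_univ P)
    simp only [if_true] at h1
    have h2 : (toHOS hN P).intValuation (a - π) ≤ WithZero.exp (-((2 : ℕ) : ℤ)) :=
      ((toHOS hN P).intValuation_le_pow_iff_mem _ _).2 h1
    have h3 : (toHOS hN P).intValuation (a - π) < (toHOS hN P).intValuation π := by
      rw [hπ]
      refine lt_of_le_of_lt h2 ?_
      rw [WithZero.exp_lt_exp]
      norm_num
    have h4 : a = π + (a - π) := by ring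
    rw [h4, Valuation.map_add_eq_of_lt_left _ h3, hπ]
  have ha0 : a ≠ 0 := by
    rintro rfl
    rw [map_zero] at hP
    exact WithZero.exp_ne_zero hP.symm
  have ha0' : (a : L) ≠ 0 := by
    exact_mod_cast ha0
  refine ⟨Units.mk0 (a : L) ha0', Subgroup.mem_top _, ?_⟩
  funext Q
  by_cases hQ : Q = P
  · subst hQ
    rw [ord_apply_eq_iff, Units.val_mk0]
    have := HeightOneSpectrum.valuation_of_algebraMap (K := L) (toHOS hN Q) a
    rw [hP] at this
    simpa using this
  · have h1 := ha Q (Finset.mem_univ Q)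
    simp only [if_neg hQ, pow_one] at h1
    have h2 : a ∉ Q.1 := by
      intro haQ
      have : (1 : 𝓞 L) ∈ Q.1 := by
        have := Q.1.sub_mem haQ h1
        simpa using this
      exact Q.2.1.ne_top ((Ideal.eq_top_iff_one _).2 this)
    have h3 : ord hN (Units.mk0 (a : L) ha0') Q = 0 := by
      rw [ord_apply_eq_zero_iff, Units.val_mk0, val_coe_eq_one_iff]
      exact h2
    rw [h3]
    simp [Pi.single_eq_of_ne hQ]


/-- a power of a prime ideal is principal. -/
lemma exists_gen (v : HeightOneSpectrum (𝓞 L)) :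
    ∃ a : 𝓞 L, a ≠ 0 ∧ v.asIdeal ^ (classNumber L) = Ideal.span {a} := by
  have hv0 : v.asIdeal ∈ (Ideal (𝓞 L))⁰ := mem_nonZeroDivisors_of_ne_zero v.ne_bot
  have h1 : ClassGroup.mk0 (⟨v.asIdeal, hv0⟩ ^ classNumber L : (Ideal (𝓞 L))⁰) = 1 := by
    rw [map_pow]
    exact pow_card_eq_one
  rw [ClassGroup.mk0_eq_one_iff] at h1
  obtain ⟨a, ha⟩ := h1
  refine ⟨a, ?_, ha⟩
  rintro rfl
  have h2 : v.asIdeal ^ classNumber L = ⊥ := by
    have : (v.asIdeal ^ classNumber L : Ideal (𝓞 L)) = Submodule.span (𝓞 L) {0} := ha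
    rw [this]; simp
  rw [← Ideal.zero_eq_bot] at h2
  exact v.ne_bot ((pow_eq_zero_iff (classNumber_pos L).ne').1 h2)

/-- an `N`-unit with valuation `h` at `P` and `0` at the other primes dividing `N`. -/
lemma exists_deltaAway (hN : N ≠ 0) [DecidableEq (PX L N)] (P : PX L N) :
    ∃ x ∈ unitsAway L N, ord hN x = (-(classNumber L : ℤ)) • Pi.single P (1 : ℤ) := by
  obtain ⟨a, ha0, ha⟩ := exists_gen (toHOS hN P)
  have ha0' : (a : L) ≠ 0 := by
    exact_mod_cast ha0
  have hdvd : a ∣ (N : 𝓞 L) ^ classNumber L := by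
    rw [← Ideal.mem_span_singleton, ← ha]
    exact Ideal.pow_mem_pow P.2.2 _
  refine ⟨Units.mk0 (a : L) ha0', ⟨a, classNumber L, 0, hdvd, by simp⟩, ?_⟩
  funext Q
  by_cases hQ : Q = P
  · subst hQ
    rw [ord_apply_eq_iff, Units.val_mk0]
    have h1 := HeightOneSpectrum.valuation_of_algebraMap (K := L) (toHOS hN Q) a
    rw [HeightOneSpectrum.intValuation_eq_exp_neg_multiplicity _ ha0, ← ha,
      multiplicity_pow_self_of_prime (toHOS hN Q).prime] at h1
    simpa using h1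
  · have h2 : a ∉ Q.1 := by
      intro haQ
      have h3 : (toHOS hN P).asIdeal ^ classNumber L ≤ Q.1 := by
        rw [ha, Ideal.span_singleton_le_iff_mem]
        exact haQ
      have h4 : P.1 ≤ Q.1 := Q.2.1.le_of_pow_le h3
      exact hQ (eq_of_le P Q hN h4).symm
    have h3 : ord hN (Units.mk0 (a : L) ha0') Q = 0 := by
      rw [ord_apply_eq_zero_iff, Units.val_mk0, val_coe_eq_one_iff]
      exact h2
    rw [h3]
    simp [Pi.single_eq_of_ne hQ]

lemma ord_eq_zero_of_mem_unitsAt (hN : N ≠ 0) (x : Lˣ) (hx : x ∈ unitsAt L N) :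
    ord hN x = 0 := by
  obtain ⟨a, b, ha, hb, hxab⟩ := hx
  funext P
  show ord hN x P = 0
  rw [ord_apply_eq_zero_iff]
  have h1 := congrArg ((toHOS hN P).valuation L) hxab
  rw [map_mul, (val_coe_eq_one_iff _ a).2 (notMem_of_isCoprime ha P),
    (val_coe_eq_one_iff _ b).2 (notMem_of_isCoprime hb P), mul_one] at h1
  exact h1

/-- the ideal of denominators of `x`. -/
def denIdeal (x : L) : Ideal (𝓞 L) where
  carrier := {b | ∃ a : 𝓞 L, x * (b : L) = (a : L)}
  add_mem' := by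
    rintro b b' ⟨a, ha⟩ ⟨a', ha'⟩
    exact ⟨a + a', by push_cast; rw [mul_add, ha, ha']⟩
  zero_mem' := ⟨0, by simp⟩
  smul_mem' := by
    rintro c b ⟨a, ha⟩
    exact ⟨c * a, by rw [smul_eq_mul]; push_cast; linear_combination (c : L) * ha⟩

lemma mem_unitsAt_of_ord_eq_zero (hN : N ≠ 0) (x : Lˣ) (hx : ord hN x = 0) :
    x ∈ unitsAt L N := by
  classical
  have := finite_PX (L := L) hN
  have := Fintype.ofFinite (PX L N)
  have hval : ∀ P : PX L N, (toHOS hN P).valuation L (x : L) = 1 := fun P =>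
    (ord_apply_eq_zero_iff hN x P).1 (congrFun hx P)
  -- prime avoidance
  have h1 : ¬ ((denIdeal (x : L) : Set (𝓞 L)) ⊆
      ⋃ I ∈ ((Finset.univ.image fun P : PX L N => P.1 : Finset (Ideal (𝓞 L))) :
        Set (Ideal (𝓞 L))), (I : Set (𝓞 L))) := by
    rw [Ideal.subset_union_prime (f := fun I : Ideal (𝓞 L) => I) ⊥ ⊥]
    · rintro ⟨I, hI, hle⟩
      obtain ⟨P, -, rfl⟩ := Finset.mem_image.1 hI
      obtain ⟨n, d, hnd⟩ := (toHOS hN P).exists_primeCompl_mul_eq_of_integer (x : L) (hval P).le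
      exact d.2 (hle ⟨n, hnd⟩)
    · intro I hI _ _
      obtain ⟨P, -, rfl⟩ := Finset.mem_image.1 hI
      exact P.2.1
  rw [Set.not_subset] at h1
  obtain ⟨b, ⟨a, hab⟩, hb⟩ := h1
  have hb' : ∀ P : PX L N, b ∉ P.1 := by
    intro P hbP
    apply hb
    simp only [Set.mem_iUnion]
    exact ⟨P.1, by simp, hbP⟩
  have ha' : ∀ P : PX L N, a ∉ P.1 := by
    intro P
    have h2 := congrArg ((toHOS hN P).valuation L) hab
    rw [map_mul, hval P, one_mul, (val_coe_eq_one_iff _ b).2 (hb' P)] at h2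
    exact (val_coe_eq_one_iff (toHOS hN P) a).1 h2.symm
  exact ⟨a, b, isCoprime_of_notMem ha', isCoprime_of_notMem hb', hab⟩

lemma isUnit_of_unitsAway (hN : N ≠ 0) (x : Lˣ) (hx : x ∈ unitsAway L N) (h0 : ord hN x = 0) :
    ∃ u : (𝓞 L)ˣ, ((u : 𝓞 L) : L) = (x : L) := by
  obtain ⟨a, i, j, ⟨a', ha'⟩, hxa⟩ := hx
  have hall : ∀ v : HeightOneSpectrum (𝓞 L), v.valuation L (x : L) = 1 := by
    intro v
    by_cases hv : (N : 𝓞 L) ∈ v.asIdeal
    · obtain ⟨P, rfl⟩ := exists_toHOS hN v hv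
      exact (ord_apply_eq_zero_iff hN x P).1 (congrFun h0 P)
    · have hNv : v.valuation L ((N : 𝓞 L) : L) = 1 := (val_coe_eq_one_iff v _).2 hv
      have hav : a ∉ v.asIdeal := by
        intro ha
        have : (N : 𝓞 L) ^ i ∈ v.asIdeal := by
          rw [ha']
          exact v.asIdeal.mul_mem_right _ ha
        exact hv (v.isPrime.mem_of_pow_mem _ this)
      have h1 := congrArg (v.valuation L) hxa
      have e : ((N : 𝓞 L) : L) = (N : L) := by simp
      rw [map_mul, map_pow, ← e, hNv, one_pow, mul_one, (val_coe_eq_one_iff v a).2 hav] at h1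
      exact h1
  obtain ⟨c, hc⟩ := HeightOneSpectrum.mem_integers_of_valuation_le_one L (x : L)
    fun v => (hall v).le
  obtain ⟨d, hd⟩ := HeightOneSpectrum.mem_integers_of_valuation_le_one L ((x⁻¹ : Lˣ) : L)
    fun v => by
      rw [Units.val_inv_eq_inv_val, map_inv₀, hall v, inv_one]
  have hcd : c * d = 1 := by
    apply FaithfulSMul.algebraMap_injective (𝓞 L) L
    rw [map_mul, hc, hd, map_one, Units.mul_inv]
  exact ⟨⟨c, d, hcd, by rw [mul_comm, hcd]⟩, hc⟩

end OneField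

section TwoFields

variable (K : Type) {L : Type} [Field K] [NumberField K] [Field L] [NumberField L] [Algebra K L]
  {N : ℕ}

lemma coe_smul (σ : L ≃ₐ[K] L) (a : 𝓞 L) : ((σ • a : 𝓞 L) : L) = σ (a : L) :=
  algebraMap.coe_smul' σ a L

lemma smul_natCast' (σ : L ≃ₐ[K] L) : σ • (N : 𝓞 L) = (N : 𝓞 L) :=
  map_natCast (MulSemiringAction.toRingHom (L ≃ₐ[K] L) (𝓞 L) σ) N

/-- the action of the Galois group on the primes dividing `N`. -/
@[reducible] def actPX : MulAction (L ≃ₐ[K] L) (PX L N) where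
  smul σ P := ⟨σ • P.1, by have := P.2.1; exact Ideal.IsPrime.smul σ, by
    have := Ideal.smul_mem_pointwise_smul σ _ _ P.2.2
    rwa [smul_natCast'] at this⟩
  one_smul P := Subtype.ext (one_smul _ _)
  mul_smul σ τ P := Subtype.ext (mul_smul _ _ _)

/-- the permutation of the primes dividing `N` induced by `σ`. -/
def sPerm (σ : L ≃ₐ[K] L) : Equiv.Perm (PX L N) :=
  letI := actPX K (L := L) (N := N)
  MulAction.toPermHom (L ≃ₐ[K] L) (PX L N) σ

lemma sPerm_apply_coe (σ : L ≃ₐ[K] L) (P : PX L N) : (sPerm K σ P).1 = σ • P.1 := rfl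

lemma sPerm_pow (σ : L ≃ₐ[K] L) (n : ℕ) : (sPerm K σ : Equiv.Perm (PX L N)) ^ n = sPerm K (σ ^ n) := by
  unfold sPerm
  rw [map_pow]

lemma sPerm_one : (sPerm K (1 : L ≃ₐ[K] L) : Equiv.Perm (PX L N)) = 1 := by
  unfold sPerm
  rw [map_one]

lemma intVal_smul (σ : L ≃ₐ[K] L) (v w : HeightOneSpectrum (𝓞 L))
    (hw : w.asIdeal = σ • v.asIdeal) (a : 𝓞 L) : w.intValuation (σ • a) = v.intValuation a := by
  by_cases ha : a = 0
  · subst ha
    simp
  · have ha' : σ • a ≠ 0 := by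
      rwa [Ne, smul_eq_zero_iff_eq]
    rw [HeightOneSpectrum.intValuation_eq_exp_neg_multiplicity _ ha',
      HeightOneSpectrum.intValuation_eq_exp_neg_multiplicity _ ha, hw]
    have e : Ideal.span {σ • a} = σ • Ideal.span {a} := by
      rw [Ideal.smul_closure, Set.smul_set_singleton]
    rw [e]
    have := multiplicity_map_eq (MulSemiringAction.toRingEquiv (L ≃ₐ[K] L) (Ideal (𝓞 L)) σ)
      (a := v.asIdeal) (b := Ideal.span {a})
    rw [← this]
    rfl

lemma val_smul (σ : L ≃ₐ[K] L) (v w : HeightOneSpectrum (𝓞 L))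
    (hw : w.asIdeal = σ • v.asIdeal) (x : L) : w.valuation L (σ x) = v.valuation L x := by
  obtain ⟨a, b, -, rfl⟩ := IsFractionRing.div_surjective (A := 𝓞 L) x
  have e1 : σ (algebraMap (𝓞 L) L a) = algebraMap (𝓞 L) L (σ • a) := (coe_smul K σ a).symm
  have e2 : σ (algebraMap (𝓞 L) L b) = algebraMap (𝓞 L) L (σ • b) := (coe_smul K σ b).symm
  rw [map_div₀ σ, map_div₀, map_div₀, e1, e2]
  erw [HeightOneSpectrum.valuation_of_algebraMap, HeightOneSpectrum.valuation_of_algebraMap,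
    HeightOneSpectrum.valuation_of_algebraMap, HeightOneSpectrum.valuation_of_algebraMap]
  rw [intVal_smul K σ v w hw, intVal_smul K σ v w hw]

lemma ord_equivariant (hN : N ≠ 0) (σ : L ≃ₐ[K] L) (x : Lˣ) (P : PX L N) :
    ord hN (loSX K L σ x) (sPerm K σ P) = ord hN x P := by
  rw [ord_apply_eq_iff]
  have h1 : ((loSX K L σ x : Lˣ) : L) = σ (x : L) := rfl
  rw [h1, val_smul K σ (toHOS hN P) (toHOS hN (sPerm K σ P)) rfl]
  exact (ord_apply_eq_iff hN x P _).1 rfl

lemma card_fixed (σ : L ≃ₐ[K] L) :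
    Nat.card {P : PX L N // sPerm K σ P = P} = nuFix K L σ N := by
  unfold nuFix
  refine Nat.card_congr
    { toFun := fun P => ⟨P.1.1, P.1.2.1, P.1.2.2, congrArg Subtype.val P.2⟩
      invFun := fun P => ⟨⟨P.1, P.2.1, P.2.2.1⟩, Subtype.ext P.2.2.2⟩
      left_inv := fun _ => rfl
      right_inv := fun _ => rfl }

end TwoFields

end OrdData

open OrdData in
theorem ordData : Stmt_OrdData := by
  classical
  intro K L _ _ _ _ _ _ σ N hN
  have := finite_PX (L := L) hN
  let inst : Fintype (PX L N) := Fintype.ofFinite (PX L N)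
  refine ⟨PX L N, inst, sPerm K σ, ord hN, ord_mul hN, ord_equivariant K hN σ, ?_, ?_, ?_,
    card_fixed K σ, isUnit_of_unitsAway hN, ?_⟩
  · intro n hn
    rw [sPerm_pow, hn, sPerm_one]
  · intro f
    obtain ⟨x, -, hx⟩ := exists_of_single hN ⊤ (-1) (exists_delta hN) (-f)
    exact ⟨x, by rw [hx]; simp⟩
  · intro x
    exact ⟨mem_unitsAt_of_ord_eq_zero hN x, ord_eq_zero_of_mem_unitsAt hN x⟩
  · refine ⟨classNumber L, (classNumber_pos L).ne', fun f => ?_⟩
    obtain ⟨x, hxS, hx⟩ := exists_of_single hN (unitsAway L N) (-(classNumber L : ℤ))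
      (exists_deltaAway hN) (-f)
    exact ⟨x, hxS, by rw [hx]; simp⟩

end Fermat.Agent.CFT.HP

end
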