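/-
CFT / HP, package C2-S4a : Herbrand quotient of a permutation module for a permutation of prime
order.
-/
import Fermat.Agent.CFT.HP.InterfaceC

set_option autoImplicit false

namespace Fermat.Agent.CFT.HP

open Fermat.Agent.CFT.P0

namespace PermHerbrand

variable {X : Type}

theorem permAct_apply (s : Equiv.Perm X) (f : X → ℤ) (x : X) : permAct s f x = f (s⁻¹ x) := rfl

theorem Nm_apply (p : ℕ) (s : Equiv.Perm X) (f : X → ℤ) (x : X) :
    (∑ i ∈ Finset.range p, permAct (s ^ i)) f x = ∑ i ∈ Finset.range p, f ((s⁻¹ ^ i) x) := by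
  rw [AddMonoidHom.finsetSum_apply, Finset.sum_apply]
  refine Finset.sum_congr rfl fun i _ => ?_
  rw [permAct_apply, inv_pow]

theorem D_apply (s : Equiv.Perm X) (f : X → ℤ) (x : X) :
    (permAct s - AddMonoidHom.id (X → ℤ)) f x = f (s⁻¹ x) - f x := rfl

theorem pow_injOn (p : ℕ) (hp : p.Prime) (t : Equiv.Perm X) (ht : t ^ p = 1) (x : X)
    (hx : t x ≠ x) (i j : ℕ) (hi : i < p) (hj : j < p) (h : (t ^ i) x = (t ^ j) x) : i = j := by
  have hper : Function.IsPeriodicPt t p x := by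
    show t^[p] x = x
    rw [Equiv.Perm.iterate_eq_pow, ht]
    rfl
  have hmin : Function.minimalPeriod t x = p := by
    rcases (Nat.dvd_prime hp).1 hper.minimalPeriod_dvd with h1 | h1
    · exact absurd (Function.minimalPeriod_eq_one_iff_isFixedPt.1 h1) hx
    · exact h1
  have hinj := Function.iterate_injOn_Iio_minimalPeriod (f := t) (x := x)
  rw [hmin] at hinj
  apply hinj hi hj
  show t^[i] x = t^[j] x
  rw [Equiv.Perm.iterate_eq_pow, Equiv.Perm.iterate_eq_pow]
  exact h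

/-- a weight function: the indicator function of a set of representatives of the orbits. -/
theorem exists_weight (p : ℕ) (hp : p.Prime) (t : Equiv.Perm X) (ht : t ^ p = 1) :
    ∃ w : X → ℤ, ∀ x, t x ≠ x → ∑ i ∈ Finset.range p, w ((t ^ i) x) = 1 := by
  classical
  let S : Setoid X :=
    { r := fun x y => ∃ i : ℕ, (t ^ i) x = y
      iseqv := ⟨fun x => ⟨0, rfl⟩,
        fun {x y} ⟨i, hi⟩ => ⟨(p - 1) * i, by
          rw [← hi, ← Equiv.Perm.mul_apply, ← pow_add]
          have h1 : (p - 1) * i + i = p * i := by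
            obtain ⟨q, rfl⟩ : ∃ q, p = q + 1 := ⟨p - 1, by have := hp.pos; omega⟩
            simp only [Nat.add_sub_cancel]
            ring
          rw [h1, pow_mul, ht, one_pow]
          rfl⟩,
        fun {x y z} ⟨i, hi⟩ ⟨j, hj⟩ => ⟨j + i, by
          rw [pow_add, Equiv.Perm.mul_apply, hi, hj]⟩⟩ }
  let rep : X → X := fun x => (Quotient.mk S x).out
  have hrep1 : ∀ x, ∃ i : ℕ, (t ^ i) x = rep x := fun x => S.symm (Quotient.mk_out x)
  have hrep2 : ∀ (x : X) (i : ℕ), rep ((t ^ i) x) = rep x := by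
    intro x i
    have h1 : Quotient.mk S ((t ^ i) x) = Quotient.mk S x :=
      Quotient.sound (S.symm ⟨i, rfl⟩)
    show (Quotient.mk S ((t ^ i) x)).out = (Quotient.mk S x).out
    rw [h1]
  refine ⟨fun x => if rep x = x then 1 else 0, fun x hx => ?_⟩
  obtain ⟨i0, hi0⟩ := hrep1 x
  have hi1 : (t ^ (i0 % p)) x = rep x := by rw [← pow_eq_pow_mod i0 ht, hi0]
  have hlt : i0 % p < p := Nat.mod_lt _ hp.pos
  rw [Finset.sum_eq_single (i0 % p)]
  · simp only [hrep2]
    rw [if_pos hi1.symm]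
  · intro i hi hne
    simp only [hrep2]
    rw [if_neg]
    intro h
    exact hne (pow_injOn p hp t ht x hx i (i0 % p) (Finset.mem_range.1 hi) hlt (h.symm.trans hi1.symm))
  · intro h
    exact absurd (Finset.mem_range.2 hlt) h

theorem inv_pow_eq_one {p : ℕ} {s : Equiv.Perm X} (hs : s ^ p = 1) : s⁻¹ ^ p = 1 := by
  rw [inv_pow, hs, inv_one]

theorem inv_apply_eq_iff (s : Equiv.Perm X) (x : X) : s⁻¹ x = x ↔ s x = x := by
  rw [Equiv.Perm.inv_eq_iff_eq]
  exact eq_comm

theorem pow_apply_of_fixed (t : Equiv.Perm X) (x : X) (hx : t x = x) (i : ℕ) : (t ^ i) x = x := by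
  induction i with
  | zero => rfl
  | succ i ih => rw [pow_succ, Equiv.Perm.mul_apply, hx, ih]

theorem pow_apply_ne (t : Equiv.Perm X) (x : X) (hx : t x ≠ x) (i : ℕ) :
    t ((t ^ i) x) ≠ (t ^ i) x := by
  intro h
  apply hx
  have h1 : (t ^ i) (t x) = (t ^ i) x := by
    rw [← Equiv.Perm.mul_apply, ← pow_succ, pow_succ', Equiv.Perm.mul_apply]
    exact h
  exact (t ^ i).injective h1

theorem sum_shift (p : ℕ) (a : ℕ → ℤ) (h : a p = a 0) :
    ∑ i ∈ Finset.range p, a (i + 1) = ∑ i ∈ Finset.range p, a i := by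
  have h1 := Finset.sum_range_succ' a p
  have h2 := Finset.sum_range_succ a p
  rw [h1] at h2
  linarith

theorem ker_le_range (p : ℕ) (hp : p.Prime) (s : Equiv.Perm X) (hs : s ^ p = 1) :
    (∑ i ∈ Finset.range p, permAct (s ^ i)).ker ≤
      (permAct s - AddMonoidHom.id (X → ℤ)).range := by
  intro f hf
  have ht : s⁻¹ ^ p = 1 := inv_pow_eq_one hs
  obtain ⟨w, hw⟩ := exists_weight p hp s⁻¹ ht
  have hN : ∀ x, ∑ i ∈ Finset.range p, f ((s⁻¹ ^ i) x) = 0 := fun x => by
    rw [← Nm_apply]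
    exact congrFun hf x
  refine ⟨fun x => - ∑ i ∈ Finset.range p,
    w ((s⁻¹ ^ i) x) * ∑ j ∈ Finset.range i, f ((s⁻¹ ^ j) x), ?_⟩
  funext x
  rw [D_apply]
  have h1 : ∀ i : ℕ, (s⁻¹ ^ i) (s⁻¹ x) = (s⁻¹ ^ (i + 1)) x := fun i => by
    rw [pow_succ, Equiv.Perm.mul_apply]
  have h2 : ∀ i : ℕ, ∑ j ∈ Finset.range i, f ((s⁻¹ ^ (j + 1)) x) =
      ∑ j ∈ Finset.range (i + 1), f ((s⁻¹ ^ j) x) - f x := fun i => by
    rw [Finset.sum_range_succ' _ i]
    simp
  have h3 := sum_shift p
    (fun i => w ((s⁻¹ ^ i) x) * ∑ j ∈ Finset.range i, f ((s⁻¹ ^ j) x)) (by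
      simp only [hN, Finset.range_zero, Finset.sum_empty, mul_zero])
  have h4 := sum_shift p (fun i => w ((s⁻¹ ^ i) x)) (by
    simp only [ht, pow_zero])
  simp only [h1, h2, mul_sub, Finset.sum_sub_distrib]
  rw [h3, ← Finset.sum_mul, h4]
  by_cases hx : s⁻¹ x = x
  · have h5 := hN x
    simp only [pow_apply_of_fixed s⁻¹ x hx] at h5
    rw [Finset.sum_const, Finset.card_range, nsmul_eq_mul] at h5
    have hp0 : (p : ℤ) ≠ 0 := by exact_mod_cast hp.ne_zero
    have h6 : f x = 0 := (mul_eq_zero.1 h5).resolve_left hp0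
    rw [h6]
    ring
  · rw [hw x hx]
    ring

/-- reduction mod `p` at the fixed points -/
def phi (p : ℕ) (s : Equiv.Perm X) :
    (permAct s - AddMonoidHom.id (X → ℤ)).ker →+ ({x : X // s x = x} → ZMod p) where
  toFun g := fun x => ((g.1 x.1 : ℤ) : ZMod p)
  map_zero' := by
    funext x
    simp
  map_add' g g' := by
    funext x
    simp

theorem mem_ker_D (s : Equiv.Perm X) (g : X → ℤ) :
    g ∈ (permAct s - AddMonoidHom.id (X → ℤ)).ker ↔ ∀ x, g (s⁻¹ x) = g x := by
  rw [AddMonoidHom.mem_ker]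
  constructor
  · intro h x
    have := congrFun h x
    rw [D_apply] at this
    exact sub_eq_zero.1 this
  · intro h
    funext x
    rw [D_apply, h x, sub_self]
    rfl

theorem inv_pow_invariant (s : Equiv.Perm X) (g : X → ℤ) (hg : ∀ x, g (s⁻¹ x) = g x) (i : ℕ)
    (x : X) : g ((s⁻¹ ^ i) x) = g x := by
  induction i with
  | zero => rfl
  | succ i ih => rw [pow_succ', Equiv.Perm.mul_apply, hg, ih]

theorem phi_surjective (p : ℕ) [NeZero p] (s : Equiv.Perm X) : Function.Surjective (phi p s) := by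
  classical
  intro c
  refine ⟨⟨fun x => if h : s x = x then ((c ⟨x, h⟩).val : ℤ) else 0, ?_⟩, ?_⟩
  · rw [mem_ker_D]
    intro x
    by_cases hx : s x = x
    · have h1 : s⁻¹ x = x := (inv_apply_eq_iff s x).2 hx
      rw [h1]
    · have h1 : s (s⁻¹ x) ≠ s⁻¹ x := by
        intro h
        apply hx
        have h2 : s (s⁻¹ x) = x := s.apply_symm_apply x
        rw [h2] at h
        exact ((inv_apply_eq_iff s x).1 h.symm)
      rw [dif_neg h1, dif_neg hx]
  · funext x
    show (((if h : s x.1 = x.1 then ((c ⟨x.1, h⟩).val : ℤ) else 0 : ℤ)) : ZMod p) = c x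
    rw [dif_pos x.2]
    simp

theorem ker_phi (p : ℕ) (hp : p.Prime) (s : Equiv.Perm X) (hs : s ^ p = 1) :
    (∑ i ∈ Finset.range p, permAct (s ^ i)).range.addSubgroupOf
      (permAct s - AddMonoidHom.id (X → ℤ)).ker = (phi p s).ker := by
  classical
  have ht : s⁻¹ ^ p = 1 := inv_pow_eq_one hs
  ext ⟨g, hg⟩
  rw [AddSubgroup.mem_addSubgroupOf, AddMonoidHom.mem_ker]
  have hg' := (mem_ker_D s g).1 hg
  constructor
  · rintro ⟨f, hf⟩
    funext x
    show ((g x.1 : ℤ) : ZMod p) = 0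
    have h1 : g x.1 = ∑ i ∈ Finset.range p, f ((s⁻¹ ^ i) x.1) := by
      rw [← Nm_apply]
      exact (congrFun hf x.1).symm
    simp only [pow_apply_of_fixed s⁻¹ x.1 ((inv_apply_eq_iff s x.1).2 x.2)] at h1
    rw [h1, Finset.sum_const, Finset.card_range, nsmul_eq_mul]
    simp
  · intro h
    obtain ⟨w, hw⟩ := exists_weight p hp s⁻¹ ht
    have hdvd : ∀ x, s x = x → (p : ℤ) ∣ g x := by
      intro x hx
      have := congrFun h ⟨x, hx⟩
      exact (ZMod.intCast_zmod_eq_zero_iff_dvd (g x) p).1 this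
    refine ⟨fun x => if s x = x then g x / p else w x * g x, ?_⟩
    funext x
    rw [Nm_apply]
    show _ = g x
    by_cases hx : s x = x
    · simp only [pow_apply_of_fixed s⁻¹ x ((inv_apply_eq_iff s x).2 hx), if_pos hx]
      rw [Finset.sum_const, Finset.card_range, nsmul_eq_mul]
      exact Int.mul_ediv_cancel' (hdvd x hx)
    · have hx' : s⁻¹ x ≠ x := fun h => hx ((inv_apply_eq_iff s x).1 h)
      have h2 : ∀ i : ℕ, ¬ s ((s⁻¹ ^ i) x) = (s⁻¹ ^ i) x := fun i h =>
        pow_apply_ne s⁻¹ x hx' i ((inv_apply_eq_iff s _).2 h)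
      simp only [if_neg (h2 _), inv_pow_invariant s g hg']
      rw [← Finset.sum_mul, hw x hx', one_mul]

end PermHerbrand

open PermHerbrand in
/-- C2-S4a. Herbrand quotient of a permutation module for a permutation of prime order. -/
theorem permHerbrand : Stmt_PermHerbrand := by
  intro p X _ s hp hs
  have : NeZero p := ⟨hp.ne_zero⟩
  constructor
  · exact AddSubgroup.relIndex_eq_one.2 (ker_le_range p hp s hs)
  · show ((∑ i ∈ Finset.range p, permAct (s ^ i)).range.addSubgroupOf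
      (permAct s - AddMonoidHom.id (X → ℤ)).ker).index = _
    rw [ker_phi p hp s hs, AddSubgroup.index_ker,
      AddMonoidHom.range_eq_top.2 (phi_surjective p s)]
    rw [Nat.card_congr (AddSubgroup.topEquiv).toEquiv, Nat.card_fun, Nat.card_zmod]

end Fermat.Agent.CFT.HP
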