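/-
CFT / HP, package C2-S5 : the semilocal first inequality (`Stmt_SLF`).
-/
import Fermat.Agent.CFT.HP.InterfaceC
import Fermat.Agent.S14.LoAssembly

set_option autoImplicit false
set_option linter.unusedSectionVars false

namespace Fermat.Agent.CFT.HP

open NumberField Fermat.Agent.S14 Fermat.Agent.CFT.P0 Fermat.Agent.CFT.Ray
open scoped Pointwise

/-- pure group theory: comparison of two indices. -/
theorem slf_card_le {A B : Type*} [CommGroup A] [CommGroup B] (ι : B →* A)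
    (Xs Y V : Subgroup A) (H : Subgroup B)
    (ha : ∀ x ∈ Xs, ∃ k : B, x / ι k ∈ V)
    (hc : ∀ x ∈ Xs, ∀ k ∈ H, x / ι k ∈ V → x ∈ Y) (hH : H.index ≠ 0) :
    Y.relIndex Xs ≤ H.index := by
  choose! k hk using ha
  have : H.FiniteIndex := ⟨hH⟩
  let g : Xs ⧸ Y.subgroupOf Xs → B ⧸ H := fun q => QuotientGroup.mk (k (Quotient.out q : Xs))
  have hg : Function.Injective g := by
    intro q q' hqq
    have h1 : (k (Quotient.out q : Xs))⁻¹ * k (Quotient.out q' : Xs) ∈ H := QuotientGroup.eq.1 hqq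
    have h2 : ((Quotient.out q : Xs) : A)⁻¹ * (Quotient.out q' : Xs) ∈ Y := by
      refine hc _ (Xs.mul_mem (Xs.inv_mem (Quotient.out q).2) (Quotient.out q').2) _ h1 ?_
      have h3 := V.mul_mem (V.inv_mem (hk _ (Quotient.out q).2)) (hk _ (Quotient.out q').2)
      convert h3 using 1
      rw [map_mul, map_inv]
      generalize ((Quotient.out q : Xs) : A) = a
      generalize ((Quotient.out q' : Xs) : A) = a'
      generalize ι (k a) = b
      generalize ι (k a') = b'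
      simp only [div_eq_mul_inv, mul_inv, inv_inv, mul_comm, mul_left_comm, mul_assoc]
    have h4 : (QuotientGroup.mk (Quotient.out q) : Xs ⧸ Y.subgroupOf Xs) =
        QuotientGroup.mk (Quotient.out q') := QuotientGroup.eq.2 (Subgroup.mem_subgroupOf.2 h2)
    simpa using h4
  exact Nat.card_le_card_of_injective g hg

section Main

variable {K L : Type} [Field K] [NumberField K] [Field L] [NumberField L] [Algebra K L]
  [IsGalois K L] (θ : 𝓞 L) (N : ℕ)

theorem slf_coe_SX (τ : L ≃ₐ[K] L) (x : Lˣ) : ((loSX K L τ x : Lˣ) : L) = τ (x : L) := rfl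

theorem slf_V_stable (hV : Stmt_VGroup) (hL : Stmt_LamBasic) (hlam : LamData K L θ N) (j : ℕ)
    (hj : 1 ≤ j) (τ : L ≃ₐ[K] L) (x : Lˣ) (hx : x ∈ Vsub K L θ N j) :
    loSX K L τ x ∈ Vsub K L θ N j := by
  obtain ⟨-, -, -, -, -, h6, -⟩ := hL K L θ N hlam
  rw [hV K L θ N hlam j hj] at hx ⊢
  have := h6 j τ _ hx
  rwa [map_sub, map_one] at this

theorem slf_V_mono (hV : Stmt_VGroup) (hL : Stmt_LamBasic) (hlam : LamData K L θ N) (j : ℕ)
    (hj : 1 ≤ j) : Vsub K L θ N (j + 1) ≤ Vsub K L θ N j := by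
  obtain ⟨-, h2, -⟩ := hL K L θ N hlam
  intro x hx
  rw [hV K L θ N hlam (j + 1) (by omega)] at hx
  rw [hV K L θ N hlam j hj]
  exact h2 j hx

/-- if `σ x / x ∈ V_j` for a generator `σ` then `τ x / x ∈ V_j` for all `τ`. -/
theorem slf_all_tau (hV : Stmt_VGroup) (hL : Stmt_LamBasic) (hlam : LamData K L θ N) (j : ℕ)
    (hj : 1 ≤ j) (σ : L ≃ₐ[K] L) (hσ : ∀ τ : L ≃ₐ[K] L, τ ∈ Subgroup.zpowers σ) (x : Lˣ)
    (hx : loSX K L σ x / x ∈ Vsub K L θ N j) (τ : L ≃ₐ[K] L) :
    loSX K L τ x / x ∈ Vsub K L θ N j := by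
  let S : Subgroup (L ≃ₐ[K] L) :=
    { carrier := {τ | loSX K L τ x / x ∈ Vsub K L θ N j}
      one_mem' := by
        have : loSX K L 1 x = x := by ext; rfl
        simp only [Set.mem_ofPred_eq, this, div_self']
        exact Subgroup.one_mem _
      mul_mem' := fun {a b} ha hb => by
        simp only [Set.mem_ofPred_eq] at *
        have h1 := slf_V_stable θ N hV hL hlam j hj a _ hb
        have h2 := Subgroup.mul_mem _ h1 ha
        rw [map_div] at h2
        rw [lo6_SX_mul, MonoidHom.comp_apply]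
        convert h2 using 1
        rw [div_mul_div_cancel]
      inv_mem' := fun {a} ha => by
        simp only [Set.mem_ofPred_eq] at *
        have h1 := slf_V_stable θ N hV hL hlam j hj a⁻¹ _ (Subgroup.inv_mem _ ha)
        rw [inv_div, map_div, ← MonoidHom.comp_apply, ← lo6_SX_mul, inv_mul_cancel] at h1
        have : loSX K L 1 x = x := by ext; rfl
        rwa [this] at h1 }
  have : Subgroup.zpowers σ ≤ S := Subgroup.zpowers_le.mpr hx
  exact this (hσ τ)

theorem slf_incl_norm (y : Lˣ) : inclU K L (normU K L y) = loNX K L y := by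
  ext
  rw [lo6_coe_NX]
  exact Algebra.norm_eq_prod_automorphisms K (y : L)

theorem slf_SX_NX (τ : L ≃ₐ[K] L) (y : Lˣ) : loSX K L τ (loNX K L y) = loNX K L y :=
  (lo6_norm_comp (loSX K L) (lo6_SX_mul K L) τ y).2

theorem slf_SX_incl (τ : L ≃ₐ[K] L) (k : Kˣ) : loSX K L τ (inclU K L k) = inclU K L k := by
  ext
  exact τ.commutes (k : K)

/-- (d) `congOne K (N^3) ≤ V_2 ∩ Kˣ`. -/
theorem slf_congOne_le (hV : Stmt_VGroup) (hL : Stmt_LamBasic) (hC : Stmt_CoprimeInt)
    (hlam : LamData K L θ N) :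
    congOne K (N ^ 3) ≤ (Vsub K L θ N 2).comap (inclU K L) := by
  obtain ⟨-, -, h3, -⟩ := hL K L θ N hlam
  rintro x ⟨a, b, hb, ⟨c, hc⟩, hx⟩
  rw [Subgroup.mem_comap, hV K L θ N hlam 2 (by norm_num)]
  apply h3 2
  obtain ⟨μ, c0, hc0, hμ⟩ := hC K (N ^ 3) b hb
  have hc0N : c0.Coprime N := (Nat.coprime_pow_right_iff (by norm_num) c0 N).1 hc0
  have hc00 : c0 ≠ 0 := by
    rintro rfl
    rw [Nat.coprime_zero_left] at hc0N
    have := hlam.pos
    omega
  refine ⟨c0, algebraMap (𝓞 K) (𝓞 L) (c * μ), hc00, hc0N, ?_⟩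
  have hK : (c0 : K) * ((x : K) - 1) = (N : K) ^ 3 * ((c * μ : 𝓞 K) : K) := by
    have e1 : ((b : K)) * (μ : K) = (c0 : K) := by
      have := congrArg (fun t : 𝓞 K => (t : K)) hμ
      simpa using this
    have e2 : (a : K) - (b : K) = (N : K) ^ 3 * (c : K) := by
      have := congrArg (fun t : 𝓞 K => (t : K)) hc
      simpa using this
    push_cast
    rw [← e1]
    linear_combination (μ : K) * hx + (μ : K) * e2
  have hLL := congrArg (algebraMap K L) hK
  rw [map_mul, map_sub, map_one, map_mul, map_pow, map_natCast, map_natCast] at hLL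
  exact hLL

/-- (c) the kernel computation. -/
theorem slf_kernel (hG : Stmt_GrInduced) (hV : Stmt_VGroup) (hL : Stmt_LamBasic)
    (hlam : LamData K L θ N) (x : Lˣ) (hx : ∀ τ : L ≃ₐ[K] L, loSX K L τ x / x ∈ Vsub K L θ N 4)
    (k : Kˣ) (hk : k ∈ normSub K L ⊔ (Vsub K L θ N 2).comap (inclU K L))
    (hxk : x / inclU K L k ∈ Vsub K L θ N 2) :
    x ∈ (loNX K L).range ⊔ Vsub K L θ N 4 := by
  obtain ⟨_, ⟨y, rfl⟩, k1, hk1, rfl⟩ := Subgroup.mem_sup.1 hk
  rw [Subgroup.mem_comap] at hk1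
  -- `z' = x / N(y) ∈ V_2`
  have hz' : x / loNX K L y ∈ Vsub K L θ N 2 := by
    have := Subgroup.mul_mem _ hxk hk1
    rw [map_mul, slf_incl_norm] at this
    convert this using 1
    rw [div_mul_eq_div_div, div_mul_cancel]
  have hinv : ∀ (w y' : Lˣ) (τ : L ≃ₐ[K] L),
      loSX K L τ (w / loNX K L y') / (w / loNX K L y') = loSX K L τ w / w := by
    intro w y' τ
    rw [map_div, slf_SX_NX, div_div_div_cancel_right]
  obtain ⟨y1, -, hz1⟩ := hG K L θ N hlam 2 le_rfl _ hz' (fun τ => by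
    rw [hinv]
    exact slf_V_mono θ N hV hL hlam 3 (by norm_num) (hx τ))
  obtain ⟨y2, -, hz2⟩ := hG K L θ N hlam 3 (by norm_num) _ hz1 (fun τ => by
    rw [hinv, hinv]
    exact hx τ)
  refine Subgroup.mem_sup.2 ⟨loNX K L (y * y1 * y2), ⟨_, rfl⟩, _, hz2, ?_⟩
  rw [map_mul, map_mul]
  generalize loNX K L y = a
  generalize loNX K L y1 = b
  generalize loNX K L y2 = c
  simp only [div_eq_mul_inv]
  rw [mul_comm x, mul_comm (a⁻¹ * x), mul_comm (b⁻¹ * (a⁻¹ * x))]
  simp only [← mul_assoc]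
  simp

end Main

/-- **C2-S5** : the semilocal first inequality. -/
theorem slf (hQ : Stmt_HerbrandQ) (hT : Stmt_TraceTrick) (hG : Stmt_GrInduced) (hV : Stmt_VGroup)
    (hL : Stmt_LamBasic) (hC : Stmt_CoprimeInt) : Stmt_SLF := by
  intro p K L _ _ _ _ _ σ θ N hcyc hlam
  have := hcyc.gal
  by_cases h0 : (normSub K L ⊔ congOne K (N ^ 3)).index = 0
  · exact Or.inl h0
  right
  obtain ⟨hq0, hq1⟩ := hQ p K L σ θ N hcyc hlam 4 (by norm_num)
  have h1 : p ^ nuFix K L σ N ≤ ((loNX K L).range ⊔ Vsub K L θ N 4).relIndex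
      ((Vsub K L θ N 4).comap (loSX K L σ / MonoidHom.id Lˣ)) :=
    Nat.le_of_dvd (Nat.pos_of_ne_zero hq0) hq1
  have hle : normSub K L ⊔ congOne K (N ^ 3) ≤
      normSub K L ⊔ (Vsub K L θ N 2).comap (inclU K L) :=
    sup_le_sup_left (slf_congOne_le θ N hV hL hC hlam) _
  have hdvd := Subgroup.index_dvd_of_le hle
  have h20 : (normSub K L ⊔ (Vsub K L θ N 2).comap (inclU K L)).index ≠ 0 := by
    intro h
    rw [h, zero_dvd_iff] at hdvd
    exact h0 hdvd
  have h2 : (normSub K L ⊔ (Vsub K L θ N 2).comap (inclU K L)).index ≤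
      (normSub K L ⊔ congOne K (N ^ 3)).index := Nat.le_of_dvd (Nat.pos_of_ne_zero h0) hdvd
  have hall : ∀ x ∈ (Vsub K L θ N 4).comap (loSX K L σ / MonoidHom.id Lˣ),
      ∀ τ : L ≃ₐ[K] L, loSX K L τ x / x ∈ Vsub K L θ N 4 := fun x hx =>
    slf_all_tau θ N hV hL hlam 4 (by norm_num) σ hcyc.gen x hx
  have h3 := slf_card_le (inclU K L) ((Vsub K L θ N 4).comap (loSX K L σ / MonoidHom.id Lˣ))
    ((loNX K L).range ⊔ Vsub K L θ N 4) (Vsub K L θ N 2)
    (normSub K L ⊔ (Vsub K L θ N 2).comap (inclU K L))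
    (fun x hx => hT K L θ N hlam 2 (by norm_num) x (hall x hx))
    (fun x hx k hk hxk => slf_kernel θ N hG hV hL hlam x (hall x hx) k hk hxk) h20
  exact h1.trans (h3.trans h2)

end Fermat.Agent.CFT.HP
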