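/-
CFT / HP, package C1b (helper3): the index trick and the second inequality.
-/
import Fermat.Agent.CFT.HP.InterfaceC
import Fermat.Agent.CFT.HNT.SecondIneqGroup

set_option autoImplicit false

namespace Fermat.Agent.CFT.HP

open NumberField

/-- C1b -/
theorem indexTrick : Stmt_IndexTrick := by
  intro p G _ W hp hW h
  exact HNT.SecondIneq.index_le_of_forall W p hp.pos hW h

/-- (C1) -/
theorem secondIneq (h1 : Stmt_SecondIneqFin) : Stmt_SecondIneq := by
  intro p K L _ _ _ _ _ N j hp hdeg hN hK hL
  refine indexTrick p Kˣ _ hp ?_ ?_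
  · intro g
    have h : g ^ p = normU K L (inclU K L g) := by
      apply Units.ext
      rw [Units.val_pow_eq_pow_val, ← hdeg]
      exact (Algebra.norm_algebraMap (g : K)).symm
    rw [h]
    exact (le_sup_left : _ ≤ unitsAway K N ⊔ normSub K L ⊔ congOne K (N ^ j))
      ((le_sup_right : normSub K L ≤ unitsAway K N ⊔ normSub K L) ⟨_, rfl⟩)
  · intro W' hW' hidx
    rw [← hdeg]
    exact h1 K L N j hN hK hL W' ((le_sup_left.trans le_sup_left).trans hW')
      ((le_sup_right.trans le_sup_left).trans hW') (le_sup_right.trans hW') hidx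

end Fermat.Agent.CFT.HP
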