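/-
CFT / HP, package C2-S2: the trace trick.
-/
import Fermat.Agent.CFT.HP.InterfaceC

set_option autoImplicit false
set_option linter.unusedSectionVars false

namespace Fermat.Agent.CFT.HP

open NumberField Fermat.Agent.S14 Fermat.Agent.CFT.P0 Fermat.Agent.CFT.Ray
open scoped Pointwise

section OneField

variable (F : Type) [Field F] [NumberField F]

theorem TraceTrick_int_mem (N : ℕ) (c : 𝓞 F) : (c : F) ∈ intLoc F N 0 :=
  ⟨1, c, one_ne_zero, by simp, by simp⟩

theorem TraceTrick_div_mem (N : ℕ) (hN : N ≠ 0) (i : ℕ) {y : F} (hy : y ∈ intLoc F N (i + 1)) :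
    y / (N : F) ∈ intLoc F N i := by
  obtain ⟨b, c, hb0, hb, h⟩ := hy
  refine ⟨b, c, hb0, hb, ?_⟩
  have hN' : (N : F) ≠ 0 := by exact_mod_cast hN
  rw [pow_succ] at h
  field_simp
  linear_combination h

theorem TraceTrick_not_isUnit (N : ℕ) (hN : 1 < N) : ¬ IsUnit (N : 𝓞 F) := by
  intro h
  have h1 : IsUnit (algebraMap ℤ (𝓞 F) (N : ℤ)) := by simpa using h
  have h2 : IsUnit (N : ℤ) := isUnit_of_map_unit (algebraMap ℤ (𝓞 F)) _ h1
  rw [Int.isUnit_iff] at h2
  omega

theorem TraceTrick_neg_one_not_mem (N : ℕ) (hN : 1 < N) (i : ℕ) :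
    (-1 : F) ∉ intLoc F N (i + 1) := by
  rintro ⟨b, c, hb0, hb, h⟩
  have h1 : (N : 𝓞 F) ∣ (b : 𝓞 F) := by
    refine ⟨-((N : 𝓞 F) ^ i * c), ?_⟩
    apply RingOfIntegers.ext
    push_cast
    rw [pow_succ] at h
    linear_combination -h
  have h2 : IsCoprime (b : 𝓞 F) (N : 𝓞 F) := by
    have := (Nat.isCoprime_iff_coprime.mpr hb).map (Int.castRingHom (𝓞 F))
    simpa using this
  exact TraceTrick_not_isUnit F N hN (h2.isUnit_of_dvd' h1 dvd_rfl)

end OneField

/-- C2-S2. The trace trick. -/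
theorem traceTrick (h0 : Stmt_LamBasic) (h1 : Stmt_VGroup) : Stmt_TraceTrick := by
  intro K L _ _ _ _ _ _ θ N hLam j hj x hx
  obtain ⟨-, -, hIL, hLI, hmul, -, -, -, ⟨a, ha⟩, -⟩ := h0 K L θ N hLam
  have hN0 : N ≠ 0 := by have := hLam.pos; omega
  have hNK : (N : K) ≠ 0 := by exact_mod_cast hN0
  have hNL : (N : L) ≠ 0 := by exact_mod_cast hN0
  set t : K := Algebra.trace K L (θ : L) with ht
  have ht0 : t ≠ 0 := by
    intro h
    rw [h, mul_zero] at ha
    exact hNK ha
  have hx0 : (x : L) ≠ 0 := x.ne_zero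
  -- the elements `u_τ - 1`
  have hu : ∀ τ : L ≃ₐ[K] L, τ (x : L) / (x : L) - 1 ∈ intLoc L N (j + 2) := by
    intro τ
    have := (h1 K L θ N hLam (j + 2) (by omega) _).mp (hx τ)
    rw [Units.val_div_eq_div_val] at this
    exact hLI _ this
  -- `ε`
  set ε : L := ∑ τ : L ≃ₐ[K] L, τ (θ : L) * (τ (x : L) / (x : L) - 1) with hε
  have hεmem : ε ∈ intLoc L N (j + 2) := by
    refine sum_mem fun τ _ => ?_
    have h2 := hmul 0 (j + 2) _ _ (TraceTrick_int_mem L N (τ • θ)) (hu τ)
    rw [zero_add] at h2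
    exact h2
  set ε' : L := algebraMap K L (a : K) * ε / (N : L) with hε'
  have hε'mem : ε' ∈ intLoc L N (j + 1) := by
    apply TraceTrick_div_mem L N hN0
    have h2 := hmul 0 (j + 2) _ _ (TraceTrick_int_mem L N (algebraMap (𝓞 K) (𝓞 L) a)) hεmem
    rw [zero_add] at h2
    exact h2
  have hv0 : 1 + ε' ≠ 0 := by
    intro h
    have : ε' = -1 := by linear_combination h
    rw [this] at hε'mem
    exact TraceTrick_neg_one_not_mem L N hLam.pos j hε'mem
  -- the trace of `θ x`
  have htr : algebraMap K L (Algebra.trace K L ((θ : L) * (x : L))) =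
      (x : L) * (algebraMap K L t * (1 + ε')) := by
    have haL : (N : L) = algebraMap K L (a : K) * algebraMap K L t := by
      rw [← map_mul, ← ha, map_natCast]
    have e1 : algebraMap K L t * (1 + ε') = algebraMap K L t + ε := by
      rw [hε']
      field_simp
      rw [haL]
      ring
    rw [e1, ht, trace_eq_sum_automorphisms, trace_eq_sum_automorphisms, hε, ← Finset.sum_add_distrib,
      Finset.mul_sum]
    refine Finset.sum_congr rfl fun τ _ => ?_
    rw [map_mul]
    field_simp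
    ring
  set k0 : K := Algebra.trace K L ((θ : L) * (x : L)) / t with hk0
  have hk0L : algebraMap K L k0 = (x : L) * (1 + ε') := by
    have htL : algebraMap K L t ≠ 0 := by simpa using ht0
    rw [hk0, map_div₀, htr]
    field_simp
  have hk0ne : k0 ≠ 0 := by
    intro h
    rw [h, map_zero] at hk0L
    exact mul_ne_zero hx0 hv0 hk0L.symm
  refine ⟨Units.mk0 k0 hk0ne, ?_⟩
  have hv : Units.mk0 (1 + ε') hv0 ∈ Vsub K L θ N j := by
    rw [h1 K L θ N hLam j hj]
    simpa using hIL j hε'mem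
  have hfin : x / inclU K L (Units.mk0 k0 hk0ne) = (Units.mk0 (1 + ε') hv0)⁻¹ := by
    ext
    rw [Units.val_div_eq_div_val, Units.val_inv_eq_inv_val]
    change (x : L) / algebraMap K L k0 = (1 + ε')⁻¹
    rw [hk0L]
    field_simp
  rw [hfin]
  exact inv_mem hv

end Fermat.Agent.CFT.HP
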