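/-
CFT / HP  package C2-S1 : `V_j = 1 + N^j Λ_(N)` is a group for `j ≥ 1`.   (helper83)
-/
import Fermat.Agent.CFT.HP.InterfaceC

set_option autoImplicit false

namespace Fermat.Agent.CFT.HP

open NumberField Fermat.Agent.S14 Fermat.Agent.CFT.P0 Fermat.Agent.CFT.Ray
open scoped Pointwise

section

variable {K L : Type} [Field K] [NumberField K] [Field L] [NumberField L] [Algebra K L]
  [IsGalois K L] {θ : 𝓞 L} {N : ℕ}

/-- `N^i 𝓞_(N)` is decreasing in `i`. -/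
theorem vGroup_intLoc_succ_le (h0 : Stmt_LamBasic) (hD : LamData K L θ N) (i : ℕ) :
    intLoc L N (i + 1) ≤ intLoc L N i := by
  obtain ⟨-, -, hint, hlamint, -⟩ := h0 K L θ N hD
  exact (hint i).trans (hlamint i)

theorem vGroup_intLoc_antitone (h0 : Stmt_LamBasic) (hD : LamData K L θ N) {i i' : ℕ}
    (h : i ≤ i') : intLoc L N i' ≤ intLoc L N i := by
  induction h with
  | refl => exact le_rfl
  | step _ ih => exact (vGroup_intLoc_succ_le h0 hD _).trans ih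

theorem vGroup_lamLoc_antitone (h0 : Stmt_LamBasic) (hD : LamData K L θ N) {i i' : ℕ}
    (h : i ≤ i') : lamLoc K L θ N i' ≤ lamLoc K L θ N i := by
  obtain ⟨-, hstep, -⟩ := h0 K L θ N hD
  induction h with
  | refl => exact le_rfl
  | step _ ih => exact (hstep _).trans ih

/-- `N^j Λ_(N) · N^i Λ_(N) ⊆ N^i Λ_(N)` for `j ≥ 1`. -/
theorem vGroup_mul_mem_lamLoc (h0 : Stmt_LamBasic) (hD : LamData K L θ N) {i j : ℕ} (hj : 1 ≤ j)
    {y w : L} (hy : y ∈ lamLoc K L θ N j) (hw : w ∈ lamLoc K L θ N i) :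
    y * w ∈ lamLoc K L θ N i := by
  obtain ⟨-, -, hint, hlamint, hmul, -⟩ := h0 K L θ N hD
  have h1 : y * w ∈ intLoc L N (j + i) := hmul j i y w (hlamint j hy) (hlamint i hw)
  exact hint i (vGroup_intLoc_antitone h0 hD (by omega) h1)

/-- `N^j 𝓞_(N) · N^i 𝓞_(N) ⊆ N^i Λ_(N)` for `j ≥ 1`. -/
theorem vGroup_int_mul_mem_lamLoc (h0 : Stmt_LamBasic) (hD : LamData K L θ N) {i j : ℕ}
    (hj : 1 ≤ j) {y w : L} (hy : y ∈ intLoc L N j) (hw : w ∈ intLoc L N i) :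
    y * w ∈ lamLoc K L θ N i := by
  obtain ⟨-, -, hint, -, hmul, -⟩ := h0 K L θ N hD
  have h1 : y * w ∈ intLoc L N (j + i) := hmul j i y w hy hw
  exact hint i (vGroup_intLoc_antitone h0 hD (by omega) h1)

theorem vGroup_natCast_isCoprime (R : Type) [CommRing R] {b N : ℕ} (h : b.Coprime N) :
    IsCoprime (b : R) (N : R) := by
  have h1 : IsCoprime (b : ℤ) (N : ℤ) := Nat.isCoprime_iff_coprime.mpr h
  have h2 := h1.map (Int.castRingHom R)
  simpa using h2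

omit [IsGalois K L] in
/-- closure under inverses. -/
theorem vGroup_inv_mem (h1 : Stmt_CoprimeInt) (hD : LamData K L θ N) {j : ℕ} (hj : 1 ≤ j)
    (x : Lˣ) (hx : (x : L) - 1 ∈ lamLoc K L θ N j) :
    ((x⁻¹ : Lˣ) : L) - 1 ∈ lamLoc K L θ N j := by
  obtain ⟨b, l, hb0, hb, hl, hbl⟩ := hx
  obtain ⟨j', rfl⟩ : ∃ j', j = j' + 1 := ⟨j - 1, by omega⟩
  -- `y = b + N^j l`
  set y : 𝓞 L := (b : 𝓞 L) + (N : 𝓞 L) * ((N : 𝓞 L) ^ j' * l) with hy
  have hyc : IsCoprime y (N : 𝓞 L) :=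
    (IsCoprime.add_mul_left_left_iff).2 (vGroup_natCast_isCoprime (𝓞 L) hb)
  obtain ⟨μ, c, hc, hyμ⟩ := h1 L N y hyc
  have hc0 : c ≠ 0 := by
    rintro rfl
    rw [Nat.coprime_zero_left] at hc
    exact absurd hc hD.pos.ne'
  -- `b l μ ∈ Λ`
  have hmem : (c : 𝓞 K) • l - (N : 𝓞 L) * ((N : 𝓞 L) ^ j' * l * l * μ) ∈ lam K L θ :=
    Submodule.sub_mem _ (Submodule.smul_mem _ _ hl) (hD.lamN _)
  have hsm : (c : 𝓞 K) • l = (c : 𝓞 L) * l := by
    rw [Algebra.smul_def]; simp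
  have hkey : (b : 𝓞 L) * l * μ = (c : 𝓞 K) • l - (N : 𝓞 L) * ((N : 𝓞 L) ^ j' * l * l * μ) := by
    rw [hsm, ← hyμ, hy]; ring
  refine ⟨b * c, -((b : 𝓞 L) * l * μ), mul_ne_zero hb0 hc0, Nat.Coprime.mul_left hb hc,
    Submodule.neg_mem _ (hkey ▸ hmem), ?_⟩
  have hyμ' : ((b : L) + (N : L) * ((N : L) ^ j' * (l : L))) * (μ : L) = (c : L) := by
    have := congrArg (fun t : 𝓞 L => (t : L)) hyμ
    simpa [hy] using this
  have hx0 : (x : L) ≠ 0 := x.ne_zero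
  have hxi : (x : L) * (x : L)⁻¹ = 1 := mul_inv_cancel₀ hx0
  push_cast
  -- multiply by `x`
  apply mul_left_cancel₀ hx0
  have hbx : (b : L) * (x : L) = (b : L) + (N : L) ^ (j' + 1) * (l : L) := by
    linear_combination hbl
  linear_combination ((b : L) * (c : L)) * hxi - (c : L) * hbl
    + ((N : L) ^ (j' + 1) * (l : L) * (μ : L)) * hbx + ((N : L) ^ (j' + 1) * (l : L)) * hyμ'

/-- closure under products. -/
theorem vGroup_mul_mem (h0 : Stmt_LamBasic) (hD : LamData K L θ N) {j : ℕ} (hj : 1 ≤ j)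
    (x x' : Lˣ) (hx : (x : L) - 1 ∈ lamLoc K L θ N j) (hx' : (x' : L) - 1 ∈ lamLoc K L θ N j) :
    ((x * x' : Lˣ) : L) - 1 ∈ lamLoc K L θ N j := by
  have h : ((x * x' : Lˣ) : L) - 1 =
      ((x : L) - 1) + ((x' : L) - 1) + ((x : L) - 1) * ((x' : L) - 1) := by
    push_cast; ring
  rw [h]
  exact add_mem (add_mem hx hx') (vGroup_mul_mem_lamLoc h0 hD hj hx hx')

end

/-- **C2-S1.** `V_j = 1 + N^j Λ_(N)` is a group for `j ≥ 1`. -/
theorem vGroup (h0 : Stmt_LamBasic) (h1 : Stmt_CoprimeInt) : Stmt_VGroup := by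
  intro K L _ _ _ _ _ _ θ N hD j hj x
  constructor
  · intro hx
    induction hx using Subgroup.closure_induction with
    | mem x hx => exact hx
    | one => simp
    | mul x y _ _ hx hy => exact vGroup_mul_mem h0 hD hj x y hx hy
    | inv x _ hx => exact vGroup_inv_mem h1 hD hj x hx
  · intro hx
    exact Subgroup.subset_closure hx

section

variable {K L : Type} [Field K] [NumberField K] [Field L] [NumberField L] [Algebra K L]
  [IsGalois K L] {θ : 𝓞 L} {N : ℕ}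

/-- `V_{j+1} ≤ V_j`. -/
theorem vGroup_Vsub_succ_le (h0 : Stmt_LamBasic) (hD : LamData K L θ N) (j : ℕ) :
    Vsub K L θ N (j + 1) ≤ Vsub K L θ N j := by
  obtain ⟨-, hstep, -⟩ := h0 K L θ N hD
  exact Subgroup.closure_mono fun x hx => hstep j hx

theorem vGroup_Vsub_antitone (h0 : Stmt_LamBasic) (hD : LamData K L θ N) {j j' : ℕ}
    (h : j ≤ j') : Vsub K L θ N j' ≤ Vsub K L θ N j :=
  Subgroup.closure_mono fun _ hx => vGroup_lamLoc_antitone h0 hD h hx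

/-- `V_j` is stable under the Galois group. -/
theorem vGroup_loSX_mem (h0 : Stmt_LamBasic) (hD : LamData K L θ N) (j : ℕ) (τ : L ≃ₐ[K] L)
    {x : Lˣ} (hx : x ∈ Vsub K L θ N j) : loSX K L τ x ∈ Vsub K L θ N j := by
  obtain ⟨-, -, -, -, -, hτ, -⟩ := h0 K L θ N hD
  induction hx using Subgroup.closure_induction with
  | mem x hx =>
    refine Subgroup.subset_closure ?_
    have h := hτ j τ _ hx
    rw [map_sub, map_one] at h
    exact h
  | one => rw [map_one]; exact one_mem _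
  | mul x y _ _ hx hy => rw [map_mul]; exact mul_mem hx hy
  | inv x _ hx => rw [map_inv]; exact inv_mem hx

theorem vGroup_map_loSX_le (h0 : Stmt_LamBasic) (hD : LamData K L θ N) (j : ℕ) (τ : L ≃ₐ[K] L) :
    (Vsub K L θ N j).map (loSX K L τ) ≤ Vsub K L θ N j := by
  rintro _ ⟨x, hx, rfl⟩
  exact vGroup_loSX_mem h0 hD j τ hx

/-- `V_j` is stable under the norm `∏ τ`. -/
theorem vGroup_loNX_mem (h0 : Stmt_LamBasic) (hD : LamData K L θ N) (j : ℕ)
    {x : Lˣ} (hx : x ∈ Vsub K L θ N j) : loNX K L x ∈ Vsub K L θ N j := by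
  rw [loNX, MonoidHom.finsetProd_apply]
  exact Subgroup.prod_mem _ fun τ _ => vGroup_loSX_mem h0 hD j τ hx

/-- `V_j · N^i Λ_(N) ⊆ N^i Λ_(N)` for `j ≥ 1`. -/
theorem vGroup_Vsub_mul_mem_lamLoc (h0 : Stmt_LamBasic) (h1 : Stmt_CoprimeInt)
    (hD : LamData K L θ N) {i j : ℕ} (hj : 1 ≤ j) {x : Lˣ} (hx : x ∈ Vsub K L θ N j) {w : L}
    (hw : w ∈ lamLoc K L θ N i) : (x : L) * w ∈ lamLoc K L θ N i := by
  have hx' := (vGroup h0 h1 K L θ N hD j hj x).1 hx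
  have h : (x : L) * w = w + ((x : L) - 1) * w := by ring
  rw [h]
  exact add_mem hw (vGroup_mul_mem_lamLoc h0 hD hj hx' hw)

/-- `V_j · N^i 𝓞_(N) ⊆ N^i 𝓞_(N)` for `j ≥ 1`. -/
theorem vGroup_Vsub_mul_mem_intLoc (h0 : Stmt_LamBasic) (h1 : Stmt_CoprimeInt)
    (hD : LamData K L θ N) {i j : ℕ} (hj : 1 ≤ j) {x : Lˣ} (hx : x ∈ Vsub K L θ N j) {w : L}
    (hw : w ∈ intLoc L N i) : (x : L) * w ∈ intLoc L N i := by
  obtain ⟨-, -, -, hlamint, hmul, -⟩ := h0 K L θ N hD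
  have hx' := (vGroup h0 h1 K L θ N hD j hj x).1 hx
  have h : (x : L) * w = w + ((x : L) - 1) * w := by ring
  rw [h]
  exact add_mem hw (vGroup_intLoc_antitone h0 hD (by omega) (hmul j i _ _ (hlamint j hx') hw))

/-- For `x, x' ∈ V_j` (`j ≥ 1`): `x / x' ∈ V_i` iff `x - x' ∈ N^i Λ_(N)`. -/
theorem vGroup_div_mem_iff (h0 : Stmt_LamBasic) (h1 : Stmt_CoprimeInt)
    (hD : LamData K L θ N) {i j : ℕ} (hi : 1 ≤ i) (hj : 1 ≤ j) {x x' : Lˣ}
    (hx' : x' ∈ Vsub K L θ N j) :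
    x / x' ∈ Vsub K L θ N i ↔ (x : L) - (x' : L) ∈ lamLoc K L θ N i := by
  rw [vGroup h0 h1 K L θ N hD i hi]
  have hx0 : (x' : L) ≠ 0 := x'.ne_zero
  constructor
  · intro h
    have h2 := vGroup_Vsub_mul_mem_lamLoc h0 h1 hD hj hx' h
    have h3 : (x' : L) * (((x / x' : Lˣ) : L) - 1) = (x : L) - (x' : L) := by
      push_cast; field_simp
    rwa [h3] at h2
  · intro h
    have h2 := vGroup_Vsub_mul_mem_lamLoc h0 h1 hD hj (inv_mem hx') h
    have h3 : ((x'⁻¹ : Lˣ) : L) * ((x : L) - (x' : L)) = ((x / x' : Lˣ) : L) - 1 := by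
      push_cast; field_simp
    rwa [h3] at h2

end

end Fermat.Agent.CFT.HP
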