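/-
CFT / HP, block C, final assembly: the Hasse norm theorem for cyclic extensions of odd prime degree
of totally complex number fields, unconditionally.
-/
import Fermat.Agent.CFT.HP.Arith
import Fermat.Agent.CFT.HP.LamBasic
import Fermat.Agent.CFT.HP.VGroup
import Fermat.Agent.CFT.HP.TraceTrick
import Fermat.Agent.CFT.HP.GrInduced
import Fermat.Agent.CFT.HP.PermHerbrand
import Fermat.Agent.CFT.HP.OrdData
import Fermat.Agent.CFT.HP.FiniteQuot
import Fermat.Agent.CFT.HP.HerbrandQ
import Fermat.Agent.CFT.HP.SLF
import Fermat.Agent.CFT.HP.SecondIneqFin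
import Fermat.Agent.CFT.HP.SecondIneq
import Fermat.Agent.CFT.HP.AwayHerbrand
import Fermat.Agent.CFT.HP.InvariantAway
import Fermat.Agent.CFT.HP.AwayH1
import Fermat.Agent.CFT.HP.AwayIndex
import Fermat.Agent.CFT.HP.HNTfin
import Fermat.Agent.CFT.HP.GoodExists
import Fermat.Agent.CFT.HP.HNT

set_option autoImplicit false

namespace Fermat.Agent.CFT.HP

theorem all_vGroup : Stmt_VGroup := vGroup lamBasic coprimeInt

theorem all_finiteQuot : Stmt_FiniteQuot := finiteQuot lamBasic all_vGroup coprimeInt

theorem all_herbrandQ : Stmt_HerbrandQ :=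
  herbrandQ permHerbrand ordData all_finiteQuot all_vGroup lamBasic

/-- the semilocal first inequality -/
theorem all_slf : Stmt_SLF :=
  slf all_herbrandQ (traceTrick lamBasic all_vGroup) (grInduced lamBasic all_vGroup) all_vGroup
    lamBasic coprimeInt

/-- the second inequality -/
theorem all_secondIneq : Stmt_SecondIneq := secondIneq (secondIneqFin splitIdeal)

theorem all_awayIndex : Stmt_AwayIndex :=
  awayIndex (awayHerbrand permHerbrand ordData) (awayH1 invariantAway splitIdeal)

/-- the finite level Hasse norm theorem -/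
theorem all_hntFin : Stmt_HNTfin := hntFin all_awayIndex all_secondIneq all_slf

/-- the Hasse norm theorem (approximation form) -/
theorem all_hnt : Stmt_HNT := hnt all_hntFin goodExists

end Fermat.Agent.CFT.HP
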