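import Fermat.Agent.CFT.HP.InterfaceAB

/-!
# HP-A5: Hilbert 90 for a subgroup of the Galois group
-/

namespace Fermat.Agent.CFT.HP

theorem h90Sub : Stmt_H90Sub := by
  intro F E _ _ _ _ H c hc
  classical
  have : Fintype H := Fintype.ofFinite H
  -- linear independence of the characters in `H`
  have hli : LinearIndependent E (fun (f : H) => ((f : E ≃ₐ[F] E) : E → E)) :=
    LinearIndependent.comp (ι' := H)
      (linearIndependent_monoidHom E E) (fun f => ((f : E ≃ₐ[F] E) : E →* E))
      (fun x y h => by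
        apply Subtype.ext
        ext z
        exact DFunLike.ext_iff.1 h z)
  obtain ⟨z, hz⟩ : ∃ z : E, ∑ h : H, (c h : E) * (h : E ≃ₐ[F] E) z ≠ 0 := by
    by_contra hcon
    push Not at hcon
    have h0 : ∑ h : H, (c h : E) • ((h : E ≃ₐ[F] E) : E → E) = 0 := by
      funext z
      simpa [Finset.sum_apply] using hcon z
    have := (Fintype.linearIndependent_iff.1 hli) (fun h => (c h : E)) h0 1
    exact Units.ne_zero _ this
  refine ⟨(Units.mk0 _ hz)⁻¹, ?_⟩
  intro n hn
  have key : (n (∑ h : H, (c h : E) * (h : E ≃ₐ[F] E) z)) * (c n : E)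
      = ∑ h : H, (c h : E) * (h : E ≃ₐ[F] E) z := by
    rw [map_sum, Finset.sum_mul]
    have hb : Function.Bijective (fun i : H => (⟨n, hn⟩ : H) * i) :=
      Group.mulLeft_bijective _
    refine Fintype.sum_bijective _ hb _ _ (fun i => ?_)
    have h1 := hc n hn i i.2
    have h2 : (c (n * i) : E) = n (c i : E) * (c n : E) := by
      rw [h1]; simp [AlgEquiv.smul_units_def]
    simp only [map_mul, Subgroup.coe_mul, AlgEquiv.mul_apply, h2]
    ring
  rw [eq_div_iff_mul_eq', Units.ext_iff]
  simp only [AlgEquiv.smul_units_def, map_inv, Units.val_mul, Units.val_inv_eq_inv_val,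
    Units.coe_map, Units.val_mk0, MonoidHom.coe_coe]
  have hnz : n (∑ h : H, (c h : E) * (h : E ≃ₐ[F] E) z) ≠ 0 := by
    intro h0
    rw [h0, zero_mul] at key
    exact hz key.symm
  have hcn : (c n : E) ≠ 0 := Units.ne_zero _
  generalize (∑ h : H, (c h : E) * (h : E ≃ₐ[F] E) z) = b0 at key hnz hz ⊢
  generalize n b0 = b1 at key hnz ⊢
  subst key
  field_simp

end Fermat.Agent.CFT.HP

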