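/-
CFT / HP, package A6 (helper23): the Hasse principle by induction on `[M : k]`.
-/
import Fermat.Agent.CFT.HP.InterfaceAB
import Fermat.Agent.S14.FrobAPI

set_option autoImplicit false

namespace Fermat.Agent.CFT.HP

open NumberField groupCohomology IntermediateField Fermat.Agent.S14 Fermat.Agent.CFT.P0
open scoped Pointwise

/-! ### abstract lemmas on `mulD` -/

section Abstract

variable {G A : Type} [Group G] [CommGroup A] [MulDistribMulAction G A]

theorem HPI_cob_iff (f : G × G → A) :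
    IsMulCoboundary₂ f ↔ ∃ γ : G → A, ∀ g h : G, f (g, h) = mulD γ (g, h) :=
  ⟨fun ⟨x, hx⟩ => ⟨x, fun g h => (hx g h).symm⟩, fun ⟨x, hx⟩ => ⟨x, fun g h => (hx g h).symm⟩⟩

theorem HPI_mulD_mul (γ γ' : G → A) (x : G × G) :
    mulD (fun g => γ g * γ' g) x = mulD γ x * mulD γ' x := by
  simp only [mulD, smul_mul']
  rw [mul_div_mul_comm, mul_mul_mul_comm]

theorem HPI_mulD_inv (γ : G → A) (x : G × G) :
    mulD (fun g => (γ g)⁻¹) x = (mulD γ x)⁻¹ := by
  simp only [mulD, smul_inv']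
  rw [mul_inv, inv_div_inv, inv_div]

theorem HPI_mulD_pow (γ : G → A) (e : ℕ) (x : G × G) :
    mulD (fun g => γ g ^ e) x = mulD γ x ^ e := by
  simp only [mulD, smul_pow']
  rw [mul_pow, div_pow]

theorem HPI_cocycle_pow {f : G × G → A} (hf : IsMulCocycle₂ f) (e : ℕ) :
    IsMulCocycle₂ (fun x => f x ^ e) := by
  intro g h j
  show f (g * h, j) ^ e * f (g, h) ^ e = g • (f (h, j) ^ e) * f (g, h * j) ^ e
  rw [smul_pow', ← mul_pow, ← mul_pow, hf g h j]

variable {Q B : Type} [Group Q] [CommGroup B] [MulDistribMulAction Q B]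

theorem HPI_mulD_inf (π : G →* Q) (j : B →* A) (hj : ∀ (g : G) (b : B), j (π g • b) = g • j b)
    (γ : Q → B) (g h : G) :
    mulD (fun g => j (γ (π g))) (g, h) = j (mulD γ (π g, π h)) := by
  simp only [mulD]
  rw [map_mul π, map_mul j, map_div, hj]

end Abstract

/-! ### field theoretic lemmas -/

theorem HPI_totallyComplex (k k₁ : Type) [Field k] [Field k₁] [Algebra k k₁]
    (h : IsTotallyComplex k) : IsTotallyComplex k₁ := by
  refine ⟨fun w => ?_⟩
  rw [← InfinitePlace.not_isReal_iff_isComplex]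
  intro hw
  have h1 := InfinitePlace.IsReal.comap (algebraMap k k₁) hw
  exact (InfinitePlace.not_isReal_iff_isComplex.mpr (h.isComplex _)) h1

section Res

variable (k k₁ M : Type) [Field k] [Field k₁] [Field M]
  [Algebra k k₁] [Algebra k₁ M] [Algebra k M] [IsScalarTower k k₁ M]

theorem HPI_rs_smul (a : M ≃ₐ[k₁] M) (u : Mˣ) : (a.restrictScalars k) • u = a • u :=
  Units.ext rfl

theorem HPI_rs_mul (a b : M ≃ₐ[k₁] M) :
    (a * b).restrictScalars k = a.restrictScalars k * b.restrictScalars k := rfl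

/-- restriction of cocycles -/
theorem HPI_res_cocycle {f : (M ≃ₐ[k] M) × (M ≃ₐ[k] M) → Mˣ} (hf : IsMulCocycle₂ f) :
    IsMulCocycle₂ (fun x : (M ≃ₐ[k₁] M) × (M ≃ₐ[k₁] M) =>
      f (x.1.restrictScalars k, x.2.restrictScalars k)) := by
  intro g h j
  have := hf (g.restrictScalars k) (h.restrictScalars k) (j.restrictScalars k)
  rw [HPI_rs_smul] at this
  exact this

theorem HPI_res_cob {f : (M ≃ₐ[k] M) × (M ≃ₐ[k] M) → Mˣ} (hf : IsMulCoboundary₂ f) :
    IsMulCoboundary₂ (fun x : (M ≃ₐ[k₁] M) × (M ≃ₐ[k₁] M) =>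
      f (x.1.restrictScalars k, x.2.restrictScalars k)) := by
  obtain ⟨x, hx⟩ := hf
  refine ⟨fun a => x (a.restrictScalars k), fun g h => ?_⟩
  have := hx (g.restrictScalars k) (h.restrictScalars k)
  rw [HPI_rs_smul] at this
  exact this

open Classical in
/-- a coboundary on `Gal(M/k₁)` extends (by junk) to a cochain on `Gal(M/k)`. -/
theorem HPI_extend {f : (M ≃ₐ[k] M) × (M ≃ₐ[k] M) → Mˣ}
    (hf : IsMulCoboundary₂ (fun x : (M ≃ₐ[k₁] M) × (M ≃ₐ[k₁] M) =>
      f (x.1.restrictScalars k, x.2.restrictScalars k))) :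
    ∃ γ : (M ≃ₐ[k] M) → Mˣ, ∀ a b : M ≃ₐ[k₁] M,
      f (a.restrictScalars k, b.restrictScalars k)
        = mulD γ (a.restrictScalars k, b.restrictScalars k) := by
  obtain ⟨x, hx⟩ := hf
  let γ : (M ≃ₐ[k] M) → Mˣ := fun g =>
    if h : ∃ a : M ≃ₐ[k₁] M, a.restrictScalars k = g then x h.choose else 1
  have hγ : ∀ a : M ≃ₐ[k₁] M, γ (a.restrictScalars k) = x a := by
    intro a
    have h : ∃ a' : M ≃ₐ[k₁] M, a'.restrictScalars k = a.restrictScalars k := ⟨a, rfl⟩
    have h1 : γ (a.restrictScalars k) = x h.choose := dif_pos h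
    rw [h1, AlgEquiv.restrictScalars_injective k h.choose_spec]
  refine ⟨γ, fun a b => ?_⟩
  show _ = (a.restrictScalars k) • γ (b.restrictScalars k)
    / γ (a.restrictScalars k * b.restrictScalars k) * γ (a.restrictScalars k)
  rw [← HPI_rs_mul, hγ, hγ, hγ, HPI_rs_smul]
  exact (hx a b).symm

end Res

section Fixed

variable {k M : Type} [Field k] [Field M] [Algebra k M]

theorem HPI_exists_lift (L : IntermediateField k M) {g : M ≃ₐ[k] M} (hg : g ∈ L.fixingSubgroup) :
    ∃ a : M ≃ₐ[L] M, a.restrictScalars k = g := by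
  refine ⟨AlgEquiv.ofRingEquiv (f := g.toRingEquiv) (fun x => ?_), ?_⟩
  · exact (IntermediateField.mem_fixingSubgroup_iff L g).mp hg x.1 x.2
  · ext y
    rfl

end Fixed

/-! ### the induction -/

/-- the Hasse principle for `M/k`. -/
def HPI_For (p : ℕ) (k M : Type) [Field k] [NumberField k] [Field M] [NumberField M] [Algebra k M]
    [IsGalois k M] : Prop :=
  ∀ f : (M ≃ₐ[k] M) × (M ≃ₐ[k] M) → Mˣ, IsMulCocycle₂ f →
    (∃ e : ℕ, IsMulCoboundary₂ (fun x => f x ^ p ^ e)) → LocTriv k M f → IsMulCoboundary₂ f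

section Steps

variable (p : ℕ) (k M : Type) [Field k] [NumberField k] [Field M] [NumberField M] [Algebra k M]
  [IsGalois k M]

/-- the restriction step. -/
theorem HPI_res_step (hr : Stmt_LocTrivRes) (L : IntermediateField k M) (ih : HPI_For p L M)
    {f : (M ≃ₐ[k] M) × (M ≃ₐ[k] M) → Mˣ} (hf : IsMulCocycle₂ f)
    (hpow : ∃ e : ℕ, IsMulCoboundary₂ (fun x => f x ^ p ^ e)) (hloc : LocTriv k M f) :
    ∃ γ : (M ≃ₐ[k] M) → Mˣ, ∀ g ∈ L.fixingSubgroup, ∀ h ∈ L.fixingSubgroup,
      f (g, h) = mulD γ (g, h) := by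
  obtain ⟨e, he⟩ := hpow
  have h1 := ih _ (HPI_res_cocycle k L M hf) ⟨e, HPI_res_cob k L M he⟩
    (fun w hw hw0 => hr k L M f w (hloc w hw hw0))
  obtain ⟨γ, hγ⟩ := HPI_extend k L M h1
  refine ⟨γ, fun g hg h hh => ?_⟩
  obtain ⟨a, rfl⟩ := HPI_exists_lift L hg
  obtain ⟨b, rfl⟩ := HPI_exists_lift L hh
  exact hγ a b

/-- the inflation data attached to a normal intermediate field. -/
theorem HPI_infData (h5 : Stmt_H90Sub) (L : IntermediateField k M) [IsGalois k L] :
    InfData (AlgEquiv.restrictNormalHom (F := k) (K₁ := M) L)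
      (Units.map (algebraMap L M : L →* M)) where
  surj := AlgEquiv.restrictNormalHom_surjective M
  inj := Units.map_injective (algebraMap L M).injective
  equiv g b := Units.ext (AlgEquiv.restrictNormal_commutes g L (b : L))
  inv a ha := by
    rw [IntermediateField.restrictNormalHom_ker] at ha
    have hmem : (a : M) ∈ L := by
      rw [← IsGalois.fixedField_fixingSubgroup L, IntermediateField.mem_fixedField_iff]
      intro g hg
      exact congrArg Units.val (ha g hg)
    refine ⟨Units.mk0 ⟨(a : M), hmem⟩ (fun h0 => a.ne_zero (congrArg Subtype.val h0)), ?_⟩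
    exact Units.ext rfl
  h90 c hc := h5 k M _ c hc

/-- the step through a normal intermediate field. -/
theorem HPI_normal_step (h2 : Stmt_MulInfExact) (h3 : Stmt_MulInfInj) (h5 : Stmt_H90Sub)
    (hc : Stmt_LocTrivCob) (hr : Stmt_LocTrivRes) (hd : Stmt_LocTrivDefl)
    (L : IntermediateField k M) [IsGalois k L] (ihM : HPI_For p L M) (ihL : HPI_For p k L) :
    HPI_For p k M := by
  intro f hf hpow hloc
  have hI := HPI_infData k M h5 L
  set π := AlgEquiv.restrictNormalHom (F := k) (K₁ := M) L with hπ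
  set j := Units.map (algebraMap L M : L →* M) with hj
  obtain ⟨γ₀, hγ₀⟩ := HPI_res_step p k M hr L ihM hf hpow hloc
  have hker : π.ker = L.fixingSubgroup := IntermediateField.restrictNormalHom_ker L
  obtain ⟨fb, γ, hfb, hfγ⟩ := h2 _ _ _ _ π j hI f hf ⟨γ₀, by rw [hker]; exact hγ₀⟩
  -- the inflation of `fb`
  have hinf : ∀ g h, j (fb (π g, π h)) = f (g, h) * mulD (fun g => (γ g)⁻¹) (g, h) := by
    intro g h
    rw [HPI_mulD_inv, hfγ, mul_inv_cancel_right]
  -- `fb` has `p`-power order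
  have hpow' : ∃ e : ℕ, IsMulCoboundary₂ (fun x => fb x ^ p ^ e) := by
    obtain ⟨e, he⟩ := hpow
    refine ⟨e, h3 _ _ _ _ π j hI _ (HPI_cocycle_pow hfb _) ?_⟩
    obtain ⟨x, hx⟩ := (HPI_cob_iff _).mp he
    rw [HPI_cob_iff]
    refine ⟨fun g => x g * ((γ g)⁻¹) ^ p ^ e, fun g h => ?_⟩
    rw [HPI_mulD_mul, HPI_mulD_pow, ← hx]
    show j (fb (π g, π h) ^ p ^ e) = _
    rw [map_pow, hinf, mul_pow]
  -- `fb` is locally trivial
  have hloc' : LocTriv k L fb := by
    intro wL hwL hwL0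
    obtain ⟨w, hw, hw0, hlo⟩ := primeAbove L M wL hwL hwL0
    have h1 := hc k M f (fun g => (γ g)⁻¹) w (hloc w hw hw0)
    have h4 : (fun x : (M ≃ₐ[k] M) × (M ≃ₐ[k] M) => f x * mulD (fun g => (γ g)⁻¹) x)
        = fun x => Units.map (algebraMap L M : L →* M)
          (fb (x.1.restrictNormal L, x.2.restrictNormal L)) := by
      funext x
      exact (hinf x.1 x.2).symm
    rw [h4] at h1
    exact hd k L M fb w wL hlo h1
  obtain ⟨γb, hγb⟩ := (HPI_cob_iff _).mp (ihL fb hfb hpow' hloc')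
  rw [HPI_cob_iff]
  refine ⟨fun g => j (γb (π g)) * γ g, fun g h => ?_⟩
  rw [HPI_mulD_mul, HPI_mulD_inf π j hI.equiv, ← hγb, hfγ]

end Steps

/-- a `p`-group of order `p ^ (m + 2)` has a normal subgroup of order `p`. -/
theorem HPI_exists_normal {G : Type} [Group G] [Finite G] {p m : ℕ} [Fact p.Prime]
    (hG : Nat.card G = p ^ (m + 2)) : ∃ N : Subgroup G, N.Normal ∧ Nat.card N = p := by
  have hp : p.Prime := Fact.out
  have hpG : IsPGroup p G := IsPGroup.of_card hG
  have : Nontrivial G := by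
    rw [← Finite.one_lt_card_iff_nontrivial, hG]
    exact Nat.one_lt_pow (by omega) hp.one_lt
  have hZ : Nontrivial (Subgroup.center G) := hpG.center_nontrivial
  have hpZ : IsPGroup p (Subgroup.center G) := hpG.to_subgroup _
  have hdvd : p ∣ Nat.card (Subgroup.center G) := by
    rcases hpZ.card_eq_or_dvd with h | h
    · exact absurd h (Finite.one_lt_card_iff_nontrivial.mpr hZ).ne'
    · exact h
  obtain ⟨z, hz⟩ := exists_prime_orderOf_dvd_card' p hdvd
  refine ⟨Subgroup.zpowers (z : G), ⟨fun n hn g => ?_⟩, ?_⟩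
  · have hc : n ∈ Subgroup.center G := by
      obtain ⟨i, rfl⟩ := Subgroup.mem_zpowers_iff.mp hn
      exact Subgroup.zpow_mem _ z.2 i
    have : g * n * g⁻¹ = n := by
      rw [(Subgroup.mem_center_iff.mp hc g), mul_assoc, mul_inv_cancel, mul_one]
    rw [this]
    exact hn
  · rw [Nat.card_zpowers, Subgroup.orderOf_coe, hz]

theorem HPI_main (h1 : Stmt_MulSylow) (h2 : Stmt_MulInfExact) (h3 : Stmt_MulInfInj)
    (h5 : Stmt_H90Sub) (hc : Stmt_LocTrivCob) (hr : Stmt_LocTrivRes) (hd : Stmt_LocTrivDefl)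
    (hcyc : Stmt_HPcyc) (p : ℕ) (hp : p.Prime) (hp2 : p ≠ 2) (n : ℕ) :
    ∀ (k M : Type) [Field k] [NumberField k] [Field M] [NumberField M] [Algebra k M]
      [IsGalois k M], IsTotallyComplex k → Module.finrank k M = n → HPI_For p k M := by
  induction n using Nat.strong_induction_on with
  | _ n ih =>
  intro k M _ _ _ _ _ _ hcx hn
  have : Fact p.Prime := ⟨hp⟩
  have hcard : Nat.card (M ≃ₐ[k] M) = n := by rw [IsGalois.card_aut_eq_finrank, hn]
  obtain ⟨P⟩ : Nonempty (Sylow p (M ≃ₐ[k] M)) := inferInstance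
  by_cases hP : (P : Subgroup (M ≃ₐ[k] M)) = ⊤
  · -- `G` is a `p`-group
    obtain ⟨m, hm⟩ := IsPGroup.iff_card.mp P.isPGroup'
    rw [hP, Subgroup.card_top, hcard] at hm
    match m, hm with
    | 0, hm =>
      intro f _ _ _
      have hss : Subsingleton (M ≃ₐ[k] M) := by
        rw [← Finite.card_le_one_iff_subsingleton, hcard, hm, pow_zero]
      refine ⟨fun _ => f (1, 1), fun g h => ?_⟩
      rw [Subsingleton.elim g 1, Subsingleton.elim h 1, one_smul, div_self', one_mul]
    | 1, hm =>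
      intro f hf _ hloc
      rw [pow_one] at hm
      have : IsCyclic (M ≃ₐ[k] M) := isCyclic_of_prime_card (hcard.trans hm)
      obtain ⟨σ, hσ⟩ := IsCyclic.exists_generator (α := M ≃ₐ[k] M)
      exact hcyc p k M σ ⟨hp, hp2, inferInstance, hn.trans hm, hσ, hcx⟩ f hf hloc
    | m + 2, hm =>
      obtain ⟨N, hN, hNcard⟩ := HPI_exists_normal (hcard.trans hm)
      have : IsGalois k (fixedField N) := IsGalois.of_fixedField_normal_subgroup N
      have hLM : Module.finrank (fixedField N) M = p := by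
        rw [IntermediateField.finrank_fixedField_eq_card, hNcard]
      have hkL : Module.finrank k (fixedField N) = p ^ (m + 1) := by
        have h6 := Module.finrank_mul_finrank k (fixedField N) M
        rw [hLM, hn, hm, pow_succ] at h6
        exact Nat.eq_of_mul_eq_mul_right hp.pos h6
      have hlt1 : p < n := by
        rw [hm]
        calc p = p ^ 1 := (pow_one p).symm
          _ < p ^ (m + 2) := Nat.pow_lt_pow_right hp.one_lt (by omega)
      have hlt2 : p ^ (m + 1) < n := by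
        rw [hm]
        exact Nat.pow_lt_pow_right hp.one_lt (by omega)
      exact HPI_normal_step p k M h2 h3 h5 hc hr hd (fixedField N)
        (ih p hlt1 (fixedField N) M (HPI_totallyComplex k _ hcx) hLM)
        (ih _ hlt2 k (fixedField N) hcx hkL)
  · -- `G` is not a `p`-group
    intro f hf hpow hloc
    have hlt : Nat.card (P : Subgroup (M ≃ₐ[k] M)) < n := by
      rw [← hcard]
      refine lt_of_le_of_ne (Subgroup.card_le_card_group _) fun h => hP ?_
      exact Subgroup.eq_top_of_card_eq _ h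
    have hfr : Module.finrank (fixedField (P : Subgroup (M ≃ₐ[k] M))) M
        = Nat.card (P : Subgroup (M ≃ₐ[k] M)) := IntermediateField.finrank_fixedField_eq_card _
    obtain ⟨γ, hγ⟩ := HPI_res_step p k M hr (fixedField (P : Subgroup (M ≃ₐ[k] M)))
      (ih _ hlt _ M (HPI_totallyComplex k _ hcx) hfr) hf hpow hloc
    rw [IntermediateField.fixingSubgroup_fixedField] at hγ
    exact h1 p _ _ (P : Subgroup (M ≃ₐ[k] M)) f hp P.not_dvd_index hf hpow ⟨γ, hγ⟩

/-- **A6.** The Hasse principle. -/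
theorem hp (h1 : Stmt_MulSylow) (h2 : Stmt_MulInfExact) (h3 : Stmt_MulInfInj)
    (h5 : Stmt_H90Sub) (hc : Stmt_LocTrivCob) (hr : Stmt_LocTrivRes) (hd : Stmt_LocTrivDefl)
    (hcyc : Stmt_HPcyc) : Stmt_HP := by
  intro p k M _ _ _ _ _ _ hp hp2 hcx f hf hpow hloc
  exact HPI_main h1 h2 h3 h5 hc hr hd hcyc p hp hp2 _ k M hcx rfl f hf hpow hloc

end Fermat.Agent.CFT.HP
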