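/-
CFT / HP, package B6: the Hasse principle for cyclic extensions of odd prime degree.
-/
import Fermat.Agent.CFT.HP.InterfaceAB
import Fermat.Agent.S14.FrobAPI

set_option autoImplicit false

namespace Fermat.Agent.CFT.HP

open NumberField groupCohomology Fermat.Agent.S14 Fermat.Agent.CFT.P0
open scoped Pointwise

/-- products over a finite cyclic group. -/
theorem hpCyc_prod_range {G M : Type*} [Group G] [Fintype G] [CommMonoid M] (σ : G)
    (h : ∀ g : G, g ∈ Subgroup.zpowers σ) (F : G → M) :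
    ∏ g, F g = ∏ i ∈ Finset.range (Nat.card G), F (σ ^ i) := by
  have hord : orderOf σ = Nat.card G := orderOf_eq_card_of_forall_mem_zpowers h
  rw [← hord]
  symm
  refine Finset.prod_bij (fun i _ => σ ^ i) (fun _ _ => Finset.mem_univ _) ?_ ?_ (fun _ _ => rfl)
  · intro i hi j hj hij
    exact pow_injOn_Iio_orderOf (by simpa using hi) (by simpa using hj) hij
  · intro g _
    obtain ⟨k, hk⟩ := (mem_powers_iff_mem_zpowers).2 (h g)
    refine ⟨k % orderOf σ, ?_, ?_⟩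
    · rw [Finset.mem_range]
      exact Nat.mod_lt _ (orderOf_pos σ)
    · rw [pow_mod_orderOf]
      exact hk

theorem hpCyc_mulD_mul {G A : Type} [Group G] [CommGroup A] [MulDistribMulAction G A]
    (γ γ' : G → A) (x : G × G) : mulD (fun g => γ g * γ' g) x = mulD γ x * mulD γ' x := by
  unfold mulD
  rw [smul_mul']
  simp only [div_eq_mul_inv, mul_inv]
  ac_rfl

theorem hpCyc_mulD_inv {G A : Type} [Group G] [CommGroup A] [MulDistribMulAction G A]
    (γ : G → A) (x : G × G) : mulD (fun g => (γ g)⁻¹) x = (mulD γ x)⁻¹ := by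
  unfold mulD
  rw [smul_inv']
  simp only [div_eq_mul_inv, mul_inv, inv_inv]

theorem hpCyc (h4 : Stmt_MulCyc) (hc : Stmt_LocTrivCob) (hn : Stmt_NormCloseNonsplit)
    (hs : Stmt_NormCloseSplit) (hcrt : Stmt_NormCRT) (hnt : Stmt_HNT) : Stmt_HPcyc := by
  intro p K L _ _ _ _ _ _ σ hD f hf hloc
  obtain ⟨hA, hB⟩ := h4 (L ≃ₐ[K] L) Lˣ σ hD.gen
  obtain ⟨hinv, γ, hγ⟩ := hA f hf
  set aL : Lˣ := ∏ i ∈ Finset.range (Nat.card (L ≃ₐ[K] L)), f (σ ^ i, σ) with haL
  -- `aL` comes from `K`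
  obtain ⟨a, ha⟩ : ∃ a : Kˣ, inclU K L a = aL := by
    have hfix : ∀ τ : L ≃ₐ[K] L, τ (aL : L) = aL := fun τ =>
      congrArg (fun u : Lˣ => (u : L)) (hinv τ)
    obtain ⟨k, hk⟩ := (IsGalois.mem_range_algebraMap_iff_fixed (F := K) (aL : L)).mpr hfix
    have hk0 : k ≠ 0 := by
      rintro rfl
      rw [map_zero] at hk
      exact aL.ne_zero hk.symm
    exact ⟨Units.mk0 k hk0, Units.ext hk⟩
  -- the standard cocycle is locally trivial
  have hloc' : LocTriv K L (mulCyc σ aL) := by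
    intro w hw hw0
    have h1 := hc K L f (fun g => (γ g)⁻¹) w (hloc w hw hw0)
    have h2 : (fun x => f x * mulD (fun g => (γ g)⁻¹) x) = mulCyc σ aL := by
      funext x
      obtain ⟨g, h⟩ := x
      rw [hγ g h, hpCyc_mulD_inv, mul_inv_cancel_right]
    rwa [h2] at h1
  -- approximate norms everywhere
  have hNC : ∀ m : ℕ, m ≠ 0 → ∀ v : Ideal (𝓞 K), v.IsPrime → (m : 𝓞 K) ∈ v →
      NormClose K L p a v := by
    intro m hm v hv hmv
    have hv0 : v ≠ ⊥ := by
      rintro rfl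
      rw [Ideal.mem_bot] at hmv
      exact hm (by exact_mod_cast hmv)
    obtain ⟨w, hw, hw0, hwv⟩ := primeAbove K L v hv hv0
    by_cases hσ : σ • w = w
    · exact hn p K L σ a v w hD hw hw0 hwv hσ (by rw [ha]; exact hloc' w hw hw0)
    · exact hs p K L σ a v w hD hw hw0 hwv hσ
  have hall : ∀ M : ℕ, M ≠ 0 → a ∈ normSub K L ⊔ congOne K M := fun M hM =>
    hcrt p K L a M hD.deg hM (hNC M hM)
  obtain ⟨b, hb⟩ := hnt p K L σ hD a hall
  -- `aL` is a norm
  have hnorm : aL = ∏ i ∈ Finset.range (Nat.card (L ≃ₐ[K] L)), σ ^ i • b := by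
    rw [← ha, ← hb]
    apply Units.ext
    rw [Units.coe_prod]
    have h1 : ((inclU K L (normU K L b) : Lˣ) : L) = algebraMap K L (Algebra.norm K (b : L)) := rfl
    rw [h1, Algebra.norm_eq_prod_automorphisms, hpCyc_prod_range σ hD.gen]
    rfl
  obtain ⟨γ0, hγ0⟩ := ((hB aL hinv).2).2 ⟨b, hnorm⟩
  refine ⟨fun g => γ0 g * γ g, fun g h => ?_⟩
  have h3 := hpCyc_mulD_mul γ0 γ (g, h)
  have h4' : mulD γ0 (g, h) = mulCyc σ aL (g, h) := hγ0 g h
  rw [hγ g h, ← h4', ← h3]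
  rfl

end Fermat.Agent.CFT.HP
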