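/-
CFT / HP, package A3 (helper25): functoriality of local triviality.
-/
import Fermat.Agent.CFT.HP.InterfaceAB

set_option autoImplicit false

namespace Fermat.Agent.CFT.HP

open NumberField groupCohomology Fermat.Agent.S14 Fermat.Agent.CFT.P0
open scoped Pointwise

namespace LocTrivFun

section Abstract

variable {G A : Type} [Group G] [CommGroup A] [MulDistribMulAction G A]

lemma mulD_mul (x y : G → A) (z : G × G) :
    mulD (fun a => x a * y a) z = mulD x z * mulD y z := by
  unfold mulD
  rw [smul_mul', mul_div_mul_comm, mul_mul_mul_comm]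

end Abstract

section Tower

variable {k M M' : Type} [Field k] [Field M] [Field M'] [Algebra k M] [Algebra k M']
  [Algebra M M'] [IsScalarTower k M M'] [Normal k M]

lemma map_smul_units (a : M' ≃ₐ[k] M') (u : Mˣ) :
    Units.map (algebraMap M M' : M →* M') (a.restrictNormal M • u)
      = a • Units.map (algebraMap M M' : M →* M') u :=
  Units.ext (AlgEquiv.restrictNormal_commutes a M (u : M))

lemma restrictNormal_mul (a b : M' ≃ₐ[k] M') :
    (a * b).restrictNormal M = a.restrictNormal M * b.restrictNormal M :=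
  map_mul (AlgEquiv.restrictNormalHom M) a b

lemma map_mulD (γ : (M ≃ₐ[k] M) → Mˣ) (a b : M' ≃ₐ[k] M') :
    Units.map (algebraMap M M' : M →* M') (mulD γ (a.restrictNormal M, b.restrictNormal M))
      = mulD (fun c : M' ≃ₐ[k] M' =>
          Units.map (algebraMap M M' : M →* M') (γ (c.restrictNormal M))) (a, b) := by
  unfold mulD
  simp only [map_mul, map_div, map_smul_units, restrictNormal_mul]

end Tower

section Res

variable {k k₁ M M' : Type} [Field k] [Field k₁] [Field M] [Field M'] [NumberField M']
  [Algebra k k₁] [Algebra k₁ M] [Algebra k M] [IsScalarTower k k₁ M]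
  [Algebra k M'] [Algebra M M'] [IsScalarTower k M M'] [Algebra k₁ M'] [IsScalarTower k₁ M M']
  [IsScalarTower k k₁ M'] [Normal k M] [Normal k₁ M]

lemma restrictScalars_smul_ideal (a : M' ≃ₐ[k₁] M') (w' : Ideal (𝓞 M')) :
    (a.restrictScalars k) • w' = a • w' := rfl

lemma restrictScalars_restrictNormal (a : M' ≃ₐ[k₁] M') :
    (a.restrictScalars k).restrictNormal M = (a.restrictNormal M).restrictScalars k := by
  apply AlgEquiv.ext
  intro m
  apply (algebraMap M M').injective
  rw [AlgEquiv.restrictNormal_commutes]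
  exact (AlgEquiv.restrictNormal_commutes a M m).symm

lemma mulD_restrictScalars (x : (M' ≃ₐ[k] M') → M'ˣ) (a b : M' ≃ₐ[k₁] M') :
    mulD (fun c : M' ≃ₐ[k₁] M' => x (c.restrictScalars k)) (a, b)
      = mulD x (a.restrictScalars k, b.restrictScalars k) := rfl

end Res

section Defl

variable {k L M M' : Type} [Field k] [Field L] [Field M] [Field M']
  [Algebra k L] [Algebra L M] [Algebra k M] [IsScalarTower k L M]
  [Algebra k M'] [Algebra M M'] [IsScalarTower k M M'] [Algebra L M'] [IsScalarTower L M M']
  [IsScalarTower k L M'] [Normal k M] [Normal k L]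

lemma restrictNormal_restrictNormal (a : M' ≃ₐ[k] M') :
    (a.restrictNormal M).restrictNormal L = a.restrictNormal L := by
  apply AlgEquiv.ext
  intro m
  apply (algebraMap L M').injective
  rw [AlgEquiv.restrictNormal_commutes, IsScalarTower.algebraMap_apply L M M',
    AlgEquiv.restrictNormal_commutes, AlgEquiv.restrictNormal_commutes,
    ← IsScalarTower.algebraMap_apply L M M']

lemma map_map_units (u : Lˣ) :
    Units.map (algebraMap M M' : M →* M') (Units.map (algebraMap L M : L →* M) u)
      = Units.map (algebraMap L M' : L →* M') u :=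
  Units.ext (IsScalarTower.algebraMap_apply L M M' (u : L)).symm

end Defl

end LocTrivFun

open LocTrivFun

/-- A3a. -/
theorem locTrivCob : Stmt_LocTrivCob := by
  intro k M _ _ _ _ _ _ f γ w
  rintro ⟨M', i1, i2, i3, i4, i5, i6, w', x, hp, hl, h⟩
  refine ⟨M', i1, i2, i3, i4, i5, i6, w',
    fun a => x a * Units.map (algebraMap M M' : M →* M') (γ (a.restrictNormal M)), hp, hl,
    fun a b ha hb => ?_⟩
  rw [map_mul, h a b ha hb, map_mulD, mulD_mul]

/-- A3b. -/
theorem locTrivRes : Stmt_LocTrivRes := by
  intro k k₁ M _ _ _ _ _ _ _ _ _ _ _ _ f w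
  rintro ⟨M', i1, i2, i3, i4, i5, i6, w', x, hp, hl, h⟩
  letI : Algebra k₁ M' := ((algebraMap M M').comp (algebraMap k₁ M)).toAlgebra
  haveI t1 : IsScalarTower k₁ M M' := IsScalarTower.of_algebraMap_eq fun _ => rfl
  haveI t2 : IsScalarTower k k₁ M' := IsScalarTower.of_algebraMap_eq fun y => by
    show algebraMap k M' y = algebraMap M M' (algebraMap k₁ M (algebraMap k k₁ y))
    rw [← IsScalarTower.algebraMap_apply k k₁ M, ← IsScalarTower.algebraMap_apply k M M']
  haveI g1 : IsGalois k₁ M' := IsGalois.tower_top_of_isGalois k k₁ M'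
  refine ⟨M', i1, i2, inferInstance, i4, t1, g1, w', fun c => x (c.restrictScalars k), hp, hl,
    fun a b ha hb => ?_⟩
  rw [mulD_restrictScalars, ← h (a.restrictScalars k) (b.restrictScalars k) ha hb,
    restrictScalars_restrictNormal, restrictScalars_restrictNormal]

/-- A3c. -/
theorem locTrivDefl : Stmt_LocTrivDefl := by
  intro k L M _ _ _ _ _ _ _ _ _ _ _ _ fb w wL hw
  rintro ⟨M', i1, i2, i3, i4, i5, i6, w', x, hp, hl, h⟩
  letI : Algebra L M' := ((algebraMap M M').comp (algebraMap L M)).toAlgebra
  haveI t1 : IsScalarTower L M M' := IsScalarTower.of_algebraMap_eq fun _ => rfl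
  haveI t2 : IsScalarTower k L M' := IsScalarTower.of_algebraMap_eq fun y => by
    show algebraMap k M' y = algebraMap M M' (algebraMap L M (algebraMap k L y))
    rw [← IsScalarTower.algebraMap_apply k L M, ← IsScalarTower.algebraMap_apply k M M']
  refine ⟨M', i1, i2, i3, inferInstance, t2, i6, w', x, hp, Ideal.LiesOver.trans w' w wL,
    fun a b ha hb => ?_⟩
  rw [← h a b ha hb, map_map_units, restrictNormal_restrictNormal, restrictNormal_restrictNormal]

end Fermat.Agent.CFT.HP
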