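/-
CFT / HP, package A4: explicit `H²` of finite cyclic groups, multiplicative form.
-/
import Fermat.Agent.CFT.HP.InterfaceAB
import Fermat.Agent.CFT.P0.CycH2

set_option autoImplicit false

namespace Fermat.Agent.CFT.HP

open NumberField groupCohomology Fermat.Agent.S14 Fermat.Agent.CFT.P0
open scoped Pointwise

section

variable {G A : Type} [Group G] [CommGroup A] [MulDistribMulAction G A]

/-- the underlying element of `A` -/
def MulCyc_toA (x : Rep.ofMulDistribMulAction G A) : A := Additive.toMul (x : Additive A)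

/-- an element of `A` as an element of the representation -/
def MulCyc_ofA (a : A) : Rep.ofMulDistribMulAction G A := (Additive.ofMul a : Additive A)

theorem MulCyc_cyc_eq (σ : G) (a : A) (x : G × G) :
    cycCochain (A := Rep.ofMulDistribMulAction G A) σ (MulCyc_ofA a) x =
      MulCyc_ofA (mulCyc σ a x) := by
  unfold cycCochain mulCyc
  by_cases h : Nat.card G ≤ dlog σ x.1 + dlog σ x.2
  · rw [if_pos h, if_pos h]
  · rw [if_neg h, if_neg h]
    rfl

theorem MulCyc_W_eq (s : ℕ → A) (n : ℕ) :
    CycH2.W (A := Rep.ofMulDistribMulAction G A) (fun j => MulCyc_ofA (s j)) n =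
      MulCyc_ofA (∏ j ∈ Finset.range n, s j) := by
  unfold CycH2.W
  exact (ofMul_prod (Finset.range n) s).symm

end

/-- A4. `H²` of a finite cyclic group, explicitly. -/
theorem mulCyc_stmt : Stmt_MulCyc := by
  intro G A _ _ _ _ σ hσ
  refine ⟨fun f hf => ?_, fun a ha => ?_⟩
  · have hc : (fun x => MulCyc_ofA (f x) : G × G → Rep.ofMulDistribMulAction G A) ∈
        cocycles₂ (Rep.ofMulDistribMulAction G A) := (cocyclesOfIsMulCocycle₂ hf).2
    have hW := MulCyc_W_eq (G := G) (fun j => f (σ ^ j, σ)) (Nat.card G)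
    refine ⟨fun g => ?_, ?_⟩
    · have h := CycH2.T_invariant hσ (Rep.ofMulDistribMulAction G A) _ hc g
      rw [hW] at h
      exact congrArg MulCyc_toA h
    · have h := CycH2.cocycle_sub_cyc_mem hσ (Rep.ofMulDistribMulAction G A) _ hc
      obtain ⟨w, hw⟩ := CycH2.exists_of_mem_cob _ _ h
      refine ⟨fun g => MulCyc_toA (w g), fun g h => ?_⟩
      have h1 := hw g h
      rw [Pi.sub_apply, hW, MulCyc_cyc_eq] at h1
      have h2 := congrArg MulCyc_toA h1
      change f (g, h) / mulCyc σ _ (g, h) = mulD (fun g => MulCyc_toA (w g)) (g, h) at h2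
      rw [← h2, mul_div_cancel]
  · have hfun : (fun x => MulCyc_ofA (mulCyc σ a x) : G × G → Rep.ofMulDistribMulAction G A) =
        cycCochain (A := Rep.ofMulDistribMulAction G A) σ (MulCyc_ofA a) := by
      funext x
      exact (MulCyc_cyc_eq σ a x).symm
    refine ⟨?_, ?_⟩
    · have h := CycH2.cyc_mem hσ (Rep.ofMulDistribMulAction G A) (MulCyc_ofA a)
        (fun x => congrArg (MulCyc_ofA (G := G) (A := A)) (ha x))
      rw [← hfun] at h
      exact isMulCocycle₂_of_mem_cocycles₂ _ h
    · have hiff := CycH2.cyc_mem_cob_iff hσ (Rep.ofMulDistribMulAction G A) (MulCyc_ofA a)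
      rw [← hfun] at hiff
      constructor
      · intro h
        obtain ⟨b, hb⟩ := hiff.mp (coboundariesOfIsMulCoboundary₂ h).2
        refine ⟨MulCyc_toA b, ?_⟩
        rw [CycH2.norm_eq hσ] at hb
        have hW := MulCyc_W_eq (G := G) (fun j => σ ^ j • MulCyc_toA b) (Nat.card G)
        exact congrArg MulCyc_toA (hb.trans hW)
      · rintro ⟨b, hb⟩
        refine isMulCoboundary₂_of_mem_coboundaries₂ _ (hiff.mpr ⟨MulCyc_ofA b, ?_⟩)
        rw [CycH2.norm_eq hσ]
        have hW := MulCyc_W_eq (G := G) (fun j => σ ^ j • b) (Nat.card G)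
        exact (congrArg (MulCyc_ofA (G := G) (A := A)) hb).trans hW.symm

end Fermat.Agent.CFT.HP
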