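/-
CFT / HP, package A2(ii): inflation is injective on `H²` (explicit multiplicative cocycles).
-/
import Fermat.Agent.CFT.HP.InterfaceAB

set_option autoImplicit false

namespace Fermat.Agent.CFT.HP

open groupCohomology

/-- the additive form of the statement. -/
theorem MulInfInj_add {G Q A B : Type} [Group G] [Group Q] [AddCommGroup A] [AddCommGroup B]
    [DistribMulAction G A] [DistribMulAction Q B] (π : G →* Q) (j : B →+ A)
    (surj : Function.Surjective π) (inj : Function.Injective j)
    (equiv : ∀ (g : G) (b : B), j (π g • b) = g • j b)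
    (inv : ∀ a : A, (∀ n ∈ π.ker, n • a = a) → ∃ b : B, j b = a)
    (h90 : ∀ c : G → A, (∀ n ∈ π.ker, ∀ n' ∈ π.ker, c (n * n') = n • c n' + c n) →
      ∃ b : A, ∀ n ∈ π.ker, c n = n • b - b)
    (fb : Q × Q → B)
    (hfb : ∀ g h k : Q, fb (g * h, k) + fb (g, h) = g • fb (h, k) + fb (g, h * k))
    (γ : G → A) (hγ : ∀ g h : G, g • γ h - γ (g * h) + γ g = j (fb (π g, π h))) :
    ∃ x : Q → B, ∀ g h : Q, g • x h - x (g * h) + x g = fb (g, h) := by
  obtain ⟨u, hu⟩ : ∃ u, u = fb (1, 1) := ⟨_, rfl⟩
  have h1 : ∀ h, fb (1, h) = u := by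
    intro h
    have := hfb 1 1 h
    simp only [one_mul, one_smul] at this
    rw [hu]
    exact (add_left_cancel this).symm
  have h2 : ∀ g, fb (g, 1) = g • u := by
    intro g
    have := hfb g 1 1
    simp only [mul_one] at this
    rw [hu]
    exact add_right_cancel this
  have hUn : ∀ n ∈ π.ker, n • j u = j u := by
    intro n hn
    rw [← equiv, MonoidHom.mem_ker.1 hn, one_smul]
  obtain ⟨b, hb⟩ := h90 (fun g => γ g - j u) (by
    intro n hn n' hn'
    have := hγ n n'
    rw [MonoidHom.mem_ker.1 hn, MonoidHom.mem_ker.1 hn', ← hu] at this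
    simp only [smul_sub, hUn n hn]
    linear_combination (norm := abel) -this)
  obtain ⟨γ₂, hγ₂⟩ : ∃ γ₂ : G → A, ∀ g, γ₂ g = γ g - j u - (g • b - b) := ⟨_, fun _ => rfl⟩
  have key : ∀ g h, g • γ₂ h - γ₂ (g * h) + γ₂ g = j (fb (π g, π h)) - g • j u := by
    intro g h
    simp only [hγ₂, smul_sub, mul_smul]
    linear_combination (norm := abel) hγ g h
  have hn1 : ∀ n ∈ π.ker, γ₂ n = 0 := by
    intro n hn
    rw [hγ₂]
    exact sub_eq_zero.2 (hb n hn)
  have hr : ∀ g, ∀ n ∈ π.ker, γ₂ (g * n) = γ₂ g := by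
    intro g n hn
    have := key g n
    rw [hn1 n hn, smul_zero, MonoidHom.mem_ker.1 hn, h2, equiv] at this
    linear_combination (norm := abel) -this
  have hl : ∀ g, ∀ n ∈ π.ker, γ₂ (n * g) = n • γ₂ g := by
    intro g n hn
    have := key n g
    rw [hn1 n hn, MonoidHom.mem_ker.1 hn, h1, hUn n hn] at this
    linear_combination (norm := abel) -this
  have hinv : ∀ g, ∀ n ∈ π.ker, n • γ₂ g = γ₂ g := by
    intro g n hn
    rw [← hl g n hn]
    have e : n * g = g * (g⁻¹ * n * g) := by group
    rw [e]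
    refine hr g _ ?_
    have := (MonoidHom.normal_ker π).conj_mem n hn g⁻¹
    simpa using this
  choose β hβ using fun g => inv (γ₂ g) (hinv g)
  have hfac : ∀ g g', π g = π g' → γ₂ g' = γ₂ g := by
    intro g g' hgg
    have e : g' = g * (g⁻¹ * g') := by group
    rw [e]
    refine hr g _ ?_
    rw [MonoidHom.mem_ker, map_mul, map_inv, hgg, inv_mul_cancel]
  have hs : ∀ g, j (β (Function.surjInv surj (π g))) = γ₂ g := fun g =>
    (hβ _).trans (hfac _ _ (Function.surjInv_eq surj (π g)).symm)
  refine ⟨fun q => β (Function.surjInv surj q) + u, ?_⟩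
  intro q r
  obtain ⟨g, rfl⟩ := surj q
  obtain ⟨h, rfl⟩ := surj r
  apply inj
  simp only [map_add, map_sub, smul_add, equiv, ← map_mul, hs]
  linear_combination (norm := abel) key g h

/-- the additive action attached to a multiplicative distributive action. -/
@[reducible] def MulInfInj_act (G A : Type) [Monoid G] [CommGroup A] [MulDistribMulAction G A] :
    DistribMulAction G (Additive A) where
  smul g a := Additive.ofMul (g • Additive.toMul a)
  one_smul a := by
    show Additive.ofMul ((1 : G) • Additive.toMul a) = a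
    rw [one_smul]
    rfl
  mul_smul g h a := by
    show Additive.ofMul ((g * h) • Additive.toMul a) = Additive.ofMul (g • (h • Additive.toMul a))
    rw [mul_smul]
  smul_zero g := by
    show Additive.ofMul (g • (1 : A)) = 0
    rw [smul_one]
    rfl
  smul_add g a b := by
    show Additive.ofMul (g • (Additive.toMul a * Additive.toMul b)) =
      Additive.ofMul ((g • Additive.toMul a) * (g • Additive.toMul b))
    rw [smul_mul']

/-- A2(ii) -/
theorem mulInfInj : Stmt_MulInfInj := by
  intro G Q A B _ _ _ _ _ _ π j hD fb hfb ⟨γ, hγ⟩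
  let _ := MulInfInj_act G A
  let _ := MulInfInj_act Q B
  obtain ⟨x, hx⟩ := MulInfInj_add (A := Additive A) (B := Additive B) π (MonoidHom.toAdditive j)
    hD.surj hD.inj hD.equiv hD.inv hD.h90 (fun x => Additive.ofMul (fb x)) hfb
    (fun g => Additive.ofMul (γ g)) hγ
  exact ⟨fun q => Additive.toMul (x q), hx⟩

end Fermat.Agent.CFT.HP
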