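/-
CFT / HP, package A2(i) (helper14): explicit inflation-restriction, exactness at `H²(G, A)`
(explicit multiplicative cocycles; direct cochain computation, no dimension shifting).
-/
import Fermat.Agent.CFT.HP.MulInfInj

set_option autoImplicit false

namespace Fermat.Agent.CFT.HP

open groupCohomology

section Abstract

variable {G A : Type} [Group G] [AddCommGroup A] [DistribMulAction G A]

/-- additive 2-cocycles (curried). -/
def MIEcoc (F : G → G → A) : Prop :=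
  ∀ g h k : G, F (g * h) k + F g h = g • F h k + F g (h * k)

/-- the additive coboundary of a 1-cochain. -/
def MIEd (γ : G → A) (g h : G) : A := g • γ h - γ (g * h) + γ g

theorem MIEcoc_add (F : G → G → A) (hF : MIEcoc F) (γ : G → A) :
    MIEcoc (fun g h => F g h + MIEd γ g h) := by
  intro g h k
  simp only [MIEd, smul_add, smul_sub, mul_smul, mul_assoc]
  linear_combination (norm := abel) hF g h k

/-- Step 2: a cocycle vanishing on `N × N` can be made to vanish on `N × G`. -/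
theorem MIE_step2 (N : Subgroup G) (s : G → G) (hs1 : ∀ g, g * (s g)⁻¹ ∈ N)
    (hs2 : ∀ n ∈ N, ∀ g, s (n * g) = s g) (hs3 : s 1 = 1)
    (F : G → G → A) (hF : MIEcoc F) (h0 : ∀ n ∈ N, ∀ n' ∈ N, F n n' = 0) :
    ∃ γ : G → A, ∀ n ∈ N, ∀ g, F n g + MIEd γ n g = 0 := by
  refine ⟨fun g => F (g * (s g)⁻¹) (s g), ?_⟩
  intro n hn g
  have hsn : s n = 1 := by simpa [hs3] using hs2 n hn 1
  have e1 := hF n (g * (s g)⁻¹) (s g)
  rw [h0 n hn _ (hs1 g), inv_mul_cancel_right] at e1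
  simp only [MIEd, hs2 n hn g, hsn, inv_one, mul_one, h0 n hn 1 N.one_mem, mul_assoc]
  linear_combination (norm := abel) -e1

/-- Step 3: a cocycle vanishing on `N × G` can be made to vanish on `N × G` and `G × N`, if
`H¹(N, A) = 0`. -/
theorem MIE_step3 (N : Subgroup G) [hN : N.Normal] (s : G → G) (hs1 : ∀ g, g * (s g)⁻¹ ∈ N)
    (hs2 : ∀ n ∈ N, ∀ g, s (n * g) = s g) (hs3 : s 1 = 1)
    (h90 : ∀ c : G → A, (∀ n ∈ N, ∀ n' ∈ N, c (n * n') = n • c n' + c n) →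
      ∃ b : A, ∀ n ∈ N, c n = n • b - b)
    (F : G → G → A) (hF : MIEcoc F) (h0 : ∀ n ∈ N, ∀ g, F n g = 0) :
    ∃ γ : G → A, (∀ n ∈ N, ∀ g, F n g + MIEd γ n g = 0) ∧
      (∀ n ∈ N, ∀ g, F g n + MIEd γ g n = 0) := by
  have hL : ∀ n ∈ N, ∀ g h, F (n * g) h = n • F g h := by
    intro n hn g h
    have := hF n g h
    rw [h0 n hn, h0 n hn] at this
    simpa using this
  have hconj : ∀ (t : G), ∀ m ∈ N, t⁻¹ * m * t ∈ N := by
    intro t m hm
    simpa using hN.conj_mem m hm t⁻¹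
  have hc : ∀ t : G, ∃ b : A, ∀ m ∈ N, F t (t⁻¹ * m * t) = m • b - b := by
    intro t
    refine h90 (fun m => F t (t⁻¹ * m * t)) ?_
    intro m hm m' hm'
    have e1 := hF t (t⁻¹ * m * t) (t⁻¹ * m' * t)
    rw [h0 _ (hconj t m hm), smul_zero, zero_add] at e1
    have e2 : t * (t⁻¹ * m * t) = m * t := by group
    have e3 : t⁻¹ * m * t * (t⁻¹ * m' * t) = t⁻¹ * (m * m') * t := by group
    rw [e2, e3, hL m hm] at e1
    exact e1.symm
  choose b hb using hc
  have hb1 : ∀ m ∈ N, m • b 1 = b 1 := by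
    intro m hm
    have := hb 1 m hm
    rw [h0 1 N.one_mem] at this
    exact (sub_eq_zero.1 this.symm)
  obtain ⟨b', hb'def⟩ : ∃ b' : G → A, ∀ t, b' t = b t - b 1 := ⟨_, fun _ => rfl⟩
  have hb' : ∀ t : G, ∀ m ∈ N, F t (t⁻¹ * m * t) = m • b' t - b' t := by
    intro t m hm
    rw [hb t m hm, hb'def, smul_sub, hb1 m hm]
    abel
  have hb'1 : b' 1 = 0 := by rw [hb'def, sub_self]
  have hsn : ∀ n ∈ N, s n = 1 := by
    intro n hn
    simpa [hs3] using hs2 n hn 1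
  refine ⟨fun g => (g * (s g)⁻¹) • b' (s g), ?_, ?_⟩
  · intro n hn g
    simp only [MIEd, h0 n hn g, hs2 n hn g, hsn n hn, hb'1, smul_zero, mul_smul, mul_assoc]
    abel
  · intro n hn g
    have hsg : s (g * n) = s g := by
      have e : g * n = (g * n * g⁻¹) * g := by group
      rw [e]
      exact hs2 _ (hN.conj_mem n hn g) g
    obtain ⟨t, ht⟩ : ∃ t, t = s g := ⟨_, rfl⟩
    have h1 : F g n = (g * t⁻¹) • F t n := by
      rw [← hL _ (ht ▸ hs1 g), inv_mul_cancel_right]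
    have h2 := hb' t (t * n * t⁻¹) (hN.conj_mem n hn t)
    have e4 : t⁻¹ * (t * n * t⁻¹) * t = n := by group
    rw [e4] at h2
    have e5 : g * n * t⁻¹ = (g * t⁻¹) * (t * n * t⁻¹) := by group
    simp only [MIEd, hsg, hsn n hn, hb'1, smul_zero, ← ht]
    rw [e5, mul_smul (g * t⁻¹) (t * n * t⁻¹), h1, h2, smul_sub]
    abel

/-- Step 4: a cocycle vanishing on `N × G` and `G × N` is inflated. -/
theorem MIE_step4 (N : Subgroup G) [hN : N.Normal]
    (F : G → G → A) (hF : MIEcoc F) (hl : ∀ n ∈ N, ∀ g, F n g = 0)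
    (hr : ∀ n ∈ N, ∀ g, F g n = 0) :
    (∀ n ∈ N, ∀ g h, F (g * n) h = F g h) ∧ (∀ n ∈ N, ∀ g h, F g (h * n) = F g h) ∧
      (∀ n ∈ N, ∀ g h, n • F g h = F g h) := by
  have hconj : ∀ (t : G), ∀ m ∈ N, t⁻¹ * m * t ∈ N := by
    intro t m hm
    simpa using hN.conj_mem m hm t⁻¹
  have hL : ∀ n ∈ N, ∀ g h, F (n * g) h = n • F g h := by
    intro n hn g h
    have := hF n g h
    rw [hl n hn, hl n hn] at this
    simpa using this
  have hR : ∀ n ∈ N, ∀ g h, F g (h * n) = F g h := by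
    intro n hn g h
    have := hF g h n
    rw [hr n hn, hr n hn, smul_zero] at this
    simpa using this.symm
  have hM : ∀ n ∈ N, ∀ g h, F (g * n) h = F g h := by
    intro n hn g h
    have := hF g n h
    rw [hr n hn, hl n hn, smul_zero] at this
    have e : n * h = h * (h⁻¹ * n * h) := by group
    rw [e, hR _ (hconj h n hn)] at this
    simpa using this
  refine ⟨hM, hR, ?_⟩
  intro n hn g h
  rw [← hL n hn]
  have e : n * g = g * (g⁻¹ * n * g) := by group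
  rw [e, hM _ (hconj g n hn)]

end Abstract

/-- the additive form of the statement. -/
theorem MulInfExact_add {G Q A B : Type} [Group G] [Group Q] [AddCommGroup A] [AddCommGroup B]
    [DistribMulAction G A] [DistribMulAction Q B] (π : G →* Q) (j : B →+ A)
    (surj : Function.Surjective π) (inj : Function.Injective j)
    (equiv : ∀ (g : G) (b : B), j (π g • b) = g • j b)
    (inv : ∀ a : A, (∀ n ∈ π.ker, n • a = a) → ∃ b : B, j b = a)
    (h90 : ∀ c : G → A, (∀ n ∈ π.ker, ∀ n' ∈ π.ker, c (n * n') = n • c n' + c n) →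
      ∃ b : A, ∀ n ∈ π.ker, c n = n • b - b)
    (f : G × G → A)
    (hf : ∀ g h k : G, f (g * h, k) + f (g, h) = g • f (h, k) + f (g, h * k))
    (γ₀ : G → A)
    (hγ₀ : ∀ n ∈ π.ker, ∀ n' ∈ π.ker, f (n, n') = n • γ₀ n' - γ₀ (n * n') + γ₀ n) :
    ∃ (fb : Q × Q → B) (γ : G → A),
      (∀ g h k : Q, fb (g * h, k) + fb (g, h) = g • fb (h, k) + fb (g, h * k)) ∧
      ∀ g h : G, f (g, h) = j (fb (π g, π h)) + (g • γ h - γ (g * h) + γ g) := by
  classical
  -- a normalised section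
  obtain ⟨r, hr, hr1⟩ : ∃ r : Q → G, (∀ q, π (r q) = q) ∧ r 1 = 1 := by
    refine ⟨Function.update (Function.surjInv surj) 1 1, ?_, by simp⟩
    intro q
    by_cases hq : q = 1
    · subst hq; simp
    · rw [Function.update_of_ne hq]; exact Function.surjInv_eq surj q
  obtain ⟨s, hs⟩ : ∃ s : G → G, ∀ g, s g = r (π g) := ⟨_, fun _ => rfl⟩
  have hs1 : ∀ g, g * (s g)⁻¹ ∈ π.ker := by
    intro g
    rw [MonoidHom.mem_ker, map_mul, map_inv, hs, hr, mul_inv_cancel]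
  have hs2 : ∀ n ∈ π.ker, ∀ g, s (n * g) = s g := by
    intro n hn g
    rw [hs, hs, map_mul, MonoidHom.mem_ker.1 hn, one_mul]
  have hs3 : s 1 = 1 := by rw [hs, map_one, hr1]
  -- step 1
  obtain ⟨F₁, hF₁⟩ : ∃ F₁ : G → G → A, ∀ g h, F₁ g h = f (g, h) + MIEd (fun g => - γ₀ g) g h :=
    ⟨_, fun _ _ => rfl⟩
  have c₁ : MIEcoc F₁ := by
    have := MIEcoc_add (fun g h => f (g, h)) hf (fun g => - γ₀ g)
    intro g h k
    simp only [hF₁]
    exact this g h k
  have z₁ : ∀ n ∈ π.ker, ∀ n' ∈ π.ker, F₁ n n' = 0 := by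
    intro n hn n' hn'
    rw [hF₁, hγ₀ n hn n' hn']
    simp only [MIEd, smul_neg]
    abel
  -- step 2
  obtain ⟨γ₁, hγ₁⟩ := MIE_step2 π.ker s hs1 hs2 hs3 F₁ c₁ z₁
  obtain ⟨F₂, hF₂⟩ : ∃ F₂ : G → G → A, ∀ g h, F₂ g h = F₁ g h + MIEd γ₁ g h := ⟨_, fun _ _ => rfl⟩
  have c₂ : MIEcoc F₂ := by
    have := MIEcoc_add F₁ c₁ γ₁
    intro g h k
    simp only [hF₂]
    exact this g h k
  have z₂ : ∀ n ∈ π.ker, ∀ g, F₂ n g = 0 := by
    intro n hn g
    rw [hF₂]
    exact hγ₁ n hn g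
  -- step 3
  obtain ⟨γ₂, hγ₂, hγ₂'⟩ := MIE_step3 π.ker s hs1 hs2 hs3 h90 F₂ c₂ z₂
  obtain ⟨F₃, hF₃⟩ : ∃ F₃ : G → G → A, ∀ g h, F₃ g h = F₂ g h + MIEd γ₂ g h := ⟨_, fun _ _ => rfl⟩
  have c₃ : MIEcoc F₃ := by
    have := MIEcoc_add F₂ c₂ γ₂
    intro g h k
    simp only [hF₃]
    exact this g h k
  have zl : ∀ n ∈ π.ker, ∀ g, F₃ n g = 0 := by
    intro n hn g
    rw [hF₃]
    exact hγ₂ n hn g
  have zr : ∀ n ∈ π.ker, ∀ g, F₃ g n = 0 := by
    intro n hn g
    rw [hF₃]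
    exact hγ₂' n hn g
  -- step 4
  obtain ⟨hM, hR, hI⟩ := MIE_step4 π.ker F₃ c₃ zl zr
  choose β hβ using fun g h => inv (F₃ g h) (fun n hn => hI n hn g h)
  have hfac : ∀ g g' h h', π g = π g' → π h = π h' → F₃ g' h' = F₃ g h := by
    intro g g' h h' hg hh
    have e : g' = g * (g⁻¹ * g') := by group
    have e' : h' = h * (h⁻¹ * h') := by group
    rw [e, e', hM _ (by rw [MonoidHom.mem_ker, map_mul, map_inv, hg, inv_mul_cancel]),
      hR _ (by rw [MonoidHom.mem_ker, map_mul, map_inv, hh, inv_mul_cancel])]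
  have hjβ : ∀ g h, j (β (r (π g)) (r (π h))) = F₃ g h := by
    intro g h
    rw [hβ]
    exact hfac _ _ _ _ (hr _).symm (hr _).symm
  refine ⟨fun x => β (r x.1) (r x.2), fun g => γ₀ g - γ₁ g - γ₂ g, ?_, ?_⟩
  · intro q₁ q₂ q₃
    obtain ⟨g, rfl⟩ := surj q₁
    obtain ⟨h, rfl⟩ := surj q₂
    obtain ⟨k, rfl⟩ := surj q₃
    apply inj
    simp only [map_add, equiv, ← map_mul, hjβ]
    exact c₃ g h k
  · intro g h
    simp only [hjβ, hF₃, hF₂, hF₁, MIEd, smul_sub, smul_neg]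
    abel

/-- A2(i) -/
theorem mulInfExact : Stmt_MulInfExact := by
  intro G Q A B _ _ _ _ _ _ π j hD f hf ⟨γ₀, hγ₀⟩
  let _ := MulInfInj_act G A
  let _ := MulInfInj_act Q B
  obtain ⟨fb, γ, h1, h2⟩ := MulInfExact_add (A := Additive A) (B := Additive B) π
    (MonoidHom.toAdditive j) hD.surj hD.inj hD.equiv hD.inv hD.h90
    (fun x => Additive.ofMul (f x)) hf (fun g => Additive.ofMul (γ₀ g)) hγ₀
  exact ⟨fun q => Additive.toMul (fb q), fun g => Additive.toMul (γ g), h1, h2⟩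

end Fermat.Agent.CFT.HP
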