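/-
CFT / HP, block A: dictionary between explicit multiplicative 2-cocycles `G × G → A` and
`H² (Rep.ofMulDistribMulAction G A)`.
-/
import Fermat.Agent.CFT.HP.InterfaceAB
import Fermat.Agent.CFT.P0.CycH2

set_option autoImplicit false

noncomputable section

namespace Fermat.Agent.CFT.HP

open CategoryTheory groupCohomology Fermat.Agent.CFT.P0

variable {G A : Type} [Group G] [CommGroup A] [MulDistribMulAction G A]

/-- the class in `H²` of a multiplicative 2-cocycle -/
def mulCls (f : G × G → A) (hf : IsMulCocycle₂ f) :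
    groupCohomology (Rep.ofMulDistribMulAction G A) 2 :=
  (H2π (Rep.ofMulDistribMulAction G A)).hom (cocyclesOfIsMulCocycle₂ hf)

theorem isMulCoboundary₂_iff_mulD (f : G × G → A) :
    IsMulCoboundary₂ f ↔ ∃ γ : G → A, ∀ g h, f (g, h) = mulD γ (g, h) :=
  ⟨fun ⟨γ, h⟩ => ⟨γ, fun g h' => (h g h').symm⟩, fun ⟨γ, h⟩ => ⟨γ, fun g h' => (h g h').symm⟩⟩

theorem mulCls_eq_zero_iff (f : G × G → A) (hf : IsMulCocycle₂ f) :
    mulCls f hf = 0 ↔ IsMulCoboundary₂ f := by
  unfold mulCls
  rw [H2π_eq_zero_iff]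
  constructor
  · intro h
    exact isMulCoboundary₂_of_mem_coboundaries₂ _ h
  · intro h
    exact (coboundariesOfIsMulCoboundary₂ h).2

theorem isMulCocycle₂_mul {f g : G × G → A} (hf : IsMulCocycle₂ f) (hg : IsMulCocycle₂ g) :
    IsMulCocycle₂ (fun x => f x * g x) := by
  intro a b c
  have h1 := hf a b c
  have h2 := hg a b c
  simp only [smul_mul']
  calc _ = (f (a * b, c) * f (a, b)) * (g (a * b, c) * g (a, b)) := by
        simp only [mul_assoc, mul_left_comm, mul_comm]
    _ = _ := by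
        rw [h1, h2]
        simp only [mul_assoc, mul_left_comm, mul_comm]

theorem isMulCocycle₂_one : IsMulCocycle₂ (fun _ : G × G => (1 : A)) := by
  intro a b c
  simp

theorem isMulCocycle₂_pow {f : G × G → A} (hf : IsMulCocycle₂ f) (n : ℕ) :
    IsMulCocycle₂ (fun x => f x ^ n) := by
  intro a b c
  have h1 := hf a b c
  simp only [smul_pow', ← mul_pow, h1]

theorem isMulCocycle₂_inv {f : G × G → A} (hf : IsMulCocycle₂ f) :
    IsMulCocycle₂ (fun x => (f x)⁻¹) := by
  intro a b c
  have h1 := hf a b c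
  simp only [smul_inv', ← mul_inv, h1]

theorem isMulCocycle₂_div {f g : G × G → A} (hf : IsMulCocycle₂ f) (hg : IsMulCocycle₂ g) :
    IsMulCocycle₂ (fun x => f x / g x) := by
  simp only [div_eq_mul_inv]
  exact isMulCocycle₂_mul hf (isMulCocycle₂_inv hg)

theorem mulCls_mul {f g : G × G → A} (hf : IsMulCocycle₂ f) (hg : IsMulCocycle₂ g) :
    mulCls (fun x => f x * g x) (isMulCocycle₂_mul hf hg) = mulCls f hf + mulCls g hg := by
  unfold mulCls
  rw [← map_add]
  rfl

theorem mulCls_one : mulCls (fun _ : G × G => (1 : A)) isMulCocycle₂_one = 0 := by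
  unfold mulCls
  exact map_zero (H2π (Rep.ofMulDistribMulAction G A)).hom

theorem mulCls_pow {f : G × G → A} (hf : IsMulCocycle₂ f) (n : ℕ) :
    mulCls (fun x => f x ^ n) (isMulCocycle₂_pow hf n) = n • mulCls f hf := by
  unfold mulCls
  rw [← map_nsmul]
  rfl

theorem mulCls_inv {f : G × G → A} (hf : IsMulCocycle₂ f) :
    mulCls (fun x => (f x)⁻¹) (isMulCocycle₂_inv hf) = - mulCls f hf := by
  unfold mulCls
  rw [← map_neg]
  rfl

theorem mulCls_div {f g : G × G → A} (hf : IsMulCocycle₂ f) (hg : IsMulCocycle₂ g) :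
    mulCls (fun x => f x / g x) (isMulCocycle₂_div hf hg) = mulCls f hf - mulCls g hg := by
  unfold mulCls
  rw [← map_sub]
  rfl

theorem mulCls_eq_iff {f g : G × G → A} (hf : IsMulCocycle₂ f) (hg : IsMulCocycle₂ g) :
    mulCls f hf = mulCls g hg ↔ IsMulCoboundary₂ (fun x => f x / g x) := by
  rw [← mulCls_eq_zero_iff _ (isMulCocycle₂_div hf hg), mulCls_div, sub_eq_zero]

theorem mulCls_surjective (x : groupCohomology (Rep.ofMulDistribMulAction G A) 2) :
    ∃ (f : G × G → A) (hf : IsMulCocycle₂ f), mulCls f hf = x := by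
  induction x using H2_induction_on with
  | h c =>
    exact ⟨fun x => Additive.toMul (show Additive A from c.1 x),
      isMulCocycle₂_of_mem_cocycles₂ (M := A) c.1 c.2, rfl⟩

theorem isMulCoboundary₂_mulD (γ : G → A) : IsMulCoboundary₂ (mulD γ) := ⟨γ, fun _ _ => rfl⟩

theorem isMulCocycle₂_of_isMulCoboundary₂ {f : G × G → A} (hf : IsMulCoboundary₂ f) :
    IsMulCocycle₂ f :=
  isMulCocycle₂_of_mem_cocycles₂ _
    (coboundaries₂_le_cocycles₂ _ (coboundariesOfIsMulCoboundary₂ hf).2)

theorem isMulCocycle₂_mulD (γ : G → A) : IsMulCocycle₂ (mulD γ) :=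
  isMulCocycle₂_of_isMulCoboundary₂ (isMulCoboundary₂_mulD γ)

/-- the restriction of the class of `f` to a subgroup `P` vanishes if `f` is a coboundary on
`P`. -/
theorem resMap_mulCls_eq_zero (P : Subgroup G) {f : G × G → A} (hf : IsMulCocycle₂ f)
    (γ : G → A) (h : ∀ g ∈ P, ∀ h ∈ P, f (g, h) = mulD γ (g, h)) :
    (resMap (Rep.ofMulDistribMulAction G A) P 2).hom (mulCls f hf) = 0 := by
  unfold mulCls
  have h0 : (0 : P × P → Rep.res P.subtype (Rep.ofMulDistribMulAction G A)) ∈
      cocycles₂ (Rep.res P.subtype (Rep.ofMulDistribMulAction G A)) := Submodule.zero_mem _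
  have h1 := CycH2.map_H2π_eq (A := Rep.ofMulDistribMulAction G A)
    (B := Rep.res P.subtype (Rep.ofMulDistribMulAction G A)) P.subtype (𝟙 _)
    (Additive.ofMul ∘ f) (cocyclesOfIsMulCocycle₂ hf).2 0 h0 (by
      rw [sub_zero]
      refine CycH2.mem_cob _ _ (fun g : P => Additive.ofMul (γ g)) ?_
      intro x y
      exact congrArg Additive.ofMul (h x x.2 y y.2))
  refine h1.trans ?_
  exact map_zero (H2π _).hom

end Fermat.Agent.CFT.HP

end
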