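/-
CFT / HP, package A1: a multiplicative 2-cocycle of `p`-power order which is a coboundary on a
subgroup of index prime to `p` is a coboundary.
-/
import Fermat.Agent.CFT.HP.MulDict
import Fermat.Agent.CFT.P0.ResIndex
import Fermat.Agent.CFT.P0.ShiftExists

set_option autoImplicit false

namespace Fermat.Agent.CFT.HP

open groupCohomology Fermat.Agent.CFT.P0

theorem mulSylow : Stmt_MulSylow := by
  intro p G A _ _ _ _ P f hp hP hf ⟨e, he⟩ ⟨γ, hγ⟩
  rw [← mulCls_eq_zero_iff f hf]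
  have h1 : P.index • mulCls f hf = 0 :=
    resIndex shift ℤ G (Rep.ofMulDistribMulAction G A) P 2 _ (resMap_mulCls_eq_zero P hf γ hγ)
  have h2 : p ^ e • mulCls f hf = 0 := by
    rw [← mulCls_pow hf, mulCls_eq_zero_iff]
    exact he
  have h3 : Nat.Coprime (p ^ e) P.index :=
    Nat.Coprime.pow_left e ((Nat.Prime.coprime_iff_not_dvd hp).2 hP)
  have h4 : addOrderOf (mulCls f hf) ∣ 1 := by
    rw [← h3.gcd_eq_one]
    exact Nat.dvd_gcd (addOrderOf_dvd_iff_nsmul_eq_zero.2 h2) (addOrderOf_dvd_iff_nsmul_eq_zero.2 h1)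
  exact AddMonoid.addOrderOf_eq_one_iff.1 (Nat.dvd_one.1 h4)

end Fermat.Agent.CFT.HP
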