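/-
CFT / HP, package B5: Chinese remainder theorem: approximate norms at all primes dividing `m` are
norms modulo `m` (`Stmt_NormCRT`).
-/
import Fermat.Agent.CFT.HP.InterfaceAB
import Fermat.Agent.CFT.HP.Arith
import Fermat.Agent.CFT.HP.GrInduced

set_option autoImplicit false
set_option linter.unusedSectionVars false

namespace Fermat.Agent.CFT.HP

open NumberField

section

variable {K L : Type} [Field K] [NumberField K] [Field L] [NumberField L] [Algebra K L]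

/-- divisibility in `𝓞 K` can be tested in `𝓞 L`. -/
theorem NormCRT_dvd_of_map_dvd (e t : 𝓞 K)
    (h : algebraMap (𝓞 K) (𝓞 L) e ∣ algebraMap (𝓞 K) (𝓞 L) t) : e ∣ t := by
  obtain ⟨s, hs⟩ := h
  have hs' : algebraMap K L (t : K) = algebraMap K L (e : K) * (s : L) := by
    have := congrArg (fun z : 𝓞 L => (z : L)) hs
    exact this
  by_cases he : e = 0
  · subst he
    have h1 : algebraMap K L (t : K) = 0 := by
      rw [hs']
      simp
    have h2 : (t : K) = 0 := (map_eq_zero (algebraMap K L)).1 h1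
    have h3 : t = 0 := RingOfIntegers.coe_eq_zero_iff.1 h2
    rw [h3]
  · have he' : (e : K) ≠ 0 := RingOfIntegers.coe_ne_zero_iff.2 he
    have hκ : algebraMap K L ((t : K) / (e : K)) = (s : L) := by
      rw [map_div₀, hs', mul_div_cancel_left₀]
      exact (map_ne_zero (algebraMap K L)).2 he'
    have hint : IsIntegral ℤ ((t : K) / (e : K)) := by
      rw [← isIntegral_algebraMap_iff (algebraMap K L).injective, hκ]
      exact RingOfIntegers.isIntegral_coe s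
    refine ⟨⟨_, hint⟩, ?_⟩
    ext
    change (t : K) = (e : K) * ((t : K) / (e : K))
    rw [mul_div_cancel₀]
    exact he'

theorem NormCRT_map_norm [IsGalois K L] (y : 𝓞 L) :
    algebraMap (𝓞 K) (𝓞 L) (RingOfIntegers.norm K y) = ∏ τ : L ≃ₐ[K] L, τ • y := by
  ext
  rw [RingOfIntegers.coe_algebraMap_norm K y, Algebra.norm_eq_prod_automorphisms]
  have h1 : ((∏ τ : L ≃ₐ[K] L, τ • y : 𝓞 L) : L) = ∏ τ : L ≃ₐ[K] L, ((τ • y : 𝓞 L) : L) :=
    map_prod (algebraMap (𝓞 L) L) _ _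
  rw [h1]
  rfl

theorem NormCRT_norm_congr [IsGalois K L] (e : 𝓞 K) (u w : 𝓞 L) :
    e ∣ RingOfIntegers.norm K (u + algebraMap (𝓞 K) (𝓞 L) e * w) - RingOfIntegers.norm K u := by
  apply NormCRT_dvd_of_map_dvd (L := L)
  rw [map_sub, NormCRT_map_norm, NormCRT_map_norm, ← Ideal.mem_span_singleton, ← Ideal.Quotient.eq,
    map_prod, map_prod]
  refine Finset.prod_congr rfl fun τ _ => ?_
  rw [Ideal.Quotient.eq, smul_add, smul_mul', add_sub_cancel_left]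
  have h1 : τ • algebraMap (𝓞 K) (𝓞 L) e = algebraMap (𝓞 K) (𝓞 L) e :=
    RingOfIntegers.ext (τ.commutes (e : K))
  rw [h1]
  exact Ideal.mul_mem_right _ _ (Ideal.mem_span_singleton_self _)

theorem NormCRT_norm_natCast (μ : ℕ) (y : 𝓞 L) :
    RingOfIntegers.norm K ((μ : 𝓞 L) * y) =
      (μ : 𝓞 K) ^ Module.finrank K L * RingOfIntegers.norm K y := by
  have h1 : (μ : 𝓞 L) = algebraMap (𝓞 K) (𝓞 L) (μ : 𝓞 K) := (map_natCast _ μ).symm
  rw [map_mul, h1, RingOfIntegers.norm_algebraMap]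

theorem NormCRT_pow {p : ℕ} (a : Kˣ) {v : Ideal (𝓞 K)} (i : ℕ) (h : NormClose K L p a v) :
    NormClose K L p a (v ^ i) := by
  obtain ⟨μ, hμ, h⟩ := h
  refine ⟨μ, hμ, fun n => ?_⟩
  obtain ⟨y, c, hc, e⟩ := h (i * n)
  exact ⟨y, c, by rwa [← pow_mul], e⟩

theorem NormCRT_mul [IsGalois K L] {p : ℕ} (hp : Module.finrank K L = p) (a : Kˣ)
    {x y : Ideal (𝓞 K)} (hxy : IsCoprime x y) (hx : NormClose K L p a x)
    (hy : NormClose K L p a y) : NormClose K L p a (x * y) := by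
  obtain ⟨μ₁, hμ₁, h₁⟩ := hx
  obtain ⟨μ₂, hμ₂, h₂⟩ := hy
  refine ⟨μ₁ * μ₂, mul_ne_zero hμ₁ hμ₂, fun n => ?_⟩
  obtain ⟨y₁, c₁, hc₁, e₁⟩ := h₁ n
  obtain ⟨y₂, c₂, hc₂, e₂⟩ := h₂ n
  have hcop : IsCoprime (x ^ n) (y ^ n) := hxy.pow
  obtain ⟨ε₁, hε₁, ε₂, hε₂, hε⟩ := Ideal.isCoprime_iff_exists.1 hcop
  obtain ⟨r₁, hr₁⟩ := NormCRT_norm_congr (L := L) ε₁ ((μ₂ : 𝓞 L) * y₁)
    ((μ₁ : 𝓞 L) * y₂ - (μ₂ : 𝓞 L) * y₁)
  obtain ⟨r₂, hr₂⟩ := NormCRT_norm_congr (L := L) ε₂ ((μ₁ : 𝓞 L) * y₂)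
    ((μ₂ : 𝓞 L) * y₁ - (μ₁ : 𝓞 L) * y₂)
  have hY : (μ₁ : 𝓞 L) * y₂ + algebraMap (𝓞 K) (𝓞 L) ε₂ * ((μ₂ : 𝓞 L) * y₁ - (μ₁ : 𝓞 L) * y₂) =
      (μ₂ : 𝓞 L) * y₁ + algebraMap (𝓞 K) (𝓞 L) ε₁ * ((μ₁ : 𝓞 L) * y₂ - (μ₂ : 𝓞 L) * y₁) := by
    have h1 : algebraMap (𝓞 K) (𝓞 L) ε₁ + algebraMap (𝓞 K) (𝓞 L) ε₂ = 1 := by
      rw [← map_add, hε, map_one]
    linear_combination ((μ₂ : 𝓞 L) * y₁ - (μ₁ : 𝓞 L) * y₂) * h1
  rw [hY] at hr₂
  set Y : 𝓞 L := (μ₂ : 𝓞 L) * y₁ +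
    algebraMap (𝓞 K) (𝓞 L) ε₁ * ((μ₁ : 𝓞 L) * y₂ - (μ₂ : 𝓞 L) * y₁) with hYdef
  rw [NormCRT_norm_natCast, hp] at hr₁ hr₂
  -- the equations in `K`
  have k₁ : ((RingOfIntegers.norm K Y : 𝓞 K) : K) -
      (μ₂ : K) ^ p * Algebra.norm K (y₁ : L) = (ε₁ : K) * (r₁ : K) := by
    have := congrArg (fun z : 𝓞 K => (z : K)) hr₁
    simpa using this
  have k₂ : ((RingOfIntegers.norm K Y : 𝓞 K) : K) -
      (μ₁ : K) ^ p * Algebra.norm K (y₂ : L) = (ε₂ : K) * (r₂ : K) := by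
    have := congrArg (fun z : 𝓞 K => (z : K)) hr₂
    simpa using this
  have hcc : (μ₂ : 𝓞 K) ^ p * c₁ - ε₁ * r₁ = (μ₁ : 𝓞 K) ^ p * c₂ - ε₂ * r₂ := by
    ext
    push_cast
    linear_combination k₁ - k₂ - (μ₂ : K) ^ p * e₁ + (μ₁ : K) ^ p * e₂
  refine ⟨Y, (μ₂ : 𝓞 K) ^ p * c₁ - ε₁ * r₁, ?_, ?_⟩
  · rw [mul_pow, Ideal.mul_eq_inf_of_isCoprime hcop]
    refine ⟨?_, ?_⟩
    · exact sub_mem (Ideal.mul_mem_left _ _ hc₁) (Ideal.mul_mem_right _ _ hε₁)
    · rw [hcc]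
      exact sub_mem (Ideal.mul_mem_left _ _ hc₂) (Ideal.mul_mem_right _ _ hε₂)
  · have k₁' : Algebra.norm K (Y : L) -
        (μ₂ : K) ^ p * Algebra.norm K (y₁ : L) = (ε₁ : K) * (r₁ : K) := k₁
    push_cast
    linear_combination (μ₂ : K) ^ p * e₁ - k₁'

/-- approximate norms at all primes containing `J` are approximate norms at `J`. -/
theorem NormCRT_ideal [IsGalois K L] {p : ℕ} (hp : Module.finrank K L = p) (a : Kˣ)
    (J : Ideal (𝓞 K)) : J ≠ 0 → J ≠ ⊤ →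
    (∀ v : Ideal (𝓞 K), v.IsPrime → J ≤ v → NormClose K L p a v) → NormClose K L p a J := by
  induction J using UniqueFactorizationMonoid.induction_on_coprime with
  | h0 => intro h; exact absurd rfl h
  | h1 hx =>
    intro _ h
    exact absurd (Ideal.isUnit_iff.1 hx) h
  | hpr i hq =>
    rename_i q
    intro _ htop h
    have hi : i ≠ 0 := by
      rintro rfl
      exact htop (by rw [pow_zero, Ideal.one_eq_top])
    exact NormCRT_pow a i (h q (Ideal.isPrime_of_prime hq) (Ideal.pow_le_self hi))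
  | hcp hrel ihx ihy =>
    rename_i x y
    intro h0 htop h
    have hx0 : x ≠ 0 := left_ne_zero_of_mul h0
    have hy0 : y ≠ 0 := right_ne_zero_of_mul h0
    by_cases hx : x = ⊤
    · rw [hx, Ideal.top_mul] at htop h ⊢
      exact ihy hy0 htop h
    by_cases hy : y = ⊤
    · rw [hy, Ideal.mul_top] at htop h ⊢
      exact ihx hx0 htop h
    have hcop : IsCoprime x y := by
      rw [Ideal.isCoprime_iff_sup_eq]
      exact Ideal.isUnit_iff.1 (hrel (Ideal.dvd_iff_le.2 le_sup_left)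
        (Ideal.dvd_iff_le.2 le_sup_right))
    exact NormCRT_mul hp a hcop
      (ihx hx0 hx fun v hv hxv => h v hv (Ideal.mul_le_left.trans hxv))
      (ihy hy0 hy fun v hv hyv => h v hv (Ideal.mul_le_right.trans hyv))

theorem NormCRT_not_dvd_one (m : ℕ) (hm : 1 < m) : ¬ (m : 𝓞 K) ∣ 1 := by
  rintro ⟨r, hr⟩
  apply grInduced_neg_one_not_mem K m hm
  refine ⟨1, -r, one_ne_zero, by simp, ?_⟩
  have := congrArg (fun z : 𝓞 K => (z : K)) hr
  push_cast at this ⊢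
  linear_combination -this

end

theorem NormCRT_congOne_one (K : Type) [Field K] [NumberField K] (a : Kˣ) : a ∈ congOne K 1 := by
  obtain ⟨x, y, hy, hxy⟩ := IsFractionRing.div_surjective (A := 𝓞 K) (a : K)
  refine ⟨x, y, by rw [Nat.cast_one]; exact isCoprime_one_right, by simp, ?_⟩
  have hy0 : algebraMap (𝓞 K) K y ≠ 0 := by
    intro h
    exact nonZeroDivisors.ne_zero hy ((FaithfulSMul.algebraMap_injective (𝓞 K) K)
      (by rw [h, map_zero]))
  change (a : K) * algebraMap (𝓞 K) K y = algebraMap (𝓞 K) K x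
  rw [← hxy, div_mul_cancel₀ _ hy0]

/-- **B5.** approximate norms at all primes dividing `m` are norms modulo `m`. -/
theorem normCRT : Stmt_NormCRT := by
  intro p K L _ _ _ _ _ _ a m hp hm hloc
  by_cases hm1 : m = 1
  · subst hm1
    exact Subgroup.mem_sup_right (NormCRT_congOne_one K a)
  have hm2 : 1 < m := by omega
  have hmK : (m : 𝓞 K) ≠ 0 := Nat.cast_ne_zero.2 hm
  have hnd := NormCRT_not_dvd_one (K := K) m hm2
  -- approximate norms at `(m)`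
  have hJ : NormClose K L p a (Ideal.span {(m : 𝓞 K)}) := by
    refine NormCRT_ideal hp a _ ?_ ?_ ?_
    · rw [Ideal.zero_eq_bot, Ne, Ideal.span_singleton_eq_bot]
      exact hmK
    · rw [Ne, Ideal.span_singleton_eq_top]
      exact fun h => hnd h.dvd
    · intro v hv hle
      exact hloc v hv (hle (Ideal.mem_span_singleton_self _))
  obtain ⟨μ, hμ, h⟩ := hJ
  have hμK : (μ : K) ≠ 0 := Nat.cast_ne_zero.2 hμ
  have hμL : (μ : L) ≠ 0 := Nat.cast_ne_zero.2 hμ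
  obtain ⟨y₀, c₀, -, e₀⟩ := h 0
  set α : 𝓞 K := RingOfIntegers.norm K y₀ + c₀ with hα
  have hαK : (α : K) = (μ : K) ^ p * (a : K) := by
    rw [e₀, hα]
    push_cast
    rfl
  have hα0 : α ≠ 0 := by
    intro h0
    rw [h0] at hαK
    exact mul_ne_zero (pow_ne_zero p hμK) a.ne_zero (by rw [← hαK]; rfl)
  obtain ⟨A, B, j, hAB, hA, hB⟩ := splitIdeal K m hm (Ideal.span {(m : 𝓞 K) * α}) (by
    rw [Ne, Ideal.span_singleton_eq_bot]
    exact mul_ne_zero hmK hα0)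
  obtain ⟨y, c, hc, e⟩ := h j
  have hcB : c ∈ B := Ideal.le_of_dvd hB hc
  obtain ⟨s, hs, t', ht', hst⟩ := Ideal.isCoprime_iff_exists.1 hA
  obtain ⟨r, hr⟩ := Ideal.mem_span_singleton.1 ht'
  have hsc : s * c ∈ Ideal.span {(m : 𝓞 K) * α} := by
    rw [hAB]
    exact Ideal.mul_mem_mul hs hcB
  obtain ⟨t, ht⟩ := Ideal.mem_span_singleton.1 hsc
  have hαy : α = RingOfIntegers.norm K y + c := by
    ext
    rw [hαK, e]
    push_cast
    rfl
  have hkey : s * RingOfIntegers.norm K y = α * (s - (m : 𝓞 K) * t) := by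
    linear_combination (-s) * hαy - ht
  have hb : s - (m : 𝓞 K) * t = 1 - (m : 𝓞 K) * (r + t) := by
    linear_combination hst - hr
  have hb0 : s - (m : 𝓞 K) * t ≠ 0 := by
    intro h0
    exact hnd ⟨r + t, by linear_combination h0 - hb⟩
  have hNy0 : RingOfIntegers.norm K y ≠ 0 := by
    intro h0
    rw [h0, mul_zero] at hkey
    exact mul_ne_zero hα0 hb0 hkey.symm
  have hNyK : Algebra.norm K (y : L) ≠ 0 := fun h0 =>
    hNy0 (RingOfIntegers.ext (by rw [RingOfIntegers.coe_norm, h0]; rfl))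
  have hyL : (y : L) ≠ 0 := fun h0 => hNyK (by rw [h0, Algebra.norm_zero])
  have hkeyK : (s : K) * Algebra.norm K (y : L) = (α : K) * ((s - (m : 𝓞 K) * t : 𝓞 K) : K) := by
    have := congrArg (fun z : 𝓞 K => (z : K)) hkey
    simpa only [map_mul, RingOfIntegers.coe_norm] using this
  -- the element of `Lˣ`
  set yL : Lˣ := Units.mk0 ((y : L) * (μ : L)⁻¹) (mul_ne_zero hyL (inv_ne_zero hμL)) with hyLdef
  have hN : ((normU K L yL : Kˣ) : K) = Algebra.norm K (y : L) * ((μ : K) ^ p)⁻¹ := by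
    change Algebra.norm K ((y : L) * (μ : L)⁻¹) = _
    have h1 : (μ : L) = algebraMap K L (μ : K) := (map_natCast _ μ).symm
    have h2 : Algebra.norm K ((y : L) * (μ : L)⁻¹) * (μ : K) ^ p = Algebra.norm K (y : L) := by
      rw [← hp, ← Algebra.norm_algebraMap (S := L) (μ : K), ← map_mul, ← h1,
        inv_mul_cancel_right₀ hμL]
    rw [← h2, mul_inv_cancel_right₀ (pow_ne_zero p hμK)]
  have ha : a = normU K L yL * (a * (normU K L yL)⁻¹) := by
    rw [mul_comm a, mul_inv_cancel_left]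
  rw [ha]
  refine Subgroup.mul_mem_sup ⟨yL, rfl⟩ ?_
  refine ⟨s, s - (m : 𝓞 K) * t, ?_, ⟨t, by ring⟩, ?_⟩
  · exact ⟨1, r + t, by linear_combination hb⟩
  · rw [Units.val_mul, Units.val_inv_eq_inv_val, hN, mul_inv, inv_inv]
    have h2 : (a : K) * ((Algebra.norm K (y : L))⁻¹ * (μ : K) ^ p) =
        (α : K) * (Algebra.norm K (y : L))⁻¹ := by
      rw [hαK]
      ring
    rw [h2, mul_right_comm, ← hkeyK, mul_assoc, mul_inv_cancel₀ hNyK, mul_one]

end Fermat.Agent.CFT.HP
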