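/-
CFT / HP-B4 : split primes: every element is an approximate norm.
-/
import Fermat.Agent.CFT.HP.InterfaceAB

set_option autoImplicit false

namespace Fermat.Agent.CFT.HP

open NumberField
open scoped Pointwise

section

variable {K L : Type} [Field K] [NumberField K] [Field L] [NumberField L] [Algebra K L]

/-- every element of a number field is an integer divided by a nonzero natural number -/
theorem normCloseSplit_exists_nat_mul (y : K) :
    ∃ (m : ℕ) (x : 𝓞 K), m ≠ 0 ∧ (m : K) * y = (x : K) := by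
  have halg : IsAlgebraic ℤ y :=
    (IsFractionRing.isAlgebraic_iff ℤ ℚ K).2 (Algebra.IsAlgebraic.isAlgebraic y)
  obtain ⟨m, hm, hint⟩ := halg.exists_integral_multiple
  obtain ⟨x, h1⟩ : ∃ x : 𝓞 K, (m : K) * y = (x : K) := by
    refine ⟨⟨_, hint⟩, ?_⟩
    change (m : K) * y = m • y
    rw [zsmul_eq_mul]
  rcases Int.natAbs_eq m with h | h
  · refine ⟨m.natAbs, x, Int.natAbs_ne_zero.2 hm, ?_⟩
    rw [← h1]
    congr 1
    conv_rhs => rw [h]
    simp
  · refine ⟨m.natAbs, -x, Int.natAbs_ne_zero.2 hm, ?_⟩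
    have : ((-x : 𝓞 K) : K) = -(x : K) := rfl
    rw [this, ← h1]
    conv_rhs => rw [h]
    simp

theorem normCloseSplit_algebraMap_norm [IsGalois K L] (y : 𝓞 L) :
    algebraMap (𝓞 K) (𝓞 L) (RingOfIntegers.norm K y) = ∏ g : L ≃ₐ[K] L, g • y := by
  ext
  rw [RingOfIntegers.coe_algebraMap_norm, Algebra.norm_eq_prod_automorphisms]
  change _ = algebraMap (𝓞 L) L _
  rw [map_prod]
  rfl

omit [NumberField K] [NumberField L] in
theorem normCloseSplit_smul_pow (τ : L ≃ₐ[K] L) (I : Ideal (𝓞 L)) (n : ℕ) :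
    (τ • I) ^ n = τ • I ^ n := by
  rw [Ideal.pointwise_smul_def, Ideal.pointwise_smul_def, Ideal.map_pow]

end

/-- B4. -/
theorem normCloseSplit (h3 : Stmt_ContractPow) : Stmt_NormCloseSplit := by
  intro p K L _ _ _ _ _ σ a v w hC hw hw0 hlo hσw
  have := hC.gal
  have : Fact p.Prime := ⟨hC.prime⟩
  classical
  have hcard : Nat.card (L ≃ₐ[K] L) = p := by rw [IsGalois.card_aut_eq_finrank, hC.deg]
  -- the stabilizer of `w` is trivial
  have hstab : MulAction.stabilizer (L ≃ₐ[K] L) w = ⊥ := by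
    have : Fact (Nat.card (L ≃ₐ[K] L)).Prime := by rw [hcard]; infer_instance
    rcases (MulAction.stabilizer (L ≃ₐ[K] L) w).eq_bot_or_eq_top_of_prime_card with h | h
    · exact h
    · exact absurd (MulAction.mem_stabilizer_iff.1 (h ▸ Subgroup.mem_top σ)) hσw
  have hinj : ∀ τ τ' : L ≃ₐ[K] L, τ ≠ τ' → τ • w ≠ τ' • w := by
    intro τ τ' hne h
    apply hne
    have : τ'⁻¹ * τ ∈ MulAction.stabilizer (L ≃ₐ[K] L) w := by
      rw [MulAction.mem_stabilizer_iff, mul_smul, h, inv_smul_smul]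
    rw [hstab, Subgroup.mem_bot, inv_mul_eq_one] at this
    exact this.symm
  have hv : v.IsPrime := Ideal.isPrime_of_liesOver w v
  have hv0 : v ≠ ⊥ := by
    rw [hlo.over]
    exact Ideal.under_ne_bot (𝓞 K) hw0
  obtain ⟨m, b, hm, hb⟩ := normCloseSplit_exists_nat_mul (a : K)
  have hp1 : p = (p - 1) + 1 := (Nat.succ_pred_eq_of_pos hC.prime.pos).symm
  -- `a'' = m^p a`
  set a2 : 𝓞 K := (m : 𝓞 K) ^ (p - 1) * b with ha2
  have ha2' : (m : K) ^ p * (a : K) = (a2 : K) := by
    have : (a2 : K) = (m : K) ^ (p - 1) * (b : K) := by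
      rw [ha2]
      change algebraMap (𝓞 K) K _ = _
      rw [map_mul, map_pow, map_natCast]
    rw [this, ← hb]
    conv_lhs => rw [hp1]
    ring
  refine ⟨m, hm, fun n => ?_⟩
  obtain ⟨n', hn'⟩ := h3 K L v w hv hv0 hw hlo n
  have hprime : ∀ τ : L ≃ₐ[K] L, Prime (τ • w) := by
    intro τ
    have h1 : (τ • w).IsPrime := by
      rw [Ideal.pointwise_smul_eq_comap]
      exact Ideal.comap_isPrime _ _
    have h2 : τ • w ≠ ⊥ := by
      intro h
      apply hw0
      have := congrArg (fun I => τ⁻¹ • I) h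
      simpa using this
    exact Ideal.prime_of_isPrime h2 h1
  obtain ⟨y, hy⟩ := IsDedekindDomain.exists_forall_sub_mem_ideal (s := Finset.univ)
    (fun τ : L ≃ₐ[K] L => τ • w) (fun _ => n') (fun τ _ => hprime τ)
    (fun τ _ τ' _ h => hinj τ τ' h)
    (fun τ => if τ.1 = 1 then algebraMap (𝓞 K) (𝓞 L) a2 else 1)
  have hy1 : y - algebraMap (𝓞 K) (𝓞 L) a2 ∈ w ^ n' := by
    have := hy 1 (Finset.mem_univ _)
    simpa using this
  have hyτ : ∀ τ : L ≃ₐ[K] L, τ ≠ 1 → τ • y - 1 ∈ w ^ n' := by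
    intro τ hτ
    have h1 := hy τ⁻¹ (Finset.mem_univ _)
    have h2 : τ⁻¹ ≠ 1 := inv_ne_one.2 hτ
    simp only [h2, if_false] at h1
    rw [normCloseSplit_smul_pow, Ideal.mem_inv_pointwise_smul_iff, smul_sub, smul_one] at h1
    exact h1
  refine ⟨y, a2 - RingOfIntegers.norm K y, ?_, ?_⟩
  · apply hn'
    rw [map_sub, normCloseSplit_algebraMap_norm, ← Ideal.Quotient.eq, map_prod]
    rw [Finset.prod_eq_single (1 : L ≃ₐ[K] L)]
    · rw [one_smul]
      exact ((Ideal.Quotient.eq).2 hy1).symm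
    · intro τ _ hτ
      rw [← map_one (Ideal.Quotient.mk (w ^ n'))]
      exact (Ideal.Quotient.eq).2 (hyτ τ hτ)
    · intro h
      exact absurd (Finset.mem_univ _) h
  · rw [ha2']
    have : ((a2 - RingOfIntegers.norm K y : 𝓞 K) : K)
        = (a2 : K) - Algebra.norm K (y : L) := by
      change algebraMap (𝓞 K) K _ = _
      rw [map_sub]
      rfl
    rw [this]
    ring

end Fermat.Agent.CFT.HP
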