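/-
CFT / HP-B0 (helper14): stabilizers of primes surject onto the stabilizers of the primes below.
-/
import Fermat.Agent.CFT.HP.InterfaceAB

set_option autoImplicit false

namespace Fermat.Agent.CFT.HP

open NumberField
open scoped Pointwise

/-- The action of `τ'` on integers of `M'` restricts on `𝓞 L` to the action of `τ'|_L`. -/
theorem StabLift_smul_algebraMap {K L M' : Type} [Field K] [NumberField K] [Field L]
    [NumberField L] [Field M'] [NumberField M'] [Algebra K L] [Algebra L M'] [Algebra K M']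
    [IsScalarTower K L M'] [IsGalois K L] (τ' : M' ≃ₐ[K] M') (x : 𝓞 L) :
    τ' • algebraMap (𝓞 L) (𝓞 M') x = algebraMap (𝓞 L) (𝓞 M') (τ'.restrictNormal L • x) := by
  apply RingOfIntegers.ext
  change τ' (algebraMap L M' (x : L)) = algebraMap L M' (τ'.restrictNormal L (x : L))
  rw [AlgEquiv.restrictNormal_commutes]

theorem stabLift : Stmt_StabLift := by
  intro K L M' _ _ _ _ _ _ _ _ _ _ _ _ w w' τ hw' hw'0 hlo hτ
  obtain ⟨τ₀, hτ₀⟩ := AlgEquiv.restrictNormalHom_surjective (F := K) (K₁ := L) M' τ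
  have hτ₀' : τ₀.restrictNormal L = τ := hτ₀
  have : IsGalois L M' := IsGalois.tower_top_of_isGalois K L M'
  -- `τ₀ • w'` lies over `w`
  have hunder : (τ₀ • w').under (𝓞 L) = w'.under (𝓞 L) := by
    rw [← hlo.over]
    ext x
    rw [Ideal.mem_comap, Ideal.mem_pointwise_smul_iff_inv_smul_mem,
      StabLift_smul_algebraMap]
    have h1 : (τ₀⁻¹).restrictNormal L = τ⁻¹ := by
      have := map_inv (AlgEquiv.restrictNormalHom (F := K) (K₁ := M') L) τ₀
      rw [hτ₀] at this
      exact this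
    rw [h1]
    have h2 : algebraMap (𝓞 L) (𝓞 M') (τ⁻¹ • x) ∈ w' ↔ τ⁻¹ • x ∈ w := by
      conv_rhs => rw [hlo.over]
      rfl
    rw [h2, ← Ideal.mem_pointwise_smul_iff_inv_smul_mem, hτ]
  have : (τ₀ • w').IsPrime := by
    rw [Ideal.pointwise_smul_def]
    exact Ideal.map_isPrime_of_equiv (MulSemiringAction.toRingEquiv _ _ τ₀)
  obtain ⟨ρ, hρ⟩ := Algebra.IsInvariant.exists_smul_of_under_eq (𝓞 L) (𝓞 M') (M' ≃ₐ[L] M')
    (τ₀ • w') w' hunder
  refine ⟨ρ.restrictScalars K * τ₀, ?_, ?_⟩
  · have h3 : (ρ.restrictScalars K * τ₀).restrictNormal L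
        = (ρ.restrictScalars K).restrictNormal L * τ₀.restrictNormal L :=
      map_mul (AlgEquiv.restrictNormalHom (F := K) (K₁ := M') L) _ _
    rw [h3, hτ₀']
    have h4 : (ρ.restrictScalars K).restrictNormal L = 1 := by
      ext x
      apply (algebraMap L M').injective
      rw [AlgEquiv.restrictNormal_commutes]
      simp
    rw [h4, one_mul]
  · rw [mul_smul]
    exact hρ.symm

end Fermat.Agent.CFT.HP
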