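/-
CFT / HP, block D1 (helper50, task 670): at a prime `w ∤ p` of `M` with trivial inertia in `M/k`, a
large cyclotomic `p`-extension `M' = M(μ_{p^r})` has a cyclic decomposition group `⟨φ'⟩` at a prime
`w'` over `w`, and the order of `φ'|_M` divides `ord(φ') / p`.
-/
import Fermat.Agent.CFT.HP.InterfaceAB
import Fermat.Agent.S14.FrobAPI
import Fermat.Agent.S14.CrossGal

set_option autoImplicit false

namespace Fermat.Agent.CFT.HP

open NumberField groupCohomology Fermat.Agent.S14 Fermat.Agent.CFT.P0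
open scoped Pointwise

/-- powers of a Frobenius element -/
theorem unramCyc_frob_pow {k M' : Type} [Field k] [Field M'] [Algebra k M']
    {w' : Ideal (𝓞 M')} {q : ℕ} {φ' : M' ≃ₐ[k] M'}
    (hφ : ∀ x : 𝓞 M', φ' • x - x ^ q ∈ w') (n : ℕ) (x : 𝓞 M') :
    (φ' ^ n) • x - x ^ (q ^ n) ∈ w' := by
  induction n generalizing x with
  | zero => simp
  | succ n ih =>
    have h1 := ih (φ' • x)
    have h2 : (φ' • x) ^ (q ^ n) - (x ^ q) ^ (q ^ n) ∈ w' :=
      Ideal.mem_of_dvd _ (sub_dvd_pow_sub_pow _ _ _) (hφ x)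
    have h3 := add_mem h1 h2
    rw [pow_succ, mul_smul, pow_succ, mul_comm (q ^ n) q, pow_mul]
    simpa using h3

attribute [local instance] Ideal.Quotient.field in
/-- The stabilizer of a prime with trivial inertia is generated by a Frobenius element. -/
theorem unramCyc_stab {k M' : Type} [Field k] [NumberField k] [Field M'] [NumberField M']
    [Algebra k M'] [IsGalois k M'] (v : Ideal (𝓞 k)) (w' : Ideal (𝓞 M')) (hv : v.IsPrime) (hv0 : v ≠ ⊥)
    (hw' : w'.IsPrime) (hw'0 : w' ≠ ⊥) (hlo : w'.LiesOver v)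
    (φ' : M' ≃ₐ[k] M') (hφ : ∀ x : 𝓞 M', φ' • x - x ^ Ideal.absNorm v ∈ w')
    (hI : ∀ h : M' ≃ₐ[k] M', (∀ x : 𝓞 M', h • x - x ∈ w') → h = 1)
    (d : M' ≃ₐ[k] M') (hd : d • w' = w') : d ∈ Subgroup.zpowers φ' := by
  have hvm : v.IsMaximal := hv.isMaximal hv0
  have hwm : w'.IsMaximal := hw'.isMaximal hw'0
  have hfin : Finite (𝓞 M' ⧸ w') := Ideal.finiteQuotientOfFreeOfNeBot w' hw'0
  have hfin0 : Finite (𝓞 k ⧸ v) := Ideal.finiteQuotientOfFreeOfNeBot v hv0
  let _ : Fintype (𝓞 k ⧸ v) := Fintype.ofFinite _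
  let D : (𝓞 M' ⧸ w') ≃ₐ[𝓞 k ⧸ v] (𝓞 M' ⧸ w') :=
    Ideal.Quotient.stabilizerHom w' v (M' ≃ₐ[k] M') ⟨d, hd⟩
  obtain ⟨n, hn⟩ := (FiniteField.bijective_frobeniusAlgEquivOfAlgebraic_pow (𝓞 k ⧸ v)
    (𝓞 M' ⧸ w')).2 D
  have hcard : Fintype.card (𝓞 k ⧸ v) = Ideal.absNorm v := by
    rw [← Nat.card_eq_fintype_card]; rfl
  have key : ∀ x : 𝓞 M', d • x - (φ' ^ n.1) • x ∈ w' := by
    intro x
    have h1 := DFunLike.congr_fun hn (Ideal.Quotient.mk w' x)
    simp only [AlgEquiv.coe_pow, FiniteField.coe_frobeniusAlgEquivOfAlgebraic_iterate, hcard] at h1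
    have h2 : D (Ideal.Quotient.mk w' x) = Ideal.Quotient.mk w' (d • x) := rfl
    rw [h2, ← map_pow] at h1
    have h3 := (Ideal.Quotient.eq.mp h1.symm)
    have h4 := unramCyc_frob_pow hφ n.1 x
    have h5 := sub_mem h3 h4
    simpa using h5
  have h1 : d * (φ' ^ n.1)⁻¹ = 1 := by
    apply hI
    intro x
    have := key ((φ' ^ n.1)⁻¹ • x)
    simpa [mul_smul] using this
  rw [mul_inv_eq_one] at h1
  rw [h1]
  exact Subgroup.npow_mem_zpowers φ' n.1

/-- The arithmetic heart: the order of `φ'` is divisible by `p` and the order of its image divides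
`ord(φ') / p`. -/
theorem unramCyc_arith {G H : Type} [Group G] [Finite G] [Group H] (π : G →* H) (φ' : G)
    (p r q g : ℕ) (hp : p.Prime) (hq : 2 ≤ q) (hm : orderOf (π φ') ≤ g)
    (hN : q ^ (g * (p - 1)) < p ^ r)
    (hz : ∀ j : ℕ, φ' ^ j = 1 → (q : ZMod (p ^ r)) ^ j = 1) :
    p ∣ orderOf φ' ∧ (π φ') ^ (orderOf φ' / p) = 1 := by
  set m := orderOf (π φ') with hmdef
  set T := orderOf φ' with hT
  have hT0 : 0 < T := orderOf_pos φ'
  have hmT : m ∣ T := by
    rw [hmdef, orderOf_dvd_iff_pow_eq_one, ← map_pow, hT, pow_orderOf_eq_one, map_one]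
  obtain ⟨t, ht⟩ := hmT
  have hm0 : 0 < m := Nat.pos_of_ne_zero (by rintro h; rw [h, zero_mul] at ht; omega)
  have ht0 : 0 < t := Nat.pos_of_ne_zero (by rintro h; rw [h, mul_zero] at ht; omega)
  have hr0 : r ≠ 0 := by
    rintro rfl
    have : 0 < q ^ (g * (p - 1)) := by positivity
    simp at hN
    omega
  have hpt : p ∣ t := by
    by_contra hpt
    have h1 : ((q : ZMod (p ^ r)) ^ m) ^ t = 1 := by
      rw [← pow_mul, ← ht]
      exact hz T (pow_orderOf_eq_one φ')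
    obtain ⟨u, hu⟩ := IsUnit.of_pow_eq_one h1 ht0.ne'
    have h2 : u ^ t = 1 := by
      apply Units.ext
      rw [Units.val_pow_eq_pow_val, hu, h1, Units.val_one]
    have h3 : u ^ (p ^ r).totient = 1 := ZMod.pow_totient u
    have h4 : orderOf u ∣ p - 1 := by
      have h5 : orderOf u ∣ t := orderOf_dvd_of_pow_eq_one h2
      have h6 : orderOf u ∣ p ^ (r - 1) * (p - 1) := by
        rw [← Nat.totient_prime_pow hp (Nat.pos_of_ne_zero hr0)]
        exact orderOf_dvd_of_pow_eq_one h3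
      have h7 : Nat.Coprime (orderOf u) (p ^ (r - 1)) := by
        apply Nat.Coprime.pow_right
        apply Nat.Coprime.coprime_dvd_left h5
        exact ((Nat.Prime.coprime_iff_not_dvd hp).mpr hpt).symm
      exact h7.dvd_of_dvd_mul_left h6
    have h8 : u ^ (p - 1) = 1 := orderOf_dvd_iff_pow_eq_one.mp h4
    have h9 : ((q ^ (m * (p - 1)) : ℕ) : ZMod (p ^ r)) = ((1 : ℕ) : ZMod (p ^ r)) := by
      have := congrArg Units.val h8
      rw [Units.val_pow_eq_pow_val, hu, Units.val_one, ← pow_mul] at this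
      push_cast
      exact this
    rw [ZMod.natCast_eq_natCast_iff] at h9
    have hp1 : 0 < p - 1 := by have := hp.two_le; omega
    have h10 : q ^ (m * (p - 1)) ≤ q ^ (g * (p - 1)) :=
      Nat.pow_le_pow_right (by omega) (Nat.mul_le_mul_right _ hm)
    have h11 : 1 < q ^ (m * (p - 1)) := Nat.one_lt_pow (Nat.mul_pos hm0 hp1).ne' (by omega)
    have h12 := Nat.ModEq.eq_of_lt_of_lt h9 (by omega) (by omega)
    omega
  obtain ⟨s, hs⟩ := hpt
  refine ⟨⟨m * s, by rw [ht, hs]; ring⟩, ?_⟩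
  have : T / p = m * s := by
    rw [ht, hs, show m * (p * s) = p * (m * s) by ring, Nat.mul_div_cancel_left _ hp.pos]
  rw [this, pow_mul, hmdef, pow_orderOf_eq_one, one_pow]

/-- A Frobenius element raises roots of unity of order prime to the residue characteristic to the
`q`-th power. -/
theorem unramCyc_frob_zeta {N : ℕ} [NeZero N] {k M' : Type} [Field k] [NumberField k] [Field M']
    [NumberField M'] [Algebra k M'] [IsGalois k M'] {v : Ideal (𝓞 k)} {w' : Ideal (𝓞 M')}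
    (hlo : w'.LiesOver v) (hN : (N : 𝓞 M') ∉ w') {ζ : M'} (hζ : IsPrimitiveRoot ζ N)
    {σ : M' ≃ₐ[k] M'} (hσ : ∀ x : 𝓞 M', σ • x - x ^ Ideal.absNorm v ∈ w') :
    σ ζ = ζ ^ Ideal.absNorm v := by
  let z : 𝓞 M' := hζ.toInteger
  have hz : IsPrimitiveRoot z N := hζ.toInteger_isPrimitiveRoot
  have h1 : Nat.card (𝓞 k ⧸ w'.under (𝓞 k)) = Ideal.absNorm v := by
    rw [← hlo.over]
    rfl
  have hFrob : IsArithFrobAt (𝓞 k) σ w' := by
    intro x
    rw [h1]
    exact hσ x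
  have h2 := hFrob.apply_of_pow_eq_one hz.pow_eq_one hN
  rw [h1] at h2
  have h5 : ((σ • z : 𝓞 M') : M') = ((z ^ Ideal.absNorm v : 𝓞 M') : M') :=
    congrArg (fun y : 𝓞 M' => (y : M')) h2
  rw [FR_coe_smul] at h5
  have h6 : ((z ^ Ideal.absNorm v : 𝓞 M') : M') = (z : M') ^ Ideal.absNorm v :=
    map_pow (algebraMap (𝓞 M') M') z _
  rw [h6] at h5
  exact h5

/-- Trivial inertia goes up to the cyclotomic extension. -/
theorem unramCyc_inertia {N : ℕ} [NeZero N] {k M M' : Type} [Field k] [NumberField k] [Field M]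
    [NumberField M] [Field M'] [NumberField M'] [Algebra k M] [Algebra k M'] [Algebra M M']
    [IsScalarTower k M M'] [IsGalois k M] [IsGalois k M'] [IsCyclotomicExtension {N} M M']
    {ζ : M'} (hζ : IsPrimitiveRoot ζ N) {v : Ideal (𝓞 k)} {w : Ideal (𝓞 M)} {w' : Ideal (𝓞 M')}
    (hlov : w'.LiesOver v) (hlo : w'.LiesOver w) (hN : (N : 𝓞 M') ∉ w')
    (hI : ∀ h : M ≃ₐ[k] M, (∀ x : 𝓞 M, h • x - x ∈ w) → h = 1)
    {φ' : M' ≃ₐ[k] M'} (hφ : ∀ x : 𝓞 M', φ' • x - x ^ Ideal.absNorm v ∈ w')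
    (h : M' ≃ₐ[k] M') (hh : ∀ x : 𝓞 M', h • x - x ∈ w') : h = 1 := by
  have h1 : h.restrictNormal M = 1 := by
    apply hI
    intro x
    rw [hlo.over, Ideal.mem_comap]
    have h2 : algebraMap (𝓞 M) (𝓞 M') (h.restrictNormal M • x - x) =
        h • algebraMap (𝓞 M) (𝓞 M') x - algebraMap (𝓞 M) (𝓞 M') x := by
      rw [map_sub]
      congr 1
      apply RingOfIntegers.ext
      rw [FR_coe_smul]
      exact h.restrictNormal_commutes M (x : M)
    rw [h2]
    exact hh _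
  have h3 : ∀ x : 𝓞 M', (h * φ') • x - x ^ Ideal.absNorm v ∈ w' := by
    intro x
    have := add_mem (hh (φ' • x)) (hφ x)
    simpa [mul_smul] using this
  have h4 := unramCyc_frob_zeta hlov hN hζ h3
  have h5 := unramCyc_frob_zeta hlov hN hζ hφ
  have hζ' : IsPrimitiveRoot (φ' ζ) N := hζ.map_of_injective φ'.injective
  refine crg_ext (L := M) hζ' h 1 (fun x => ?_) ?_
  · rw [← h.restrictNormal_commutes M x, h1]
    rfl
  · rw [AlgEquiv.one_apply]
    exact h4.trans h5.symm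

/-- iterating `φ' ζ = ζ ^ q` -/
theorem unramCyc_pow_zeta {k M' : Type} [Field k] [Field M'] [Algebra k M'] {φ' : M' ≃ₐ[k] M'}
    {ζ : M'} {q : ℕ} (h : φ' ζ = ζ ^ q) (j : ℕ) : (φ' ^ j) ζ = ζ ^ (q ^ j) := by
  induction j with
  | zero => simp
  | succ j ih =>
    rw [pow_succ', AlgEquiv.mul_apply, ih, map_pow, h, ← pow_mul, pow_succ']

/-- The statement for an arbitrary model `M'` of the cyclotomic extension. -/
theorem unramCyc_core (p r : ℕ) (k M M' : Type) [Field k] [NumberField k] [Field M] [NumberField M]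
    [Field M'] [NumberField M'] [Algebra k M] [Algebra k M'] [Algebra M M'] [IsScalarTower k M M']
    [IsGalois k M] [IsCyclotomicExtension {p ^ r} M M'] (w : Ideal (𝓞 M)) (hp : p.Prime)
    (hw : w.IsPrime) (hw0 : w ≠ ⊥) (hpw : (p : 𝓞 M) ∉ w)
    (hI : ∀ h : M ≃ₐ[k] M, (∀ x : 𝓞 M, h • x - x ∈ w) → h = 1)
    (hr : Ideal.absNorm (w.under (𝓞 k)) ^ (Nat.card (M ≃ₐ[k] M) * (p - 1)) < p ^ r) :
    ∃ (_ : IsGalois k M') (w' : Ideal (𝓞 M')) (φ' : M' ≃ₐ[k] M'),
      w'.IsPrime ∧ w'.LiesOver w ∧ φ' • w' = w' ∧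
      (∀ d : M' ≃ₐ[k] M', d • w' = w' → d ∈ Subgroup.zpowers φ') ∧
      p ∣ orderOf φ' ∧ (φ'.restrictNormal M) ^ (orderOf φ' / p) = 1 := by
  have hNZ : NeZero (p ^ r) := ⟨pow_ne_zero _ hp.ne_zero⟩
  obtain ⟨ζ, hζ⟩ := IsCyclotomicExtension.exists_isPrimitiveRoot M M' (S := {p ^ r})
    (Set.mem_singleton _) hNZ.out
  have hnormal : Normal k M' := crg_normal (L := M) hζ
  have hgal : IsGalois k M' := ⟨⟩
  set v : Ideal (𝓞 k) := w.under (𝓞 k) with hv
  have hvp : v.IsPrime := Ideal.IsPrime.under (𝓞 k) w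
  have hwv : w.LiesOver v := ⟨rfl⟩
  have hv0 : v ≠ ⊥ := by
    intro h
    exact hw0 (Ideal.eq_bot_of_comap_eq_bot h)
  obtain ⟨w', hw', hw'0, hlo⟩ := primeAbove M M' w hw hw0
  have hlov : w'.LiesOver v := Ideal.LiesOver.trans w' w v
  obtain ⟨φ', hφ⟩ := frobExists k M' v w' hw' hw'0 hlov
  have hN : ((p ^ r : ℕ) : 𝓞 M') ∉ w' := by
    intro h
    rw [Nat.cast_pow] at h
    have h1 := hw'.mem_of_pow_mem r h
    apply hpw
    rw [hlo.over, Ideal.mem_comap]
    simpa using h1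
  have hI' := unramCyc_inertia hζ hlov hlo hN hI hφ
  have hstab : φ' • w' = w' := by
    have h1 : Nat.card (𝓞 k ⧸ w'.under (𝓞 k)) = Ideal.absNorm v := by
      rw [← hlov.over]
      rfl
    have hFrob : IsArithFrobAt (𝓞 k) φ' w' := by
      intro x
      rw [h1]
      exact hφ x
    exact hFrob.mem_stabilizer
  have hzeta := unramCyc_frob_zeta hlov hN hζ hφ
  have harith := unramCyc_arith (AlgEquiv.restrictNormalHom M) φ' p r (Ideal.absNorm v)
    (Nat.card (M ≃ₐ[k] M)) hp (FR_two_le_absNorm hvp hv0) (orderOf_le_card) hr (by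
      intro j hj
      have h1 := unramCyc_pow_zeta hzeta j
      rw [hj, AlgEquiv.one_apply] at h1
      have hfin : IsOfFinOrder ζ :=
        isOfFinOrder_iff_pow_eq_one.2 ⟨p ^ r, Nat.pos_of_ne_zero hNZ.out, hζ.pow_eq_one⟩
      have h2 : ζ ^ (Ideal.absNorm v ^ j) = ζ ^ 1 := by rw [← h1, pow_one]
      have h4 := hfin.pow_eq_pow_iff_modEq.1 h2
      rw [← hζ.eq_orderOf] at h4
      have h5 := (ZMod.natCast_eq_natCast_iff _ _ _).2 h4
      simpa using h5)
  exact ⟨hgal, w', φ', hw', hlo, hstab,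
    unramCyc_stab v w' hvp hv0 hw' hw'0 hlov φ' hφ hI', harith.1, harith.2⟩

theorem unramCyc : Stmt_UnramCyc := by
  intro p k M _ _ _ _ _ _ w hp hw hw0 hpw hI
  obtain ⟨r, hr⟩ := pow_unbounded_of_one_lt
    (Ideal.absNorm (w.under (𝓞 k)) ^ (Nat.card (M ≃ₐ[k] M) * (p - 1))) hp.one_lt
  obtain ⟨hgal, w', φ', h⟩ := unramCyc_core p r k M (CyclotomicField (p ^ r) M) w hp hw hw0 hpw hI hr
  exact ⟨CyclotomicField (p ^ r) M, inferInstance, inferInstance, inferInstance, inferInstance,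
    inferInstance, hgal, w', φ', h⟩

end Fermat.Agent.CFT.HP
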