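/-
CFT / HP-D2 (helper65): `μ_p`-valued 2-cocycles are locally trivial at unramified primes.
-/
import Fermat.Agent.CFT.HP.InterfaceAB

set_option autoImplicit false

namespace Fermat.Agent.CFT.HP

open NumberField groupCohomology Fermat.Agent.S14 Fermat.Agent.CFT.P0
open scoped Pointwise

/-- product of a periodic function over several periods -/
theorem UnramLocTriv_prod_periodic {A : Type} [CommMonoid A] (u : ℕ → A) (n : ℕ)
    (hu : ∀ i, u (i + n) = u i) (m : ℕ) :
    ∏ i ∈ Finset.range (n * m), u i = (∏ i ∈ Finset.range n, u i) ^ m := by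
  have hu' : ∀ m i, u (n * m + i) = u i := by
    intro m
    induction m with
    | zero => intro i; simp
    | succ m ih =>
      intro i
      have : n * (m + 1) + i = (n * m + i) + n := by ring
      rw [this, hu, ih]
  induction m with
  | zero => simp
  | succ m ih =>
    rw [Nat.mul_succ, Finset.prod_range_add, ih, pow_succ]
    congr 1
    exact Finset.prod_congr rfl fun i _ => hu' m i

theorem unramLocTriv (h1 : Stmt_UnramCyc) (h4 : Stmt_MulCyc) : Stmt_UnramLocTriv := by
  intro p k M _ _ _ _ _ _ w f hp hw hw0 hpw hin hcoc hfp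
  obtain ⟨M', _, _, _, _, _, _, w', φ', hw', hlo, hφw, hstab, hpdvd, hres⟩ :=
    h1 p k M w hp hw hw0 hpw hin
  let r : (M' ≃ₐ[k] M') →* (M ≃ₐ[k] M) := AlgEquiv.restrictNormalHom M
  have hr : ∀ a : M' ≃ₐ[k] M', a.restrictNormal M = r a := fun _ => rfl
  let alg : Mˣ →* M'ˣ := Units.map (algebraMap M M' : M →* M')
  have halg : ∀ (a : M' ≃ₐ[k] M') (u : Mˣ), alg (r a • u) = a • alg u := by
    intro a u
    ext
    exact AlgEquiv.restrictNormal_commutes a M (u : M)
  let D' : Subgroup (M' ≃ₐ[k] M') := Subgroup.zpowers φ'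
  let σ : D' := ⟨φ', Subgroup.mem_zpowers φ'⟩
  have hgen : ∀ g : D', g ∈ Subgroup.zpowers σ := by
    rintro ⟨g, n, rfl⟩
    exact ⟨n, by ext1; simp [σ]⟩
  let F : D' × D' → M'ˣ := fun x => alg (f (r x.1, r x.2))
  have hF : IsMulCocycle₂ F := by
    intro g h j
    have := congrArg alg (hcoc (r g) (r h) (r j))
    rw [map_mul, map_mul, halg, ← map_mul r, ← map_mul r] at this
    exact this
  obtain ⟨-, γ, hγ⟩ := (h4 D' M'ˣ σ hgen).1 F hF
  have hcard : Nat.card D' = orderOf φ' := Nat.card_zpowers φ'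
  -- the invariant is trivial
  have hprod : ∏ i ∈ Finset.range (Nat.card D'), F (σ ^ i, σ) = 1 := by
    obtain ⟨n₀, hn₀⟩ := hpdvd
    have hdiv : orderOf φ' / p = n₀ := by
      rw [hn₀, Nat.mul_div_cancel_left _ hp.pos]
    rw [hdiv, hr] at hres
    have hFi : ∀ i : ℕ, F (σ ^ i, σ) = alg (f (r φ' ^ i, r φ')) := by
      intro i
      show alg (f (r ((σ ^ i : D') : M' ≃ₐ[k] M'), r φ')) = _
      rw [Subgroup.coe_pow, map_pow]
    rw [Finset.prod_congr rfl fun i _ => hFi i, ← map_prod, hcard, hn₀, mul_comm p n₀,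
      UnramLocTriv_prod_periodic (fun i => f (r φ' ^ i, r φ')) n₀
        (fun i => by simp only [pow_add, hres, mul_one]) p,
      ← Finset.prod_pow, Finset.prod_congr rfl fun i _ => hfp _, Finset.prod_const_one, map_one]
  have hFγ : ∀ g h : D', F (g, h) = mulD γ (g, h) := by
    intro g h
    rw [hγ g h, hprod]
    simp [mulCyc]
  classical
  refine ⟨M', inferInstance, inferInstance, inferInstance, inferInstance, inferInstance,
    inferInstance, w', fun a => if h : a ∈ D' then γ ⟨a, h⟩ else 1, hw', hlo, ?_⟩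
  intro a b ha hb
  have ha' : a ∈ D' := hstab a ha
  have hb' : b ∈ D' := hstab b hb
  have hab' : a * b ∈ D' := D'.mul_mem ha' hb'
  have := hFγ ⟨a, ha'⟩ ⟨b, hb'⟩
  simp only [mulD, dif_pos ha', dif_pos hb', dif_pos hab']
  exact this

end Fermat.Agent.CFT.HP
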