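/-
CFT / HP (helper14): final assembly of blocks A, B, D.  The Hasse principle for
`H²(Gal(M/k), Mˣ)(p)` (`p` odd, `k` totally complex), unconditionally.
-/
import Fermat.Agent.CFT.HP.FinalC
import Fermat.Agent.CFT.HP.MulSylow
import Fermat.Agent.CFT.HP.MulInfExact
import Fermat.Agent.CFT.HP.MulCyc
import Fermat.Agent.CFT.HP.H90Sub
import Fermat.Agent.CFT.HP.LocTrivFun
import Fermat.Agent.CFT.HP.StabLift
import Fermat.Agent.CFT.HP.CycLocal
import Fermat.Agent.CFT.HP.DecompDense
import Fermat.Agent.CFT.HP.ContractPow
import Fermat.Agent.CFT.HP.NormCloseNonsplit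
import Fermat.Agent.CFT.HP.NormCloseSplit
import Fermat.Agent.CFT.HP.NormCRT
import Fermat.Agent.CFT.HP.HPcyc
import Fermat.Agent.CFT.HP.HPInduction
import Fermat.Agent.CFT.HP.UnramCyc
import Fermat.Agent.CFT.HP.UnramLocTriv

set_option autoImplicit false

namespace Fermat.Agent.CFT.HP

theorem all_normCloseNonsplit : Stmt_NormCloseNonsplit :=
  normCloseNonsplit stabLift cycLocal decompDense contractPow h90Sub

theorem all_normCloseSplit : Stmt_NormCloseSplit := normCloseSplit contractPow

/-- The Hasse principle for cyclic extensions of odd prime degree of totally complex fields. -/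
theorem all_hpCyc : Stmt_HPcyc :=
  hpCyc mulCyc_stmt locTrivCob all_normCloseNonsplit all_normCloseSplit normCRT all_hnt

/-- The Hasse principle. -/
theorem all_hp : Stmt_HP :=
  hp mulSylow mulInfExact mulInfInj h90Sub locTrivCob locTrivRes locTrivDefl all_hpCyc

/-- `μ_p`-valued cocycles are locally trivial at unramified primes not dividing `p`. -/
theorem all_unramLocTriv : Stmt_UnramLocTriv := unramLocTriv unramCyc mulCyc_stmt

end Fermat.Agent.CFT.HP
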