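/-
CFT / HP, package Y5: `HPG.Stmt_HPfin` from `Stmt_HPfinZeta` and `mulSylow`.
-/
import Fermat.Agent.CFT.HP.InterfaceY
import Fermat.Agent.CFT.HP.MulSylow

set_option autoImplicit false

namespace Fermat.Agent.CFT.HP

open NumberField groupCohomology Fermat.Agent.CFT.Top
open scoped Pointwise

attribute [local instance] Units.mulDistribMulActionRight

/-- the stabilizer of a primitive `p`-th root of unity has index prime to `p`. -/
theorem HPfinOfHP_index {p : ℕ} (hp : p.Prime) {M Γ : Type} [Field M] [Group Γ]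
    [MulSemiringAction Γ M] {ζ : M} (hζ : IsPrimitiveRoot ζ p) :
    ¬ p ∣ (MulAction.stabilizer Γ ζ).index := by
  rw [MulAction.index_stabilizer]
  have hsub : MulAction.orbit Γ ζ ⊆ (primitiveRoots p M : Set M) := by
    rintro _ ⟨g, rfl⟩
    rw [Finset.mem_coe, mem_primitiveRoots hp.pos]
    exact hζ.map_of_injective (f := MulSemiringAction.toRingHom Γ M g)
      (MulAction.injective g)
  have hle : (MulAction.orbit Γ ζ).ncard ≤ p - 1 := by
    have h1 := Set.ncard_le_ncard hsub (Finset.finite_toSet _)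
    rw [Set.ncard_coe_finset, hζ.card_primitiveRoots, Nat.totient_prime hp] at h1
    exact h1
  have hpos : 0 < (MulAction.orbit Γ ζ).ncard :=
    (Set.ncard_pos ((Finset.finite_toSet _).subset hsub)).2 (MulAction.nonempty_orbit ζ)
  intro hdvd
  have := Nat.le_of_dvd hpos hdvd
  have := hp.pos
  omega

/-- **Y5.** -/
theorem hpfin_of_zeta (h : Stmt_HPfinZeta) : HPG.Stmt_HPfin := by
  intro p M ζ hp hp2 hM hζ Γ _ _ _ _ β hβ hpow hLT
  classical
  set Γ1 : Subgroup Γ := MulAction.stabilizer Γ ζ with hΓ1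
  have hfix : ∀ g : Γ1, g • ζ = ζ := fun g => g.2
  have hcoc : IsMulCocycle₂ (HPG.resCoc Γ1 β) := fun g h j => hβ g h j
  have hpow1 : ∃ m : ℕ, IsMulCoboundary₂ fun x => HPG.resCoc Γ1 β x ^ p ^ m := by
    obtain ⟨m, x, hx⟩ := hpow
    exact ⟨m, fun g => x g, fun g h => hx g h⟩
  obtain ⟨x1, hx1⟩ := h p M ζ hp hp2 hM hζ Γ1 hfix (HPG.resCoc Γ1 β) hcoc hpow1 (hLT.res Γ1)
  refine mulSylow p Γ Mˣ Γ1 β hp (HPfinOfHP_index hp hζ) hβ hpow ?_
  refine ⟨fun g => if hg : g ∈ Γ1 then x1 ⟨g, hg⟩ else 1, fun g hg h hh => ?_⟩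
  have h1 := hx1 ⟨g, hg⟩ ⟨h, hh⟩
  unfold mulD
  simp only [dif_pos hg, dif_pos hh, dif_pos (Γ1.mul_mem hg hh)]
  exact h1.symm

end Fermat.Agent.CFT.HP
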