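/-
CFT / HP, block Y, task Y4 (helper38): `HPG.Stmt_HPfin` when `Γ` fixes `ζ`, from the finite level
Hasse principle `Stmt_HP`.
-/
import Fermat.Agent.CFT.HP.InterfaceY
import Fermat.Agent.CFT.GN.DictAB
import Fermat.Agent.CFT.GN.DictD

set_option autoImplicit false

namespace Fermat.Agent.CFT.HP

open NumberField groupCohomology Fermat.Agent.CFT.Top
open scoped Pointwise

attribute [local instance] Units.mulDistribMulActionRight

/-- Y4. -/
theorem hpfinZeta (hHP : Stmt_HP) (hLT : Stmt_LTtoLocTriv) (hC : Stmt_CplxOfZeta) :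
    Stmt_HPfinZeta := by
  intro p M ζ hp hp2 hM hζ Γ _ _ _ _ hζfix β hβ hpow hLTall
  let k := FixedPoints.subfield Γ M
  have : NumberField M := { to_charZero := inferInstance, to_finiteDimensional := hM }
  have hkfd : FiniteDimensional ℚ k := FiniteDimensional.left ℚ k M
  have : NumberField k := { to_charZero := inferInstance, to_finiteDimensional := hkfd }
  have : IsGalois k M := inferInstance
  let e : Γ ≃* (M ≃ₐ[k] M) := FixedPoints.toAlgAutMulEquiv Γ M
  have he : ∀ (h : Γ) (x : M), e h x = h • x := fun h x => rfl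
  have heu : ∀ (h : Γ) (u : Mˣ), Units.map ((e h : M ≃ₐ[k] M) : M →* M) u = h • u :=
    fun h u => Units.ext rfl
  have heu' : ∀ (a : M ≃ₐ[k] M) (u : Mˣ), Units.map (a : M →* M) u = (e.symm a) • u :=
    fun a u => by rw [← heu, e.apply_symm_apply]
  have hcplx : IsTotallyComplex k := by
    refine hC p k ⟨ζ, hζfix⟩ ?_ ?_
    · have := hp.two_le
      omega
    · exact IsPrimitiveRoot.of_map_of_injective (f := algebraMap k M)
        (hf := (algebraMap k M).injective) (ζ := (⟨ζ, hζfix⟩ : k)) hζ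
  let f : (M ≃ₐ[k] M) × (M ≃ₐ[k] M) → Mˣ := fun x => β (e.symm x.1, e.symm x.2)
  have hf := hHP p k M hp hp2 hcplx f ?_ ?_ ?_
  · obtain ⟨x, hx⟩ := hf
    refine ⟨fun h => x (e h), fun g h => ?_⟩
    have := hx (e g) (e h)
    simp only [f, e.symm_apply_apply] at this
    rw [← this, AlgEquiv.smul_units_def, heu]
    show g • x (e h) / x (e (g * h)) * x (e g) = _
    rw [map_mul]
  · intro a b c
    have := hβ (e.symm a) (e.symm b) (e.symm c)
    simp only [f, map_mul, AlgEquiv.smul_units_def, heu']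
    exact this
  · obtain ⟨m, x, hx⟩ := hpow
    refine ⟨m, fun a => x (e.symm a), fun a b => ?_⟩
    have := hx (e.symm a) (e.symm b)
    simp only [f, map_mul, AlgEquiv.smul_units_def, heu']
    exact this
  · intro w hw hw0
    obtain ⟨A, hA⟩ := (GN.dictA M).1 ⟨w, hw, hw0⟩
    obtain ⟨q, hq, hqA⟩ := GN.DictD.exists_prime_of_over hA
    obtain ⟨γ, hγ1, hγ2⟩ := hLTall q hq A hqA
    refine hLT k M f A w hw hw0 hA ⟨γ, hγ1, ?_⟩
    intro σ τ h j hσ hτ hh hj
    refine hγ2 σ τ (e.symm h) (e.symm j) hσ hτ ?_ ?_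
    · intro x
      rw [hh x, ← he, e.apply_symm_apply]
    · intro x
      rw [hj x, ← he, e.apply_symm_apply]

end Fermat.Agent.CFT.HP
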