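/-
CFT / HP, package Y2 (helper17): local triviality on `D_A` (finite level cochains with values in
`ℚ̄ˣ`) implies `LocTrivAt` at the prime cut out by `A`.
-/
import Fermat.Agent.CFT.HP.InterfaceY
import Fermat.Agent.CFT.GN.DictAB

set_option autoImplicit false

namespace Fermat.Agent.CFT.HP

open NumberField groupCohomology Fermat.Agent.CFT.Top
open scoped Pointwise

namespace LTtoLocTriv

/-- the ring hom `𝓞 E → A`. -/
noncomputable def toA (E : GN.IF) (A : ValuationSubring GN.Qb) : 𝓞 E →+* A :=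
  (GN.DictAB.iota E).codRestrict A.toSubring (GN.DictAB.iota_mem E A)

/-- the prime of `E` cut out by `A`. -/
noncomputable def primeOf (E : GN.IF) (A : ValuationSubring GN.Qb) : Ideal (𝓞 E) :=
  (IsLocalRing.maximalIdeal A).comap (toA E A)

lemma mem_primeOf (E : GN.IF) (A : ValuationSubring GN.Qb) (x : 𝓞 E) :
    x ∈ primeOf E A ↔ (((x : E) : GN.Qb)) ∈ A.nonunits := by
  rw [ValuationSubring.mem_nonunits_iff_exists_mem_maximalIdeal]
  constructor
  · intro h
    exact ⟨GN.DictAB.iota_mem E A x, h⟩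
  · rintro ⟨_, h⟩
    exact h

instance primeOf_isPrime (E : GN.IF) (A : ValuationSubring GN.Qb) : (primeOf E A).IsPrime :=
  Ideal.comap_isPrime _ _

theorem core (h1 : Stmt_DS) (k : Type) [Field k] [NumberField k] (M : GN.IF) [NumberField M]
    [Algebra k M] [IsGalois k M]
    (f : (M ≃ₐ[k] M) × (M ≃ₐ[k] M) → Mˣ) (A : ValuationSubring GN.Qb) (w : Ideal (𝓞 M))
    (hw0 : w ≠ ⊥) (hw : ∀ x : 𝓞 M, x ∈ w ↔ (((x : M) : GN.Qb)) ∈ A.nonunits)
    (E : GN.IF) [NumberField E] [Algebra k E] [Algebra M E] [IsScalarTower k M E] [IsGalois k E]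
    (hc : ∀ x : M, ((algebraMap M E x : E) : GN.Qb) = (x : GN.Qb))
    (γ : GQ → GN.Qbˣ) (hγE : ∀ g, (γ g : GN.Qb) ∈ E)
    (hγF : ∀ g s : GQ, s ∈ E.fixingSubgroup → γ (g * s) = γ g)
    (hγ : ∀ (σ τ : GQ) (h j : M ≃ₐ[k] M), σ ∈ HPG.Dec A → τ ∈ HPG.Dec A →
      (∀ x : M, σ (x : GN.Qb) = ((h x : M) : GN.Qb)) →
      (∀ x : M, τ (x : GN.Qb) = ((j x : M) : GN.Qb)) →
      (((f (h, j) : Mˣ) : M) : GN.Qb) * (γ (σ * τ) : GN.Qb) = (γ σ : GN.Qb) * σ (γ τ : GN.Qb)) :
    LocTrivAt k M f w := by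
  classical
  have hco : ∀ x : 𝓞 M, (((algebraMap (𝓞 M) (𝓞 E) x : 𝓞 E) : E) : GN.Qb) = ((x : M) : GN.Qb) :=
    fun x => hc (x : M)
  have hlo : (primeOf E A).LiesOver w := by
    constructor
    ext x
    rw [Ideal.under_def, Ideal.mem_comap, mem_primeOf, hco, hw]
  have hne : primeOf E A ≠ ⊥ := by
    obtain ⟨x, hx, hx0⟩ := Submodule.exists_mem_ne_zero_of_ne_bot hw0
    intro hbot
    have h2 : algebraMap (𝓞 M) (𝓞 E) x ∈ primeOf E A := by
      rw [mem_primeOf, hco, ← hw]; exact hx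
    rw [hbot, Ideal.mem_bot] at h2
    apply hx0
    have h3 := hco x
    rw [h2] at h3
    apply RingOfIntegers.coe_injective
    apply Subtype.ext
    rw [← h3]
    simp
  have hDS := h1 k E A (primeOf E A) inferInstance hne (mem_primeOf E A)
  let sg : (E ≃ₐ[k] E) → GQ := fun a =>
    if h : a • primeOf E A = primeOf E A then (hDS a h).choose else 1
  have hsg1 : ∀ a : E ≃ₐ[k] E, a • primeOf E A = primeOf E A → sg a ∈ HPG.Dec A := by
    intro a ha
    simp only [sg, dif_pos ha]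
    exact (hDS a ha).choose_spec.1
  have hsg2 : ∀ a : E ≃ₐ[k] E, a • primeOf E A = primeOf E A →
      ∀ x : E, sg a (x : GN.Qb) = ((a x : E) : GN.Qb) := by
    intro a ha
    simp only [sg, dif_pos ha]
    exact (hDS a ha).choose_spec.2
  let x : (E ≃ₐ[k] E) → Eˣ := fun a =>
    Units.mk0 (⟨(γ (sg a) : GN.Qb), hγE _⟩ : E) (fun h0 => (γ (sg a)).ne_zero (congrArg Subtype.val h0))
  refine ⟨E, inferInstance, inferInstance, inferInstance, inferInstance, inferInstance,
    inferInstance, primeOf E A, x, inferInstance, hlo, fun a b ha hb => ?_⟩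
  have hab : (a * b) • primeOf E A = primeOf E A := by rw [mul_smul, hb, ha]
  -- restriction to `M`
  have hres : ∀ c : E ≃ₐ[k] E, c • primeOf E A = primeOf E A →
      ∀ y : M, sg c (y : GN.Qb) = ((c.restrictNormal M y : M) : GN.Qb) := by
    intro c hcst y
    rw [← hc y, hsg2 c hcst, ← hc (c.restrictNormal M y), AlgEquiv.restrictNormal_commutes]
  have key := hγ (sg a) (sg b) (a.restrictNormal M) (b.restrictNormal M) (hsg1 a ha) (hsg1 b hb)
    (hres a ha) (hres b hb)
  have hlev : γ (sg (a * b)) = γ (sg a * sg b) := by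
    have hs : (sg a * sg b)⁻¹ * sg (a * b) ∈ E.fixingSubgroup := by
      rw [IntermediateField.mem_fixingSubgroup_iff]
      intro y hy
      have e1 : sg (a * b) y = (sg a * sg b) y := by
        have := hsg2 (a * b) hab ⟨y, hy⟩
        rw [AlgEquiv.mul_apply, ← hsg2 a ha, ← hsg2 b hb] at this
        exact this
      rw [AlgEquiv.mul_apply, e1]
      exact congrFun (congrArg DFunLike.coe (inv_mul_cancel (sg a * sg b))) y
    have := hγF (sg a * sg b) _ hs
    rw [mul_inv_cancel_left] at this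
    exact this
  apply Units.ext
  apply Subtype.ext
  have hx : ∀ c, (((x c : Eˣ) : E) : GN.Qb) = (γ (sg c) : GN.Qb) := fun c => rfl
  have hL : (((Units.map (algebraMap M E : M →* E) (f (a.restrictNormal M, b.restrictNormal M)) : Eˣ)
      : E) : GN.Qb) = (((f (a.restrictNormal M, b.restrictNormal M) : Mˣ) : M) : GN.Qb) := hc _
  have hR : (((mulD x (a, b) : Eˣ) : E) : GN.Qb)
      = sg a (γ (sg b) : GN.Qb) / (γ (sg (a * b)) : GN.Qb) * (γ (sg a) : GN.Qb) := by
    unfold mulD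
    rw [Units.val_mul, Units.val_div_eq_div_val]
    have e2 : ((a (x b : E) : E) : GN.Qb) = sg a (γ (sg b) : GN.Qb) :=
      (hsg2 a ha (x b : E)).symm
    rw [← e2, ← hx, ← hx]
    rfl
  rw [hL, hR, hlev]
  have hne2 : (γ (sg a * sg b) : GN.Qb) ≠ 0 := (γ _).ne_zero
  field_simp
  rw [key]; ring

lemma finite_range (γ : GQ → GN.Qbˣ) (F : GN.IF) [FiniteDimensional ℚ F]
    (hF : ∀ g s : GQ, s ∈ F.fixingSubgroup → γ (g * s) = γ g) :
    (Set.range fun g => (γ g : GN.Qb)).Finite := by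
  have hfi : F.fixingSubgroup.FiniteIndex := finiteIndex_fixingSubgroup F
  have : Finite (GQ ⧸ F.fixingSubgroup) := Subgroup.finite_quotient_of_finiteIndex
  have hsub : Set.range (fun g => (γ g : GN.Qb)) ⊆
      Set.range (fun c : GQ ⧸ F.fixingSubgroup => (γ c.out : GN.Qb)) := by
    rintro _ ⟨g, rfl⟩
    refine ⟨(g : GQ ⧸ F.fixingSubgroup), ?_⟩
    obtain ⟨s, hs⟩ := QuotientGroup.mk_out_eq_mul F.fixingSubgroup g
    simp only
    rw [hs, hF g s s.2]
  exact (Set.finite_range _).subset hsub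

end LTtoLocTriv

open LTtoLocTriv in
/-- Y2. -/
theorem ltToLocTriv (h1 : Stmt_DS) : Stmt_LTtoLocTriv := by
  intro k _ _ M _ _ _ f A w hwp hw0 hw
  rintro ⟨γ, ⟨F, hFfd, hF⟩, hγ⟩
  have hV := finite_range γ F hF
  have : Algebra.IsAlgebraic ℚ GN.Qb := AlgebraicClosure.isAlgebraic ℚ
  have : IsAlgClosure ℚ GN.Qb := ⟨inferInstance, inferInstance⟩
  have : Normal ℚ GN.Qb := IsAlgClosure.normal ℚ GN.Qb
  let E0 : GN.IF := M ⊔ F ⊔ IntermediateField.adjoin ℚ (Set.range fun g => (γ g : GN.Qb))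
  have : FiniteDimensional ℚ M := NumberField.to_finiteDimensional
  have : FiniteDimensional ℚ
      (IntermediateField.adjoin ℚ (Set.range fun g => (γ g : GN.Qb))) :=
    haveI := hV.to_subtype
    IntermediateField.finiteDimensional_adjoin (fun x _ => (Algebra.IsAlgebraic.isAlgebraic x).isIntegral)
  have : FiniteDimensional ℚ E0 := inferInstance
  let E : GN.IF := IntermediateField.normalClosure ℚ E0 GN.Qb
  have hE0E : E0 ≤ E := IntermediateField.le_normalClosure E0
  have hME : M ≤ E := le_trans (le_trans le_sup_left le_sup_left) hE0E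
  have hFE : F ≤ E := le_trans (le_trans le_sup_right le_sup_left) hE0E
  have hVE : ∀ g, (γ g : GN.Qb) ∈ E := fun g =>
    hE0E ((le_sup_right : _ ≤ E0) (IntermediateField.subset_adjoin ℚ _ ⟨g, rfl⟩))
  have : FiniteDimensional ℚ E := inferInstance
  have : Normal ℚ E := normalClosure.normal ℚ E0 GN.Qb
  have : NumberField E := ⟨⟩
  have : IsGalois ℚ E := ⟨⟩
  let a1 : Algebra M E := (IntermediateField.inclusion hME).toRingHom.toAlgebra
  let a2 : Algebra k E := ((algebraMap M E).comp (algebraMap k M)).toAlgebra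
  have t1 : IsScalarTower k M E := IsScalarTower.of_algebraMap_eq fun _ => rfl
  have t2 : IsScalarTower ℚ k E := IsScalarTower.of_algebraMap_eq fun y =>
    RingHom.congr_fun (Subsingleton.elim (algebraMap ℚ E)
      ((algebraMap k E).comp (algebraMap ℚ k))) y
  have g1 : IsGalois k E := IsGalois.tower_top_of_isGalois ℚ k E
  exact core h1 k M f A w hw0 hw E (fun _ => rfl) γ hVE
    (fun g s hs => hF g s (IntermediateField.fixingSubgroup_antitone hFE hs)) hγ

end Fermat.Agent.CFT.HP
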