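/-
CFT / HP (helper14): final assembly of block Y.  `HPG.Stmt_HPfin` (the Hasse principle at finite
level inside `Qbar`, helper56's model), unconditionally.
-/
import Fermat.Agent.CFT.HP.FinalAB
import Fermat.Agent.CFT.HP.DS
import Fermat.Agent.CFT.HP.LTtoLocTriv
import Fermat.Agent.CFT.HP.CplxOfZeta
import Fermat.Agent.CFT.HP.HPfinZeta
import Fermat.Agent.CFT.HP.HPfinOfHP

set_option autoImplicit false

namespace Fermat.Agent.CFT.HP

theorem all_ltToLocTriv : Stmt_LTtoLocTriv := ltToLocTriv ds

theorem all_hpfinZeta : Stmt_HPfinZeta := hpfinZeta all_hp all_ltToLocTriv cplxOfZeta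

/-- The Hasse principle at finite level (helper56's `HPG` model), unconditionally. -/
theorem all_hpfin : HPG.Stmt_HPfin := hpfin_of_zeta all_hpfinZeta

end Fermat.Agent.CFT.HP
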