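/-
CFT / HP (helper14): the Hasse principle plugged into helper56's HPG / GN assemblies:
`HPG.Stmt_HPraw2`, `GN.Stmt_HPall`, `GN.Stmt_GN`, unconditionally.
-/
import Fermat.Agent.CFT.HP.FinalY
import Fermat.Agent.CFT.HPG.Final

set_option autoImplicit false

namespace Fermat.Agent.CFT.HP

/-- the raw Hasse principle on `G_Q` (shape consumed by [GLOB-GR]), unconditionally. -/
theorem all_hpraw2 : HPG.Stmt_HPraw2 := HPG.final_hpraw2 all_hpfin

/-- the shape consumed by [GLOB-GN], unconditionally. -/
theorem all_hpall : GN.Stmt_HPall := HPG.final_hpall all_hpfin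

/-- **(GN+), (GN-)**, unconditionally. -/
theorem all_gn : GN.Stmt_GN := HPG.final_gn all_hpfin

end Fermat.Agent.CFT.HP
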