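/-
TEAM CFT -> S55, layers [GLOB-HNT] + [GLOB-HP] (sub-lead helper90).  DEFINITIONS.

Style (as in `Local/Interface.lean`): a finite group `G` acting faithfully on a number field `M`.
Subgroups are free of charge, quotients `G ⧸ N` act on `FixedPoints.subfield N M` via
`Local.quotAct`.

* `locAlg M q`  : function model of `M ⊗_ℚ ℚ_q`: the `Gal(ℚ̄_q/ℚ_q)`-equivariant functions on the set
                  of embeddings `M →+* PadicAlgCl q`.
* `PrS M S`     : the nonzero primes of `𝓞 M` not above `S`.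
* `Id M S`      : `∏_{q ∈ S} (locAlg M q)ˣ × Map(PrS M S, ℤ)` ("`S`-ideles times `S`-divisors").
* `idRep G M S` : the corresponding `G`-module, `iotaRep : Mˣ ⟶ Id M S`.
-/
import Fermat.Agent.CFT.Local.Interface

set_option autoImplicit false
set_option linter.unusedSectionVars false
set_option linter.unusedVariables false

noncomputable section

namespace Fermat.Agent.CFT.HP

open CategoryTheory groupCohomology NumberField IsDedekindDomain
open scoped Pointwise

attribute [local instance] Units.mulDistribMulActionRight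

/-- primes as facts -/
theorem factPrimes (q : Nat.Primes) : Fact (q : ℕ).Prime := ⟨q.2⟩

attribute [local instance] factPrimes

/-! ### The local algebra at `q` -/

section LocAlg

variable (M : Type) [Field M] (q : ℕ) [Fact q.Prime]

/-- embeddings of `M` into `ℚ̄_q` -/
abbrev Emb : Type := M →+* PadicAlgCl q

/-- the local Galois group -/
abbrev Gam : Type := PadicAlgCl q ≃ₐ[ℚ_[q]] PadicAlgCl q

variable {M q} in
/-- `γ ∘ τ` -/
abbrev Gam.comp (γ : Gam q) (τ : Emb M q) : Emb M q :=
  ((γ : PadicAlgCl q ≃+* PadicAlgCl q) : PadicAlgCl q →+* PadicAlgCl q).comp τ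

/-- Function model of `M ⊗_ℚ ℚ_q`. -/
def locAlg : Subring (Emb M q → PadicAlgCl q) where
  carrier := {f | ∀ (γ : Gam q) (τ : Emb M q), f (γ.comp τ) = γ (f τ)}
  mul_mem' {f g} hf hg γ τ := by simp only [Pi.mul_apply, hf γ τ, hg γ τ, map_mul]
  one_mem' γ τ := by simp
  add_mem' {f g} hf hg γ τ := by simp only [Pi.add_apply, hf γ τ, hg γ τ, map_add]
  zero_mem' γ τ := by simp
  neg_mem' {f} hf γ τ := by simp only [Pi.neg_apply, hf γ τ, map_neg]

/-- the diagonal embedding `M → M ⊗ ℚ_q` -/
def diag : M →+* locAlg M q where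
  toFun x := ⟨fun τ => τ x, fun _ _ => rfl⟩
  map_one' := Subtype.ext (funext fun τ => map_one τ)
  map_mul' x y := Subtype.ext (funext fun τ => map_mul τ x y)
  map_zero' := Subtype.ext (funext fun τ => map_zero τ)
  map_add' x y := Subtype.ext (funext fun τ => map_add τ x y)

@[simp] theorem diag_apply (x : M) (τ : Emb M q) : (diag M q x).1 τ = τ x := rfl

variable (G : Type) [Group G] [MulSemiringAction G M]

/-- `(g • f)(τ) = f (τ ∘ g)` -/
instance locAct : MulSemiringAction G (locAlg M q) where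
  smul g f := ⟨fun τ => f.1 (τ.comp (MulSemiringAction.toRingHom G M g)),
    fun γ τ => f.2 γ (τ.comp (MulSemiringAction.toRingHom G M g))⟩
  one_smul f := Subtype.ext (funext fun τ => congrArg f.1 (RingHom.ext fun x => by simp))
  mul_smul g h f := Subtype.ext (funext fun τ => congrArg f.1 (RingHom.ext fun x => by
    simp [mul_smul]))
  smul_zero _ := rfl
  smul_add _ _ _ := rfl
  smul_one _ := rfl
  smul_mul _ _ _ := rfl

variable {G} in
theorem smul_apply (g : G) (f : locAlg M q) (τ : Emb M q) :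
    (g • f).1 τ = f.1 (τ.comp (MulSemiringAction.toRingHom G M g)) := rfl

variable {G} in
theorem smul_diag (g : G) (x : M) : g • diag M q x = diag M q (g • x) := rfl

/-- the integral elements `𝒪 = 𝓞_M ⊗ ℤ_q` -/
def locInt : Subring (locAlg M q) where
  carrier := {f | ∀ τ, ‖f.1 τ‖ ≤ 1}
  mul_mem' {f g} hf hg τ := by
    have : ‖f.1 τ * g.1 τ‖ ≤ 1 := by
      rw [norm_mul]; exact mul_le_one₀ (hf τ) (norm_nonneg _) (hg τ)
    exact this
  one_mem' τ := by
    have : ‖(1 : PadicAlgCl q)‖ ≤ 1 := by simp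
    exact this
  add_mem' {f g} hf hg τ :=
    (IsUltrametricDist.norm_add_le_max (f.1 τ) (g.1 τ)).trans (max_le (hf τ) (hg τ))
  zero_mem' τ := by
    have : ‖(0 : PadicAlgCl q)‖ ≤ 1 := by simp
    exact this
  neg_mem' {f} hf τ := by
    have : ‖-(f.1 τ)‖ ≤ 1 := by rw [norm_neg]; exact hf τ
    exact this

/-- the units `U = 𝒪ˣ` as a subgroup of `(M ⊗ ℚ_q)ˣ` -/
def locU : Subgroup (locAlg M q)ˣ where
  carrier := {u | ∀ τ, ‖(u : locAlg M q).1 τ‖ = 1}
  mul_mem' {u v} hu hv τ := by
    have : ‖(u : locAlg M q).1 τ * (v : locAlg M q).1 τ‖ = 1 := by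
      rw [norm_mul, hu τ, hv τ, one_mul]
    exact this
  one_mem' τ := by
    have : ‖(1 : PadicAlgCl q)‖ = 1 := by simp
    exact this
  inv_mem' {u} hu τ := by
    have h1 : (u : locAlg M q).1 τ * ((u⁻¹ : (locAlg M q)ˣ) : locAlg M q).1 τ = 1 :=
      congrFun (congrArg Subtype.val u.mul_inv) τ
    have h2 := congrArg norm h1
    rw [norm_mul, hu τ, one_mul, norm_one] at h2
    exact h2

/-- the congruence subgroup `{u | ‖u - 1‖ ≤ c}` (a subgroup for `c < 1`; junk otherwise) -/
def locW (c : ℝ) : Set (locAlg M q)ˣ := {u | ∀ τ, ‖(u : locAlg M q).1 τ - 1‖ ≤ c}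

end LocAlg

/-! ### Primes outside `S` -/

section Primes

variable (M : Type) [Field M] [NumberField M] (S : Finset Nat.Primes)

/-- the nonzero primes of `𝓞 M` not above `S` -/
def PrS : Type := {v : HeightOneSpectrum (𝓞 M) // ∀ q ∈ S, ((q : ℕ) : 𝓞 M) ∉ v.asIdeal}

variable (G : Type) [Group G] [MulSemiringAction G M]

variable {M G} in
/-- the action of `G` on the height one spectrum -/
def smulH (g : G) (v : HeightOneSpectrum (𝓞 M)) : HeightOneSpectrum (𝓞 M) where
  asIdeal := g • v.asIdeal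
  isPrime := by
    have := v.isPrime
    rw [Ideal.pointwise_smul_def]
    exact Ideal.map_isPrime_of_equiv (MulSemiringAction.toRingEquiv G (𝓞 M) g)
  ne_bot := by
    intro h
    apply v.ne_bot
    have h1 : g⁻¹ • (g • v.asIdeal) = g⁻¹ • (⊥ : Ideal (𝓞 M)) := congrArg _ h
    rwa [inv_smul_smul, Ideal.smul_bot] at h1

instance actH : MulAction G (HeightOneSpectrum (𝓞 M)) where
  smul := smulH
  one_smul v := HeightOneSpectrum.ext (one_smul G v.asIdeal)
  mul_smul g h v := HeightOneSpectrum.ext (mul_smul g h v.asIdeal)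

variable {M G} in
theorem smul_asIdeal (g : G) (v : HeightOneSpectrum (𝓞 M)) : (g • v).asIdeal = g • v.asIdeal := rfl

instance actPrS : MulAction G (PrS M S) where
  smul g v := ⟨g • v.1, fun q hq h => v.2 q hq (by
    have h1 : g⁻¹ • (((q : ℕ) : 𝓞 M)) ∈ g⁻¹ • (g • v.1.asIdeal) :=
      Ideal.smul_mem_pointwise_smul _ _ _ h
    have h2 : g⁻¹ • (((q : ℕ) : 𝓞 M)) = ((q : ℕ) : 𝓞 M) :=
      map_natCast (MulSemiringAction.toRingHom G (𝓞 M) g⁻¹) _
    rwa [inv_smul_smul, h2] at h1)⟩
  one_smul v := Subtype.ext (one_smul G v.1)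
  mul_smul g h v := Subtype.ext (mul_smul g h v.1)

/-- the `S`-divisor module (all functions; finitely supported ones are `DivFin`) -/
abbrev DivS : Type := PrS M S → Multiplicative ℤ

/-- `(g • φ)(v) = φ (g⁻¹ v)` -/
instance actDivS : MulDistribMulAction G (DivS M S) where
  smul g φ := fun v => φ (g⁻¹ • v)
  one_smul φ := funext fun v => by show φ ((1 : G)⁻¹ • v) = φ v; rw [inv_one, one_smul]
  mul_smul g h φ := funext fun v => by
    show φ ((g * h)⁻¹ • v) = φ (h⁻¹ • g⁻¹ • v); rw [mul_inv_rev, mul_smul]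
  smul_mul _ _ _ := rfl
  smul_one _ := rfl

variable {M S G} in
theorem smul_divS_apply (g : G) (φ : DivS M S) (v : PrS M S) : (g • φ) v = φ (g⁻¹ • v) := rfl

/-- the divisor of an element, outside `S` -/
def divS : Mˣ →* DivS M S where
  toFun x := fun v => v.1.valuationOfNeZero x
  map_one' := funext fun v => map_one _
  map_mul' x y := funext fun v => map_mul _ x y

@[simp] theorem divS_apply (x : Mˣ) (v : PrS M S) : divS M S x v = v.1.valuationOfNeZero x := rfl

/-- finitely supported divisors -/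
def DivFin : Subgroup (DivS M S) where
  carrier := {φ | {v | φ v ≠ 1}.Finite}
  mul_mem' {φ ψ} hφ hψ := (hφ.union hψ).subset fun v hv => by
    by_contra h
    simp only [Set.mem_union, Set.mem_ofPred_eq, not_or, not_not] at h
    exact hv (by rw [Pi.mul_apply, h.1, h.2, one_mul])
  one_mem' := by simp
  inv_mem' {φ} hφ := hφ.subset fun v hv h => hv (by rw [Pi.inv_apply, h, inv_one])

end Primes

/-! ### `S`-ideles -/

section Ideles

variable (M : Type) [Field M] [NumberField M] (S : Finset Nat.Primes)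

/-- `∏_{q ∈ S} (M ⊗ ℚ_q)ˣ` -/
abbrev JS : Type := ∀ q : {q : Nat.Primes // q ∈ S}, (locAlg M (q.1 : ℕ))ˣ

/-- `∏_{q ∈ S} (M ⊗ ℚ_q)ˣ × Map(PrS M S, ℤ)` -/
abbrev Id : Type := JS M S × DivS M S

/-- the diagonal embedding `Mˣ → J_S` -/
def diagJ : Mˣ →* JS M S where
  toFun x := fun q => Units.map (diag M (q.1 : ℕ) : M →* locAlg M (q.1 : ℕ)) x
  map_one' := funext fun q => map_one _
  map_mul' x y := funext fun q => map_mul _ x y

/-- the diagonal embedding `Mˣ → Id M S` -/
def iota : Mˣ →* Id M S := (diagJ M S).prod (divS M S)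

/-- `U_S = ∏_{q ∈ S} 𝒪_qˣ` -/
def US : Subgroup (JS M S) where
  carrier := {u | ∀ q, u q ∈ locU M (q.1 : ℕ)}
  mul_mem' hu hv q := (locU M _).mul_mem (hu q) (hv q)
  one_mem' q := (locU M _).one_mem
  inv_mem' hu q := (locU M _).inv_mem (hu q)

/-- the finitely supported `S`-ideles `J_S × Div_S` -/
def IdFin : Subgroup (Id M S) := (⊤ : Subgroup (JS M S)).prod (DivFin M S)

variable (G : Type) [Group G] [MulSemiringAction G M]

/-- the `G`-module `Id M S` -/
abbrev idRep : Rep.{0} ℤ G := Rep.ofMulDistribMulAction G (Id M S)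

/-- the norm `x ↦ ∏ g, g x` on a commutative group with `G`-action -/
def normG (X : Type) [CommGroup X] [MulDistribMulAction G X] [Finite G] : X →* X where
  toFun x := ∏ᶠ g : G, g • x
  map_one' := by simp
  map_mul' x y := by
    simp only [smul_mul']
    exact finprod_mul_distrib (Set.toFinite _) (Set.toFinite _)

/-- `G` has trivial inertia at all primes of `M` not above `S`. -/
def UnramOut : Prop :=
  ∀ v : PrS M S, ∀ g : G, (∀ x : 𝓞 M, g • x - x ∈ v.1.asIdeal) → g = 1

end Ideles

end Fermat.Agent.CFT.HP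

end
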