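/-
CFT / HP, B3: non-split primes: local triviality of the standard cocycle gives approximate norms.
-/
import Fermat.Agent.CFT.HP.InterfaceAB

set_option autoImplicit false

namespace Fermat.Agent.CFT.HP

open NumberField groupCohomology Fermat.Agent.S14 Fermat.Agent.CFT.P0
open scoped Pointwise

/-- product over a finite cyclic group = product over the powers of a generator. -/
theorem NCN_prod_eq {G : Type*} [Group G] [Fintype G] {M : Type*} [CommMonoid M] (σ : G)
    (hσ : ∀ g : G, g ∈ Subgroup.zpowers σ) (F : G → M) :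
    ∏ g : G, F g = ∏ j ∈ Finset.range (Nat.card G), F (σ ^ j) := by
  classical
  have hord : orderOf σ = Nat.card G := orderOf_eq_card_of_forall_mem_zpowers hσ
  rw [← hord, ← IsCyclic.image_range_orderOf hσ, Finset.prod_image]
  intro a ha b hb hab
  rw [Finset.mem_coe, Finset.mem_range] at ha hb
  exact pow_injOn_Iio_orderOf ha hb hab

/-- congruent factors give congruent products. -/
theorem NCN_prod_sub_mem {R ι : Type*} [CommRing R] (I : Ideal R) (s : Finset ι) (f g : ι → R)
    (h : ∀ i ∈ s, f i - g i ∈ I) : ∏ i ∈ s, f i - ∏ i ∈ s, g i ∈ I := by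
  rw [← Ideal.Quotient.mk_eq_mk_iff_sub_mem, map_prod, map_prod]
  exact Finset.prod_congr rfl fun i hi => (Ideal.Quotient.mk_eq_mk_iff_sub_mem _ _).2 (h i hi)

/-- an automorphism fixing an ideal preserves its powers. -/
theorem NCN_smul_mem_pow {G R : Type*} [Group G] [CommRing R] [MulSemiringAction G R] (τ : G)
    (I : Ideal R) (hτ : τ • I = I) (n : ℕ) (u : R) (hu : u ∈ I ^ n) : τ • u ∈ I ^ n := by
  have h1 : τ • (I ^ n) = I ^ n := by
    rw [Ideal.pointwise_smul_def, Ideal.map_pow, ← Ideal.pointwise_smul_def, hτ]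
  rw [← h1]
  exact Ideal.smul_mem_pointwise_smul τ u _ hu

theorem NCN_pow_smul_eq {G X : Type*} [Group G] [MulAction G X] (τ : G) (x : X) (h : τ • x = x)
    (i : ℕ) : τ ^ i • x = x := by
  induction i with
  | zero => simp
  | succ i ih => rw [pow_succ, mul_smul, h, ih]

/-- a natural multiple of an algebraic number is an algebraic integer. -/
theorem NCN_exists_nat_mul (M : Type*) [Field M] [NumberField M] (b : M) :
    ∃ m : ℕ, m ≠ 0 ∧ IsIntegral ℤ ((m : M) * b) := by
  have halg : IsAlgebraic ℤ b := by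
    have h1 : IsAlgebraic ℚ b := Algebra.IsAlgebraic.isAlgebraic b
    exact (IsFractionRing.isAlgebraic_iff ℤ ℚ M).2 h1
  obtain ⟨d, hd, hint⟩ := halg.exists_integral_multiple
  refine ⟨d.natAbs, Int.natAbs_ne_zero.2 hd, ?_⟩
  rw [zsmul_eq_mul] at hint
  rcases Int.natAbs_eq d with h | h
  · have e : ((d.natAbs : ℕ) : M) = (d : M) := by
      conv_rhs => rw [h]
      simp
    rw [e]; exact hint
  · have e : ((d.natAbs : ℕ) : M) * b = -((d : M) * b) := by
      conv_rhs => rw [h]
      simp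
    rw [e]; exact hint.neg

theorem normCloseNonsplit (h0 : Stmt_StabLift) (h1 : Stmt_CycLocal) (h2 : Stmt_DecompDense)
    (h3 : Stmt_ContractPow) (h5 : Stmt_H90Sub) : Stmt_NormCloseNonsplit := by
  intro p K L _ _ _ _ _ _ σ a v w hC hwp hw0 hwv hσw hloc
  obtain ⟨M', _, _, _, _, _, _, w', x, hw'p, hw'w, hx⟩ := hloc
  classical
  have hw'0 : w' ≠ ⊥ := Ideal.ne_bot_of_liesOver_of_ne_bot hw0 w'
  have hw'v : w'.LiesOver v := Ideal.LiesOver.trans w' w v
  have hvp : v.IsPrime := by
    rw [hwv.over]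
    exact Ideal.IsPrime.under _ w
  have hv0 : v ≠ ⊥ := by
    intro h
    apply hw0
    subst h
    exact Ideal.eq_bot_of_liesOver_bot (𝓞 K) w
  obtain ⟨g', hg'σ, hg'w⟩ := h0 K L M' w w' σ hw'p hw'0 hw'w hσw
  have hcard : Nat.card (L ≃ₐ[K] L) = p := by
    rw [IsGalois.card_aut_eq_finrank, hC.deg]
  -- the cocycle computation
  obtain ⟨b', hb'inv, hb'⟩ := h1 (M' ≃ₐ[K] M') (L ≃ₐ[K] L) M'ˣ
    (MulAction.stabilizer (M' ≃ₐ[K] M') w') (AlgEquiv.restrictNormalHom L) σ g'
    (Units.map (algebraMap K M' : K →* M') a) x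
    (by rw [hcard]; exact hC.prime.one_lt) hC.gen (MulAction.mem_stabilizer_iff.2 hg'w) hg'σ
    (fun c hc => h5 K M' _ c hc)
    (by
      intro g hg h hh
      rw [← hx g h (MulAction.mem_stabilizer_iff.1 hg) (MulAction.mem_stabilizer_iff.1 hh)]
      unfold mulCyc
      rw [apply_ite (Units.map (algebraMap L M' : L →* M')), map_one]
      have e : Units.map (algebraMap L M' : L →* M') (inclU K L a) =
          Units.map (algebraMap K M' : K →* M') a := by
        ext
        simp [inclU, ← IsScalarTower.algebraMap_apply K L M']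
      rw [e]
      rfl)
  rw [hcard] at hb'
  -- an integral multiple of `b'`
  obtain ⟨m, hm0, hmint⟩ := NCN_exists_nat_mul M' (b' : M')
  let z : 𝓞 M' := ⟨(m : M') * (b' : M'), hmint⟩
  have hzc : (z : M') = (m : M') * (b' : M') := rfl
  have : IsGalois L M' := IsGalois.tower_top_of_isGalois K L M'
  have hzfix : ∀ d : M' ≃ₐ[L] M', d • w' = w' → d • z = z := by
    intro d hd
    have hdD : d.restrictScalars K ∈ MulAction.stabilizer (M' ≃ₐ[K] M') w' ⊓
        (AlgEquiv.restrictNormalHom L : (M' ≃ₐ[K] M') →* (L ≃ₐ[K] L)).ker := by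
      rw [Subgroup.mem_inf]
      refine ⟨?_, ?_⟩
      · rw [MulAction.mem_stabilizer_iff]
        conv_rhs => rw [← hd]
        rfl
      · rw [MonoidHom.mem_ker]
        ext y
        apply (algebraMap L M').injective
        change algebraMap L M' (((d.restrictScalars K).restrictNormal L) y) = _
        rw [AlgEquiv.restrictNormal_commutes]
        exact d.commutes y
    have h6 := hb'inv _ hdD
    have h7 : d (b' : M') = (b' : M') := congrArg Units.val h6
    apply RingOfIntegers.ext
    change d (z : M') = (z : M')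
    rw [hzc, map_mul, map_natCast, h7]
  refine ⟨m, hm0, fun n => ?_⟩
  obtain ⟨n', hn'⟩ := h3 K M' v w' hvp hv0 hw'p hw'v n
  obtain ⟨y, hy⟩ := h2 L M' w' z n' hw'p hw'0 hzfix
  -- the two products
  have hP : ∏ i ∈ Finset.range p, g' ^ i • z -
      ∏ i ∈ Finset.range p, g' ^ i • (algebraMap (𝓞 L) (𝓞 M') y) ∈ w' ^ n' := by
    apply NCN_prod_sub_mem
    intro i _
    rw [← smul_sub]
    exact NCN_smul_mem_pow _ w' (NCN_pow_smul_eq g' w' hg'w i) n' _ hy
  have hP1 : ((∏ i ∈ Finset.range p, g' ^ i • z : 𝓞 M') : M') =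
      algebraMap K M' ((m : K) ^ p * (a : K)) := by
    have e1 : (algebraMap K M' (a : K)) = ∏ i ∈ Finset.range p, (g' ^ i) (b' : M') := by
      have := congrArg Units.val hb'
      rw [Units.coe_prod] at this
      exact this
    rw [map_mul, e1, map_pow, map_natCast]
    have e2 : ((∏ i ∈ Finset.range p, g' ^ i • z : 𝓞 M') : M') =
        ∏ i ∈ Finset.range p, (g' ^ i) (z : M') := by
      rw [RingOfIntegers.coe_eq_algebraMap, map_prod]
      rfl
    rw [e2]
    simp_rw [hzc, map_mul, map_natCast]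
    rw [Finset.prod_mul_distrib, Finset.prod_const, Finset.card_range]
  have hres : ∀ (i : ℕ) (t : L), (g' ^ i) (algebraMap L M' t) = algebraMap L M' ((σ ^ i) t) := by
    intro i t
    have e : (g' ^ i).restrictNormal L = σ ^ i := by
      change AlgEquiv.restrictNormalHom L (g' ^ i) = σ ^ i
      rw [map_pow]
      congr 1
    rw [← e, AlgEquiv.restrictNormal_commutes]
  have hP2 : ((∏ i ∈ Finset.range p, g' ^ i • (algebraMap (𝓞 L) (𝓞 M') y) : 𝓞 M') : M') =
      algebraMap K M' (Algebra.norm K (y : L)) := by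
    have e2 : ((∏ i ∈ Finset.range p, g' ^ i • (algebraMap (𝓞 L) (𝓞 M') y) : 𝓞 M') : M') =
        ∏ i ∈ Finset.range p, (g' ^ i) (algebraMap L M' (y : L)) := by
      rw [RingOfIntegers.coe_eq_algebraMap, map_prod]
      rfl
    rw [e2]
    simp_rw [hres]
    rw [← map_prod, IsScalarTower.algebraMap_apply K L M', Algebra.norm_eq_prod_automorphisms,
      NCN_prod_eq σ hC.gen, hcard]
  -- the difference is an integer of `K`
  have hcint : IsIntegral ℤ ((m : K) ^ p * (a : K) - Algebra.norm K (y : L)) := by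
    apply (isIntegral_algebraMap_iff (algebraMap K M').injective).1
    rw [map_sub, ← hP1, ← hP2]
    exact (RingOfIntegers.isIntegral_coe _).sub (RingOfIntegers.isIntegral_coe _)
  let c : 𝓞 K := ⟨(m : K) ^ p * (a : K) - Algebra.norm K (y : L), hcint⟩
  have hcc : (c : K) = (m : K) ^ p * (a : K) - Algebra.norm K (y : L) := rfl
  refine ⟨y, c, hn' c ?_, by rw [hcc]; ring⟩
  have e3 : algebraMap (𝓞 K) (𝓞 M') c = ∏ i ∈ Finset.range p, g' ^ i • z -
      ∏ i ∈ Finset.range p, g' ^ i • (algebraMap (𝓞 L) (𝓞 M') y) := by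
    apply RingOfIntegers.ext
    have e4 : ((algebraMap (𝓞 K) (𝓞 M') c : 𝓞 M') : M') = algebraMap K M' (c : K) := rfl
    rw [e4, hcc, map_sub, ← hP1, ← hP2]
    rfl
  rw [e3]
  exact hP

end Fermat.Agent.CFT.HP
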