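/-
CFT / HP, package C1a: the second inequality for finite quotients of
`Kˣ / (N-units * norms * congruence subgroup)`, from the analytic `Stmt_URay`.
-/
import Fermat.Agent.CFT.HP.InterfaceC
import Fermat.Agent.CFT.Ray.URay
import Fermat.Agent.CFT.Ray.ZetaRayDiff
import Fermat.Agent.S14.FrobAPI

set_option autoImplicit false

namespace Fermat.Agent.CFT.HP

open NumberField Fermat.Agent.S14 Fermat.Agent.CFT.Ray

namespace SIF

variable {F : Type} [Field F] [NumberField F]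

/-- `x` represents the class of the ideal `I` in `Fˣ / (N-units)`. -/
def Rep (N : ℕ) (I : Ideal (𝓞 F)) (x : Fˣ) : Prop :=
  ∃ (α : 𝓞 F) (J : Ideal (𝓞 F)) (i : ℕ), J ∣ Ideal.span {(N : 𝓞 F)} ^ i ∧
    Ideal.span {α} = I * J ∧ (x : F) = (α : F)

theorem Rep.mul {N : ℕ} {I I' : Ideal (𝓞 F)} {x x' : Fˣ} (h : Rep N I x) (h' : Rep N I' x') :
    Rep N (I * I') (x * x') := by
  obtain ⟨α, J, i, hJ, hα, hx⟩ := h
  obtain ⟨α', J', i', hJ', hα', hx'⟩ := h'
  refine ⟨α * α', J * J', i + i', ?_, ?_, ?_⟩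
  · rw [pow_add]; exact mul_dvd_mul hJ hJ'
  · rw [← Ideal.span_singleton_mul_span_singleton, hα, hα', mul_mul_mul_comm]
  · push_cast; rw [hx, hx']

theorem Rep.unique {N : ℕ} {I : Ideal (𝓞 F)} {x x' : Fˣ} (h : Rep N I x) (h' : Rep N I x') :
    x / x' ∈ unitsAway F N := by
  obtain ⟨α, J, i, ⟨J1, hJ1⟩, hα, hx⟩ := h
  obtain ⟨α', J', i', ⟨J1', hJ1'⟩, hα', hx'⟩ := h'
  have hα'0 : α' ≠ 0 := by
    rintro rfl
    exact x'.ne_zero (by rw [hx']; simp)
  have key : Ideal.span {α * (N : 𝓞 F) ^ i'} = Ideal.span {α'} * (J * J1') := by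
    rw [← Ideal.span_singleton_mul_span_singleton, ← Ideal.span_singleton_pow, hJ1', hα, hα']
    ring
  have hdvd : α' ∣ α * (N : 𝓞 F) ^ i' := by
    rw [← Ideal.mem_span_singleton]
    have h1 : Ideal.span {α * (N : 𝓞 F) ^ i'} ≤ Ideal.span {α'} := by
      rw [key]; exact Ideal.mul_le_inf.trans inf_le_left
    exact h1 (Ideal.mem_span_singleton_self _)
  obtain ⟨e, he⟩ := hdvd
  have hspan_e : Ideal.span {e} = J * J1' := by
    have h1 : Ideal.span {α'} * Ideal.span {e} = Ideal.span {α'} * (J * J1') := by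
      rw [Ideal.span_singleton_mul_span_singleton, ← he, key]
    refine mul_left_cancel₀ ?_ h1
    rwa [Ne, Ideal.zero_eq_bot, Ideal.span_singleton_eq_bot]
  have he_dvd : e ∣ (N : 𝓞 F) ^ (i + i') := by
    rw [← Ideal.mem_span_singleton, ← Ideal.dvd_span_singleton, hspan_e,
      ← Ideal.span_singleton_pow, pow_add, hJ1, hJ1']
    exact mul_dvd_mul (Dvd.intro _ rfl) (Dvd.intro_left _ rfl)
  refine ⟨e, i + i', i', he_dvd, ?_⟩
  have h2 : (α : F) * (N : F) ^ i' = (α' : F) * (e : F) := by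
    have := congrArg (fun t : 𝓞 F => (t : F)) he
    simpa using this
  have hα'F : (α' : F) ≠ 0 := by rw [← hx']; exact x'.ne_zero
  rw [Units.val_div_eq_div_val, hx, hx']
  field_simp
  linear_combination h2

theorem exists_rep {N : ℕ} (h : ClAway F N) {I : Ideal (𝓞 F)} (hI : I ≠ ⊥) :
    ∃ x : Fˣ, Rep N I x := by
  obtain ⟨α, J, i, hα0, hJ, hα⟩ := h I hI
  have hαF : (α : F) ≠ 0 := by
    simpa using hα0
  exact ⟨Units.mk0 (α : F) hαF, α, J, i, hJ, hα, rfl⟩

open Classical in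
/-- The class map. -/
noncomputable def phi {N : ℕ} (h : ClAway F N) (W : Subgroup Fˣ) (I : Ideal (𝓞 F)) : Fˣ ⧸ W :=
  if hI : I ≠ ⊥ then ((exists_rep h hI).choose : Fˣ ⧸ W) else 1

theorem phi_eq {N : ℕ} (h : ClAway F N) {W : Subgroup Fˣ} (hW : unitsAway F N ≤ W)
    {I : Ideal (𝓞 F)} (hI : I ≠ ⊥) {x : Fˣ} (hx : Rep N I x) : phi h W I = (x : Fˣ ⧸ W) := by
  unfold phi
  rw [dif_pos hI, QuotientGroup.eq]
  have h1 := hW (Rep.unique hx (exists_rep h hI).choose_spec)
  rwa [div_eq_mul_inv, mul_comm] at h1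

theorem natCast_isUnit {n : ℕ} (h : IsUnit (n : 𝓞 F)) : n = 1 := by
  have h1 : IsUnit (Algebra.norm ℤ (n : 𝓞 F)) := h.map (Algebra.norm ℤ)
  have h2 : Algebra.norm ℤ (n : 𝓞 F) = (n : ℤ) ^ Module.finrank ℤ (𝓞 F) := by
    have := Algebra.norm_algebraMap (S := 𝓞 F) (n : ℤ)
    simpa using this
  rw [h2] at h1
  have h3 : IsUnit (n : ℤ) := (isUnit_pow_iff (Module.finrank_pos).ne').1 h1
  exact Nat.isUnit_iff.1 (Int.ofNat_isUnit.1 h3)

end SIF

open SIF in
theorem secondIneqFin (hS : Stmt_SplitIdeal) : Stmt_SecondIneqFin := by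
  intro K L _ _ _ _ _ N j hN hclK hclL W hUW hNW hCW hW
  have hfd : FiniteDimensional K L := Module.Finite.of_restrictScalars_finite ℚ K L
  have hn : 0 < Module.finrank K L := Module.finrank_pos
  by_cases h1 : N ^ j = 1
  · have hWtop : W = ⊤ := by
      rw [eq_top_iff]
      intro x _
      apply hCW
      obtain ⟨a, b, hb, hab⟩ := IsFractionRing.div_surjective (𝓞 K) (x : K)
      have hb0 : (algebraMap (𝓞 K) K b) ≠ 0 := by
        have := nonZeroDivisors.ne_zero hb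
        simpa using this
      refine ⟨a, b, ?_, ?_, ?_⟩
      · rw [h1]; simpa using isCoprime_one_right
      · rw [h1]; simp
      · rw [← hab]
        exact div_mul_cancel₀ _ hb0
    rw [hWtop, Subgroup.index_top]
    exact hn
  set m : Ideal (𝓞 K) := Ideal.span {((N ^ j : ℕ) : 𝓞 K)} with hm
  have hm0 : m ≠ ⊥ := by
    rw [hm, Ne, Ideal.span_singleton_eq_bot, Nat.cast_eq_zero]
    exact pow_ne_zero _ hN
  have hmtop : m ≠ ⊤ := by
    rw [hm, Ne, Ideal.span_singleton_eq_top]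
    exact fun h => h1 (natCast_isUnit h)
  have hne : ∀ I : Ideal (𝓞 K), IsCoprime I m → I ≠ ⊥ := by
    rintro I hI rfl
    rw [← Ideal.zero_eq_bot, isCoprime_zero_left, Ideal.isUnit_iff] at hI
    exact hmtop hI
  have hfin : Finite (Kˣ ⧸ W) := by
    have : W.FiniteIndex := ⟨hW⟩
    exact Subgroup.finite_quotient_of_finiteIndex
  have hclass : IsClassMap m (phi hclK W) := by
    refine ⟨?_, ?_, ?_⟩
    · intro I J hI hJ
      have hI0 := hne I hI
      have hJ0 := hne J hJ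
      obtain ⟨x, hx⟩ := exists_rep hclK hI0
      obtain ⟨y, hy⟩ := exists_rep hclK hJ0
      rw [phi_eq hclK hUW hI0 hx, phi_eq hclK hUW hJ0 hy,
        phi_eq hclK hUW (mul_ne_zero hI0 hJ0) (hx.mul hy)]
      rfl
    · intro ξ hξ hξm
      have hξK : (ξ : K) ≠ 0 := by simpa using hξ
      have hI0 : Ideal.span {ξ} ≠ ⊥ := by rwa [Ne, Ideal.span_singleton_eq_bot]
      have hrep : Rep N (Ideal.span {ξ}) (Units.mk0 (ξ : K) hξK) :=
        ⟨ξ, 1, 0, by simp, by simp, rfl⟩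
      rw [phi_eq hclK hUW hI0 hrep, QuotientGroup.eq_one_iff]
      apply hCW
      refine ⟨ξ, 1, isCoprime_one_left, ?_, by simp⟩
      rwa [hm, Ideal.mem_span_singleton] at hξm
    · intro a
      obtain ⟨x, rfl⟩ := QuotientGroup.mk_surjective a
      obtain ⟨a0, b0, hb, hab⟩ := IsFractionRing.div_surjective (𝓞 K) (x : K)
      have hb0 : b0 ≠ 0 := nonZeroDivisors.ne_zero hb
      have hb0K : (b0 : K) ≠ 0 := by simpa using hb0
      have ha0K : (a0 : K) ≠ 0 := by
        intro h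
        apply x.ne_zero
        rw [← hab]
        have : algebraMap (𝓞 K) K a0 = 0 := h
        rw [this, zero_div]
      have ha0 : a0 ≠ 0 := by
        rintro rfl
        exact ha0K (by simp)
      set n := Module.finrank K L with hndef
      set y : 𝓞 K := a0 * b0 ^ (n - 1) with hy
      have hy0 : y ≠ 0 := mul_ne_zero ha0 (pow_ne_zero _ hb0)
      have hyK : (y : K) ≠ 0 := by simpa using hy0
      obtain ⟨A, B, i, hAB, hA, hB⟩ := hS K N hN (Ideal.span {y})
        (by rwa [Ne, Ideal.span_singleton_eq_bot])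
      have hA0 : A ≠ ⊥ := by
        rintro rfl
        rw [Ideal.bot_mul, Ideal.span_singleton_eq_bot] at hAB
        exact hy0 hAB
      have hAm : IsCoprime A m := by
        rw [hm]
        push_cast
        rw [← Ideal.span_singleton_pow]
        exact hA.pow_right
      refine ⟨A, hA0, hAm, ?_⟩
      have hrep : Rep N A (Units.mk0 (y : K) hyK) := ⟨y, B, i, hB, hAB, rfl⟩
      rw [phi_eq hclK hUW hA0 hrep, QuotientGroup.eq]
      -- `(mk0 y)⁻¹ * x = (b0 ^ n)⁻¹` is a norm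
      have hnorm : normU K L (inclU K L (Units.mk0 (b0 : K) hb0K)) ∈ W := hNW ⟨_, rfl⟩
      have heq : (Units.mk0 (y : K) hyK)⁻¹ * x =
          (normU K L (inclU K L (Units.mk0 (b0 : K) hb0K)))⁻¹ := by
        apply Units.ext
        have h3 : ((normU K L (inclU K L (Units.mk0 (b0 : K) hb0K)) : Kˣ) : K) = (b0 : K) ^ n := by
          show Algebra.norm K (algebraMap K L (b0 : K)) = _
          rw [Algebra.norm_algebraMap]
        rw [Units.val_mul, Units.val_inv_eq_inv_val, Units.val_inv_eq_inv_val, h3, Units.val_mk0,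
          ← hab, hy]
        have h4 : (b0 : K) ^ n = (b0 : K) ^ (n - 1) * (b0 : K) := by
          rw [← pow_succ, Nat.sub_add_cancel hn]
        rw [h4]
        push_cast
        have h5 : algebraMap (𝓞 K) K a0 = (a0 : K) := rfl
        have h6 : algebraMap (𝓞 K) K b0 = (b0 : K) := rfl
        rw [h5, h6]
        field_simp
      rw [heq]
      exact W.inv_mem hnorm
  have hkill : ∀ (q : Ideal (𝓞 K)) (Q : Ideal (𝓞 L)), q.IsPrime → q ≠ ⊥ →
      q ∉ (∅ : Finset (Ideal (𝓞 K))) → IsCoprime q m →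
      Q.IsPrime → Q.LiesOver q → Ideal.absNorm Q = Ideal.absNorm q → phi hclK W q = 1 := by
    intro q Q hq hq0 _ _ hQ hQq habs
    have hQ0 : Q ≠ ⊥ := FR_ne_bot_of_liesOver hq0 hQq
    have hrel : Ideal.relNorm (𝓞 K) Q = q := (degOne K L q Q hq hq0 hQ hQq).2 habs
    obtain ⟨β, JL, i, hβ0, hJL, hβ⟩ := hclL Q hQ0
    have hβL : (β : L) ≠ 0 := by simpa using hβ0
    have hnormK : ((Algebra.intNorm (𝓞 K) (𝓞 L) β : 𝓞 K) : K) = Algebra.norm K (β : L) :=
      Algebra.algebraMap_intNorm (A := 𝓞 K) (K := K) (L := L) (B := 𝓞 L) β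
    have hnorm0 : Algebra.norm K (β : L) ≠ 0 := by
      rw [Ne, Algebra.norm_eq_zero_iff]
      exact hβL
    have hN' : Algebra.intNorm (𝓞 K) (𝓞 L) (N : 𝓞 L) = (N : 𝓞 K) ^ Module.finrank K L := by
      apply RingOfIntegers.ext
      have h2 : ((Algebra.intNorm (𝓞 K) (𝓞 L) (N : 𝓞 L) : 𝓞 K) : K) =
          Algebra.norm K (((N : 𝓞 L) : 𝓞 L) : L) :=
        Algebra.algebraMap_intNorm (A := 𝓞 K) (K := K) (L := L) (B := 𝓞 L) (N : 𝓞 L)
      rw [h2]
      have h3 : (((N : 𝓞 L) : 𝓞 L) : L) = algebraMap K L (N : K) := by simp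
      rw [h3, Algebra.norm_algebraMap]
      simp
    have hrep : Rep N q (Units.mk0 (Algebra.norm K (β : L)) hnorm0) := by
      refine ⟨Algebra.intNorm (𝓞 K) (𝓞 L) β, Ideal.relNorm (𝓞 K) JL, Module.finrank K L * i,
        ?_, ?_, ?_⟩
      · have h2 := map_dvd (Ideal.relNorm (𝓞 K)) hJL
        rw [map_pow, Ideal.relNorm_singleton, hN', ← Ideal.span_singleton_pow, ← pow_mul] at h2
        exact h2
      · rw [← Ideal.relNorm_singleton, hβ, map_mul, hrel]
      · rw [Units.val_mk0, hnormK]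
    rw [phi_eq hclK hUW hq0 hrep, QuotientGroup.eq_one_iff]
    apply hNW
    refine ⟨Units.mk0 (β : L) hβL, ?_⟩
    apply Units.ext
    rfl
  have := uRay zetaRayDiff K L m hm0 (Kˣ ⧸ W) (phi hclK W) hclass ∅ hkill
  rwa [← Subgroup.index_eq_card] at this

end Fermat.Agent.CFT.HP
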